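/-
DS-T, cell [GR] (good reduction / S18-twin), file [GR-2a]: THE OBJECTS, Legendre cover.

Generic twin of `JT3/Inst/{Defs, Statements, Tower}.lean`: the level-`N` field `lg_F L N` of
`X₀(N)` is replaced by an ARBITRARY subfield `F ⊆ L((q))` (a variable), and by the functorial
family `gr_F G L = L(G)` generated by a set `G ⊆ ℤ((q))` of integral `q`-series.

* `gr_F G L`        : `L(coeffMap (ℤ → L) '' G) ⊆ L((q))`, for EVERY field `L`;
* `gr_HasJ F`       : the class `j ∈ F`;
* `gr_F2 F`         : the twist `φ(F)`, `φ = (q ↦ q²)`;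
* `gr_E F`          : the rigidified field `E = φ(F)(λ)`;
* `gr_Key0 O F p`, `gr_KeyE A π F p` : the statements of KEY with conclusion in `E`;
* `gr_lamE F`, `gr_chart O F s`, `gr_B1 / gr_B2 / gr_B12` : the charts;
* `grh_*`           : the tower `L(j') ⊆ φ(F), L(λ) ⊆ E` as types (algebra instances).
The `N`-free objects of JT3 (`lg_phi`, `lg_lam`, `lg_j2`, `lg_K`, `lgh_Kj`, `lgh_j`, `lgh_lamK`, …)
are REUSED.  At `F := lg_F L N` everything is the JT3 object by `rfl`.
Naming rule of the port: `lg_X ↦ gr_X`, `lgh_X ↦ grh_X`.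
-/
import Mathlib
import Fermat.Agent.JT3.Inst.Statements
import Fermat.Agent.JT3.Inst.Tower

set_option autoImplicit false
set_option linter.style.haveILetI false

noncomputable section

open ModularCurve IntermediateField AlgebraicCurve

namespace Fermat.Agent.DS

open Fermat.Agent.JT3

/-! ### the functorial family `L ↦ L(G)` -/

section Family

/-- the field generated over `L` by the images of the integral `q`-series of `G`. -/
def gr_F (G : Set (LaurentSeries ℤ)) (L : Type*) [Field L] :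
    IntermediateField L (LaurentSeries L) :=
  IntermediateField.adjoin L ((coeffMap (Int.castRingHom L)) '' G)

variable (G : Set (LaurentSeries ℤ))

theorem gr_gen_mem (L : Type*) [Field L] {g : LaurentSeries ℤ} (hg : g ∈ G) :
    coeffMap (Int.castRingHom L) g ∈ gr_F G L :=
  IntermediateField.subset_adjoin L _ ⟨g, hg, rfl⟩

theorem gr_F_mono {G G' : Set (LaurentSeries ℤ)} (h : G ⊆ G') (L : Type*) [Field L] :
    gr_F G L ≤ gr_F G' L :=
  IntermediateField.adjoin.mono L _ _ (Set.image_mono h)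

theorem gr_coeffMap_intCast {R S : Type*} [CommRing R] [CommRing S] (f : R →+* S)
    (g : LaurentSeries ℤ) :
    coeffMap f (coeffMap (Int.castRingHom R) g) = coeffMap (Int.castRingHom S) g := by
  rw [coeffMap_coeffMap]
  exact coeffMap_congr (RingHom.ext fun n => by simp) g

/-- functoriality in the coefficient field. -/
theorem gr_coeffMap_mem {L L' : Type*} [Field L] [Field L'] (f : L →+* L')
    {x : LaurentSeries L} (hx : x ∈ gr_F G L) : coeffMap f x ∈ gr_F G L' := by
  rw [gr_F] at hx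
  induction hx using IntermediateField.adjoin_induction with
  | mem y hy =>
    obtain ⟨g, hg, rfl⟩ := hy
    rw [gr_coeffMap_intCast]
    exact gr_gen_mem G L' hg
  | algebraMap r =>
    rw [algebraMap_laurentSeries_eq_single, coeffMap_single, ← algebraMap_laurentSeries_eq_single]
    exact (gr_F G L').algebraMap_mem _
  | add x y _ _ hx hy => rw [map_add]; exact add_mem hx hy
  | inv x _ hx => rw [map_inv₀]; exact inv_mem hx
  | mul x y _ _ hx hy => rw [map_mul]; exact mul_mem hx hy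

/-- in characteristic zero the family is the base change of its rational member. -/
theorem gr_F_eq_laurentBaseChange (L : Type*) [Field L] [Algebra ℚ L] :
    gr_F G L = laurentBaseChange L (gr_F G ℚ) := by
  apply le_antisymm
  · rw [gr_F, IntermediateField.adjoin_le_iff]
    rintro _ ⟨g, hg, rfl⟩
    have h : coeffMap (Int.castRingHom L) g
        = coeffEmb L (coeffMap (Int.castRingHom ℚ) g) := by
      rw [coeffEmb, gr_coeffMap_intCast]
    rw [h]
    exact coeffEmb_mem_laurentBaseChange L (gr_gen_mem G ℚ hg)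
  · rw [laurentBaseChange, IntermediateField.adjoin_le_iff]
    rintro _ ⟨x, hx, rfl⟩
    exact gr_coeffMap_mem G (algebraMap ℚ L) hx

end Family

/-! ### the class `j ∈ F` and the rigidified field -/

section Defs

variable {L : Type*} [Field L] (F : IntermediateField L (LaurentSeries L))

/-- the modular invariant `j` lies in `F`. -/
class gr_HasJ : Prop where
  mem : jqModC L ∈ F

theorem gr_j_mem [h : gr_HasJ F] : jqModC L ∈ F := h.mem

/-- The twisted field `φ(F)`, `φ = (q ↦ q²)`. -/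
def gr_F2 : IntermediateField L (LaurentSeries L) := F.map (lg_phi L)

/-- The rigidified field `E = φ(F)(λ)`. -/
def gr_E : IntermediateField L (LaurentSeries L) := gr_F2 F ⊔ lg_K L

theorem gr_K_le_E : lg_K L ≤ gr_E F := le_sup_right

theorem gr_F2_le_E : gr_F2 F ≤ gr_E F := le_sup_left

theorem gr_lam_mem_E : lg_lam L ∈ gr_E F := gr_K_le_E F (lg_lam_mem_K L)

theorem gr_phi_mem_F2 {x : LaurentSeries L} (hx : x ∈ F) : lg_phi L x ∈ gr_F2 F :=
  ⟨x, hx, rfl⟩

theorem gr_phi_mem_E {x : LaurentSeries L} (hx : x ∈ F) : lg_phi L x ∈ gr_E F :=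
  gr_F2_le_E F (gr_phi_mem_F2 F hx)

theorem gr_j2_mem_F2 [gr_HasJ F] : lg_j2 L ∈ gr_F2 F :=
  ⟨jqModC L, gr_j_mem F, rfl⟩

theorem gr_j2_mem_E [gr_HasJ F] : lg_j2 L ∈ gr_E F := gr_F2_le_E F (gr_j2_mem_F2 F)

theorem gr_F2_mono {F F' : IntermediateField L (LaurentSeries L)} (h : F ≤ F') :
    gr_F2 F ≤ gr_F2 F' := IntermediateField.map_mono _ h

theorem gr_E_mono {F F' : IntermediateField L (LaurentSeries L)} (h : F ≤ F') :
    gr_E F ≤ gr_E F' := sup_le_sup_right (gr_F2_mono h) _

/-- sanity: at the level-`N` field of `X₀(N)` these are the JT3 objects. -/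
theorem gr_F2_lg (N : ℕ) [NeZero N] : gr_F2 (lg_F L N) = lg_F2 L N := rfl

theorem gr_E_lg (N : ℕ) [NeZero N] : gr_E (lg_F L N) = lg_E L N := rfl

instance gr_hasJ_lg (N : ℕ) [NeZero N] : gr_HasJ (lg_F L N) := ⟨jqModC_mem_full L N⟩

end Defs

/-! ### the statements of KEY with conclusion in `E` -/

section KeyStatements

/-- **KEY over a coefficient field `L` with a valuation ring `O`**, with conclusion in the
rigidified field `E = φ(F)(λ)` (generic twin of `lg_Key0`). -/
def gr_Key0 {L : Type*} [Field L] (O : ValuationSubring L)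
    (F : IntermediateField L (LaurentSeries L)) (p : ℕ) : Prop :=
  ∀ (y1 y2 : LaurentSeries O)
    (h1 : coeffMap O.subtype y1 ∈ F) (h2 : coeffMap O.subtype y2 ∈ F),
    coeffMap (IsLocalRing.residue O) y1 = coeffMap (IsLocalRing.residue O) y2 →
    coeffMap (IsLocalRing.residue O) y2 ≠ 0 →
    ∀ f : F,
      f * (⟨coeffMap O.subtype y2, h2⟩ : F) = (⟨coeffMap O.subtype y1, h1⟩ : F) →
      (∀ P : Place L F, (p : ℤ) ∣ P.ord f) →
      ∃ (c : L) (g : LaurentSeries L), g ∈ gr_E F ∧
        lg_phi L (f : LaurentSeries L) = algebraMap L (LaurentSeries L) c * g ^ p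

/-- **KEY_E**: the statement of `gr_Key A π F p` with conclusion in `E = φ(F)(λ)` (generic twin
of `lg_KeyE`). -/
def gr_KeyE {L : Type*} [Field L] (A : ValuationSubring L) {k : Type*} [Field k] (π : A →+* k)
    (F : IntermediateField L (LaurentSeries L)) (p : ℕ) : Prop :=
  ∀ (y1 y2 : LaurentSeries A) (h1 : coeffMap A.subtype y1 ∈ F) (h2 : coeffMap A.subtype y2 ∈ F),
    coeffMap π y1 = coeffMap π y2 → coeffMap π y2 ≠ 0 →
    ∀ f : F, f * (⟨coeffMap A.subtype y2, h2⟩ : F) = (⟨coeffMap A.subtype y1, h1⟩ : F) →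
      (∀ P : Place L F, (p : ℤ) ∣ P.ord f) →
      ∃ (c : L) (g : LaurentSeries L), g ∈ gr_E F ∧
        lg_phi L (f : LaurentSeries L) = algebraMap L (LaurentSeries L) c * g ^ p

theorem gr_Key0_lg {L : Type*} [Field L] (O : ValuationSubring L) (N : ℕ) [NeZero N] (p : ℕ) :
    gr_Key0 O (lg_F L N) p ↔ lg_Key0 L O N p := Iff.rfl

end KeyStatements

/-! ### the charts -/

section Charts

variable {L : Type*} [Field L] (O : ValuationSubring L) (F : IntermediateField L (LaurentSeries L))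

/-- `λ` as an element of `E`. -/
def gr_lamE : gr_E F := ⟨lg_lam L, gr_lam_mem_E F⟩

@[simp] theorem gr_coe_lamE : ((gr_lamE F : gr_E F) : LaurentSeries L) = lg_lam L := rfl

/-- The normalisation in `E` of the `O`-subalgebra generated by a set `s ⊆ E`, as a subalgebra
over `O`. -/
def gr_chart (s : Set (gr_E F)) : Subalgebra O (gr_E F) :=
  (integralClosure (Algebra.adjoin O s) (gr_E F)).restrictScalars O

theorem gr_mem_chart {s : Set (gr_E F)} {z : gr_E F} :
    z ∈ gr_chart O F s ↔ IsIntegral (Algebra.adjoin O s) z := Iff.rfl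

/-- The chart `B₁` (`λ ≠ ∞`): normalisation of `O[λ]`. -/
def gr_B1 : Subalgebra O (gr_E F) := gr_chart O F {gr_lamE F}

/-- The chart `B₂` (`λ ≠ 0`): normalisation of `O[1/λ]`. -/
def gr_B2 : Subalgebra O (gr_E F) := gr_chart O F {(gr_lamE F)⁻¹}

/-- The chart `B₁₂` (`λ ≠ 0, ∞`): normalisation of `O[λ, 1/λ]`. -/
def gr_B12 : Subalgebra O (gr_E F) := gr_chart O F {gr_lamE F, (gr_lamE F)⁻¹}

theorem gr_chart_mono {s t : Set (gr_E F)} (h : s ⊆ t) : gr_chart O F s ≤ gr_chart O F t := by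
  intro z hz
  rw [gr_mem_chart] at hz ⊢
  have hle : Algebra.adjoin O s ≤ Algebra.adjoin O t := Algebra.adjoin_mono h
  obtain ⟨p, hp, hpz⟩ := hz
  refine ⟨p.map (Subalgebra.inclusion hle).toRingHom, hp.map _, ?_⟩
  rw [Polynomial.eval₂_map]
  exact hpz

theorem gr_B1_le_B12 : gr_B1 O F ≤ gr_B12 O F :=
  gr_chart_mono O F (by intro x hx; rw [Set.mem_singleton_iff] at hx; subst hx; simp)

theorem gr_B2_le_B12 : gr_B2 O F ≤ gr_B12 O F :=
  gr_chart_mono O F (by intro x hx; rw [Set.mem_singleton_iff] at hx; subst hx; simp)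

end Charts

/-! ### the tower `L(j') ⊆ φ(F), L(λ) ⊆ E` as types -/

section TowerDefs

variable {L : Type*} [Field L] (F : IntermediateField L (LaurentSeries L))

theorem grh_Kj_le_F2 [gr_HasJ F] : lgh_Kj L ≤ gr_F2 F := by
  rw [lgh_Kj, IntermediateField.adjoin_simple_le_iff]
  exact gr_j2_mem_F2 F

end TowerDefs

section Tower

variable {L : Type*} [Field L] [CharZero L] (F : IntermediateField L (LaurentSeries L))

theorem grh_Kj_le_E : lgh_Kj L ≤ gr_E F := (lgh_Kj_le_K L).trans (gr_K_le_E F)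

/-- `L(j') → φ(F)`. -/
@[reducible] def grh_algKjF2 [gr_HasJ F] : Algebra (lgh_Kj L) (gr_F2 F) :=
  lgh_algOfLe (grh_Kj_le_F2 F)

/-- `L(j') → E`. -/
@[reducible] def grh_algKjE : Algebra (lgh_Kj L) (gr_E F) := lgh_algOfLe (grh_Kj_le_E F)

/-- `φ(F) → E`. -/
@[reducible] def grh_algF2E : Algebra (gr_F2 F) (gr_E F) := lgh_algOfLe (gr_F2_le_E F)

/-- `L(λ) → E`. -/
@[reducible] def grh_algKE : Algebra (lg_K L) (gr_E F) := lgh_algOfLe (gr_K_le_E F)

attribute [local instance] lgh_algKjK grh_algKjF2 grh_algKjE grh_algF2E grh_algKE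

instance grh_tower_L_Kj_F2 [gr_HasJ F] : IsScalarTower L (lgh_Kj L) (gr_F2 F) :=
  lgh_isScalarTower_base (grh_Kj_le_F2 F)

instance grh_tower_L_Kj_E : IsScalarTower L (lgh_Kj L) (gr_E F) :=
  lgh_isScalarTower_base (grh_Kj_le_E F)

instance grh_tower_Kj_F2_E [gr_HasJ F] : IsScalarTower (lgh_Kj L) (gr_F2 F) (gr_E F) :=
  lgh_isScalarTower (grh_Kj_le_F2 F) (gr_F2_le_E F)

instance grh_tower_Kj_K_E : IsScalarTower (lgh_Kj L) (lg_K L) (gr_E F) :=
  lgh_isScalarTower (lgh_Kj_le_K L) (gr_K_le_E F)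

/-- `E = φ(F) · L(λ)` over `L(j')`. -/
theorem grh_hgen [gr_HasJ F] :
    IntermediateField.adjoin (lgh_Kj L)
      (Set.range (algebraMap (gr_F2 F) (gr_E F)) ∪ Set.range (algebraMap (lg_K L) (gr_E F)))
      = ⊤ :=
  lgh_adjoin_range_eq_top (grh_Kj_le_F2 F) (gr_F2_le_E F) (gr_K_le_E F) le_rfl

end Tower

end Fermat.Agent.DS

end
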