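/-
DS-T, cell [GR] (good reduction / S18-twin), file [GR-1]: the GENERIC SEAMS of S18.

Generic twin of `JT3/S18Glue.lean + S18Div.lean + S18Key.lean` for an ARBITRARY pair of
`q`-expansion fields `F ⊂ L((q))`, `Ft ⊂ k((q))`, `A : ValuationSubring L`, `π : A →+* k`,
on top of helper1's generic reduction definitions `DS/Hecke/RedDefs.lean` (`dsr_`).

* `gr_HasDiv K E`       : every nonzero function has a divisor;
* `gr_ConstOrd K E`     : a nonzero function without zeros and poles is constant;
* `gr_Lifts A π F Ft`   : every nonzero `ḡ ∈ Ft` is a quotient of reductions of `q`-integral functions;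
* `gr_FCore A π F Ft m` : node F-core (no place map);
* `gr_Key A π F p`      : node KEY (no place map, no divisors, no reduced field);
* `gr_S18_of_FCore`, `gr_FCore_of_Key`, **`gr_S18_of_Key`** : the conclusion of S18 for
  `dsr_reduction A π F Ft`;
* **`gr_unram_of_Key`**   : a semilinear automorphism acting trivially on reductions fixes the
  `p`-torsion of `Pic⁰(F)` (unramifiedness of `J[p]` from KEY alone).
Prefix `gr_`.
-/
import Mathlib
import Fermat.Agent.DS.Hecke.RedDefs
import Fermat.Agent.JT3.S18Key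
import Fermat.Agent.JT3.Riemann.Approx

set_option autoImplicit false

noncomputable section

namespace Fermat.Agent.DS

open ModularCurve AlgebraicCurve HahnSeries Fermat.Agent.S24 Fermat.Agent.JT3

/-! ### the seams -/

section Seams

/-- every nonzero function has a divisor. -/
def gr_HasDiv (K E : Type*) [Field K] [Field E] [Algebra K E] : Prop :=
  ∀ f : E, f ≠ 0 → ∃ D : Divisor K E, ∀ P : Place K E, D P = P.ord f

/-- a nonzero function without zeros and poles is constant. -/
def gr_ConstOrd (K E : Type*) [Field K] [Field E] [Algebra K E] : Prop :=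
  ∀ g : E, g ≠ 0 → (∀ Q : Place K E, Q.ord g = 0) → ∃ c : K, g = algebraMap K E c

variable {L : Type*} [Field L] (A : ValuationSubring L)
variable {k : Type*} [Field k] (π : A →+* k)
variable (F : IntermediateField L (LaurentSeries L)) (Ft : IntermediateField k (LaurentSeries k))

/-- every nonzero element of the reduced field is a quotient of reductions of `q`-integral
functions. -/
def gr_Lifts : Prop :=
  ∀ g : Ft, g ≠ 0 → ∃ ya yb : dsr_IntFun A π F Ft, dsr_red ya = g * dsr_red yb

/-- **Node F-core** (no place map): `f = ∏ y ^ c y`, `div f = m • D`, `div f̄ = 0` ⟹ `D`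
principal. -/
def gr_FCore (m : ℕ) : Prop :=
  ∀ (c : dsr_IntFun A π F Ft →₀ ℤ) (D : Divisor L F),
    (∀ P : Place L F, (m : ℤ) * D P = c.sum fun y e => e * P.ord (dsr_gen y)) →
    (∀ Q : Place k Ft, (c.sum fun y e => e * Q.ord (dsr_red y)) = 0) →
    D ∈ Divisor.principal (K := L) (F := F)

/-- **Node KEY** for the exponent `p` (no place map, no divisors, no reduced field). -/
def gr_Key (p : ℕ) : Prop :=
  ∀ (y1 y2 : LaurentSeries A) (h1 : coeffMap A.subtype y1 ∈ F) (h2 : coeffMap A.subtype y2 ∈ F),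
    coeffMap π y1 = coeffMap π y2 → coeffMap π y2 ≠ 0 →
    ∀ f : F, f * (⟨coeffMap A.subtype y2, h2⟩ : F) = (⟨coeffMap A.subtype y1, h1⟩ : F) →
      (∀ P : Place L F, (p : ℤ) ∣ P.ord f) →
      ∃ (c : L) (g : F), f = algebraMap L F c * g ^ p

end Seams

/-! ### the monoid structure of `dsr_IntFun` -/

section Monoid

variable {L : Type*} [Field L] {A : ValuationSubring L}
variable {k : Type*} [Field k] {π : A →+* k}
variable {F : IntermediateField L (LaurentSeries L)} {Ft : IntermediateField k (LaurentSeries k)}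

/-- the constructor of `dsr_IntFun` -/
def gr_mk (y : LaurentSeries A) (hy : coeffMap A.subtype y ∈ F) (hyk : coeffMap π y ∈ Ft)
    (hne : coeffMap π y ≠ 0) : dsr_IntFun A π F Ft :=
  ⟨y, hy, hyk, hne⟩

theorem gr_gen_mk (y : LaurentSeries A) (hy : coeffMap A.subtype y ∈ F) (hyk : coeffMap π y ∈ Ft)
    (hne : coeffMap π y ≠ 0) :
    dsr_gen (gr_mk y hy hyk hne : dsr_IntFun A π F Ft) = ⟨coeffMap A.subtype y, hy⟩ :=
  rfl

theorem gr_red_mk (y : LaurentSeries A) (hy : coeffMap A.subtype y ∈ F) (hyk : coeffMap π y ∈ Ft)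
    (hne : coeffMap π y ≠ 0) :
    dsr_red (gr_mk y hy hyk hne : dsr_IntFun A π F Ft) = ⟨coeffMap π y, hyk⟩ :=
  rfl

def gr_one : dsr_IntFun A π F Ft :=
  ⟨1, by rw [map_one]; exact one_mem _, by rw [map_one]; exact one_mem _,
    by rw [map_one]; exact one_ne_zero⟩

def gr_mul (a b : dsr_IntFun A π F Ft) : dsr_IntFun A π F Ft :=
  ⟨a.1 * b.1, by rw [map_mul]; exact mul_mem a.2.1 b.2.1,
    by rw [map_mul]; exact mul_mem a.2.2.1 b.2.2.1,
    by rw [map_mul]; exact mul_ne_zero a.2.2.2 b.2.2.2⟩

def gr_pow (a : dsr_IntFun A π F Ft) (n : ℕ) : dsr_IntFun A π F Ft :=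
  ⟨a.1 ^ n, by rw [map_pow]; exact pow_mem a.2.1 n,
    by rw [map_pow]; exact pow_mem a.2.2.1 n,
    by rw [map_pow]; exact pow_ne_zero n a.2.2.2⟩

/-- constants: elements of `A` with nonzero image in `k`. -/
def gr_const (a : A) (ha : π a ≠ 0) : dsr_IntFun A π F Ft :=
  ⟨HahnSeries.single (0 : ℤ) a, by
      rw [jt_coeffMap_single_zero, ← algebraMap_laurentSeries_eq_single]
      exact IntermediateField.algebraMap_mem _ _, by
      rw [jt_coeffMap_single_zero, ← algebraMap_laurentSeries_eq_single]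
      exact IntermediateField.algebraMap_mem _ _, by
      rw [jt_coeffMap_single_zero]
      intro h
      exact ha (by simpa using congrArg (fun s => HahnSeries.coeff s 0) h)⟩

@[simp] theorem gr_gen_one : dsr_gen (gr_one : dsr_IntFun A π F Ft) = 1 :=
  Subtype.ext (by show coeffMap A.subtype 1 = 1; rw [map_one])

@[simp] theorem gr_red_one : dsr_red (gr_one : dsr_IntFun A π F Ft) = 1 :=
  Subtype.ext (by show coeffMap π 1 = 1; rw [map_one])

@[simp] theorem gr_gen_mul (a b : dsr_IntFun A π F Ft) :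
    dsr_gen (gr_mul a b) = dsr_gen a * dsr_gen b :=
  Subtype.ext (by show coeffMap A.subtype (a.1 * b.1) = _; rw [map_mul]; rfl)

@[simp] theorem gr_red_mul (a b : dsr_IntFun A π F Ft) :
    dsr_red (gr_mul a b) = dsr_red a * dsr_red b :=
  Subtype.ext (by show coeffMap π (a.1 * b.1) = _; rw [map_mul]; rfl)

@[simp] theorem gr_gen_pow (a : dsr_IntFun A π F Ft) (n : ℕ) :
    dsr_gen (gr_pow a n) = dsr_gen a ^ n :=
  Subtype.ext (by show coeffMap A.subtype (a.1 ^ n) = _; rw [map_pow]; rfl)

@[simp] theorem gr_red_pow (a : dsr_IntFun A π F Ft) (n : ℕ) :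
    dsr_red (gr_pow a n) = dsr_red a ^ n :=
  Subtype.ext (by show coeffMap π (a.1 ^ n) = _; rw [map_pow]; rfl)

theorem gr_gen_const (a : A) (ha : π a ≠ 0) :
    dsr_gen (gr_const (F := F) (Ft := Ft) a ha) = algebraMap L F (a : L) :=
  Subtype.ext (by
    show coeffMap A.subtype (HahnSeries.single (0 : ℤ) a) = _
    rw [jt_coeffMap_single_zero]
    exact (algebraMap_laurentSeries_eq_single _ _).symm)

theorem gr_red_const (a : A) (ha : π a ≠ 0) :
    dsr_red (gr_const (F := F) (Ft := Ft) a ha) = algebraMap k Ft (π a) :=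
  Subtype.ext (by
    show coeffMap π (HahnSeries.single (0 : ℤ) a) = _
    rw [jt_coeffMap_single_zero]
    exact (algebraMap_laurentSeries_eq_single _ _).symm)

/-! ### linear combinations of integral principal divisors -/

/-- a divisor in the closure of the integral principal divisors is the divisor of a finite product
of `q`-integral functions. -/
theorem gr_exists_comb₀ {D : Divisor L F}
    (hD : D ∈ AddSubgroup.closure (dsr_integralPrincipalDivisors A π F Ft)) :
    ∃ c : dsr_IntFun A π F Ft →₀ ℤ, ∀ P, D P = c.sum fun y e => e * P.ord (dsr_gen y) := by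
  classical
  induction hD using AddSubgroup.closure_induction with
  | mem E hE =>
    obtain ⟨y, hy, hyk, hne, hEy⟩ := hE
    refine ⟨Finsupp.single (gr_mk y hy hyk hne) 1, fun P => ?_⟩
    rw [Finsupp.sum_single_index (by simp), one_mul, gr_gen_mk]
    exact hEy P
  | zero => exact ⟨0, fun P => by simp⟩
  | add E E' _ _ hE hE' =>
    obtain ⟨c, hc1⟩ := hE
    obtain ⟨c', hc1'⟩ := hE'
    refine ⟨c + c', fun P => ?_⟩
    rw [Finsupp.sum_add_index' (fun _ => by simp) (fun _ _ _ => by ring), Finsupp.add_apply,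
      hc1, hc1']
  | neg E _ hE =>
    obtain ⟨c, hc1⟩ := hE
    refine ⟨-c, fun P => ?_⟩
    rw [Finsupp.sum_neg_index (fun _ => by simp), Finsupp.neg_apply, hc1]
    simp only [Finsupp.sum, neg_mul, Finset.sum_neg_distrib]

/-- a divisor in the closure of the integral principal divisors is the divisor of a finite product
of `q`-integral functions, and its reduction is the divisor of the product of the reductions. -/
theorem gr_exists_comb {r : Place L F → Place k Ft} (hr : dsr_IsPlaceReduction A π F Ft r)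
    {D : Divisor L F} (hD : D ∈ AddSubgroup.closure (dsr_integralPrincipalDivisors A π F Ft)) :
    ∃ c : dsr_IntFun A π F Ft →₀ ℤ,
      (∀ P, D P = c.sum fun y e => e * P.ord (dsr_gen y)) ∧
      (∀ Q, Finsupp.mapDomain r D Q = c.sum fun y e => e * Q.ord (dsr_red y)) := by
  classical
  induction hD using AddSubgroup.closure_induction with
  | mem E hE =>
    obtain ⟨y, hy, hyk, hne, hEy⟩ := hE
    refine ⟨Finsupp.single (gr_mk y hy hyk hne) 1, fun P => ?_, fun Q => ?_⟩
    · rw [Finsupp.sum_single_index (by simp), one_mul, gr_gen_mk]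
      exact hEy P
    · rw [Finsupp.sum_single_index (by simp), one_mul, gr_red_mk]
      exact hr.2 y hy hyk hne E hEy Q
  | zero =>
    exact ⟨0, fun P => by simp, fun Q => by simp⟩
  | add E E' _ _ hE hE' =>
    obtain ⟨c, hc1, hc2⟩ := hE
    obtain ⟨c', hc1', hc2'⟩ := hE'
    refine ⟨c + c', fun P => ?_, fun Q => ?_⟩
    · rw [Finsupp.sum_add_index' (fun _ => by simp) (fun _ _ _ => by ring), Finsupp.add_apply,
        hc1, hc1']
    · rw [Finsupp.sum_add_index' (fun _ => by simp) (fun _ _ _ => by ring),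
        Finsupp.mapDomain_add, Finsupp.add_apply, hc2, hc2']
  | neg E _ hE =>
    obtain ⟨c, hc1, hc2⟩ := hE
    refine ⟨-c, fun P => ?_, fun Q => ?_⟩
    · rw [Finsupp.sum_neg_index (fun _ => by simp), Finsupp.neg_apply, hc1]
      simp only [Finsupp.sum, neg_mul, Finset.sum_neg_distrib]
    · have hneg : Finsupp.mapDomain r (-E) = -Finsupp.mapDomain r E := by
        rw [← Finsupp.mapDomain.addMonoidHom_apply, map_neg, Finsupp.mapDomain.addMonoidHom_apply]
      rw [Finsupp.sum_neg_index (fun _ => by simp), hneg, Finsupp.neg_apply, hc2]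
      simp only [Finsupp.sum, neg_mul, Finset.sum_neg_distrib]

/-! ### a finite product of integral functions is a quotient of two of them -/

theorem gr_exists_quot (c : dsr_IntFun A π F Ft →₀ ℤ) :
    ∃ y1 y2 : dsr_IntFun A π F Ft,
      (∀ P : Place L F,
        (c.sum fun y e => e * P.ord (dsr_gen y)) = P.ord (dsr_gen y1) - P.ord (dsr_gen y2)) ∧
      (∀ Q : Place k Ft,
        (c.sum fun y e => e * Q.ord (dsr_red y)) = Q.ord (dsr_red y1) - Q.ord (dsr_red y2)) := by
  classical
  induction c using Finsupp.induction with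
  | zero =>
    refine ⟨gr_one, gr_one, fun P => ?_, fun Q => ?_⟩ <;> simp
  | single_add a b c _ _ ih =>
    obtain ⟨y1, y2, h1, h2⟩ := ih
    have hs : ∀ φ : dsr_IntFun A π F Ft → ℤ,
        ((Finsupp.single a b + c).sum fun y e => e * φ y) = b * φ a + c.sum fun y e => e * φ y := by
      intro φ
      rw [Finsupp.sum_add_index' (fun _ => by simp) (fun _ _ _ => by ring),
        Finsupp.sum_single_index (by simp)]
    rcases le_total 0 b with hb | hb
    · refine ⟨gr_mul (gr_pow a b.toNat) y1, y2, fun P => ?_, fun Q => ?_⟩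
      · rw [hs, h1, gr_gen_mul, gr_gen_pow,
          Place.ord_mul P (pow_ne_zero _ (dsr_gen_ne_zero a)) (dsr_gen_ne_zero y1), jt_ord_pow,
          Int.toNat_of_nonneg hb]
        ring
      · rw [hs, h2, gr_red_mul, gr_red_pow,
          Place.ord_mul Q (pow_ne_zero _ (dsr_red_ne_zero a)) (dsr_red_ne_zero y1), jt_ord_pow,
          Int.toNat_of_nonneg hb]
        ring
    · have hb' : ((-b).toNat : ℤ) = -b := Int.toNat_of_nonneg (by omega)
      refine ⟨y1, gr_mul (gr_pow a (-b).toNat) y2, fun P => ?_, fun Q => ?_⟩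
      · rw [hs, h1, gr_gen_mul, gr_gen_pow,
          Place.ord_mul P (pow_ne_zero _ (dsr_gen_ne_zero a)) (dsr_gen_ne_zero y2), jt_ord_pow, hb']
        ring
      · rw [hs, h2, gr_red_mul, gr_red_pow,
          Place.ord_mul Q (pow_ne_zero _ (dsr_red_ne_zero a)) (dsr_red_ne_zero y2), jt_ord_pow, hb']
        ring

end Monoid

/-! ### the glue -/

section Glue

variable {L : Type*} [Field L] {A : ValuationSubring L}
variable {k : Type*} [Field k] {π : A →+* k}
variable {F : IntermediateField L (LaurentSeries L)} {Ft : IntermediateField k (LaurentSeries k)}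

/-- **S18 from F-core** (generic pair of fields). -/
theorem gr_S18_of_FCore (h : dsr_ReductionInputs A π F Ft) (m : ℕ)
    (hdiv : gr_HasDiv L F) (hlift : gr_Lifts A π F Ft) (hF : gr_FCore A π F Ft m) (z : Pic0 L F)
    (hmz : m • z = 0) (hz : dsr_reduction A π F Ft z = 0) : z = 0 := by
  classical
  obtain ⟨D0, rfl⟩ := Pic0.mk_surjective z
  set r := dsr_placeReduction h with hrdef
  have hr : dsr_IsPlaceReduction A π F Ft r := dsr_isPlaceReduction h
  have hgen : dsr_PrincipalGeneratedByIntegral A π F Ft := dsr_principalGenerated h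
  -- the reduction of `D0` is principal
  have hz' : Finsupp.mapDomain r (D0 : Divisor L F) ∈ Divisor.principal (K := k) (F := Ft) := by
    rw [dsr_reduction_mk h] at hz
    have := (QuotientAddGroup.eq_zero_iff _).mp hz
    rw [AddSubgroup.mem_addSubgroupOf, dsr_coe_reductionDegZero] at this
    exact this
  obtain ⟨gbar, hgbar0, hgbar⟩ := hz'
  -- `m • D0` is principal
  have hm' : ((m • D0 : Divisor.degZero (K := L) (F := F)) : Divisor L F) ∈
      Divisor.principal (K := L) (F := F) := by
    have h1 : Pic0.mk (m • D0) = (0 : Pic0 L F) := by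
      rw [← hmz]; rfl
    have := (QuotientAddGroup.eq_zero_iff _).mp h1
    rwa [AddSubgroup.mem_addSubgroupOf] at this
  rw [AddSubgroupClass.coe_nsmul] at hm'
  obtain ⟨c, hc1, hc2⟩ := gr_exists_comb hr (hgen hm')
  -- lift `gbar`
  obtain ⟨ya, yb, hab⟩ := hlift gbar hgbar0
  obtain ⟨Ea, hEa⟩ := hdiv (dsr_gen ya) (dsr_gen_ne_zero ya)
  obtain ⟨Eb, hEb⟩ := hdiv (dsr_gen yb) (dsr_gen_ne_zero yb)
  have hord : ∀ Q : Place k Ft, Q.ord (dsr_red ya) = Q.ord gbar + Q.ord (dsr_red yb) := fun Q => by
    rw [hab, Place.ord_mul Q hgbar0 (dsr_red_ne_zero yb)]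
  -- the shifted divisor
  set D1 : Divisor L F := (D0 : Divisor L F) - Ea + Eb with hD1
  set c1 : dsr_IntFun A π F Ft →₀ ℤ := c - Finsupp.single ya (m : ℤ) + Finsupp.single yb (m : ℤ)
    with hc1def
  have hsum : ∀ (φ : dsr_IntFun A π F Ft → ℤ),
      (c1.sum fun y e => e * φ y) = (c.sum fun y e => e * φ y) - m * φ ya + m * φ yb := by
    intro φ
    rw [hc1def, Finsupp.sum_add_index' (fun _ => by simp) (fun _ _ _ => by ring),
      Finsupp.sum_sub_index (fun _ _ _ => by ring),
      Finsupp.sum_single_index (by simp), Finsupp.sum_single_index (by simp)]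
  have hD1prin : D1 ∈ Divisor.principal (K := L) (F := F) := by
    refine hF c1 D1 (fun P => ?_) (fun Q => ?_)
    · rw [hsum (fun y => P.ord (dsr_gen y)), ← hc1 P, hD1, Finsupp.add_apply, Finsupp.sub_apply,
        Finsupp.smul_apply, hEa P, hEb P, nsmul_eq_mul]
      ring
    · rw [hsum (fun y => Q.ord (dsr_red y)), ← hc2 Q, hord Q]
      have h3 : Finsupp.mapDomain r (m • (D0 : Divisor L F)) Q = m * Q.ord gbar := by
        rw [Finsupp.mapDomain_smul, Finsupp.smul_apply, hgbar Q, nsmul_eq_mul]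
      rw [h3]
      ring
  -- conclude
  have hEaP : Ea ∈ Divisor.principal (K := L) (F := F) :=
    ⟨dsr_gen ya, dsr_gen_ne_zero ya, hEa⟩
  have hEbP : Eb ∈ Divisor.principal (K := L) (F := F) :=
    ⟨dsr_gen yb, dsr_gen_ne_zero yb, hEb⟩
  have hD0 : (D0 : Divisor L F) ∈ Divisor.principal (K := L) (F := F) := by
    have : (D0 : Divisor L F) = D1 + Ea - Eb := by
      rw [hD1]; abel
    rw [this]
    exact AddSubgroup.sub_mem _ (AddSubgroup.add_mem _ hD1prin hEaP) hEbP
  exact (QuotientAddGroup.eq_zero_iff _).mpr (AddSubgroup.mem_addSubgroupOf.mpr hD0)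

/-- **F-core from KEY.** -/
theorem gr_FCore_of_Key (hπ : Function.Surjective π) {p : ℕ} (hp : p ≠ 0) (hK : gr_Key A π F p)
    (hC : gr_ConstOrd k Ft) : gr_FCore A π F Ft p := by
  intro c D hD hred
  obtain ⟨y1, y2, h1, h2⟩ := gr_exists_quot c
  -- the reduction of `y1 / y2` is a constant
  have hq0 : dsr_red y1 / dsr_red y2 ≠ 0 := div_ne_zero (dsr_red_ne_zero y1) (dsr_red_ne_zero y2)
  obtain ⟨cbar, hcbar⟩ := hC (dsr_red y1 / dsr_red y2) hq0 (fun Q => by
    rw [div_eq_mul_inv, Place.ord_mul Q (dsr_red_ne_zero y1) (inv_ne_zero (dsr_red_ne_zero y2)),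
      Place.ord_inv, ← sub_eq_add_neg, ← h2 Q, hred Q])
  have hcbar0 : cbar ≠ 0 := by
    rintro rfl
    rw [map_zero] at hcbar
    exact hq0 hcbar
  obtain ⟨a, rfl⟩ := hπ cbar
  -- absorb the constant into `y2`
  set y2' : dsr_IntFun A π F Ft := gr_mul (gr_const a hcbar0) y2 with hy2'
  have hredeq : dsr_red y1 = dsr_red y2' := by
    rw [hy2', gr_red_mul, gr_red_const, ← hcbar, div_mul_cancel₀ _ (dsr_red_ne_zero y2)]
  set f : F := dsr_gen y1 / dsr_gen y2' with hf
  have hf0 : f ≠ 0 := div_ne_zero (dsr_gen_ne_zero y1) (dsr_gen_ne_zero y2')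
  have hordf : ∀ P : Place L F, P.ord f = (p : ℤ) * D P := by
    intro P
    have ha0 : (algebraMap L F (a : L)) ≠ 0 := by
      have := dsr_gen_ne_zero (gr_const (F := F) (Ft := Ft) a hcbar0)
      rwa [gr_gen_const] at this
    rw [hf, div_eq_mul_inv, Place.ord_mul P (dsr_gen_ne_zero y1) (inv_ne_zero (dsr_gen_ne_zero y2')),
      Place.ord_inv, hy2', gr_gen_mul, gr_gen_const,
      Place.ord_mul P ha0 (dsr_gen_ne_zero y2), hw_ord_algebraMap, zero_add, ← sub_eq_add_neg,
      ← h1 P, hD P]
  obtain ⟨c0, g, hg⟩ := hK y1.1 y2'.1 y1.2.1 y2'.2.1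
    (congrArg Subtype.val hredeq) y2'.2.2.2 f
    (by rw [hf]; exact div_mul_cancel₀ _ (dsr_gen_ne_zero y2'))
    (fun P => ⟨D P, hordf P⟩)
  have hg0 : g ≠ 0 := by
    rintro rfl
    rw [zero_pow hp, mul_zero] at hg
    exact hf0 hg
  have hc0 : algebraMap L F c0 ≠ 0 := by
    intro h
    rw [h, zero_mul] at hg
    exact hf0 hg
  refine ⟨g, hg0, fun P => ?_⟩
  have h3 := hordf P
  rw [hg, Place.ord_mul P hc0 (pow_ne_zero _ hg0), hw_ord_algebraMap, zero_add, jt_ord_pow] at h3
  have hp' : (p : ℤ) ≠ 0 := by exact_mod_cast hp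
  exact (mul_left_cancel₀ hp' h3).symm

/-- **S18 (generic pair of fields) from KEY at the prime divisors of `m`.** -/
theorem gr_S18_of_Key (hπ : Function.Surjective π) (h : dsr_ReductionInputs A π F Ft) (m : ℕ)
    (hm : m ≠ 0) (hdiv : gr_HasDiv L F) (hlift : gr_Lifts A π F Ft)
    (hK : ∀ p : ℕ, p.Prime → p ∣ m → gr_Key A π F p) (hC : gr_ConstOrd k Ft)
    (z : Pic0 L F) (hmz : m • z = 0) (hz : dsr_reduction A π F Ft z = 0) : z = 0 :=
  jt_torsion_induction (dsr_reduction A π F Ft) m hm
    (fun p hp hpm z hpz hz =>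
      gr_S18_of_FCore h p hdiv hlift (gr_FCore_of_Key hπ hp.ne_zero (hK p hp hpm) hC) z hpz hz)
    z hmz hz

end Glue

/-! ### unramifiedness from KEY alone -/

section Unram

variable {L : Type*} [Field L] {A : ValuationSubring L}
variable {k : Type*} [Field k] {π : A →+* k}
variable {F : IntermediateField L (LaurentSeries L)} {Ft : IntermediateField k (LaurentSeries k)}

/-- a semilinear automorphism `g` of `F` **acts trivially on reductions**: it preserves
`q`-integrality and the reduction of every `q`-integral function.  (The coefficientwise action of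
an element of the inertia group of `A`.) -/
def gr_TrivOnRed (A : ValuationSubring L) (π : A →+* k) (F : IntermediateField L (LaurentSeries L))
    (Ft : IntermediateField k (LaurentSeries k)) (g : SemilinearAut L F) : Prop :=
  ∀ y : dsr_IntFun A π F Ft, ∃ y' : dsr_IntFun A π F Ft,
    dsr_gen y' = g • dsr_gen y ∧ dsr_red y' = dsr_red y

theorem gr_ord_smul_eq (g : SemilinearAut L F) (P : Place L F) (f : F) :
    P.ord (g • f) = (g⁻¹ • P).ord f := by
  have h := SemilinearAut.ord_smul g (g⁻¹ • P) f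
  rwa [smul_inv_smul] at h

/-- **Unramifiedness from KEY.**  If `g` acts trivially on reductions then `g` fixes every
`p`-torsion class of `Pic⁰(F)`. -/
theorem gr_unram_of_Key (hgen : dsr_PrincipalGeneratedByIntegral A π F Ft) {p : ℕ} (hp : p ≠ 0)
    (hK : gr_Key A π F p) (g : SemilinearAut L F) (hg : gr_TrivOnRed A π F Ft g)
    (x : Pic0 L F) (hx : p • x = 0) : g • x = x := by
  classical
  obtain ⟨D0, rfl⟩ := Pic0.mk_surjective x
  -- `p • D0` is principal
  have hm' : ((p • D0 : Divisor.degZero (K := L) (F := F)) : Divisor L F) ∈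
      Divisor.principal (K := L) (F := F) := by
    have h1 : Pic0.mk (p • D0) = (0 : Pic0 L F) := by
      rw [← hx]; rfl
    have := (QuotientAddGroup.eq_zero_iff _).mp h1
    rwa [AddSubgroup.mem_addSubgroupOf] at this
  rw [AddSubgroupClass.coe_nsmul] at hm'
  obtain ⟨c, hc⟩ := gr_exists_comb₀ (hgen hm')
  obtain ⟨y1, y2, h1, -⟩ := gr_exists_quot c
  obtain ⟨y1', hy1g, hy1r⟩ := hg y1
  obtain ⟨y2', hy2g, hy2r⟩ := hg y2
  have hpD : ∀ P : Place L F, (p : ℤ) * (D0 : Divisor L F) P
      = P.ord (dsr_gen y1) - P.ord (dsr_gen y2) := by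
    intro P
    rw [← h1 P, ← hc P, Finsupp.smul_apply, nsmul_eq_mul]
  -- the two `q`-integral functions with equal reductions
  set Y1 : dsr_IntFun A π F Ft := gr_mul y1' y2 with hY1
  set Y2 : dsr_IntFun A π F Ft := gr_mul y1 y2' with hY2
  have hredeq : dsr_red Y1 = dsr_red Y2 := by
    rw [hY1, hY2, gr_red_mul, gr_red_mul, hy1r, hy2r]
  set f : F := dsr_gen Y1 / dsr_gen Y2 with hf
  have hf0 : f ≠ 0 := div_ne_zero (dsr_gen_ne_zero Y1) (dsr_gen_ne_zero Y2)
  have hordf : ∀ P : Place L F,
      P.ord f = (p : ℤ) * ((g • (D0 : Divisor L F)) P - (D0 : Divisor L F) P) := by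
    intro P
    rw [hf, div_eq_mul_inv, Place.ord_mul P (dsr_gen_ne_zero Y1) (inv_ne_zero (dsr_gen_ne_zero Y2)),
      Place.ord_inv, hY1, hY2, gr_gen_mul, gr_gen_mul,
      Place.ord_mul P (dsr_gen_ne_zero y1') (dsr_gen_ne_zero y2),
      Place.ord_mul P (dsr_gen_ne_zero y1) (dsr_gen_ne_zero y2'), hy1g, hy2g,
      gr_ord_smul_eq, gr_ord_smul_eq, SemilinearAut.divisor_smul_apply, mul_sub, hpD, hpD]
    ring
  obtain ⟨c0, G, hG⟩ := hK Y1.1 Y2.1 Y1.2.1 Y2.2.1 (congrArg Subtype.val hredeq) Y2.2.2.2 f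
    (by rw [hf]; exact div_mul_cancel₀ _ (dsr_gen_ne_zero Y2))
    (fun P => ⟨_, hordf P⟩)
  have hG0 : G ≠ 0 := by
    rintro rfl
    rw [zero_pow hp, mul_zero] at hG
    exact hf0 hG
  have hc0 : algebraMap L F c0 ≠ 0 := by
    intro h
    rw [h, zero_mul] at hG
    exact hf0 hG
  have hprin : g • (D0 : Divisor L F) - (D0 : Divisor L F) ∈
      Divisor.principal (K := L) (F := F) := by
    refine ⟨G, hG0, fun P => ?_⟩
    have h3 := hordf P
    rw [hG, Place.ord_mul P hc0 (pow_ne_zero _ hG0), hw_ord_algebraMap, zero_add, jt_ord_pow] at h3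
    have hp' : (p : ℤ) ≠ 0 := by exact_mod_cast hp
    rw [Finsupp.sub_apply]
    exact (mul_left_cancel₀ hp' h3).symm
  rw [SemilinearAut.pic0_smul_mk]
  refine (QuotientAddGroup.eq_iff_sub_mem).mpr ?_
  rw [AddSubgroup.mem_addSubgroupOf, AddSubgroupClass.coe_sub, SemilinearAut.coe_degZeroSMulHom]
  exact hprin

end Unram

/-! ### producers of the seams `gr_HasDiv`, `gr_ConstOrd` -/

section Producers

/-- every nonzero function of a function field of one variable over an algebraically closed field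
of characteristic zero has a divisor. -/
theorem gr_hasDiv {K E : Type*} [Field K] [Field E] [Algebra K E] [IsAlgClosed K] [CharZero K]
    (x : E) [FiniteDimensional (IntermediateField.adjoin K {x}) E] : gr_HasDiv K E := by
  intro f _
  have hfin : {v : Place K E | v.ord f ≠ 0}.Finite := jt_finite_ord_ne_zero (K := K) x f
  exact ⟨Finsupp.ofSupportFinite (fun v => v.ord f) hfin, fun P => rfl⟩

/-- a function field with a separating generator over an algebraically closed field (any
characteristic): a nonzero function without zeros and poles is constant. -/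
theorem gr_constOrd_of_sepGen {K E : Type*} [Field K] [Field E] [Algebra K E] [IsAlgClosed K]
    {x : E} (hx : rt_IsSepGen K x) : gr_ConstOrd K E := by
  intro g hg hord
  refine rt_const_of_forall_mem hx g (fun v => ?_)
  rw [hw_mem_iff_ord_nonneg v hg, hord v]

end Producers

end Fermat.Agent.DS

end
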