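/-
DS-T, cell [GR], file [GR-2b]: the LIFTING seam `gr_Lifts` for the functorial family `gr_F G`.

Every nonzero element of `gr_F G k` is a quotient of reductions of `q`-integral elements of
`gr_F G L` (generic twin of `jt_exists_lift`), for `A : ValuationSubring L` and a surjective
`π : A →+* k`.  Also: `gr_S18_family` = `gr_S18_of_Key` at the family, with `gr_Lifts` discharged.
-/
import Mathlib
import Fermat.Agent.DS.GR.Key
import Fermat.Agent.DS.GR.Field

set_option autoImplicit false

noncomputable section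

namespace Fermat.Agent.DS

open ModularCurve AlgebraicCurve HahnSeries Fermat.Agent.S24 Fermat.Agent.JT3

section Lift

variable (G : Set (LaurentSeries ℤ))
variable {L : Type*} [Field L] {A : ValuationSubring L} {k : Type*} [Field k] {π : A →+* k}

theorem gr_gen_mem_of_int {g : LaurentSeries ℤ} (hg : g ∈ G) :
    coeffMap A.subtype (coeffMap (Int.castRingHom A) g) ∈ gr_F G L := by
  rw [gr_coeffMap_intCast]
  exact gr_gen_mem G L hg

/-- every element of the `k`-algebra generated by the generators lifts to a `q`-integral element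
of `gr_F G L`. -/
theorem gr_exists_lift_adjoin (hπ : Function.Surjective π) (x : LaurentSeries k)
    (hx : x ∈ Algebra.adjoin k ((coeffMap (Int.castRingHom k)) '' G)) :
    ∃ y : LaurentSeries A, coeffMap A.subtype y ∈ gr_F G L ∧ coeffMap π y = x := by
  induction hx using Algebra.adjoin_induction with
  | mem x hx =>
    obtain ⟨g, hg, rfl⟩ := hx
    refine ⟨coeffMap (Int.castRingHom A) g, gr_gen_mem_of_int G hg, ?_⟩
    rw [gr_coeffMap_intCast]
  | algebraMap r =>
    obtain ⟨a, rfl⟩ := hπ r
    refine ⟨HahnSeries.single (0 : ℤ) a, ?_, ?_⟩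
    · rw [jt_coeffMap_single_zero, ← algebraMap_laurentSeries_eq_single]
      exact IntermediateField.algebraMap_mem _ _
    · rw [jt_coeffMap_single_zero, ← algebraMap_laurentSeries_eq_single]
  | add x y _ _ hx hy =>
    obtain ⟨a, ha, rfl⟩ := hx
    obtain ⟨b, hb, rfl⟩ := hy
    exact ⟨a + b, by rw [map_add]; exact add_mem ha hb, by rw [map_add]⟩
  | mul x y _ _ hx hy =>
    obtain ⟨a, ha, rfl⟩ := hx
    obtain ⟨b, hb, rfl⟩ := hy
    exact ⟨a * b, by rw [map_mul]; exact mul_mem ha hb, by rw [map_mul]⟩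

/-- **the lifting seam for the family.** -/
theorem gr_lifts (hπ : Function.Surjective π) : gr_Lifts A π (gr_F G L) (gr_F G k) := by
  intro g hg
  have hgmem : (g : LaurentSeries k) ∈
      IntermediateField.adjoin k ((coeffMap (Int.castRingHom k)) '' G) := g.2
  obtain ⟨r, hr, s, hs, hrs⟩ := IntermediateField.mem_adjoin_iff_div.mp hgmem
  have hg0 : (g : LaurentSeries k) ≠ 0 := fun h => hg (Subtype.ext h)
  have hs0 : s ≠ 0 := by
    rintro rfl
    rw [div_zero] at hrs
    exact hg0 hrs
  have hr0 : r ≠ 0 := by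
    rintro rfl
    rw [zero_div] at hrs
    exact hg0 hrs
  have hle : Algebra.adjoin k ((coeffMap (Int.castRingHom k)) '' G)
      ≤ (gr_F G k).toSubalgebra :=
    Algebra.adjoin_le (IntermediateField.subset_adjoin _ _)
  obtain ⟨a, ha, har⟩ := gr_exists_lift_adjoin (L := L) (A := A) G hπ r hr
  obtain ⟨b, hb, hbs⟩ := gr_exists_lift_adjoin (L := L) (A := A) G hπ s hs
  refine ⟨gr_mk a ha (by rw [har]; exact hle hr) (by rw [har]; exact hr0),
    gr_mk b hb (by rw [hbs]; exact hle hs) (by rw [hbs]; exact hs0), ?_⟩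
  apply Subtype.ext
  show coeffMap π a = (g : LaurentSeries _) * coeffMap π b
  rw [har, hbs, hrs, div_mul_cancel₀ _ hs0]

/-- **S18 for the family `gr_F G` from KEY at the prime divisors of `m`** (the lifting seam is
discharged; `Fb`, `Ft` are variables so that instances can `subst`). -/
theorem gr_S18_family (hπ : Function.Surjective π)
    {Fb : IntermediateField L (LaurentSeries L)} (hFb : Fb = gr_F G L)
    {Ft : IntermediateField k (LaurentSeries k)} (hFt : Ft = gr_F G k)
    (h : dsr_ReductionInputs A π Fb Ft) (m : ℕ) (hm : m ≠ 0) (hdiv : gr_HasDiv L Fb)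
    (hK : ∀ p : ℕ, p.Prime → p ∣ m → gr_Key A π Fb p) (hC : gr_ConstOrd k Ft)
    (z : Pic0 L Fb) (hmz : m • z = 0) (hz : dsr_reduction A π Fb Ft z = 0) : z = 0 := by
  subst hFb hFt
  exact gr_S18_of_Key hπ h m hm hdiv (gr_lifts G hπ) hK hC z hmz hz

end Lift

end Fermat.Agent.DS

end
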