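/-
DS-T, cell [GR], file [GR-4a]: `gr_Key0 O F p` FROM THE REGULARITY OF THE TWO STANDARD CHARTS
(Legendre cover, residue characteristic `≠ 2`).

Generic twin of `JT3/Inst/{Key0, Assemble}.lean` for a VARIABLE subfield `F ⊆ L((q))`:
`O` a discrete valuation ring with fraction field `L` of characteristic zero in which `2` is a unit.
Hypotheses on `F`:
* `hq : F ≤ gq_quotField O L`  (every element is a quotient of series with coefficients in `O`;
  automatic for `gr_F G L`, see `gr_F_le_quotField`);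
* `[FiniteDimensional L⟮λ⟯ E]`  (from (A1), file [GR-3]).
Everything else is discharged as in JT3: `π` prime in the three charts (`cn_prime_funField`),
(h4a) by the Gauss bridge `gq_h4a_fc_of_iota`, the F-core `fc_funField`.
-/
import Mathlib
import Fermat.Agent.DS.GR.Field
import Fermat.Agent.JT3.Inst.Assemble

set_option autoImplicit false
set_option linter.style.haveILetI false

noncomputable section

open ModularCurve IntermediateField AlgebraicCurve

namespace Fermat.Agent.DS

open Fermat.Agent.JT3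

section QuotField

variable {L : Type*} [Field L] (O : ValuationSubring L)

/-- the field of quotients of `O`-integral series is stable under `q ↦ q^d`. -/
theorem gr_qExpand_mem_quotField (d : ℕ) [NeZero d] {x : LaurentSeries L}
    (hx : x ∈ gq_quotField O L) : qExpand L d x ∈ gq_quotField O L := by
  obtain ⟨z1, z2, hz2, h⟩ := hx
  refine ⟨qExpand O d z1, qExpand O d z2, ?_, ?_⟩
  · intro h0
    exact hz2 (qExpand_injective (R := O) d (by rw [h0, map_zero]))
  · rw [coeffMap_qExpand, coeffMap_qExpand, ← map_mul, h]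

/-- the family `gr_F G L` consists of quotients of `O`-integral series. -/
theorem gr_F_le_quotField (G : Set (LaurentSeries ℤ)) : gr_F G L ≤ gq_quotField O L := by
  rw [gr_F, IntermediateField.adjoin_le_iff]
  rintro _ ⟨g, -, rfl⟩
  have : coeffMap (Int.castRingHom L) g
      = coeffMap (algebraMap O L) (coeffMap (Int.castRingHom O) g) := by
    rw [gr_coeffMap_intCast]
  rw [SetLike.mem_coe, this]
  exact gq_iota_mem_quotField _

variable (F : IntermediateField L (LaurentSeries L))

/-- every element of `E = φ(F)(λ)` is a quotient of series with coefficients in `O`. -/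
theorem gr_E_le_quotField (hq : F ≤ gq_quotField O L) : gr_E F ≤ gq_quotField O L := by
  rw [gr_E, sup_le_iff]
  constructor
  · rintro _ ⟨x, hx, rfl⟩
    exact gr_qExpand_mem_quotField O 2 (hq hx)
  · rw [lg_K, IntermediateField.adjoin_le_iff]
    rintro _ rfl
    have : lg_lam L = coeffMap (algebraMap O L) (hm_lam O) := (hm_coeffMap_lam _).symm
    show lg_lam L ∈ gq_quotField O L
    rw [this]
    exact gq_iota_mem_quotField _

end QuotField

section Key0

variable {L : Type*} [Field L] (O : ValuationSubring L)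
  (F : IntermediateField L (LaurentSeries L))

/-- `λ` is transcendental over `L`. -/
theorem grf_lam_transcendental (h2 : (2 : L) ≠ 0) : Transcendental L (gr_lamE F) := by
  intro h
  exact lgf_lam_transcendental' L h2 (IntermediateField.isAlgebraic_iff.1 h)

/-- The model hypotheses of the F-core for the two standard charts of the `λ`-line, over `(L, O)`,
with `π : O` (a uniformiser): `π` is a prime element of the three charts, and the two standard
charts are regular along `π = 0`. -/
structure gr_ModelHyp (π : O) : Prop where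
  prime1 : Prime (algebraMap O (fc_chart O ({gr_lamE F} : Set (gr_E F))) π)
  prime2 : Prime (algebraMap O (fc_chart O ({(gr_lamE F)⁻¹} : Set (gr_E F))) π)
  prime12 : Prime (algebraMap O (fc_chart O ({gr_lamE F, (gr_lamE F)⁻¹} : Set (gr_E F))) π)
  reg1 : ∀ 𝔫 : Ideal (fc_chart O ({gr_lamE F} : Set (gr_E F))), 𝔫.IsMaximal →
      algebraMap O (fc_chart O ({gr_lamE F} : Set (gr_E F))) π ∈ 𝔫 →
      ∃ u ∈ 𝔫, ∀ z ∈ 𝔫, ∃ s, s ∉ 𝔫 ∧
        s * z ∈ Ideal.span {algebraMap O (fc_chart O ({gr_lamE F} : Set (gr_E F))) π, u}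
  reg2 : ∀ 𝔫 : Ideal (fc_chart O ({(gr_lamE F)⁻¹} : Set (gr_E F))), 𝔫.IsMaximal →
      algebraMap O (fc_chart O ({(gr_lamE F)⁻¹} : Set (gr_E F))) π ∈ 𝔫 →
      ∃ u ∈ 𝔫, ∀ z ∈ 𝔫, ∃ s, s ∉ 𝔫 ∧
        s * z ∈ Ideal.span {algebraMap O (fc_chart O ({(gr_lamE F)⁻¹} : Set (gr_E F))) π, u}

variable {O F}

/-- the regularity hypotheses of the F-core from the local regularity seam `jt_RegAt`. -/
theorem gr_modelHyp_of_regAt {π : O}
    (hp1 : Prime (algebraMap O (fc_chart O ({gr_lamE F} : Set (gr_E F))) π))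
    (hp2 : Prime (algebraMap O (fc_chart O ({(gr_lamE F)⁻¹} : Set (gr_E F))) π))
    (hp12 : Prime (algebraMap O (fc_chart O ({gr_lamE F, (gr_lamE F)⁻¹} : Set (gr_E F))) π))
    (hr1 : jt_RegAt (fc_chart O ({gr_lamE F} : Set (gr_E F)))
      (algebraMap O (fc_chart O ({gr_lamE F} : Set (gr_E F))) π))
    (hr2 : jt_RegAt (fc_chart O ({(gr_lamE F)⁻¹} : Set (gr_E F)))
      (algebraMap O (fc_chart O ({(gr_lamE F)⁻¹} : Set (gr_E F))) π)) :
    gr_ModelHyp O F π where
  prime1 := hp1
  prime2 := hp2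
  prime12 := hp12
  reg1 := fun 𝔫 hmax hπ => by
    obtain ⟨⟨u, -, hu, hgen⟩, -⟩ := hr1 𝔫 hmax hπ
    exact ⟨u, hu, hgen⟩
  reg2 := fun 𝔫 hmax hπ => by
    obtain ⟨⟨u, -, hu, hgen⟩, -⟩ := hr2 𝔫 hmax hπ
    exact ⟨u, hu, hgen⟩

variable (F) in
/-- the restriction of `φ` to `F`, with values in `E`. -/
def gr_phiE : F →ₐ[L] gr_E F :=
  ((lg_phi L).comp F.val).codRestrict (gr_E F).toSubalgebra
    (fun x => gr_phi_mem_E F x.2)

theorem gr_phiE_coe (x : F) :
    ((gr_phiE F x : gr_E F) : LaurentSeries L) = lg_phi L (x : LaurentSeries L) :=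
  rfl

/-- **`gr_Key0` from the F-core.** -/
theorem gr_Key0_of_model [CharZero L] [IsDiscreteValuationRing O] {π : O} (hπ : Irreducible π)
    (hM : gr_ModelHyp O F π)
    (hx : Transcendental L (gr_lamE F))
    [FiniteDimensional L⟮gr_lamE F⟯ (gr_E F)]
    (hconst : ∀ z : gr_E F, IsAlgebraic L z → z ∈ (algebraMap L (gr_E F)).range)
    (p : ℕ) (hp : IsUnit ((p : ℕ) : O))
    (h4a : ∀ (y1 y2 : LaurentSeries O)
      (h1 : coeffMap O.subtype y1 ∈ F) (h2 : coeffMap O.subtype y2 ∈ F),
      coeffMap (IsLocalRing.residue O) y1 = coeffMap (IsLocalRing.residue O) y2 →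
      coeffMap (IsLocalRing.residue O) y2 ≠ 0 →
      ∀ f : F,
        f * (⟨coeffMap O.subtype y2, h2⟩ : F) = (⟨coeffMap O.subtype y1, h1⟩ : F) →
        gr_phiE F f - 1 ∈ fc_piO hM.prime12) :
    gr_Key0 O F p := by
  intro y1 y2 h1 h2 hred hred0 f hf hord
  haveI : IsScalarTower O L (gr_E F) := IsScalarTower.of_algebraMap_eq fun _ => rfl
  by_cases hf0 : f = 0
  · refine ⟨0, 0, zero_mem _, ?_⟩
    rw [hf0]
    simp
  have hfE : gr_phiE F f ≠ 0 := fun h => hf0 ((map_eq_zero (gr_phiE F)).1 h)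
  obtain ⟨c, g, -, hcg⟩ := fc_funField (L := L) hπ hx hconst p hp (gr_phiE F f) hfE hM.prime1
    hM.prime2 hM.prime12 hM.reg1 hM.reg2 (h4a y1 y2 h1 h2 hred hred0 f hf)
    (fun P => lg_dvd_ord_of_embedding (gr_phiE F) (p : ℤ) f hord P)
  refine ⟨algebraMap O L c, (g : LaurentSeries L), g.2, ?_⟩
  have h3 := congrArg (fun z : gr_E F => (z : LaurentSeries L)) hcg
  have h4 : ((algebraMap O (gr_E F) c : gr_E F) : LaurentSeries L)
      = algebraMap L (LaurentSeries L) (algebraMap O L c) := rfl
  simp only [MulMemClass.coe_mul, SubmonoidClass.coe_pow, gr_phiE_coe, h4] at h3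
  exact h3

set_option maxHeartbeats 1000000 in
/-- **`gr_Key0` from the regularity of the two standard charts.** -/
theorem gr_Key0_of_regAt [CharZero L] [IsDiscreteValuationRing O] (hq : F ≤ gq_quotField O L)
    [FiniteDimensional L⟮gr_lamE F⟯ (gr_E F)] {π : O} (hπ : Irreducible π)
    (h2 : IsUnit (2 : O))
    (hr1 : jt_RegAt (fc_chart O ({gr_lamE F} : Set (gr_E F)))
      (algebraMap O (fc_chart O ({gr_lamE F} : Set (gr_E F))) π))
    (hr2 : jt_RegAt (fc_chart O ({(gr_lamE F)⁻¹} : Set (gr_E F)))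
      (algebraMap O (fc_chart O ({(gr_lamE F)⁻¹} : Set (gr_E F))) π))
    (p : ℕ) (hp : IsUnit ((p : ℕ) : O)) : gr_Key0 O F p := by
  haveI : IsScalarTower O L (gr_E F) := IsScalarTower.of_algebraMap_eq fun _ => rfl
  have hx : Transcendental L (gr_lamE F) := grf_lam_transcendental F two_ne_zero
  have hconst : ∀ z : gr_E F, IsAlgebraic L z → z ∈ (algebraMap L (gr_E F)).range :=
    fun z hz => lgf_hconst (gr_E F) z hz
  obtain ⟨hp1, hp2, hp12⟩ := cn_prime_funField (K0 := L) hπ hx hconst
    (fun n hn hπn => (hr1 n hn hπn).2) (fun n hn hπn => (hr2 n hn hπn).2)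
  have hM : gr_ModelHyp O F π := gr_modelHyp_of_regAt hp1 hp2 hp12 hr1 hr2
  refine gr_Key0_of_model hπ hM hx hconst p hp ?_
  intro y1 y2 h1 h2' hred hred0 f hf
  have hπ0 : π ≠ 0 := hπ.ne_zero
  have hπmax : IsLocalRing.maximalIdeal O = Ideal.span {π} := hπ.maximalIdeal_eq
  haveI : Algebra.IsAlgebraic (Algebra.adjoin O ({gr_lamE F, (gr_lamE F)⁻¹} : Set (gr_E F)))
      (gr_E F) :=
    fc_ff_isAlgebraic_mono (S := {gr_lamE F}) (T := {gr_lamE F, (gr_lamE F)⁻¹}) (by simp)
      (fc_ff_isAlgebraic (L := L) (gr_lamE F))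
  -- the reduction of `λ` is transcendental over the residue field
  have h16 : (16 : IsLocalRing.ResidueField O) ≠ 0 := by
    have h2k : (2 : IsLocalRing.ResidueField O) ≠ 0 := by
      have := (IsLocalRing.residue O).isUnit_map h2
      rw [map_ofNat] at this
      exact this.ne_zero
    have : (16 : IsLocalRing.ResidueField O) = 2 ^ 4 := by norm_num
    rw [this]
    exact pow_ne_zero _ h2k
  have hxtr : ∀ q : Polynomial (IsLocalRing.ResidueField O),
      Polynomial.aeval (coeffMap (IsLocalRing.residue O) (hm_lam O)) q = 0 → q = 0 := by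
    have htr : Transcendental (IsLocalRing.ResidueField O)
        (hm_lam (IsLocalRing.ResidueField O)) :=
      lgf_transcendental_of_coeff (n := 1) one_ne_zero (by rw [hm_lam_coeff_one]; exact h16)
    rw [hm_coeffMap_lam]
    exact (transcendental_iff.1 htr)
  have hux : ((gr_lamE F : gr_E F) : LaurentSeries L)
      = coeffMap (algebraMap O L) (hm_lam O) := (hm_coeffMap_lam _).symm
  -- the relation `φ(f) * ι(φ y2) = ι(φ y1)`
  have hf' : ((gr_phiE F f : gr_E F) : LaurentSeries L)
      * coeffMap (algebraMap O L) (qExpand O 2 y2) = coeffMap (algebraMap O L) (qExpand O 2 y1) := by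
    have h3 := congrArg (fun z : F => lg_phi L (z : LaurentSeries L)) hf
    simp only [MulMemClass.coe_mul, map_mul] at h3
    rw [gr_phiE_coe, coeffMap_qExpand, coeffMap_qExpand]
    exact h3
  have hred' : coeffMap (IsLocalRing.residue O) (qExpand O 2 y1)
      = coeffMap (IsLocalRing.residue O) (qExpand O 2 y2) := by
    rw [coeffMap_qExpand, coeffMap_qExpand, hred]
  have hred0' : coeffMap (IsLocalRing.residue O) (qExpand O 2 y2) ≠ 0 := by
    rw [coeffMap_qExpand]
    intro h0
    apply hred0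
    have hinj : Function.Injective (qExpand (IsLocalRing.ResidueField O) 2) :=
      (qExpand (IsLocalRing.ResidueField O) 2).injective
    exact hinj (by rw [h0, map_zero])
  exact gq_h4a_fc_of_iota π hπ0 hπmax (gr_E F) (gr_E_le_quotField O F hq) (gr_lamE F) (hm_lam O)
    hux hxtr hp12 (qExpand O 2 y1) (qExpand O 2 y2) hred' hred0' (gr_phiE F f) hf'

end Key0

end Fermat.Agent.DS

end
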