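/-
DS-T, cell [GR], file [GR-2c]: THE OBJECTS, Hesse cover (`3 ≠ 0`; used at residue characteristic 2).

Generic twin of `JT3/Inst/{HesseDefs, HesseStatements, HesseTower}.lean` for an ARBITRARY subfield
`F ⊆ L((q))` (a variable).  Line-by-line twin of `DS/GR/Field.lean` with
`(q ↦ q², λ, j(q²))` replaced by `(q ↦ q³, μ, j(q³))`.

* `grs_F3 F`        : the twist `φ(F)`, `φ = (q ↦ q³)`;
* `grs_E h3 F`      : the rigidified field `E = φ(F)(μ)`;
* `grs_Key0 h3 O F p`, `grs_KeyE h3 A π F p` : KEY with conclusion in `E`;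
* `grs_muE h3 F`, `grs_chart`, `grs_B1 / grs_B2 / grs_B12` : the charts;
* `grsh_*`          : the tower `L(j₃) ⊆ φ(F), L(μ) ⊆ E` as types.
The `N`-free objects of JT3 (`hs_phi`, `hs_mu`, `hs_j3`, `hs_K`, `hsh_Kj`, `hsh_j`, `hsh_muK`, …) are
REUSED.  At `F := lg_F L N` everything is the JT3 object by `rfl`.
Naming rule of the port: `hs_X ↦ grs_X`, `hsh_X ↦ grsh_X`.
-/
import Mathlib
import Fermat.Agent.DS.GR.Field
import Fermat.Agent.JT3.Inst.HesseStatements
import Fermat.Agent.JT3.Inst.HesseTower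

set_option autoImplicit false
set_option linter.unusedSectionVars false
set_option linter.style.haveILetI false

noncomputable section

open ModularCurve IntermediateField AlgebraicCurve

namespace Fermat.Agent.DS

open Fermat.Agent.JT3

section Defs

variable {L : Type*} [Field L] (h3 : (3 : L) ≠ 0) (F : IntermediateField L (LaurentSeries L))

/-- The twisted field `φ(F)`, `φ = (q ↦ q³)`. -/
def grs_F3 : IntermediateField L (LaurentSeries L) := F.map (hs_phi L)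

/-- The rigidified field `E = φ(F)(μ)`. -/
def grs_E : IntermediateField L (LaurentSeries L) := grs_F3 F ⊔ hs_K L h3

theorem grs_K_le_E : hs_K L h3 ≤ grs_E h3 F := le_sup_right

theorem grs_F3_le_E : grs_F3 F ≤ grs_E h3 F := le_sup_left

theorem grs_mu_mem_E : hs_mu L h3 ∈ grs_E h3 F := grs_K_le_E h3 F (hs_mu_mem_K L h3)

theorem grs_phi_mem_F3 {x : LaurentSeries L} (hx : x ∈ F) : hs_phi L x ∈ grs_F3 F :=
  ⟨x, hx, rfl⟩

theorem grs_phi_mem_E {x : LaurentSeries L} (hx : x ∈ F) : hs_phi L x ∈ grs_E h3 F :=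
  grs_F3_le_E h3 F (grs_phi_mem_F3 F hx)

theorem grs_j3_mem_F3 [gr_HasJ F] : hs_j3 L ∈ grs_F3 F :=
  ⟨jqModC L, gr_j_mem F, rfl⟩

theorem grs_j3_mem_E [gr_HasJ F] : hs_j3 L ∈ grs_E h3 F := grs_F3_le_E h3 F (grs_j3_mem_F3 F)

theorem grs_F3_mono {F F' : IntermediateField L (LaurentSeries L)} (h : F ≤ F') :
    grs_F3 F ≤ grs_F3 F' := IntermediateField.map_mono _ h

theorem grs_E_mono {F F' : IntermediateField L (LaurentSeries L)} (h : F ≤ F') :
    grs_E h3 F ≤ grs_E h3 F' := sup_le_sup_right (grs_F3_mono h) _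

/-- sanity: at the level-`N` field of `X₀(N)` these are the JT3 objects. -/
theorem grs_F3_lg (N : ℕ) [NeZero N] : grs_F3 (lg_F L N) = hs_F3 L N := rfl

theorem grs_E_lg (N : ℕ) [NeZero N] : grs_E h3 (lg_F L N) = hs_E L h3 N := rfl

end Defs

/-! ### the statements of KEY with conclusion in `E` -/

section KeyStatements

/-- **KEY over `(L, O)`** with conclusion in `E = φ(F)(μ)`, `φ = (q ↦ q³)` (generic twin of
`hs_Key0`). -/
def grs_Key0 {L : Type*} [Field L] (h3 : (3 : L) ≠ 0) (O : ValuationSubring L)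
    (F : IntermediateField L (LaurentSeries L)) (p : ℕ) : Prop :=
  ∀ (y1 y2 : LaurentSeries O)
    (h1 : coeffMap O.subtype y1 ∈ F) (h2 : coeffMap O.subtype y2 ∈ F),
    coeffMap (IsLocalRing.residue O) y1 = coeffMap (IsLocalRing.residue O) y2 →
    coeffMap (IsLocalRing.residue O) y2 ≠ 0 →
    ∀ f : F,
      f * (⟨coeffMap O.subtype y2, h2⟩ : F) = (⟨coeffMap O.subtype y1, h1⟩ : F) →
      (∀ P : Place L F, (p : ℤ) ∣ P.ord f) →
      ∃ (c : L) (g : LaurentSeries L), g ∈ grs_E h3 F ∧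
        hs_phi L (f : LaurentSeries L) = algebraMap L (LaurentSeries L) c * g ^ p

/-- **KEY_E** with conclusion in `E = φ(F)(μ)` (generic twin of `hs_KeyE`). -/
def grs_KeyE {L : Type*} [Field L] (h3 : (3 : L) ≠ 0) (A : ValuationSubring L) {k : Type*}
    [Field k] (π : A →+* k) (F : IntermediateField L (LaurentSeries L)) (p : ℕ) : Prop :=
  ∀ (y1 y2 : LaurentSeries A) (h1 : coeffMap A.subtype y1 ∈ F) (h2 : coeffMap A.subtype y2 ∈ F),
    coeffMap π y1 = coeffMap π y2 → coeffMap π y2 ≠ 0 →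
    ∀ f : F, f * (⟨coeffMap A.subtype y2, h2⟩ : F) = (⟨coeffMap A.subtype y1, h1⟩ : F) →
      (∀ P : Place L F, (p : ℤ) ∣ P.ord f) →
      ∃ (c : L) (g : LaurentSeries L), g ∈ grs_E h3 F ∧
        hs_phi L (f : LaurentSeries L) = algebraMap L (LaurentSeries L) c * g ^ p

theorem grs_Key0_lg {L : Type*} [Field L] (h3 : (3 : L) ≠ 0) (O : ValuationSubring L) (N : ℕ)
    [NeZero N] (p : ℕ) : grs_Key0 h3 O (lg_F L N) p ↔ hs_Key0 L h3 O N p := Iff.rfl

end KeyStatements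

/-! ### the charts -/

section Charts

variable {L : Type*} [Field L] (h3 : (3 : L) ≠ 0) (O : ValuationSubring L)
  (F : IntermediateField L (LaurentSeries L))

/-- `μ` as an element of `E`. -/
def grs_muE : grs_E h3 F := ⟨hs_mu L h3, grs_mu_mem_E h3 F⟩

@[simp] theorem grs_coe_muE : ((grs_muE h3 F : grs_E h3 F) : LaurentSeries L) = hs_mu L h3 := rfl

/-- The normalisation in `E` of the `O`-subalgebra generated by a set `s ⊆ E`, as a subalgebra
over `O`. -/
def grs_chart (s : Set (grs_E h3 F)) : Subalgebra O (grs_E h3 F) :=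
  (integralClosure (Algebra.adjoin O s) (grs_E h3 F)).restrictScalars O

theorem grs_mem_chart {s : Set (grs_E h3 F)} {z : grs_E h3 F} :
    z ∈ grs_chart h3 O F s ↔ IsIntegral (Algebra.adjoin O s) z := Iff.rfl

/-- The chart `B₁` (`μ ≠ ∞`): normalisation of `O[μ]`. -/
def grs_B1 : Subalgebra O (grs_E h3 F) := grs_chart h3 O F {grs_muE h3 F}

/-- The chart `B₂` (`μ ≠ 0`): normalisation of `O[1/μ]`. -/
def grs_B2 : Subalgebra O (grs_E h3 F) := grs_chart h3 O F {(grs_muE h3 F)⁻¹}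

/-- The chart `B₁₂` (`μ ≠ 0, ∞`): normalisation of `O[μ, 1/μ]`. -/
def grs_B12 : Subalgebra O (grs_E h3 F) := grs_chart h3 O F {grs_muE h3 F, (grs_muE h3 F)⁻¹}

theorem grs_chart_mono {s t : Set (grs_E h3 F)} (h : s ⊆ t) :
    grs_chart h3 O F s ≤ grs_chart h3 O F t := by
  intro z hz
  rw [grs_mem_chart] at hz ⊢
  have hle : Algebra.adjoin O s ≤ Algebra.adjoin O t := Algebra.adjoin_mono h
  obtain ⟨p, hp, hpz⟩ := hz
  refine ⟨p.map (Subalgebra.inclusion hle).toRingHom, hp.map _, ?_⟩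
  rw [Polynomial.eval₂_map]
  exact hpz

theorem grs_B1_le_B12 : grs_B1 h3 O F ≤ grs_B12 h3 O F :=
  grs_chart_mono h3 O F (by intro x hx; rw [Set.mem_singleton_iff] at hx; subst hx; simp)

theorem grs_B2_le_B12 : grs_B2 h3 O F ≤ grs_B12 h3 O F :=
  grs_chart_mono h3 O F (by intro x hx; rw [Set.mem_singleton_iff] at hx; subst hx; simp)

end Charts

/-! ### the tower `L(j₃) ⊆ φ(F), L(μ) ⊆ E` as types -/

section Tower

variable {L : Type*} [Field L] (h3 : (3 : L) ≠ 0) (F : IntermediateField L (LaurentSeries L))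

theorem grsh_Kj_le_F3 [gr_HasJ F] : hsh_Kj L ≤ grs_F3 F := by
  rw [hsh_Kj, IntermediateField.adjoin_simple_le_iff]
  exact grs_j3_mem_F3 F

theorem grsh_Kj_le_E : hsh_Kj L ≤ grs_E h3 F := (hsh_Kj_le_K L h3).trans (grs_K_le_E h3 F)

/-- `L(j₃) → φ(F)`. -/
@[reducible] def grsh_algKjF3 [gr_HasJ F] : Algebra (hsh_Kj L) (grs_F3 F) :=
  lgh_algOfLe (grsh_Kj_le_F3 F)

/-- `L(j₃) → E`. -/
@[reducible] def grsh_algKjE : Algebra (hsh_Kj L) (grs_E h3 F) :=
  lgh_algOfLe (grsh_Kj_le_E h3 F)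

/-- `φ(F) → E`. -/
@[reducible] def grsh_algF3E : Algebra (grs_F3 F) (grs_E h3 F) :=
  lgh_algOfLe (grs_F3_le_E h3 F)

/-- `L(μ) → E`. -/
@[reducible] def grsh_algKE : Algebra (hs_K L h3) (grs_E h3 F) := lgh_algOfLe (grs_K_le_E h3 F)

attribute [local instance] hsh_algKjK grsh_algKjF3 grsh_algKjE grsh_algF3E grsh_algKE

instance grsh_tower_L_Kj_F3 [gr_HasJ F] : IsScalarTower L (hsh_Kj L) (grs_F3 F) :=
  lgh_isScalarTower_base (grsh_Kj_le_F3 F)

instance grsh_tower_L_Kj_E : IsScalarTower L (hsh_Kj L) (grs_E h3 F) :=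
  lgh_isScalarTower_base (grsh_Kj_le_E h3 F)

instance grsh_tower_Kj_F3_E [gr_HasJ F] : IsScalarTower (hsh_Kj L) (grs_F3 F) (grs_E h3 F) :=
  lgh_isScalarTower (grsh_Kj_le_F3 F) (grs_F3_le_E h3 F)

instance grsh_tower_Kj_K_E : IsScalarTower (hsh_Kj L) (hs_K L h3) (grs_E h3 F) :=
  lgh_isScalarTower (hsh_Kj_le_K L h3) (grs_K_le_E h3 F)

/-- `E = φ(F) · L(μ)` over `L(j₃)`. -/
theorem grsh_hgen [gr_HasJ F] :
    IntermediateField.adjoin (hsh_Kj L)
      (Set.range (algebraMap (grs_F3 F) (grs_E h3 F)) ∪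
        Set.range (algebraMap (hs_K L h3) (grs_E h3 F))) = ⊤ :=
  lgh_adjoin_range_eq_top (grsh_Kj_le_F3 F) (grs_F3_le_E h3 F) (grs_K_le_E h3 F) le_rfl

end Tower

end Fermat.Agent.DS

end
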