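/-
DS-T, cell [GR], file [GR-3]: FINITENESS of the towers from (A1).

Generic twin of `JT3/Inst/{FunFieldFacts, TowerFinite, HesseFunFieldFacts, HesseTowerFinite,
LevelFinite}.lean` for a VARIABLE subfield `F ⊆ L((q))`.

`gr_A1 F` : `F = L(S)` for a FINITE set `S` of series, each integral (= algebraic) over `L(j)`.
From it (characteristic zero):
* `grf_tower_finite_Kj_F2 / _K_E / _Kj_E / _F2_E` : every step of `L(j') ⊆ φ(F), L(λ) ⊆ E` is finite;
* `grf_finite` : `FiniteDimensional L⟮λ⟯ E` (the instance argument of `gr_Key0_of_regAt`);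
* `grf_level_finite` : `FiniteDimensional L⟮j⟯ F`;
* Hesse twins `grsf_*`.
* `gr_A1_family` : (A1) for `gr_F G L` from (A1) over `ℚ`, for every `L` of characteristic zero.
-/
import Mathlib
import Fermat.Agent.DS.GR.Field
import Fermat.Agent.DS.GR.HesseField
import Fermat.Agent.JT3.Inst.TowerFinite
import Fermat.Agent.JT3.Inst.HesseTowerFinite

set_option autoImplicit false
set_option linter.unusedSectionVars false
set_option linter.style.haveILetI false

noncomputable section

namespace Fermat.Agent.DS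

open ModularCurve IntermediateField Fermat.Agent.JT3

section A1

variable {L : Type*} [Field L]

/-- **(A1)**: `F` is generated over `L` by finitely many series, each integral over `L(j)`. -/
def gr_A1 (F : IntermediateField L (LaurentSeries L)) : Prop :=
  ∃ S : Set (LaurentSeries L), S.Finite ∧ F = IntermediateField.adjoin L S ∧
    ∀ s ∈ S, IsIntegral (IntermediateField.adjoin L {jqModC L}) s

/-- transport of integrality along an `L`-algebra endomorphism `ψ` of `L((q))`: if `s` is integral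
over `L(x)` then `ψ s` is integral over every subfield containing `ψ x`. -/
theorem grf_isIntegral_map (ψ : LaurentSeries L →ₐ[L] LaurentSeries L) (x : LaurentSeries L)
    (F₁ : IntermediateField L (LaurentSeries L)) (hx : ψ x ∈ F₁) {s : LaurentSeries L}
    (hs : IsIntegral (IntermediateField.adjoin L {x}) s) : IsIntegral F₁ (ψ s) := by
  have hle : (IntermediateField.adjoin L {x}).map ψ ≤ F₁ := by
    rw [IntermediateField.adjoin_map, Set.image_singleton,
      IntermediateField.adjoin_simple_le_iff]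
    exact hx
  let φ : IntermediateField.adjoin L {x} →+* F₁ :=
    ((ψ : LaurentSeries L →+* LaurentSeries L).comp
      (IntermediateField.adjoin L {x}).val.toRingHom).codRestrict F₁.toSubring
      (fun y => hle ⟨y, y.2, rfl⟩)
  exact hs.map_of_comp_eq φ (ψ : LaurentSeries L →+* LaurentSeries L) (RingHom.ext fun y => rfl)

/-- integrality over a subfield `K ≤ E` of `Ω`, read inside `E` over `L⟮x⟯ ⊇ K`. -/
theorem grf_isAlgebraic_of_val {Ω : Type*} [Field Ω] [Algebra L Ω] (E K : IntermediateField L Ω)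
    (hKE : K ≤ E) (x : E) (hx : ∀ a (ha : a ∈ K), (⟨a, hKE ha⟩ : E) ∈ L⟮x⟯) (y : E)
    (hy : IsIntegral K (y : Ω)) : IsAlgebraic L⟮x⟯ y := by
  obtain ⟨P, hP, hP0⟩ := hy
  let θ : K →+* L⟮x⟯ :=
    { toFun := fun a => ⟨⟨(a : Ω), hKE a.2⟩, hx a a.2⟩
      map_one' := rfl
      map_mul' := fun _ _ => rfl
      map_zero' := rfl
      map_add' := fun _ _ => rfl }
  have hcomp : (E.val : E →+* Ω).comp ((algebraMap L⟮x⟯ E).comp θ) = algebraMap K Ω :=
    RingHom.ext fun a => rfl
  refine IsIntegral.isAlgebraic ⟨P.map θ, hP.map θ, ?_⟩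
  rw [Polynomial.eval₂_map]
  apply E.val.injective
  rw [map_zero]
  have h := Polynomial.hom_eval₂ P ((algebraMap L⟮x⟯ E).comp θ) (E.val : E →+* Ω) y
  rw [hcomp] at h
  exact h.trans hP0

end A1

/-! ### Legendre cover -/

section Legendre

variable {L : Type*} [Field L] [CharZero L] (F : IntermediateField L (LaurentSeries L))

/-- `φ(s)` is integral over every subfield of `L((q))` containing `j' = j(q²)`. -/
theorem grf_tower_isIntegral_gen (F₁ : IntermediateField L (LaurentSeries L))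
    (hj : lg_j2 L ∈ F₁) {s : LaurentSeries L}
    (hs : IsIntegral (IntermediateField.adjoin L {jqModC L}) s) :
    IsIntegral F₁ (lg_phi L s) :=
  grf_isIntegral_map (lg_phi L) (jqModC L) F₁ hj hs

variable {F}

theorem grf_F2_eq_adjoin {S : Set (LaurentSeries L)} (hF : F = IntermediateField.adjoin L S) :
    gr_F2 F = IntermediateField.adjoin L ((lg_phi L) '' S) := by
  rw [gr_F2, hF, IntermediateField.adjoin_map]

theorem grf_E_eq_adjoin {S : Set (LaurentSeries L)} (hF : F = IntermediateField.adjoin L S) :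
    gr_E F = IntermediateField.adjoin L ((lg_phi L) '' S ∪ {lg_lam L}) := by
  rw [gr_E, grf_F2_eq_adjoin hF, IntermediateField.adjoin_union]
  rfl

attribute [local instance] lgh_algKjK grh_algKjF2 grh_algKjE grh_algF2E grh_algKE

/-- `φ(F) / L(j')` is finite. -/
theorem grf_tower_finite_Kj_F2 [gr_HasJ F] (hA : gr_A1 F) :
    FiniteDimensional (lgh_Kj L) (gr_F2 F) := by
  obtain ⟨S, hS, hF, hint⟩ := hA
  refine lgf_tower_finite_of_gens (grh_Kj_le_F2 F) _ (hS.image _) (grf_F2_eq_adjoin hF) ?_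
  rintro _ ⟨s, hs, rfl⟩
  exact grf_tower_isIntegral_gen (lgh_Kj L) (mem_adjoin_simple_self L _) (hint s hs)

/-- `E / L(λ)` is finite. -/
theorem grf_tower_finite_K_E (hA : gr_A1 F) : FiniteDimensional (lg_K L) (gr_E F) := by
  obtain ⟨S, hS, hF, hint⟩ := hA
  refine lgf_tower_finite_of_gens (gr_K_le_E F) _ ((hS.image _).union (Set.finite_singleton _))
    (grf_E_eq_adjoin hF) ?_
  rintro _ (⟨s, hs, rfl⟩ | rfl)
  · exact grf_tower_isIntegral_gen (lg_K L) (lgh_j2_mem_K L) (hint s hs)
  · exact isIntegral_algebraMap (x := (⟨lg_lam L, lg_lam_mem_K L⟩ : lg_K L))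

/-- `E / L(j')` is finite. -/
theorem grf_tower_finite_Kj_E (hA : gr_A1 F) : FiniteDimensional (lgh_Kj L) (gr_E F) := by
  obtain ⟨S, hS, hF, hint⟩ := hA
  refine lgf_tower_finite_of_gens (grh_Kj_le_E F) _ ((hS.image _).union (Set.finite_singleton _))
    (grf_E_eq_adjoin hF) ?_
  rintro _ (⟨s, hs, rfl⟩ | rfl)
  · exact grf_tower_isIntegral_gen (lgh_Kj L) (mem_adjoin_simple_self L _) (hint s hs)
  · exact lgf_tower_isIntegral_lam L (lgh_Kj L) (mem_adjoin_simple_self L _)

/-- `E / φ(F)` is finite. -/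
theorem grf_tower_finite_F2_E [gr_HasJ F] (hA : gr_A1 F) :
    FiniteDimensional (gr_F2 F) (gr_E F) := by
  obtain ⟨S, hS, hF, hint⟩ := hA
  refine lgf_tower_finite_of_gens (gr_F2_le_E F) _ ((hS.image _).union (Set.finite_singleton _))
    (grf_E_eq_adjoin hF) ?_
  rintro _ (⟨s, hs, rfl⟩ | rfl)
  · exact grf_tower_isIntegral_gen (gr_F2 F) (gr_j2_mem_F2 F) (hint s hs)
  · exact lgf_tower_isIntegral_lam L (gr_F2 F) (gr_j2_mem_F2 F)

/-- `j' = j(q²)` lies in `L(λ) ⊆ E`. -/
theorem grf_mem_adjoin_lamE :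
    ∀ z : gr_E F, (z : LaurentSeries L) ∈ lg_K L → z ∈ L⟮(gr_lamE F : gr_E F)⟯ := by
  intro z hz
  have h1 : (L⟮(gr_lamE F : gr_E F)⟯).map (gr_E F).val = lg_K L := by
    rw [IntermediateField.adjoin_map, Set.image_singleton]
    rfl
  rw [← h1] at hz
  obtain ⟨w, hw, hwz⟩ := hz
  have : w = z := Subtype.ext hwz
  rwa [← this]

/-- **`E` is finite over `L(λ)`.** -/
theorem grf_finite (hA : gr_A1 F) : FiniteDimensional L⟮(gr_lamE F : gr_E F)⟯ (gr_E F) := by
  obtain ⟨S, hS, hF, hint⟩ := hA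
  refine lgf_finite_of_gens (gr_E F) _ ((hS.image _).union (Set.finite_singleton _))
    (grf_E_eq_adjoin hF) (gr_lamE F) ?_
  rintro y (⟨s, hs, hy⟩ | hy)
  · -- `φ(s)` is integral over `L(λ) ∋ j'`
    have h1 : IsIntegral (lg_K L) ((y : gr_E F) : LaurentSeries L) := by
      rw [← hy]
      exact grf_tower_isIntegral_gen (lg_K L) (lgh_j2_mem_K L) (hint s hs)
    exact grf_isAlgebraic_of_val (gr_E F) (lg_K L) (gr_K_le_E F) (gr_lamE F)
      (fun a ha => grf_mem_adjoin_lamE ⟨a, gr_K_le_E F ha⟩ ha) y h1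
  · have hy' : y = gr_lamE F := Subtype.ext hy
    rw [hy']
    exact isAlgebraic_algebraMap
      (⟨gr_lamE F, mem_adjoin_simple_self L _⟩ : L⟮(gr_lamE F : gr_E F)⟯)

end Legendre

/-! ### Hesse cover -/

section Hesse

variable {L : Type*} [Field L] [CharZero L] (h3 : (3 : L) ≠ 0)
  (F : IntermediateField L (LaurentSeries L))

/-- `φ₃(s)` is integral over every subfield of `L((q))` containing `j₃ = j(q³)`. -/
theorem grsf_tower_isIntegral_gen (F₁ : IntermediateField L (LaurentSeries L))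
    (hj : hs_j3 L ∈ F₁) {s : LaurentSeries L}
    (hs : IsIntegral (IntermediateField.adjoin L {jqModC L}) s) :
    IsIntegral F₁ (hs_phi L s) :=
  grf_isIntegral_map (hs_phi L) (jqModC L) F₁ hj hs

variable {F}

theorem grsf_F3_eq_adjoin {S : Set (LaurentSeries L)} (hF : F = IntermediateField.adjoin L S) :
    grs_F3 F = IntermediateField.adjoin L ((hs_phi L) '' S) := by
  rw [grs_F3, hF, IntermediateField.adjoin_map]

theorem grsf_E_eq_adjoin {S : Set (LaurentSeries L)} (hF : F = IntermediateField.adjoin L S) :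
    grs_E h3 F = IntermediateField.adjoin L ((hs_phi L) '' S ∪ {hs_mu L h3}) := by
  rw [grs_E, grsf_F3_eq_adjoin hF, IntermediateField.adjoin_union]
  rfl

/-- `φ₃(F) / F₁` is finite for every `F₁ ∋ j₃` below it. -/
theorem grsf_tower_finite_F3 (hA : gr_A1 F) (F₁ : IntermediateField L (LaurentSeries L))
    (hj : hs_j3 L ∈ F₁) (h : F₁ ≤ grs_F3 F) :
    @FiniteDimensional F₁ (grs_F3 F) _ _ (lgh_algOfLe h).toModule := by
  obtain ⟨S, hS, hF, hint⟩ := hA
  refine lgf_tower_finite_of_gens h _ (hS.image _) (grsf_F3_eq_adjoin hF) ?_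
  rintro _ ⟨s, hs, rfl⟩
  exact grsf_tower_isIntegral_gen F₁ hj (hint s hs)

/-- `E / F₁` is finite for every `F₁ ∋ j₃` below it. -/
theorem grsf_tower_finite_E (hA : gr_A1 F) (F₁ : IntermediateField L (LaurentSeries L))
    (hj : hs_j3 L ∈ F₁) (h : F₁ ≤ grs_E h3 F) :
    @FiniteDimensional F₁ (grs_E h3 F) _ _ (lgh_algOfLe h).toModule := by
  obtain ⟨S, hS, hF, hint⟩ := hA
  refine lgf_tower_finite_of_gens h _ ((hS.image _).union (Set.finite_singleton _))
    (grsf_E_eq_adjoin h3 hF) ?_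
  rintro _ (⟨s, hs, rfl⟩ | rfl)
  · exact grsf_tower_isIntegral_gen F₁ hj (hint s hs)
  · exact hsf_tower_isIntegral_mu L h3 F₁ hj

theorem grsf_mem_adjoin_muE :
    ∀ z : grs_E h3 F, (z : LaurentSeries L) ∈ hs_K L h3 →
      z ∈ L⟮(grs_muE h3 F : grs_E h3 F)⟯ := by
  intro z hz
  have h1 : (L⟮(grs_muE h3 F : grs_E h3 F)⟯).map (grs_E h3 F).val = hs_K L h3 := by
    rw [IntermediateField.adjoin_map, Set.image_singleton]
    rfl
  rw [← h1] at hz
  obtain ⟨w, hw, hwz⟩ := hz
  have : w = z := Subtype.ext hwz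
  rwa [← this]

/-- **`E` is finite over `L(μ)`.** -/
theorem grsf_finite (hA : gr_A1 F) :
    FiniteDimensional L⟮(grs_muE h3 F : grs_E h3 F)⟯ (grs_E h3 F) := by
  obtain ⟨S, hS, hF, hint⟩ := hA
  refine lgf_finite_of_gens (grs_E h3 F) _ ((hS.image _).union (Set.finite_singleton _))
    (grsf_E_eq_adjoin h3 hF) (grs_muE h3 F) ?_
  rintro y (⟨s, hs, hy⟩ | hy)
  · have h1 : IsIntegral (hs_K L h3) ((y : grs_E h3 F) : LaurentSeries L) := by
      rw [← hy]
      exact grsf_tower_isIntegral_gen (hs_K L h3) (hs_j3_mem_K L h3) (hint s hs)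
    exact grf_isAlgebraic_of_val (grs_E h3 F) (hs_K L h3) (grs_K_le_E h3 F) (grs_muE h3 F)
      (fun a ha => grsf_mem_adjoin_muE h3 ⟨a, grs_K_le_E h3 F ha⟩ ha) y h1
  · have hy' : y = grs_muE h3 F := Subtype.ext hy
    rw [hy']
    exact isAlgebraic_algebraMap
      (⟨grs_muE h3 F, mem_adjoin_simple_self L _⟩ : L⟮(grs_muE h3 F : grs_E h3 F)⟯)

end Hesse

/-! ### the level field over `L(j)`, and (A1) for the family -/

section Level

variable {L : Type*} [Field L] (F : IntermediateField L (LaurentSeries L))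

/-- `j` as an element of `F`. -/
def gr_jF [gr_HasJ F] : F := ⟨jqModC L, gr_j_mem F⟩

@[simp] theorem gr_coe_jF [gr_HasJ F] : ((gr_jF F : F) : LaurentSeries L) = jqModC L := rfl

theorem grf_mem_adjoin_jF [gr_HasJ F] :
    ∀ z : F, (z : LaurentSeries L) ∈ IntermediateField.adjoin L {jqModC L} →
      z ∈ L⟮(gr_jF F : F)⟯ := by
  intro z hz
  have h1 : (L⟮(gr_jF F : F)⟯).map F.val = IntermediateField.adjoin L {jqModC L} := by
    rw [IntermediateField.adjoin_map, Set.image_singleton]
    rfl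
  rw [← h1] at hz
  obtain ⟨w, hw, hwz⟩ := hz
  have : w = z := Subtype.ext hwz
  rwa [← this]

/-- **`F` is finite over `L(j)`.** -/
theorem grf_level_finite [gr_HasJ F] (hA : gr_A1 F) : FiniteDimensional L⟮(gr_jF F : F)⟯ F := by
  obtain ⟨S, hS, hF, hint⟩ := hA
  refine lgf_finite_of_gens F S hS hF (gr_jF F) ?_
  intro y hy
  have hle : IntermediateField.adjoin L {jqModC L} ≤ F := by
    rw [IntermediateField.adjoin_simple_le_iff]
    exact gr_j_mem F
  exact grf_isAlgebraic_of_val F (IntermediateField.adjoin L {jqModC L}) hle (gr_jF F)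
    (fun a ha => grf_mem_adjoin_jF F ⟨a, hle ha⟩ ha) y (hint _ hy)

/-- `j` is transcendental over `L`. -/
theorem grf_level_j_transcendental [gr_HasJ F] : Transcendental L (gr_jF F) := fun h =>
  (lgf_transcendental_of_coeff (L := L) (z := jqModC L) (n := -1) (by norm_num)
    (by rw [coeff_jqModC_neg_one]; exact one_ne_zero)) (IntermediateField.isAlgebraic_iff.1 h)

end Level

section Family

variable (G : Set (LaurentSeries ℤ))

/-- (A1) over `ℚ` for the generators: finitely many, each integral over `ℚ(j)`. -/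
def gr_A1Q : Prop :=
  G.Finite ∧ ∀ g ∈ G, IsIntegral (IntermediateField.adjoin ℚ {jqModC ℚ})
    (coeffMap (Int.castRingHom ℚ) g)

theorem gr_F_singleton_j (L : Type*) [Field L] :
    gr_F {jqModC ℤ} L = IntermediateField.adjoin L {jqModC L} := by
  rw [gr_F, Set.image_singleton, coeffMap_jqModC]

/-- **(A1) for every member of the family in characteristic zero.** -/
theorem gr_A1_family (hG : gr_A1Q G) (L : Type*) [Field L] [CharZero L] : gr_A1 (gr_F G L) := by
  refine ⟨_, hG.1.image _, rfl, ?_⟩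
  rintro _ ⟨g, hg, rfl⟩
  have h := hG.2 g hg
  -- transport along `coeffMap (algebraMap ℚ L) : ℚ((q)) → L((q))`
  have hmem : ∀ y ∈ IntermediateField.adjoin ℚ {jqModC ℚ},
      coeffMap (algebraMap ℚ L) y ∈ IntermediateField.adjoin L {jqModC L} := by
    intro y hy
    rw [← gr_F_singleton_j] at hy ⊢
    exact gr_coeffMap_mem _ (algebraMap ℚ L) hy
  let φ : IntermediateField.adjoin ℚ {jqModC ℚ} →+* IntermediateField.adjoin L {jqModC L} :=
    ((coeffMap (algebraMap ℚ L)).comp
      (algebraMap (IntermediateField.adjoin ℚ {jqModC ℚ}) (LaurentSeries ℚ))).codRestrict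
      (IntermediateField.adjoin L {jqModC L}).toSubring (fun y => hmem y y.2)
  have h2 := h.map_of_comp_eq φ (coeffMap (algebraMap ℚ L)) (RingHom.ext fun y => rfl)
  rwa [gr_coeffMap_intCast] at h2

end Family

end Fermat.Agent.DS

end
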