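import Mathlib
import Fermat.Agent.JT3.Inst.Ram
import Fermat.Agent.JT3.Inst.HesseRamCore

/-!
# DS-T / [GR-6] (S18 twin, generic generators): the ramification hypotheses `(H)`, `(T)` of the
model theorem for an ABSTRACT rigidified tower (prefix `gr_ram_`)

Level-free form of `Inst/Ram.lean` (`lgr_hH`, `lgr_hT`) and `Inst/HesseRamCore.lean`
(`hsrc_cH`, `hsrc_cT`, `hsrc_cTinf`).  The tower is

```
        E = F · K
       /         \
      F           K = L(x)      (x = λ : Legendre, x = μ : Hesse)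
       \         /
        Kj = L(j')
```

with `F / Kj` carrying the ramification data `rml_RamData L j' M` (indices above `0`, `1728`, `∞`
divide `3`, `2`, `M`, unramified elsewhere) and `x ∈ K` a solution of the Legendre (resp. Hesse)
relation over `j'`.  Nothing about modular curves is used: the `X₀(N)` instances are
`lgr_hH`, … of JT3, the `Γ₁(M)` instances are one `exact` each.
-/

set_option autoImplicit false
set_option linter.style.haveILetI false
set_option linter.unusedSectionVars false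

open IntermediateField

namespace Fermat.Agent.DS

open Fermat.Agent.JT3

section Tower

variable {L : Type*} [Field L] [CharZero L] {Kj : Type*} [Field Kj] [Algebra L Kj]
variable (F K E : Type*) [Field F] [Field K] [Field E]
  [Algebra Kj F] [Algebra Kj K] [Algebra Kj E] [Algebra F E] [Algebra K E]
  [IsScalarTower Kj F E] [IsScalarTower Kj K E] [FiniteDimensional Kj E]
  [Algebra L F] [IsScalarTower L Kj F] [Algebra L K] [IsScalarTower L Kj K]

/-! ### Legendre cover -/

/-- **(H)**, abstract Legendre tower: `E / K` is unramified over every discrete valuation ring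
`V2 ⊇ L` of `K` with `x, 1/x, 1/(x - 1) ∈ V2`. -/
theorem gr_ram_leg_hH {M : ℕ} {j' : Kj} (hgenj : IntermediateField.adjoin L {j'} = ⊤)
    (D : rml_RamData L (algebraMap Kj F j') M)
    (hgen : IntermediateField.adjoin Kj
      (Set.range (algebraMap F E) ∪ Set.range (algebraMap K E)) = ⊤)
    {x : K} (hrel : cv_legN x = algebraMap Kj K j' * cv_legD x)
    (V2 : Subring K) [IsDiscreteValuationRing V2] [IsFractionRing V2 K]
    (hL : ∀ a : L, algebraMap L K a ∈ V2) (hx : x ∈ V2) (hx0 : x⁻¹ ∈ V2)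
    (hx1 : (x - 1)⁻¹ ∈ V2) : jt_UnramAt V2 E := by
  haveI : FiniteDimensional Kj F := FiniteDimensional.left Kj F E
  haveI : FiniteDimensional Kj K := FiniteDimensional.left Kj K E
  haveI : CharZero Kj := lgr_charZero (L := L)
  haveI : CharZero (IsLocalRing.ResidueField V2) := ti_charZero_residueField L V2 hL
  haveI : IsDiscreteValuationRing (ti_under Kj V2) := ti_under_isDVR Kj V2
  haveI : IsFractionRing (ti_under Kj V2) Kj := ti_under_isFractionRing Kj V2
  have hL0 : ∀ a : L, algebraMap L Kj a ∈ ti_under Kj V2 := lgr_L_le_V0 V2 hL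
  have hj : j' ∈ ti_under Kj V2 := lgr_j_mem_V0 hL hrel hx hx0 hx1
  obtain ⟨n, h1, h2⟩ := lgr_exists_index (L₁ := F) hgenj D (ti_under Kj V2) hL0 hrel hj
  exact ti_seam_unram_under F K E hgen V2 n h1 h2

/-- **(T)**, abstract Legendre tower: at a place of `K` where `x = c ∈ {0, 1}`, every prime of `E`
above it has ramification index dividing `M`. -/
theorem gr_ram_leg_hT {M : ℕ} {j' : Kj}
    (D : rml_RamData L (algebraMap Kj F j') M)
    (hgen : IntermediateField.adjoin Kj
      (Set.range (algebraMap F E) ∪ Set.range (algebraMap K E)) = ⊤)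
    {x : K} (hrel : cv_legN x = algebraMap Kj K j' * cv_legD x)
    (V2 : Subring K) [IsDiscreteValuationRing V2] [IsFractionRing V2 K]
    (hL : ∀ a : L, algebraMap L K a ∈ V2) (hx : x ∈ V2)
    {c : K} (hc : c = 0 ∨ c = 1) (hxc : (x - c)⁻¹ ∉ V2)
    (P : Ideal (integralClosure V2 E)) [P.IsPrime] (hP : P ≠ ⊥) :
    P.ramificationIdx V2 ∣ M := by
  haveI : FiniteDimensional Kj F := FiniteDimensional.left Kj F E
  haveI : FiniteDimensional Kj K := FiniteDimensional.left Kj K E
  haveI : CharZero Kj := lgr_charZero (L := L)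
  haveI : CharZero (IsLocalRing.ResidueField V2) := ti_charZero_residueField L V2 hL
  haveI : IsDiscreteValuationRing (ti_under Kj V2) := ti_under_isDVR Kj V2
  haveI : IsFractionRing (ti_under Kj V2) Kj := ti_under_isFractionRing Kj V2
  have hL0 : ∀ a : L, algebraMap L Kj a ∈ ti_under Kj V2 := lgr_L_le_V0 V2 hL
  obtain ⟨hj, hjm⟩ := lgr_cusp_V0 (K := Kj) hL hrel hx hc hxc
  have h1 : ∀ (P₁ : Ideal (integralClosure (ti_under Kj V2) F)) [P₁.IsPrime],
      P₁ ≠ ⊥ → P₁.ramificationIdx (ti_under Kj V2) ∣ M := fun P₁ _ hP₁ =>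
    rml_ram_infty_subring (ti_under Kj V2) hL0 D hj hjm P₁ hP₁
  exact ti_seam_div_under F K E hgen V2 M h1 P hP

/-- **(T)** at `x = 0`. -/
theorem gr_ram_leg_hT0 {M : ℕ} {j' : Kj}
    (D : rml_RamData L (algebraMap Kj F j') M)
    (hgen : IntermediateField.adjoin Kj
      (Set.range (algebraMap F E) ∪ Set.range (algebraMap K E)) = ⊤)
    {x : K} (hrel : cv_legN x = algebraMap Kj K j' * cv_legD x)
    (V2 : Subring K) [IsDiscreteValuationRing V2] [IsFractionRing V2 K]
    (hL : ∀ a : L, algebraMap L K a ∈ V2) (hx : x ∈ V2) (hx0 : x⁻¹ ∉ V2)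
    (P : Ideal (integralClosure V2 E)) [P.IsPrime] (hP : P ≠ ⊥) :
    P.ramificationIdx V2 ∣ M :=
  gr_ram_leg_hT F K E D hgen hrel V2 hL hx (c := 0) (Or.inl rfl) (by rwa [sub_zero]) P hP

/-- **(T)** at `x = 1`. -/
theorem gr_ram_leg_hT1 {M : ℕ} {j' : Kj}
    (D : rml_RamData L (algebraMap Kj F j') M)
    (hgen : IntermediateField.adjoin Kj
      (Set.range (algebraMap F E) ∪ Set.range (algebraMap K E)) = ⊤)
    {x : K} (hrel : cv_legN x = algebraMap Kj K j' * cv_legD x)
    (V2 : Subring K) [IsDiscreteValuationRing V2] [IsFractionRing V2 K]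
    (hL : ∀ a : L, algebraMap L K a ∈ V2) (hx : x ∈ V2) (hx1 : (x - 1)⁻¹ ∉ V2)
    (P : Ideal (integralClosure V2 E)) [P.IsPrime] (hP : P ≠ ⊥) :
    P.ramificationIdx V2 ∣ M :=
  gr_ram_leg_hT F K E D hgen hrel V2 hL hx (c := 1) (Or.inr rfl) hx1 P hP

/-! ### Hesse cover -/

/-- **(cH)**, abstract Hesse tower: `E / K` is unramified over every discrete valuation ring
`V2 ⊇ L` of `K` with `x, 1/(x³ - 1) ∈ V2`. -/
theorem gr_ram_hes_cH {M : ℕ} {j' : Kj} (hgenj : IntermediateField.adjoin L {j'} = ⊤)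
    (D : rml_RamData L (algebraMap Kj F j') M)
    (hgen : IntermediateField.adjoin Kj
      (Set.range (algebraMap F E) ∪ Set.range (algebraMap K E)) = ⊤)
    {x : K} (hrel : cv_hesN x = algebraMap Kj K j' * cv_hesD x)
    (V2 : Subring K) [IsDiscreteValuationRing V2] [IsFractionRing V2 K]
    (hL : ∀ a : L, algebraMap L K a ∈ V2) (hx : x ∈ V2) (hx1 : (x ^ 3 - 1)⁻¹ ∈ V2) :
    jt_UnramAt V2 E := by
  haveI : FiniteDimensional Kj F := FiniteDimensional.left Kj F E
  haveI : FiniteDimensional Kj K := FiniteDimensional.left Kj K E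
  haveI : CharZero Kj := lgr_charZero (L := L)
  haveI : CharZero (IsLocalRing.ResidueField V2) := ti_charZero_residueField L V2 hL
  haveI : IsDiscreteValuationRing (ti_under Kj V2) := ti_under_isDVR Kj V2
  haveI : IsFractionRing (ti_under Kj V2) Kj := ti_under_isFractionRing Kj V2
  have hL0 : ∀ a : L, algebraMap L Kj a ∈ ti_under Kj V2 := lgr_L_le_V0 V2 hL
  have hj : j' ∈ ti_under Kj V2 := hsrc_j_mem_V0 hL hrel hx hx1
  obtain ⟨n, h1, h2⟩ := hsrc_exists_index (L₁ := F) hgenj D (ti_under Kj V2) hL0 hrel hj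
  exact ti_seam_unram_under F K E hgen V2 n h1 h2

/-- common part of `(cT)` and `(cTinf)`. -/
theorem gr_ram_hes_cT_aux {M : ℕ} {j' : Kj}
    (D : rml_RamData L (algebraMap Kj F j') M)
    (hgen : IntermediateField.adjoin Kj
      (Set.range (algebraMap F E) ∪ Set.range (algebraMap K E)) = ⊤)
    (V2 : Subring K) [IsDiscreteValuationRing V2] [IsFractionRing V2 K]
    (hL : ∀ a : L, algebraMap L K a ∈ V2)
    (hinv : ∃ hj : j'⁻¹ ∈ ti_under Kj V2, ¬ IsUnit (⟨j'⁻¹, hj⟩ : ti_under Kj V2))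
    (P : Ideal (integralClosure V2 E)) [P.IsPrime] (hP : P ≠ ⊥) :
    P.ramificationIdx V2 ∣ M := by
  haveI : FiniteDimensional Kj F := FiniteDimensional.left Kj F E
  haveI : FiniteDimensional Kj K := FiniteDimensional.left Kj K E
  haveI : CharZero Kj := lgr_charZero (L := L)
  haveI : CharZero (IsLocalRing.ResidueField V2) := ti_charZero_residueField L V2 hL
  haveI : IsDiscreteValuationRing (ti_under Kj V2) := ti_under_isDVR Kj V2
  haveI : IsFractionRing (ti_under Kj V2) Kj := ti_under_isFractionRing Kj V2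
  have hL0 : ∀ a : L, algebraMap L Kj a ∈ ti_under Kj V2 := lgr_L_le_V0 V2 hL
  obtain ⟨hj, hjm⟩ := hinv
  have h1 : ∀ (P₁ : Ideal (integralClosure (ti_under Kj V2) F)) [P₁.IsPrime],
      P₁ ≠ ⊥ → P₁.ramificationIdx (ti_under Kj V2) ∣ M := fun P₁ _ hP₁ =>
    rml_ram_infty_subring (ti_under Kj V2) hL0 D hj hjm P₁ hP₁
  exact ti_seam_div_under F K E hgen V2 M h1 P hP

/-- **(cT)**: at a place with `x ∈ V2`, `1/(x³ - 1) ∉ V2` (a cusp `x³ = 1`), `e ∣ M`. -/
theorem gr_ram_hes_cT {M : ℕ} {j' : Kj}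
    (D : rml_RamData L (algebraMap Kj F j') M)
    (hgen : IntermediateField.adjoin Kj
      (Set.range (algebraMap F E) ∪ Set.range (algebraMap K E)) = ⊤)
    {x : K} (hrel : cv_hesN x = algebraMap Kj K j' * cv_hesD x)
    (V2 : Subring K) [IsDiscreteValuationRing V2] [IsFractionRing V2 K]
    (hL : ∀ a : L, algebraMap L K a ∈ V2) (hx : x ∈ V2) (hx1 : (x ^ 3 - 1)⁻¹ ∉ V2)
    (P : Ideal (integralClosure V2 E)) [P.IsPrime] (hP : P ≠ ⊥) :
    P.ramificationIdx V2 ∣ M :=
  gr_ram_hes_cT_aux F K E D hgen V2 hL (hsrc_cusp_V0 (K := Kj) hL hrel hx hx1) P hP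

/-- **(cTinf)**: at a place with `x ∉ V2` (the cusp `x = ∞`), `e ∣ M`. -/
theorem gr_ram_hes_cTinf {M : ℕ} {j' : Kj}
    (D : rml_RamData L (algebraMap Kj F j') M)
    (hgen : IntermediateField.adjoin Kj
      (Set.range (algebraMap F E) ∪ Set.range (algebraMap K E)) = ⊤)
    {x : K} (hrel : cv_hesN x = algebraMap Kj K j' * cv_hesD x)
    (V2 : Subring K) [IsDiscreteValuationRing V2] [IsFractionRing V2 K]
    (hL : ∀ a : L, algebraMap L K a ∈ V2) (hx : x ∉ V2)
    (P : Ideal (integralClosure V2 E)) [P.IsPrime] (hP : P ≠ ⊥) :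
    P.ramificationIdx V2 ∣ M :=
  gr_ram_hes_cT_aux F K E D hgen V2 hL (hsrc_cusp_inf_V0 (K := Kj) hL hrel hx) P hP

end Tower

end Fermat.Agent.DS
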