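import Mathlib
import Fermat.Agent.JT3.Export.RamLInst

/-!
# DS-T / [GR-6] (S18 twin, generic generators): transport of the ramification data `(R)`
from `Q̄` to a subfield `L` (prefix `gr_ram_`)

Generic port of `Export/RamLInst.lean` (`rml_ramData_bc`): for ANY `F₀ ⊆ ℚ((q))`, any constant
field `L ⊆ L'` (`L'` algebraically closed, algebraic over `L`) and any element `j` of
`F_L = laurentBaseChange L F₀`, the ramification data `rml_RamData L' (ι j) M` of the image of `j`
in `F_{L'}` gives the ramification data `rml_RamData L j M` over `L`.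
-/

set_option autoImplicit false
set_option linter.style.haveILetI false
set_option linter.unusedSectionVars false

noncomputable section

open AlgebraicCurve ModularCurve Polynomial IntermediateField

namespace Fermat.Agent.DS

open Fermat.Agent.JT3 Fermat.Agent.S24

section Transport

variable (L L' : Type*) [Field L] [Field L'] [Algebra ℚ L] [Algebra ℚ L'] [Algebra L L']
  [IsScalarTower ℚ L L'] (F₀ : IntermediateField ℚ (LaurentSeries ℚ))

theorem gr_ram_bcHom_aeval (x : ↥(laurentBaseChange L F₀)) (h : L[X]) :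
    dsc_bcHom L L' F₀ (aeval x h) =
      aeval (dsc_bcHom L L' F₀ x) (h.map (algebraMap L L')) := by
  rw [Polynomial.aeval_def, Polynomial.aeval_def, Polynomial.hom_eval₂, Polynomial.eval₂_map]
  congr 1
  exact RingHom.ext fun c => dsc_bcHom_algebraMap L L' F₀ c

theorem gr_ram_bcHom_sub_ofNat (x : ↥(laurentBaseChange L F₀)) (n : ℕ) [n.AtLeastTwo] :
    dsc_bcHom L L' F₀ (x - OfNat.ofNat n) = dsc_bcHom L L' F₀ x - OfNat.ofNat n := by
  rw [map_sub, map_ofNat]

variable {L L' F₀}

/-- **transport of `(R)`** from the algebraically closed constant field `L'` down to `L`. -/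
theorem gr_ram_ramData_bc [IsAlgClosed L'] [Algebra.IsAlgebraic L L'] {M : ℕ}
    (j : ↥(laurentBaseChange L F₀))
    [Algebra.IsAlgebraic L'⟮dsc_bcHom L L' F₀ j⟯ ↥(laurentBaseChange L' F₀)]
    (D : rml_RamData L' (dsc_bcHom L L' F₀ j) M) : rml_RamData L j M := by
  haveI : CharZero L := algebraRat.charZero L
  set ι := dsc_bcHom L L' F₀ with hι
  refine ⟨fun h => D.ne_zero ?_, fun h => D.ne_one ?_, fun Q => ?_, fun Q => ?_, fun Q => ?_,
    fun Q => ?_⟩
  · rw [h, map_zero]
  · rw [← gr_ram_bcHom_sub_ofNat L L' F₀ j 1728, h, map_zero]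
  · obtain ⟨v, hv⟩ := dsc_bc_exists_place L L' F₀ Q
    rw [← hv]
    exact D.zero v
  · obtain ⟨v, hv⟩ := dsc_bc_exists_place L L' F₀ Q
    rw [← hv, gr_ram_bcHom_sub_ofNat]
    exact D.one v
  · obtain ⟨v, hv⟩ := dsc_bc_exists_place L L' F₀ Q
    rw [← hv]
    exact D.infty v
  · obtain ⟨v, hv⟩ := dsc_bc_exists_place L L' F₀ Q
    rw [← hv, ← hv, gr_ram_bcHom_sub_ofNat]
    intro h0 h1
    obtain ⟨h, hh⟩ := D.generic v h0 h1
    have hj0 : ι j ≠ 0 := D.ne_zero
    have hjmem : ι j ∈ v.toValuationSubring := (hw_mem_iff_ord_nonneg v hj0).2 h0.ge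
    obtain ⟨c, hc⟩ := hw_exists_const (ι j) v hjmem
    -- `h (ι j)` is a uniformiser, so `h c = 0`, and then `ι j - c` is a uniformiser
    have hhmem : ∀ p : L'[X], aeval (ι j) p ∈ v.toValuationSubring :=
      fun p => rml_aeval_mem_valuationSubring v hjmem p
    -- Taylor: `h = C (h c) + (X - C c) * g`
    set g : L'[X] := h /ₘ (X - C c) with hg
    have hhg : C (h.eval c) + (X - C c) * g = h := by
      have := Polynomial.modByMonic_add_div h (X - C c)
      rwa [Polynomial.modByMonic_X_sub_C_eq_C_eval] at this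
    have hxh : aeval (ι j) h = algebraMap L' _ (h.eval c)
        + (ι j - algebraMap L' _ c) * aeval (ι j) g := by
      conv_lhs => rw [← hhg]
      simp
    have hne1 : aeval (ι j) h ≠ 0 := by
      intro h0'
      rw [h0', Place.ord_zero] at hh
      exact zero_ne_one hh
    have hc' : 0 < v.ord (ι j - algebraMap L' _ c) ∧ ι j - algebraMap L' _ c ≠ 0 := by
      rcases hc with hc | hc
      · exfalso
        -- `ι j = c` is a constant: `h (ι j)` is a nonzero constant, of order `0`
        have : aeval (ι j) h = algebraMap L' _ (h.eval c) := by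
          rw [hxh, hc, sub_self, zero_mul, add_zero]
        rw [this, hw_ord_algebraMap] at hh
        exact zero_ne_one hh
      · refine ⟨hc, fun h0' => ?_⟩
        rw [h0', Place.ord_zero] at hc
        exact lt_irrefl _ hc
    obtain ⟨hcpos, hcne⟩ := hc'
    have hc0 : c ≠ 0 := by
      rintro rfl
      rw [map_zero, sub_zero, h0] at hcpos
      exact lt_irrefl _ hcpos
    have hc1 : c ≠ 1728 := by
      rintro rfl
      rw [map_ofNat, h1] at hcpos
      exact lt_irrefl _ hcpos
    -- `h c = 0`
    have hhc : h.eval c = 0 := by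
      by_contra hne
      have hcst : algebraMap L' (↥(laurentBaseChange L' F₀)) (h.eval c) ≠ 0 := by
        simpa using hne
      rcases eq_or_ne (aeval (ι j) g) 0 with hg0 | hg0
      · rw [hxh, hg0, mul_zero, add_zero, hw_ord_algebraMap] at hh
        exact zero_ne_one hh
      · have hts : (ι j - algebraMap L' _ c) * aeval (ι j) g ≠ 0 := mul_ne_zero hcne hg0
        have hg1 : 0 ≤ v.ord (aeval (ι j) g) := (hw_mem_iff_ord_nonneg v hg0).1 (hhmem g)
        have hlt : v.ord (algebraMap L' (↥(laurentBaseChange L' F₀)) (h.eval c))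
            < v.ord ((ι j - algebraMap L' _ c) * aeval (ι j) g) := by
          rw [hw_ord_algebraMap, Place.ord_mul _ hcne hg0]
          omega
        have h2 := hw_ord_add_eq_of_lt v hcst hts hlt
        rw [← hxh, hw_ord_algebraMap, hh] at h2
        exact one_ne_zero h2
    have hord : v.ord (ι j - algebraMap L' _ c) = 1 := by
      rw [hxh, hhc, map_zero, zero_add] at hh hne1
      have hg0 : aeval (ι j) g ≠ 0 := right_ne_zero_of_mul hne1
      have hg1 : 0 ≤ v.ord (aeval (ι j) g) := (hw_mem_iff_ord_nonneg v hg0).1 (hhmem g)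
      rw [Place.ord_mul _ hcne hg0] at hh
      omega
    have hint : IsIntegral L c := Algebra.IsIntegral.isIntegral c
    refine ⟨minpoly L c, ?_⟩
    rw [← hv, gr_ram_bcHom_aeval]
    refine rml_ord_aeval_eq_one v (ι j) c _ ?_ ?_ hord
    · rw [Polynomial.eval_map_algebraMap]
      exact minpoly.aeval L c
    · rw [Polynomial.derivative_map, Polynomial.eval_map_algebraMap]
      exact (minpoly.irreducible hint).separable.aeval_derivative_ne_zero (minpoly.aeval L c)

end Transport

end Fermat.Agent.DS
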