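import Mathlib
import Fermat.Agent.DS.GR.RamReg
import Fermat.Agent.DS.GR.RamTransport
import Fermat.Agent.DS.GR.Field
import Fermat.Agent.DS.GR.HesseField
import Fermat.Agent.JT3.Inst.Reg
import Fermat.Agent.JT3.Inst.HesseReg

/-!
# DS-T / [GR-6] (S18 twin, generic generators): the INSTANCE of the ramification leaf for a
variable level field `F ⊆ L((q))` (prefix `gr_ram_`)

For `F : IntermediateField L (LaurentSeries L)` with `[gr_HasJ F]` (i.e. `j(q) ∈ F`):

* `gr_ram_jF F : F`, `gr_ram_jF2 F : gr_F2 F`, `gr_ram_jF3 F : grs_F3 F` : `j(q)`, `j(q²)`, `j(q³)`;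
* `gr_ram_ramData2`, `gr_ram_ramData3` : the ramification data `(R)` of `j` on `F` gives that of
  `j(q²)` on `gr_F2 F` and of `j(q³)` on `grs_F3 F`;
* `gr_ram_ramData_of_bc` : `(R)` over an algebraically closed `L'` (e.g. `Q̄`) for
  `laurentBaseChange L' F₀` gives `(R)` for every `F = laurentBaseChange L F₀`, `L ⊆ L'`;
* **`gr_ram_regAt_lam`, `gr_ram_regAt_lam_inv`** : `jt_RegAt` of the two Legendre charts of
  `gr_E F`, in exactly the shape `hr1`, `hr2` consumed by `gr_Key0_of_regAt` ([GR-4a]), from the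
  vertical hypothesis (V) (good generators, [GV]) and (R);
* **`gr_ram_regAt_mu`, `gr_ram_regAt_mu_inv`** : the same for the two Hesse charts of `grs_E h3 F`
  (`hr1`, `hr2` of `grs_Key0_of_regAt`).
-/

set_option autoImplicit false
set_option linter.style.haveILetI false
set_option linter.unusedSectionVars false

noncomputable section

open IntermediateField ModularCurve

namespace Fermat.Agent.DS

open Fermat.Agent.JT3 Fermat.Agent.S24

/-! ### The elements `j(q)`, `j(q²)`, `j(q³)` and the transport of `(R)` along `q ↦ q^d` -/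

section Elements

variable {L : Type*} [Field L] (F : IntermediateField L (LaurentSeries L)) [gr_HasJ F]

/-- `j(q)` as an element of `F`. -/
def gr_ram_jF : F := ⟨jqModC L, gr_j_mem F⟩

/-- `j(q²)` as an element of `gr_F2 F`. -/
def gr_ram_jF2 : gr_F2 F := ⟨lg_j2 L, gr_j2_mem_F2 F⟩

/-- `j(q³)` as an element of `grs_F3 F`. -/
def gr_ram_jF3 : grs_F3 F := ⟨hs_j3 L, grs_j3_mem_F3 F⟩

@[simp] theorem gr_ram_jF_coe : ((gr_ram_jF F : F) : LaurentSeries L) = jqModC L := rfl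

@[simp] theorem gr_ram_jF2_coe : ((gr_ram_jF2 F : gr_F2 F) : LaurentSeries L) = lg_j2 L := rfl

@[simp] theorem gr_ram_jF3_coe : ((gr_ram_jF3 F : grs_F3 F) : LaurentSeries L) = hs_j3 L := rfl

/-- the isomorphism `φ = (q ↦ q²) : F ≃ gr_F2 F`. -/
def gr_ram_phiEquiv : F ≃ₐ[L] gr_F2 F := IntermediateField.equivMap F (lg_phi L)

/-- the isomorphism `φ = (q ↦ q³) : F ≃ grs_F3 F`. -/
def gr_ram_phiEquiv3 : F ≃ₐ[L] grs_F3 F := IntermediateField.equivMap F (hs_phi L)

theorem gr_ram_phiEquiv_jF : gr_ram_phiEquiv F (gr_ram_jF F) = gr_ram_jF2 F := Subtype.ext rfl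

theorem gr_ram_phiEquiv3_jF : gr_ram_phiEquiv3 F (gr_ram_jF F) = gr_ram_jF3 F := Subtype.ext rfl

/-- `(R)` for `j(q²)` on `gr_F2 F` from `(R)` for `j(q)` on `F`. -/
theorem gr_ram_ramData2 {M : ℕ} (D : rml_RamData L (gr_ram_jF F) M) :
    rml_RamData L (gr_ram_jF2 F) M := by
  have h := D.map (gr_ram_phiEquiv F)
  rwa [gr_ram_phiEquiv_jF] at h

/-- `(R)` for `j(q³)` on `grs_F3 F` from `(R)` for `j(q)` on `F`. -/
theorem gr_ram_ramData3 {M : ℕ} (D : rml_RamData L (gr_ram_jF F) M) :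
    rml_RamData L (gr_ram_jF3 F) M := by
  have h := D.map (gr_ram_phiEquiv3 F)
  rwa [gr_ram_phiEquiv3_jF] at h

end Elements

/-! ### Descent of `(R)` from an algebraically closed constant field -/

section Descent

variable {L L' : Type*} [Field L] [Field L'] [Algebra ℚ L] [Algebra ℚ L'] [Algebra L L']
  [IsScalarTower ℚ L L'] {F₀ : IntermediateField ℚ (LaurentSeries ℚ)}

/-- **`(R)` over `L` from `(R)` over an algebraically closed algebraic extension `L'`**, for a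
level field presented as a base change `F = laurentBaseChange L F₀`, `F₀ ⊆ ℚ((q))` (e.g.
`F = gr_F G L`, `F₀ = gr_F G ℚ`, by `gr_F_eq_laurentBaseChange`). -/
theorem gr_ram_ramData_of_bc [IsAlgClosed L'] [Algebra.IsAlgebraic L L'] {M : ℕ}
    (F : IntermediateField L (LaurentSeries L)) [gr_HasJ F] (hF : F = laurentBaseChange L F₀)
    (F' : IntermediateField L' (LaurentSeries L')) [gr_HasJ F']
    (hF' : F' = laurentBaseChange L' F₀)
    [Algebra.IsAlgebraic L'⟮gr_ram_jF F'⟯ F']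
    (D : rml_RamData L' (gr_ram_jF F') M) : rml_RamData L (gr_ram_jF F) M := by
  subst hF hF'
  have h1 : dsc_bcHom L L' F₀ (gr_ram_jF (laurentBaseChange L F₀))
      = gr_ram_jF (laurentBaseChange L' F₀) := by
    apply Subtype.ext
    rw [dsc_bcHom_coe]
    show coeffMap (algebraMap L L') (jqModC L) = jqModC L'
    exact coeffMap_jqModC _
  haveI : Algebra.IsAlgebraic
      L'⟮dsc_bcHom L L' F₀ (gr_ram_jF (laurentBaseChange L F₀))⟯
      ↥(laurentBaseChange L' F₀) := by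
    rw [h1]
    infer_instance
  refine gr_ram_ramData_bc (L' := L') (gr_ram_jF (laurentBaseChange L F₀)) ?_
  rw [h1]
  exact D

end Descent

/-! ### The two Legendre charts of `gr_E F` -/

section Leg

variable {L : Type*} [Field L] [CharZero L] (O : ValuationSubring L) [IsDiscreteValuationRing O]
  (F : IntermediateField L (LaurentSeries L)) [gr_HasJ F]

attribute [local instance] lgh_algKjK grh_algKjF2 grh_algKjE grh_algF2E grh_algKE

omit [CharZero L] [gr_HasJ F] in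
theorem gr_ram_algebraMap_lamK : algebraMap (lg_K L) (gr_E F) (lgh_lamK L) = gr_lamE F := rfl

omit [CharZero L] [gr_HasJ F] in
theorem gr_ram_algebraMap_lamK_inv :
    algebraMap (lg_K L) (gr_E F) (lgh_lamK L)⁻¹ = (gr_lamE F)⁻¹ := by
  rw [map_inv₀]; rfl

omit [CharZero L] in
theorem gr_ram_algebraMap_j : algebraMap (lgh_Kj L) (gr_F2 F) (lgh_j L) = gr_ram_jF2 F := rfl

/-- **regularity of the Legendre chart `λ` of `gr_E F`** (`hr1` of `gr_Key0_of_regAt`) from the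
vertical hypothesis (V) and the ramification data (R) of `j` on `F`. -/
theorem gr_ram_regAt_lam [FiniteDimensional (lgh_Kj L) (gr_E F)] {ϖ : O} (hϖ : Irreducible ϖ)
    (M : ℕ) (hM : IsUnit ((M : ℕ) : O)) (ζ : L) (hζ : IsPrimitiveRoot ζ M)
    (S : Finset (gr_E F)) (hS : IntermediateField.adjoin (lg_K L) (S : Set (gr_E F)) = ⊤)
    (hV : ∀ θ ∈ S, mdl_GoodGen O (gr_lamE F) θ)
    (D : rml_RamData L (gr_ram_jF F) M) :
    jt_RegAt (fc_chart O ({gr_lamE F} : Set (gr_E F)))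
      (algebraMap O (fc_chart O ({gr_lamE F} : Set (gr_E F))) ϖ) := by
  haveI : FiniteDimensional (lg_K L) (gr_E F) :=
    FiniteDimensional.right (lgh_Kj L) (lg_K L) (gr_E F)
  exact gr_ram_leg_regAt (gr_F2 F) hϖ (lgh_lamK L) (lg_lamK_transcendental L) (lgh_adjoin_lamK L)
    M hM ζ hζ S hS hV (lgh_adjoin_j L) (gr_ram_ramData2 F D) (grh_hgen F) (lgh_legendre_K L)

/-- **regularity of the Legendre chart `λ⁻¹` of `gr_E F`** (`hr2` of `gr_Key0_of_regAt`). -/
theorem gr_ram_regAt_lam_inv [FiniteDimensional (lgh_Kj L) (gr_E F)] {ϖ : O}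
    (hϖ : Irreducible ϖ)
    (M : ℕ) (hM : IsUnit ((M : ℕ) : O)) (ζ : L) (hζ : IsPrimitiveRoot ζ M)
    (S : Finset (gr_E F)) (hS : IntermediateField.adjoin (lg_K L) (S : Set (gr_E F)) = ⊤)
    (hV : ∀ θ ∈ S, mdl_GoodGen O (gr_lamE F)⁻¹ θ)
    (D : rml_RamData L (gr_ram_jF F) M) :
    jt_RegAt (fc_chart O ({(gr_lamE F)⁻¹} : Set (gr_E F)))
      (algebraMap O (fc_chart O ({(gr_lamE F)⁻¹} : Set (gr_E F))) ϖ) := by
  haveI : FiniteDimensional (lg_K L) (gr_E F) :=
    FiniteDimensional.right (lgh_Kj L) (lg_K L) (gr_E F)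
  have := gr_ram_leg_regAt (gr_F2 F) hϖ (lgh_lamK L)⁻¹ (lg_lamK_inv_transcendental L)
    (lg_adjoin_lamK_inv L) M hM ζ hζ S hS
    (fun θ hθ => by rw [gr_ram_algebraMap_lamK_inv]; exact hV θ hθ)
    (lgh_adjoin_j L) (gr_ram_ramData2 F D) (grh_hgen F) (lgr_legendre_K_inv L)
  rwa [gr_ram_algebraMap_lamK_inv] at this

end Leg

/-! ### The two Hesse charts of `grs_E h3 F` -/

section Hes

variable {L : Type*} [Field L] [CharZero L] (h3 : (3 : L) ≠ 0) (O : ValuationSubring L)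
  [IsDiscreteValuationRing O] (F : IntermediateField L (LaurentSeries L)) [gr_HasJ F]

attribute [local instance] hsh_algKjK grsh_algKjF3 grsh_algKjE grsh_algF3E grsh_algKE

omit [CharZero L] [gr_HasJ F] in
theorem gr_ram_algebraMap_muK :
    algebraMap (hs_K L h3) (grs_E h3 F) (hsh_muK L h3) = grs_muE h3 F := rfl

omit [CharZero L] [gr_HasJ F] in
theorem gr_ram_algebraMap_muK_inv :
    algebraMap (hs_K L h3) (grs_E h3 F) (hsh_muK L h3)⁻¹ = (grs_muE h3 F)⁻¹ := by
  rw [map_inv₀]; rfl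

omit [CharZero L] in
theorem gr_ram_algebraMap_j3 :
    algebraMap (hsh_Kj L) (grs_F3 F) (hsh_j L) = gr_ram_jF3 F := rfl

/-- **regularity of the Hesse chart `μ` of `grs_E h3 F`** (`hr1` of `grs_Key0_of_regAt`) from
the vertical hypothesis (V) and the ramification data (R) of `j` on `F`. -/
theorem gr_ram_regAt_mu [FiniteDimensional (hsh_Kj L) (grs_E h3 F)] {ϖ : O}
    (hϖ : Irreducible ϖ)
    (M : ℕ) (hM : IsUnit ((M : ℕ) : O)) (ζ : L) (hζ : IsPrimitiveRoot ζ M)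
    (h3O : IsUnit (3 : O)) (ω : O) (hω : ω ^ 2 + ω + 1 = 0)
    (S : Finset (grs_E h3 F))
    (hS : IntermediateField.adjoin (hs_K L h3) (S : Set (grs_E h3 F)) = ⊤)
    (hV : ∀ θ ∈ S, mdl_GoodGen O (grs_muE h3 F) θ)
    (D : rml_RamData L (gr_ram_jF F) M) :
    jt_RegAt (fc_chart O ({grs_muE h3 F} : Set (grs_E h3 F)))
      (algebraMap O (fc_chart O ({grs_muE h3 F} : Set (grs_E h3 F))) ϖ) := by
  haveI : FiniteDimensional (hs_K L h3) (grs_E h3 F) :=
    FiniteDimensional.right (hsh_Kj L) (hs_K L h3) (grs_E h3 F)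
  exact gr_ram_hes_regAt3 (grs_F3 F) hϖ (hsh_muK L h3) (hs_muK_transcendental L h3)
    (hsh_adjoin_muK L h3) M hM ζ hζ h3O ω hω S hS hV (hsh_adjoin_j L) (gr_ram_ramData3 F D)
    (grsh_hgen h3 F) (hsh_hesse_K L h3)

/-- **regularity of the Hesse chart `μ⁻¹` of `grs_E h3 F`** (`hr2` of `grs_Key0_of_regAt`). -/
theorem gr_ram_regAt_mu_inv [FiniteDimensional (hsh_Kj L) (grs_E h3 F)] {ϖ : O}
    (hϖ : Irreducible ϖ)
    (M : ℕ) (hM : IsUnit ((M : ℕ) : O)) (ζ : L) (hζ : IsPrimitiveRoot ζ M)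
    (h3O : IsUnit (3 : O)) (ω : O) (hω : ω ^ 2 + ω + 1 = 0)
    (S : Finset (grs_E h3 F))
    (hS : IntermediateField.adjoin (hs_K L h3) (S : Set (grs_E h3 F)) = ⊤)
    (hV : ∀ θ ∈ S, mdl_GoodGen O (grs_muE h3 F)⁻¹ θ)
    (D : rml_RamData L (gr_ram_jF F) M) :
    jt_RegAt (fc_chart O ({(grs_muE h3 F)⁻¹} : Set (grs_E h3 F)))
      (algebraMap O (fc_chart O ({(grs_muE h3 F)⁻¹} : Set (grs_E h3 F))) ϖ) := by
  haveI : FiniteDimensional (hs_K L h3) (grs_E h3 F) :=
    FiniteDimensional.right (hsh_Kj L) (hs_K L h3) (grs_E h3 F)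
  have := gr_ram_hes_regAt4 (grs_F3 F) hϖ (hsh_muK L h3)⁻¹ (hs_muK_inv_transcendental L h3)
    (hs_adjoin_muK_inv L h3) M hM ζ hζ h3O ω hω S hS
    (fun θ hθ => by rw [gr_ram_algebraMap_muK_inv]; exact hV θ hθ)
    (hsh_adjoin_j L) (gr_ram_ramData3 F D) (grsh_hgen h3 F)
    (by rw [inv_inv]; exact hsh_hesse_K L h3)
  rwa [gr_ram_algebraMap_muK_inv] at this

end Hes

end Fermat.Agent.DS
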