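/-
DS-T, cell [GR], file [GR-4b]: `grs_Key0 h3 O F p` FROM THE REGULARITY OF THE TWO STANDARD CHARTS
(Hesse cover, residue characteristic `≠ 3`; used at residue characteristic `2`).

Generic twin of `JT3/Inst/{HesseKey0, HesseH4a, HesseAssemble}.lean` for a VARIABLE subfield
`F ⊆ L((q))`; line-by-line twin of `DS/GR/Key0.lean`.
-/
import Mathlib
import Fermat.Agent.DS.GR.HesseField
import Fermat.Agent.DS.GR.Key0
import Fermat.Agent.JT3.Inst.HesseAssemble

set_option autoImplicit false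
set_option linter.style.haveILetI false

noncomputable section

open ModularCurve IntermediateField AlgebraicCurve

namespace Fermat.Agent.DS

open Fermat.Agent.JT3

section QuotField

variable {L : Type*} [Field L] (h3 : (3 : L) ≠ 0) (O : ValuationSubring L)
  (F : IntermediateField L (LaurentSeries L))

/-- every element of `E = φ(F)(μ)` is a quotient of series with coefficients in `O`. -/
theorem grs_E_le_quotField (h3O : IsUnit (3 : O)) (hq : F ≤ gq_quotField O L) :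
    grs_E h3 F ≤ gq_quotField O L := by
  rw [grs_E, sup_le_iff]
  constructor
  · rintro _ ⟨x, hx, rfl⟩
    exact gr_qExpand_mem_quotField O 3 (hq hx)
  · rw [hs_K, IntermediateField.adjoin_le_iff]
    intro x hx
    rw [Set.mem_singleton_iff] at hx
    rw [hx, hsa_mu_eq_iota h3 O h3O]
    exact gq_iota_mem_quotField _

end QuotField

section Key0

variable {L : Type*} [Field L] (h3 : (3 : L) ≠ 0) (O : ValuationSubring L)
  (F : IntermediateField L (LaurentSeries L))

/-- `μ` is transcendental over `L`. -/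
theorem grsf_mu_transcendental : Transcendental L (grs_muE h3 F) := by
  intro h
  exact hsf_mu_transcendental' L h3 (IntermediateField.isAlgebraic_iff.1 h)

/-- The model hypotheses of the F-core for the two standard charts of the `μ`-line. -/
structure grs_ModelHyp (π : O) : Prop where
  prime1 : Prime (algebraMap O (fc_chart O ({grs_muE h3 F} : Set (grs_E h3 F))) π)
  prime2 : Prime (algebraMap O (fc_chart O ({(grs_muE h3 F)⁻¹} : Set (grs_E h3 F))) π)
  prime12 : Prime (algebraMap O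
    (fc_chart O ({grs_muE h3 F, (grs_muE h3 F)⁻¹} : Set (grs_E h3 F))) π)
  reg1 : ∀ 𝔫 : Ideal (fc_chart O ({grs_muE h3 F} : Set (grs_E h3 F))), 𝔫.IsMaximal →
      algebraMap O (fc_chart O ({grs_muE h3 F} : Set (grs_E h3 F))) π ∈ 𝔫 →
      ∃ u ∈ 𝔫, ∀ z ∈ 𝔫, ∃ s, s ∉ 𝔫 ∧
        s * z ∈ Ideal.span {algebraMap O (fc_chart O ({grs_muE h3 F} : Set (grs_E h3 F))) π, u}
  reg2 : ∀ 𝔫 : Ideal (fc_chart O ({(grs_muE h3 F)⁻¹} : Set (grs_E h3 F))), 𝔫.IsMaximal →
      algebraMap O (fc_chart O ({(grs_muE h3 F)⁻¹} : Set (grs_E h3 F))) π ∈ 𝔫 →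
      ∃ u ∈ 𝔫, ∀ z ∈ 𝔫, ∃ s, s ∉ 𝔫 ∧
        s * z ∈ Ideal.span
          {algebraMap O (fc_chart O ({(grs_muE h3 F)⁻¹} : Set (grs_E h3 F))) π, u}

variable {O F}

/-- the regularity hypotheses of the F-core from the local regularity seam `jt_RegAt`. -/
theorem grs_modelHyp_of_regAt {π : O}
    (hp1 : Prime (algebraMap O (fc_chart O ({grs_muE h3 F} : Set (grs_E h3 F))) π))
    (hp2 : Prime (algebraMap O (fc_chart O ({(grs_muE h3 F)⁻¹} : Set (grs_E h3 F))) π))
    (hp12 : Prime (algebraMap O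
      (fc_chart O ({grs_muE h3 F, (grs_muE h3 F)⁻¹} : Set (grs_E h3 F))) π))
    (hr1 : jt_RegAt (fc_chart O ({grs_muE h3 F} : Set (grs_E h3 F)))
      (algebraMap O (fc_chart O ({grs_muE h3 F} : Set (grs_E h3 F))) π))
    (hr2 : jt_RegAt (fc_chart O ({(grs_muE h3 F)⁻¹} : Set (grs_E h3 F)))
      (algebraMap O (fc_chart O ({(grs_muE h3 F)⁻¹} : Set (grs_E h3 F))) π)) :
    grs_ModelHyp h3 O F π where
  prime1 := hp1
  prime2 := hp2
  prime12 := hp12
  reg1 := fun 𝔫 hmax hπ => by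
    obtain ⟨⟨u, -, hu, hgen⟩, -⟩ := hr1 𝔫 hmax hπ
    exact ⟨u, hu, hgen⟩
  reg2 := fun 𝔫 hmax hπ => by
    obtain ⟨⟨u, -, hu, hgen⟩, -⟩ := hr2 𝔫 hmax hπ
    exact ⟨u, hu, hgen⟩

variable (F) in
/-- the restriction of `φ = (q ↦ q³)` to `F`, with values in `E`. -/
def grs_phiE : F →ₐ[L] grs_E h3 F :=
  ((hs_phi L).comp F.val).codRestrict (grs_E h3 F).toSubalgebra
    (fun x => grs_phi_mem_E h3 F x.2)

theorem grs_phiE_coe (x : F) :
    ((grs_phiE h3 F x : grs_E h3 F) : LaurentSeries L) = hs_phi L (x : LaurentSeries L) :=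
  rfl

set_option synthInstance.maxHeartbeats 400000 in
/-- **`grs_Key0` from the F-core.** -/
theorem grs_Key0_of_model [CharZero L] [IsDiscreteValuationRing O] {π : O} (hπ : Irreducible π)
    (hM : grs_ModelHyp h3 O F π)
    (hx : Transcendental L (grs_muE h3 F))
    [FiniteDimensional L⟮grs_muE h3 F⟯ (grs_E h3 F)]
    (hconst : ∀ z : grs_E h3 F, IsAlgebraic L z → z ∈ (algebraMap L (grs_E h3 F)).range)
    (p : ℕ) (hp : IsUnit ((p : ℕ) : O))
    (h4a : ∀ (y1 y2 : LaurentSeries O)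
      (h1 : coeffMap O.subtype y1 ∈ F) (h2 : coeffMap O.subtype y2 ∈ F),
      coeffMap (IsLocalRing.residue O) y1 = coeffMap (IsLocalRing.residue O) y2 →
      coeffMap (IsLocalRing.residue O) y2 ≠ 0 →
      ∀ f : F,
        f * (⟨coeffMap O.subtype y2, h2⟩ : F) = (⟨coeffMap O.subtype y1, h1⟩ : F) →
        grs_phiE h3 F f - 1 ∈ fc_piO hM.prime12) :
    grs_Key0 h3 O F p := by
  intro y1 y2 h1 h2 hred hred0 f hf hord
  haveI : IsScalarTower O L (grs_E h3 F) := IsScalarTower.of_algebraMap_eq fun _ => rfl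
  by_cases hf0 : f = 0
  · refine ⟨0, 0, zero_mem _, ?_⟩
    rw [hf0]
    simp
  have hfE : grs_phiE h3 F f ≠ 0 := fun h => hf0 ((map_eq_zero (grs_phiE h3 F)).1 h)
  obtain ⟨c, g, -, hcg⟩ := fc_funField (L := L) hπ hx hconst p hp (grs_phiE h3 F f) hfE hM.prime1
    hM.prime2 hM.prime12 hM.reg1 hM.reg2 (h4a y1 y2 h1 h2 hred hred0 f hf)
    (fun P => lg_dvd_ord_of_embedding (grs_phiE h3 F) (p : ℤ) f hord P)
  refine ⟨algebraMap O L c, (g : LaurentSeries L), g.2, ?_⟩
  have hcg3 := congrArg (fun z : grs_E h3 F => (z : LaurentSeries L)) hcg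
  have hcg4 : ((algebraMap O (grs_E h3 F) c : grs_E h3 F) : LaurentSeries L)
      = algebraMap L (LaurentSeries L) (algebraMap O L c) := rfl
  simp only [MulMemClass.coe_mul, SubmonoidClass.coe_pow, grs_phiE_coe, hcg4] at hcg3
  exact hcg3

/-- **(h4a) for the Hesse cover** (generic twin of `hsa_h4a`). -/
theorem grsa_h4a [IsDiscreteValuationRing O] (hq : F ≤ gq_quotField O L) (π : O)
    (hπ : Irreducible π) (h3O : IsUnit (3 : O))
    [Algebra.IsAlgebraic
      (Algebra.adjoin O ({grs_muE h3 F, (grs_muE h3 F)⁻¹} : Set (grs_E h3 F))) (grs_E h3 F)]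
    (hπ12 : Prime
      (algebraMap O (fc_chart O ({grs_muE h3 F, (grs_muE h3 F)⁻¹} : Set (grs_E h3 F))) π))
    (y1 y2 : LaurentSeries O)
    (h1 : coeffMap O.subtype y1 ∈ F) (h2' : coeffMap O.subtype y2 ∈ F)
    (hred : coeffMap (IsLocalRing.residue O) y1 = coeffMap (IsLocalRing.residue O) y2)
    (hy2 : coeffMap (IsLocalRing.residue O) y2 ≠ 0)
    (f : F)
    (hf : f * (⟨coeffMap O.subtype y2, h2'⟩ : F) = ⟨coeffMap O.subtype y1, h1⟩) :
    grs_phiE h3 F f - 1 ∈ fc_piO (F := (grs_E h3 F)) hπ12 := by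
  haveI : IsScalarTower O L (grs_E h3 F) := IsScalarTower.of_algebraMap_eq fun _ => rfl
  have hπ0 : π ≠ 0 := hπ.ne_zero
  have hπm : IsLocalRing.maximalIdeal O = Ideal.span {π} := hπ.maximalIdeal_eq
  have h3k : IsUnit (3 : IsLocalRing.ResidueField O) := by
    have := h3O.map (IsLocalRing.residue O)
    rwa [map_ofNat] at this
  refine gq_h4a_fc_of_iota π hπ0 hπm (grs_E h3 F) (grs_E_le_quotField h3 O F h3O hq)
    (grs_muE h3 F) (hm_mu O h3O) (hsa_mu_eq_iota h3 O h3O) ?_ hπ12 (qExpand O 3 y1)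
    (qExpand O 3 y2) ?_ ?_ _ ?_
  · intro p hp
    rw [hm_coeffMap_mu (IsLocalRing.residue O) h3O h3k] at hp
    exact hsa_mu_transc _ h3k p hp
  · rw [coeffMap_qExpand, coeffMap_qExpand, hred]
  · rw [coeffMap_qExpand]
    intro h0
    apply hy2
    exact (qExpand (IsLocalRing.ResidueField O) 3).injective (by rw [h0, map_zero])
  · change hs_phi L (f : LaurentSeries L) * coeffMap (algebraMap O L) (qExpand O 3 y2) =
      coeffMap (algebraMap O L) (qExpand O 3 y1)
    rw [coeffMap_qExpand, coeffMap_qExpand, ← hs_phi_apply, ← hs_phi_apply, ← map_mul]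
    congr 1
    exact congrArg Subtype.val hf

set_option maxHeartbeats 1000000 in
/-- **`grs_Key0` from the regularity of the two standard charts.** -/
theorem grs_Key0_of_regAt [CharZero L] [IsDiscreteValuationRing O] (hq : F ≤ gq_quotField O L)
    [FiniteDimensional L⟮grs_muE h3 F⟯ (grs_E h3 F)] {π : O} (hπ : Irreducible π)
    (h3O : IsUnit (3 : O))
    (hr1 : jt_RegAt (fc_chart O ({grs_muE h3 F} : Set (grs_E h3 F)))
      (algebraMap O (fc_chart O ({grs_muE h3 F} : Set (grs_E h3 F))) π))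
    (hr2 : jt_RegAt (fc_chart O ({(grs_muE h3 F)⁻¹} : Set (grs_E h3 F)))
      (algebraMap O (fc_chart O ({(grs_muE h3 F)⁻¹} : Set (grs_E h3 F))) π))
    (p : ℕ) (hp : IsUnit ((p : ℕ) : O)) : grs_Key0 h3 O F p := by
  haveI : IsScalarTower O L (grs_E h3 F) := IsScalarTower.of_algebraMap_eq fun _ => rfl
  have hx : Transcendental L (grs_muE h3 F) := grsf_mu_transcendental h3 F
  have hconst : ∀ z : grs_E h3 F, IsAlgebraic L z → z ∈ (algebraMap L (grs_E h3 F)).range :=
    fun z hz => lgf_hconst (grs_E h3 F) z hz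
  obtain ⟨hp1, hp2, hp12⟩ := cn_prime_funField (K0 := L) hπ hx hconst
    (fun n hn hπn => (hr1 n hn hπn).2) (fun n hn hπn => (hr2 n hn hπn).2)
  have hM : grs_ModelHyp h3 O F π := grs_modelHyp_of_regAt h3 hp1 hp2 hp12 hr1 hr2
  refine grs_Key0_of_model h3 hπ hM hx hconst p hp ?_
  intro y1 y2 h1 h2' hred hred0 f hf
  haveI : Algebra.IsAlgebraic
      (Algebra.adjoin O ({grs_muE h3 F, (grs_muE h3 F)⁻¹} : Set (grs_E h3 F))) (grs_E h3 F) :=
    fc_ff_isAlgebraic_mono (S := {grs_muE h3 F}) (T := {grs_muE h3 F, (grs_muE h3 F)⁻¹})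
      (by simp) (fc_ff_isAlgebraic (L := L) (grs_muE h3 F))
  exact grsa_h4a h3 hq π hπ h3O hp12 y1 y2 h1 h2' hred hred0 f hf

end Key0

end Fermat.Agent.DS

end
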