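/-
DS-T, cell [GR], file [GR-8a]: THE REGULARITY (`jt_RegAt`) OF THE TWO STANDARD CHARTS of the
Legendre model of `E = φ(F)(λ)`, from the generic model theorem, the vertical hypothesis (V) and the
ramification hypotheses (H), (T).  Generic twin of `JT3/Inst/{Reg, RegApply}.lean` for a VARIABLE
subfield `F ⊆ L((q))`.

* instances `gr_algOE`, `gr_tower_*` : the data `(K, E) = (L(λ), φ(F)(λ))` over `O`;
* `gr_RamHyp F M x`  : the hypotheses `hH`, `hT` of the model theorem for `C = {0, 1}`, ramification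
                       indices dividing `M` (= `lg_RamHyp` with the level a variable);
* `gr_VertGG O F x`  : the vertical hypothesis in GOOD-GENERATOR form (hypotheses `S, hS, hV` of the
                       landed `mdl_regAt`);
* `gr_regAt_apply_gg`, `gr_regAt_lam_gg`, `gr_regAt_lam_inv_gg` : `jt_RegAt` of the charts.
The intrinsic-(V) variants (`gr_VertHyp`, consuming helper20's `el_pg_regAt_intr`) are in
`DS/GR/RegIntr.lean`.
-/
import Mathlib
import Fermat.Agent.DS.GR.Finite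
import Fermat.Agent.JT3.Inst.RegApply

set_option autoImplicit false
set_option linter.style.haveILetI false

noncomputable section

open Polynomial IntermediateField ModularCurve

namespace Fermat.Agent.DS

open Fermat.Agent.JT3

section Instances

variable {L : Type*} [Field L] (O : ValuationSubring L)
  (F : IntermediateField L (LaurentSeries L))

/-- shortcut (this is the term found by instance search; declared to keep the search fast). -/
instance gr_algOE : Algebra ↥O ↥(gr_E F) := Algebra.ofSubsemiring O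

/-- shortcut (this is the term found by instance search; declared to keep the search fast). -/
instance gr_algV2K (V2 : Subring ↥(lg_K L)) : Algebra ↥V2 ↥(lg_K L) := Algebra.ofSubsemiring V2

instance gr_tower_O_L_E : IsScalarTower ↥O L ↥(gr_E F) :=
  IsScalarTower.of_algebraMap_eq (fun _ => rfl)

attribute [local instance] grh_algKE

instance gr_tower_L_K_E : IsScalarTower L (lg_K L) (gr_E F) :=
  lgh_isScalarTower_base (gr_K_le_E F)

instance gr_tower_O_K_E : IsScalarTower ↥O (lg_K L) (gr_E F) :=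
  IsScalarTower.of_algebraMap_eq (fun _ => rfl)

theorem gr_algebraMap_lamK : algebraMap (lg_K L) (gr_E F) (lgh_lamK L) = gr_lamE F := rfl

theorem gr_algebraMap_lamK_inv :
    algebraMap (lg_K L) (gr_E F) (lgh_lamK L)⁻¹ = (gr_lamE F)⁻¹ := by
  rw [map_inv₀]; rfl

end Instances

section Facts

variable {L : Type*} [Field L] [CharZero L] (F : IntermediateField L (LaurentSeries L))

/-- `j' = j(q²)` as an element of `E`. -/
def grf_j2E [gr_HasJ F] : gr_E F := ⟨lg_j2 L, gr_j2_mem_E F⟩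

theorem grf_legendreE [gr_HasJ F] :
    256 * ((gr_lamE F : gr_E F) ^ 2 - gr_lamE F + 1) ^ 3
      = grf_j2E F * (gr_lamE F : gr_E F) ^ 2 * ((gr_lamE F : gr_E F) - 1) ^ 2 :=
  Subtype.ext (lg_legendre L)

theorem gr_rel_lamE [gr_HasJ F] :
    cv_legN (gr_lamE F : gr_E F) = grf_j2E F * cv_legD (gr_lamE F) := by
  have h := grf_legendreE F
  unfold cv_legN cv_legD
  rw [h]; ring

end Facts

section Apply

variable {L : Type*} [Field L] [CharZero L] (O : ValuationSubring L) [IsDiscreteValuationRing O]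
  (F : IntermediateField L (LaurentSeries L))

attribute [local instance] grh_algKE

/-- the hypotheses `hH`, `hT` of the model theorem for `(K, E, x, C) = (L(λ), E, x, {0, 1})`, in
explicit form; ramification indices divide `M`. -/
structure gr_RamHyp (M : ℕ) (x : lg_K L) : Prop where
  hH : ∀ (V2 : Subring (lg_K L)) [IsDiscreteValuationRing V2] [IsFractionRing V2 (lg_K L)],
      (∀ a : L, algebraMap L (lg_K L) a ∈ V2) → x ∈ V2 → x⁻¹ ∈ V2 → (x - 1)⁻¹ ∈ V2 →
      jt_UnramAt V2 (gr_E F)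
  hT0 : ∀ (V2 : Subring (lg_K L)) [IsDiscreteValuationRing V2] [IsFractionRing V2 (lg_K L)],
      (∀ a : L, algebraMap L (lg_K L) a ∈ V2) → x ∈ V2 → x⁻¹ ∉ V2 →
      ∀ (P : Ideal (integralClosure V2 (gr_E F))) [P.IsPrime], P ≠ ⊥ →
        P.ramificationIdx V2 ∣ M
  hT1 : ∀ (V2 : Subring (lg_K L)) [IsDiscreteValuationRing V2] [IsFractionRing V2 (lg_K L)],
      (∀ a : L, algebraMap L (lg_K L) a ∈ V2) → x ∈ V2 → (x - 1)⁻¹ ∉ V2 →
      ∀ (P : Ideal (integralClosure V2 (gr_E F))) [P.IsPrime], P ≠ ⊥ →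
        P.ramificationIdx V2 ∣ M

/-- the vertical hypothesis (V) in GOOD-GENERATOR form: `E = K(S)` with `S` finite and every
`θ ∈ S` a good generator for the coordinate `x`. -/
def gr_VertGG (x : lg_K L) : Prop :=
  ∃ S : Finset (gr_E F), IntermediateField.adjoin (lg_K L) (S : Set (gr_E F)) = ⊤ ∧
    ∀ θ ∈ S, mdl_GoodGen O (algebraMap (lg_K L) (gr_E F) x) θ

theorem gr_regAt_apply_gg (hA : gr_A1 F) {π : O} (hπ : Irreducible π) (ℓ : ℕ) [Fact ℓ.Prime]
    (hℓ : ((ℓ : ℕ) : O) ∈ IsLocalRing.maximalIdeal O) (M : ℕ) [NeZero M]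
    (hℓM : ¬ ℓ ∣ M) (ζ : L) (hζ : IsPrimitiveRoot ζ M)
    (x : lg_K L) (hx : Transcendental L x) (hgenK : IntermediateField.adjoin L {x} = ⊤)
    (hvert : gr_VertGG O F x) (hram : gr_RamHyp F M x) :
    jt_RegAt (fc_chart O ({algebraMap (lg_K L) (gr_E F) x} : Set (gr_E F)))
      (algebraMap O (fc_chart O ({algebraMap (lg_K L) (gr_E F) x} : Set (gr_E F))) π) := by
  classical
  have hℓp : ℓ.Prime := Fact.out
  have hM : IsUnit ((M : ℕ) : O) :=
    lg_isUnit_natCast hℓ ((Nat.Coprime.symm ((Nat.Prime.coprime_iff_not_dvd hℓp).2 hℓM)))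
  haveI : FiniteDimensional (lg_K L) (gr_E F) := grf_tower_finite_K_E hA
  have hC : ∀ c ∈ ({0, 1} : Finset O), ∀ c' ∈ ({0, 1} : Finset O), c ≠ c' → IsUnit (c - c') := by
    intro c hc c' hc' hne
    simp only [Finset.mem_insert, Finset.mem_singleton] at hc hc'
    rcases hc with rfl | rfl <;> rcases hc' with rfl | rfl
    · exact absurd rfl hne
    · simp
    · simp
    · exact absurd rfl hne
  obtain ⟨S, hS, hV⟩ := hvert
  refine mdl_regAt hπ x hx hgenK M hM ζ hζ {0, 1} hC S hS hV ?_ ?_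
  · intro V2 _ _ hL hxV hc
    refine hram.hH V2 hL hxV ?_ ?_
    · have := hc 0 (by simp)
      rwa [map_zero, sub_zero] at this
    · have := hc 1 (by simp)
      rwa [map_one] at this
  · intro c hc V2 _ _ hL hxV hcV
    simp only [Finset.mem_insert, Finset.mem_singleton] at hc
    rcases hc with rfl | rfl
    · rw [map_zero, sub_zero] at hcV
      exact hram.hT0 V2 hL hxV hcV
    · rw [map_one] at hcV
      exact hram.hT1 V2 hL hxV hcV

theorem gr_regAt_lam_gg (hA : gr_A1 F) {π : O} (hπ : Irreducible π) (ℓ : ℕ) [Fact ℓ.Prime]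
    (hℓ : ((ℓ : ℕ) : O) ∈ IsLocalRing.maximalIdeal O) (M : ℕ) [NeZero M]
    (hℓM : ¬ ℓ ∣ M) (ζ : L) (hζ : IsPrimitiveRoot ζ M)
    (hvert : gr_VertGG O F (lgh_lamK L)) (hram : gr_RamHyp F M (lgh_lamK L)) :
    jt_RegAt (fc_chart O ({gr_lamE F} : Set (gr_E F)))
      (algebraMap O (fc_chart O ({gr_lamE F} : Set (gr_E F))) π) :=
  gr_regAt_apply_gg O F hA hπ ℓ hℓ M hℓM ζ hζ (lgh_lamK L) (lg_lamK_transcendental L)
    (lgh_adjoin_lamK L) hvert hram

theorem gr_regAt_lam_inv_gg (hA : gr_A1 F) {π : O} (hπ : Irreducible π) (ℓ : ℕ) [Fact ℓ.Prime]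
    (hℓ : ((ℓ : ℕ) : O) ∈ IsLocalRing.maximalIdeal O) (M : ℕ) [NeZero M]
    (hℓM : ¬ ℓ ∣ M) (ζ : L) (hζ : IsPrimitiveRoot ζ M)
    (hvert : gr_VertGG O F (lgh_lamK L)⁻¹) (hram : gr_RamHyp F M (lgh_lamK L)⁻¹) :
    jt_RegAt (fc_chart O ({(gr_lamE F)⁻¹} : Set (gr_E F)))
      (algebraMap O (fc_chart O ({(gr_lamE F)⁻¹} : Set (gr_E F))) π) := by
  have := gr_regAt_apply_gg O F hA hπ ℓ hℓ M hℓM ζ hζ (lgh_lamK L)⁻¹
    (lg_lamK_inv_transcendental L) (lg_adjoin_lamK_inv L) hvert hram
  rwa [gr_algebraMap_lamK_inv] at this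

end Apply

end Fermat.Agent.DS

end
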