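/-
DS-T, cell [GR], file [GR-8b]: THE REGULARITY (`jt_RegAt`) OF THE TWO STANDARD CHARTS of the
Hesse model of `E = φ(F)(μ)` (`3 ≠ 0`; used at residue characteristic `2`).  Generic twin of
`JT3/Inst/{HesseReg, HesseRegApply}.lean` for a VARIABLE subfield `F ⊆ L((q))`; twin of
`DS/GR/Reg.lean`.

* `grs_RamHyp3 h3 F M x ω` (`C = {1, ω, ω²}`), `grs_RamHyp4 h3 F M x ω` (`C = {0, 1, ω, ω²}`);
* `grs_VertGG h3 O F x` : the vertical hypothesis in good-generator form;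
* `grs_regAt_apply3_gg`, `grs_regAt_apply4_gg`, `grs_regAt_mu_gg`, `grs_regAt_mu_inv_gg`.
-/
import Mathlib
import Fermat.Agent.DS.GR.Reg
import Fermat.Agent.JT3.Inst.HesseRegApply

set_option autoImplicit false
set_option linter.style.haveILetI false
set_option linter.unusedSectionVars false

noncomputable section

open Polynomial IntermediateField ModularCurve

namespace Fermat.Agent.DS

open Fermat.Agent.JT3

section Instances

variable {L : Type*} [Field L] (h3 : (3 : L) ≠ 0) (O : ValuationSubring L)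
  (F : IntermediateField L (LaurentSeries L))

/-- shortcut (this is the term found by instance search; declared to keep the search fast). -/
instance grs_algOE : Algebra ↥O ↥(grs_E h3 F) := Algebra.ofSubsemiring O

/-- shortcut (this is the term found by instance search; declared to keep the search fast). -/
instance grs_algV2K (V2 : Subring ↥(hs_K L h3)) : Algebra ↥V2 ↥(hs_K L h3) :=
  Algebra.ofSubsemiring V2

instance grs_tower_O_L_E : IsScalarTower ↥O L ↥(grs_E h3 F) :=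
  IsScalarTower.of_algebraMap_eq (fun _ => rfl)

attribute [local instance] grsh_algKE

instance grs_tower_L_K_E : IsScalarTower L (hs_K L h3) (grs_E h3 F) :=
  lgh_isScalarTower_base (grs_K_le_E h3 F)

instance grs_tower_O_K_E : IsScalarTower ↥O (hs_K L h3) (grs_E h3 F) :=
  IsScalarTower.of_algebraMap_eq (fun _ => rfl)

theorem grs_algebraMap_muK :
    algebraMap (hs_K L h3) (grs_E h3 F) (hsh_muK L h3) = grs_muE h3 F := rfl

theorem grs_algebraMap_muK_inv :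
    algebraMap (hs_K L h3) (grs_E h3 F) (hsh_muK L h3)⁻¹ = (grs_muE h3 F)⁻¹ := by
  rw [map_inv₀]; rfl

end Instances

section HInst

variable {L : Type*} [Field L] [CharZero L] (h3 : (3 : L) ≠ 0) (O : ValuationSubring L)
  [IsDiscreteValuationRing O] (F : IntermediateField L (LaurentSeries L))

attribute [local instance] grsh_algKE

/-- the hypotheses `hH`, `hT` of the model theorem for `(K, E, x, C) = (L(μ), E, x, {1, ω, ω²})`,
in explicit form; ramification indices divide `M`. -/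
structure grs_RamHyp3 (M : ℕ) (x : hs_K L h3) (ω : L) : Prop where
  hH : ∀ (V2 : Subring (hs_K L h3)) [IsDiscreteValuationRing V2] [IsFractionRing V2 (hs_K L h3)],
      (∀ a : L, algebraMap L (hs_K L h3) a ∈ V2) → x ∈ V2 → (x - 1)⁻¹ ∈ V2 →
      (x - algebraMap L (hs_K L h3) ω)⁻¹ ∈ V2 → (x - algebraMap L (hs_K L h3) (ω ^ 2))⁻¹ ∈ V2 →
      jt_UnramAt V2 (grs_E h3 F)
  hT : ∀ c : L, c ^ 3 = 1 → ∀ (V2 : Subring (hs_K L h3)) [IsDiscreteValuationRing V2]
      [IsFractionRing V2 (hs_K L h3)],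
      (∀ a : L, algebraMap L (hs_K L h3) a ∈ V2) → x ∈ V2 →
      (x - algebraMap L (hs_K L h3) c)⁻¹ ∉ V2 →
      ∀ (P : Ideal (integralClosure V2 (grs_E h3 F))) [P.IsPrime], P ≠ ⊥ →
        P.ramificationIdx V2 ∣ M

/-- the same at the chart at infinity: `C = {0, 1, ω, ω²}`. -/
structure grs_RamHyp4 (M : ℕ) (x : hs_K L h3) (ω : L) : Prop where
  hH : ∀ (V2 : Subring (hs_K L h3)) [IsDiscreteValuationRing V2] [IsFractionRing V2 (hs_K L h3)],
      (∀ a : L, algebraMap L (hs_K L h3) a ∈ V2) → x ∈ V2 → x⁻¹ ∈ V2 → (x - 1)⁻¹ ∈ V2 →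
      (x - algebraMap L (hs_K L h3) ω)⁻¹ ∈ V2 → (x - algebraMap L (hs_K L h3) (ω ^ 2))⁻¹ ∈ V2 →
      jt_UnramAt V2 (grs_E h3 F)
  hT0 : ∀ (V2 : Subring (hs_K L h3)) [IsDiscreteValuationRing V2]
      [IsFractionRing V2 (hs_K L h3)],
      (∀ a : L, algebraMap L (hs_K L h3) a ∈ V2) → x ∈ V2 → x⁻¹ ∉ V2 →
      ∀ (P : Ideal (integralClosure V2 (grs_E h3 F))) [P.IsPrime], P ≠ ⊥ →
        P.ramificationIdx V2 ∣ M
  hT : ∀ c : L, c ^ 3 = 1 → ∀ (V2 : Subring (hs_K L h3)) [IsDiscreteValuationRing V2]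
      [IsFractionRing V2 (hs_K L h3)],
      (∀ a : L, algebraMap L (hs_K L h3) a ∈ V2) → x ∈ V2 →
      (x - algebraMap L (hs_K L h3) c)⁻¹ ∉ V2 →
      ∀ (P : Ideal (integralClosure V2 (grs_E h3 F))) [P.IsPrime], P ≠ ⊥ →
        P.ramificationIdx V2 ∣ M

/-- the vertical hypothesis (V) in GOOD-GENERATOR form. -/
def grs_VertGG (x : hs_K L h3) : Prop :=
  ∃ S : Finset (grs_E h3 F), IntermediateField.adjoin (hs_K L h3) (S : Set (grs_E h3 F)) = ⊤ ∧
    ∀ θ ∈ S, mdl_GoodGen O (algebraMap (hs_K L h3) (grs_E h3 F) x) θ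

variable {O}

theorem grs_regAt_apply3_gg (hA : gr_A1 F) {π : O} (hπ : Irreducible π) (ℓ : ℕ) [Fact ℓ.Prime]
    (hℓ : ((ℓ : ℕ) : O) ∈ IsLocalRing.maximalIdeal O) (hℓ3 : ℓ ≠ 3) (M : ℕ) [NeZero M]
    (hℓM : ¬ ℓ ∣ M) (ζ : L) (hζ : IsPrimitiveRoot ζ M) (ω : O) (hω : ω ^ 2 + ω + 1 = 0)
    (x : hs_K L h3) (hx : Transcendental L x) (hgenK : IntermediateField.adjoin L {x} = ⊤)
    (hvert : grs_VertGG h3 O F x) (hram : grs_RamHyp3 h3 F M x (ω : L)) :
    jt_RegAt (fc_chart O ({algebraMap (hs_K L h3) (grs_E h3 F) x} : Set (grs_E h3 F)))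
      (algebraMap O (fc_chart O ({algebraMap (hs_K L h3) (grs_E h3 F) x} : Set (grs_E h3 F)))
        π) := by
  classical
  have hℓp : ℓ.Prime := Fact.out
  have hM : IsUnit ((M : ℕ) : O) :=
    lg_isUnit_natCast hℓ ((Nat.Coprime.symm ((Nat.Prime.coprime_iff_not_dvd hℓp).2 hℓM)))
  have h3O : IsUnit (3 : O) := by
    have := lg_isUnit_natCast hℓ (m := 3)
      ((Nat.coprime_primes Nat.prime_three hℓp).2 (Ne.symm hℓ3))
    simpa using this
  haveI : FiniteDimensional (hs_K L h3) (grs_E h3 F) :=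
    grsf_tower_finite_E h3 hA (hs_K L h3) (hs_j3_mem_K L h3) (grs_K_le_E h3 F)
  obtain ⟨u1, u2, u3, -⟩ := hs_cube_units h3O ω hω
  have hω3 : ω ^ 3 = 1 := by linear_combination (ω - 1) * hω
  have hC : ∀ c ∈ ({1, ω, ω ^ 2} : Finset O), ∀ c' ∈ ({1, ω, ω ^ 2} : Finset O), c ≠ c' →
      IsUnit (c - c') := by
    intro c hc c' hc' hne
    simp only [Finset.mem_insert, Finset.mem_singleton] at hc hc'
    rcases hc with rfl | rfl | rfl <;> rcases hc' with rfl | rfl | rfl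
    · exact absurd rfl hne
    · exact u1
    · exact u2
    · exact hs_isUnit_sub_comm u1
    · exact absurd rfl hne
    · exact u3
    · exact hs_isUnit_sub_comm u2
    · exact hs_isUnit_sub_comm u3
    · exact absurd rfl hne
  obtain ⟨S, hS, hV⟩ := hvert
  refine mdl_regAt hπ x hx hgenK M hM ζ hζ {1, ω, ω ^ 2} hC S hS hV ?_ ?_
  · intro V2 _ _ hL hxV hc
    refine hram.hH V2 hL hxV ?_ ?_ ?_
    · have := hc 1 (by simp)
      rwa [map_one] at this
    · exact hc ω (by simp)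
    · have := hc (ω ^ 2) (by simp)
      rwa [hs_algebraMap_O_K] at this
  · intro c hc V2 _ _ hL hxV hcV
    refine hram.hT (c : L) ?_ V2 hL hxV hcV
    simp only [Finset.mem_insert, Finset.mem_singleton] at hc
    rcases hc with rfl | rfl | rfl
    · simp
    · exact_mod_cast congrArg (fun z : O => (z : L)) hω3
    · have : (ω ^ 2) ^ 3 = (ω ^ 3) ^ 2 := by ring
      have h2 : (ω ^ 2) ^ 3 = (1 : O) := by rw [this, hω3]; ring
      exact_mod_cast congrArg (fun z : O => (z : L)) h2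

theorem grs_regAt_apply4_gg (hA : gr_A1 F) {π : O} (hπ : Irreducible π) (ℓ : ℕ) [Fact ℓ.Prime]
    (hℓ : ((ℓ : ℕ) : O) ∈ IsLocalRing.maximalIdeal O) (hℓ3 : ℓ ≠ 3) (M : ℕ) [NeZero M]
    (hℓM : ¬ ℓ ∣ M) (ζ : L) (hζ : IsPrimitiveRoot ζ M) (ω : O) (hω : ω ^ 2 + ω + 1 = 0)
    (x : hs_K L h3) (hx : Transcendental L x) (hgenK : IntermediateField.adjoin L {x} = ⊤)
    (hvert : grs_VertGG h3 O F x) (hram : grs_RamHyp4 h3 F M x (ω : L)) :
    jt_RegAt (fc_chart O ({algebraMap (hs_K L h3) (grs_E h3 F) x} : Set (grs_E h3 F)))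
      (algebraMap O (fc_chart O ({algebraMap (hs_K L h3) (grs_E h3 F) x} : Set (grs_E h3 F)))
        π) := by
  classical
  have hℓp : ℓ.Prime := Fact.out
  have hM : IsUnit ((M : ℕ) : O) :=
    lg_isUnit_natCast hℓ ((Nat.Coprime.symm ((Nat.Prime.coprime_iff_not_dvd hℓp).2 hℓM)))
  have h3O : IsUnit (3 : O) := by
    have := lg_isUnit_natCast hℓ (m := 3)
      ((Nat.coprime_primes Nat.prime_three hℓp).2 (Ne.symm hℓ3))
    simpa using this
  haveI : FiniteDimensional (hs_K L h3) (grs_E h3 F) :=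
    grsf_tower_finite_E h3 hA (hs_K L h3) (hs_j3_mem_K L h3) (grs_K_le_E h3 F)
  obtain ⟨u1, u2, u3, u4⟩ := hs_cube_units h3O ω hω
  have hω3 : ω ^ 3 = 1 := by linear_combination (ω - 1) * hω
  have u5 : IsUnit (ω ^ 2) := u4.pow 2
  have hC : ∀ c ∈ ({0, 1, ω, ω ^ 2} : Finset O), ∀ c' ∈ ({0, 1, ω, ω ^ 2} : Finset O), c ≠ c' →
      IsUnit (c - c') := by
    intro c hc c' hc' hne
    simp only [Finset.mem_insert, Finset.mem_singleton] at hc hc'
    rcases hc with rfl | rfl | rfl | rfl <;> rcases hc' with rfl | rfl | rfl | rfl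
    · exact absurd rfl hne
    · simp
    · rw [zero_sub]; exact u4.neg
    · rw [zero_sub]; exact u5.neg
    · simp
    · exact absurd rfl hne
    · exact u1
    · exact u2
    · rw [sub_zero]; exact u4
    · exact hs_isUnit_sub_comm u1
    · exact absurd rfl hne
    · exact u3
    · rw [sub_zero]; exact u5
    · exact hs_isUnit_sub_comm u2
    · exact hs_isUnit_sub_comm u3
    · exact absurd rfl hne
  obtain ⟨S, hS, hV⟩ := hvert
  refine mdl_regAt hπ x hx hgenK M hM ζ hζ {0, 1, ω, ω ^ 2} hC S hS hV ?_ ?_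
  · intro V2 _ _ hL hxV hc
    refine hram.hH V2 hL hxV ?_ ?_ ?_ ?_
    · have := hc 0 (by simp)
      rwa [map_zero, sub_zero] at this
    · have := hc 1 (by simp)
      rwa [map_one] at this
    · exact hc ω (by simp)
    · have := hc (ω ^ 2) (by simp)
      rwa [hs_algebraMap_O_K] at this
  · intro c hc V2 _ _ hL hxV hcV
    simp only [Finset.mem_insert, Finset.mem_singleton] at hc
    rcases hc with rfl | hc
    · rw [map_zero, sub_zero] at hcV
      exact hram.hT0 V2 hL hxV hcV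
    refine hram.hT (c : L) ?_ V2 hL hxV hcV
    rcases hc with rfl | rfl | rfl
    · simp
    · exact_mod_cast congrArg (fun z : O => (z : L)) hω3
    · have : (ω ^ 2) ^ 3 = (ω ^ 3) ^ 2 := by ring
      have h2 : (ω ^ 2) ^ 3 = (1 : O) := by rw [this, hω3]; ring
      exact_mod_cast congrArg (fun z : O => (z : L)) h2

/-- the chart `μ ≠ ∞`. -/
theorem grs_regAt_mu_gg (hA : gr_A1 F) {π : O} (hπ : Irreducible π) (ℓ : ℕ) [Fact ℓ.Prime]
    (hℓ : ((ℓ : ℕ) : O) ∈ IsLocalRing.maximalIdeal O) (hℓ3 : ℓ ≠ 3) (M : ℕ) [NeZero M]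
    (hℓM : ¬ ℓ ∣ M) (ζ : L) (hζ : IsPrimitiveRoot ζ M) (ω : O) (hω : ω ^ 2 + ω + 1 = 0)
    (hvert : grs_VertGG h3 O F (hsh_muK L h3))
    (hram : grs_RamHyp3 h3 F M (hsh_muK L h3) (ω : L)) :
    jt_RegAt (fc_chart O ({grs_muE h3 F} : Set (grs_E h3 F)))
      (algebraMap O (fc_chart O ({grs_muE h3 F} : Set (grs_E h3 F))) π) :=
  grs_regAt_apply3_gg h3 F hA hπ ℓ hℓ hℓ3 M hℓM ζ hζ ω hω (hsh_muK L h3)
    (hs_muK_transcendental L h3) (hsh_adjoin_muK L h3) hvert hram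

/-- the chart `μ ≠ 0`. -/
theorem grs_regAt_mu_inv_gg (hA : gr_A1 F) {π : O} (hπ : Irreducible π) (ℓ : ℕ) [Fact ℓ.Prime]
    (hℓ : ((ℓ : ℕ) : O) ∈ IsLocalRing.maximalIdeal O) (hℓ3 : ℓ ≠ 3) (M : ℕ) [NeZero M]
    (hℓM : ¬ ℓ ∣ M) (ζ : L) (hζ : IsPrimitiveRoot ζ M) (ω : O) (hω : ω ^ 2 + ω + 1 = 0)
    (hvert : grs_VertGG h3 O F (hsh_muK L h3)⁻¹)
    (hram : grs_RamHyp4 h3 F M (hsh_muK L h3)⁻¹ (ω : L)) :
    jt_RegAt (fc_chart O ({(grs_muE h3 F)⁻¹} : Set (grs_E h3 F)))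
      (algebraMap O (fc_chart O ({(grs_muE h3 F)⁻¹} : Set (grs_E h3 F))) π) := by
  have := grs_regAt_apply4_gg h3 F hA hπ ℓ hℓ hℓ3 M hℓM ζ hζ ω hω (hsh_muK L h3)⁻¹
    (hs_muK_inv_transcendental L h3) (hs_adjoin_muK_inv L h3) hvert hram
  rwa [grs_algebraMap_muK_inv] at this

end HInst

end Fermat.Agent.DS

end
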