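/-
DS-T / [GR-7] (helper7): NODE (C) = `ConstRed` FOR A GENERIC FINITELY GENERATED FIELD OF
`q`-SERIES, FROM (A1) ALONE.

Generic port of `JT3/S18/ConstRed.lean`.  `k` an algebraically closed field of characteristic `ℓ`,
`Ft ⊆ k((q))` generated over `k` by a FINITE set `S ∋ j̃` of series which are algebraic over `k(j̃)`.
Then `j̃` is a separating generator of `Ft / k` — separability is AUTOMATIC (MacLane: `ord_q j̃ = -1`
is prime to `ℓ`, `lsp_isSeparable_of_algHom`), no hypothesis `ℓ ∤ level` is needed — and a nonzero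
function of `Ft` without zeros and poles is constant (`rt_const_of_forall_mem`).

Moreover the algebraicity over `k(j̃)` of the REDUCED generators follows from (A1) over `ℚ`:
if `x, y ∈ ℤ((q))` and `y_ℚ` is algebraic over `ℚ(x_ℚ)`, then `P(x, y) = 0` for a nonzero
`P ∈ ℤ[X][Y]` (clear denominators), one may divide `P` by the highest power of `ℓ` dividing it
(`ℤ((q))` is a domain of characteristic zero), and the reduction of the result is a nonzero
relation over `k`.  Hence for `G ⊆ ℤ((q))` finite with `j ∈ G`: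

  `gr_cr_constOrd` : (A1) for `G` over `ℚ`  ⟹  `gr_ConstOrd k (gr_F G k)`,

for EVERY algebraically closed `k` of characteristic `ℓ > 0`; no "(C) separating generator"
hypothesis is left.

* `gr_cr_AlgRel x y`               : `∃ P ≠ 0 in R[X][Y], P(x, y) = 0` (`x y : R((q))`);
* `gr_cr_algRel_int_of_isAlgebraic`: (A1) over `ℚ` ⟹ `gr_cr_AlgRel` over `ℤ`;
* `gr_cr_algRel_charP/_charZero`   : `gr_cr_AlgRel` over `ℤ` ⟹ `gr_cr_AlgRel` over a field;
* `gr_cr_isAlgebraic_of_rel`       : a relation + `x` transcendental ⟹ `y` algebraic over `K(x)`;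
* `gr_cr_algebraic`, `gr_cr_finite`, `gr_cr_isSepGen(_charZero)`, `gr_cr_constRed_of_gens` :
  abstract `Ft = adjoin k S`;
* `gr_cr_hasJ`, `gr_cr_isSepGen_int(_charZero)`, `gr_cr_constOrd(_charZero)`, `gr_cr_hasDiv`,
  `gr_cr_constOrd_residue` : the family `Ft = gr_F G k` (helper2's `DS/GR/{Field,Key}.lean`).
Prefix `gr_cr_`.
-/
import Mathlib
import Fermat.Agent.JT3.S18.ConstRed
import Fermat.Agent.DS.GR.Field
import Fermat.Agent.DS.GR.Key

set_option autoImplicit false
set_option linter.unusedSectionVars false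

noncomputable section

namespace Fermat.Agent.DS

open ModularCurve AlgebraicCurve HahnSeries Polynomial IntermediateField Fermat.Agent.JT3
open scoped IntermediateField.algebraAdjoinAdjoin

/-! ### algebraic relations between Laurent series -/

/-- an algebraic relation `P(x, y) = 0` with `0 ≠ P ∈ R[X][Y]` between two Laurent series -/
def gr_cr_AlgRel {R : Type*} [CommRing R] (x y : LaurentSeries R) : Prop :=
  ∃ P : Polynomial (Polynomial R), P ≠ 0 ∧
    P.eval₂ (Polynomial.eval₂RingHom (HahnSeries.C : R →+* LaurentSeries R) x) y = 0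

section Field

variable {K M : Type*} [Field K] [Field M] [Algebra K M]

/-- `y` is algebraic over `K(x)` as soon as `P(x, y) = 0` for a nonzero `P ∈ K[X][Y]` and `x` is
transcendental over `K`. -/
theorem gr_cr_isAlgebraic_of_rel {x y : M} (hx : Transcendental K x)
    (P : Polynomial (Polynomial K)) (hP : P ≠ 0)
    (h : P.eval₂ (Polynomial.eval₂RingHom (algebraMap K M) x) y = 0) : IsAlgebraic K⟮x⟯ y := by
  let θ : Polynomial K →+* K⟮x⟯ :=
    Polynomial.eval₂RingHom (algebraMap K K⟮x⟯) ⟨x, mem_adjoin_simple_self K x⟩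
  have hcomp : (algebraMap K⟮x⟯ M).comp θ = Polynomial.eval₂RingHom (algebraMap K M) x := by
    refine Polynomial.ringHom_ext (fun r => ?_) ?_
    · simp only [θ, RingHom.comp_apply, Polynomial.coe_eval₂RingHom, Polynomial.eval₂_C]
      rw [← IsScalarTower.algebraMap_apply K K⟮x⟯ M]
    · simp only [θ, RingHom.comp_apply, Polynomial.coe_eval₂RingHom, Polynomial.eval₂_X]
      rfl
  have hθ : Function.Injective θ := by
    intro a b hab
    have h1 := congrArg (algebraMap K⟮x⟯ M) hab
    rw [← RingHom.comp_apply, ← RingHom.comp_apply, hcomp] at h1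
    exact (transcendental_iff_injective.mp hx) h1
  refine ⟨P.map θ, (Polynomial.map_ne_zero_iff hθ).mpr hP, ?_⟩
  rw [Polynomial.aeval_def, Polynomial.eval₂_map, hcomp]
  exact h

end Field

section Relations

theorem gr_cr_eval₂_map {R S : Type*} [CommRing R] [CommRing S] (f : R →+* S)
    (P : Polynomial (Polynomial R)) (a b : LaurentSeries S) :
    (P.map (Polynomial.mapRingHom f)).eval₂
        (Polynomial.eval₂RingHom (HahnSeries.C : S →+* LaurentSeries S) a) b
      = P.eval₂ (Polynomial.eval₂RingHom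
          ((HahnSeries.C : S →+* LaurentSeries S).comp f) a) b := by
  rw [Polynomial.eval₂_map]
  congr 1
  refine Polynomial.ringHom_ext (fun r => ?_) ?_
  · simp only [RingHom.comp_apply, Polynomial.coe_mapRingHom, Polynomial.map_C,
      Polynomial.coe_eval₂RingHom, Polynomial.eval₂_C]
  · simp only [RingHom.comp_apply, Polynomial.coe_mapRingHom, Polynomial.map_X,
      Polynomial.coe_eval₂RingHom, Polynomial.eval₂_X]

/-- reduction of a relation along a ring homomorphism -/
theorem gr_cr_coeffMap_rel {R S : Type*} [CommRing R] [CommRing S] (f : R →+* S)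
    (P : Polynomial (Polynomial R)) {x y : LaurentSeries R}
    (h : P.eval₂ (Polynomial.eval₂RingHom (HahnSeries.C : R →+* LaurentSeries R) x) y = 0) :
    (P.map (Polynomial.mapRingHom f)).eval₂
        (Polynomial.eval₂RingHom (HahnSeries.C : S →+* LaurentSeries S) (coeffMap f x))
        (coeffMap f y) = 0 := by
  rw [gr_cr_eval₂_map, ← jcr_coeffMap_eval₂, h, map_zero]

/-- clearing denominators in `ℚ[X][Y]` -/
theorem gr_cr_exists_int_mul (P : Polynomial (Polynomial ℚ)) :
    ∃ (D : ℤ) (P' : Polynomial (Polynomial ℤ)), D ≠ 0 ∧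
      P'.map (Polynomial.mapRingHom (Int.castRingHom ℚ))
        = Polynomial.C (Polynomial.C (D : ℚ)) * P := by
  induction P using Polynomial.induction_on' with
  | add p q hp hq =>
    obtain ⟨D1, P1, hD1, h1⟩ := hp
    obtain ⟨D2, P2, hD2, h2⟩ := hq
    refine ⟨D1 * D2, Polynomial.C (Polynomial.C D2) * P1 + Polynomial.C (Polynomial.C D1) * P2,
      mul_ne_zero hD1 hD2, ?_⟩
    rw [Polynomial.map_add, Polynomial.map_mul, Polynomial.map_mul, h1, h2, Polynomial.map_C,
      Polynomial.map_C, Polynomial.coe_mapRingHom, Polynomial.map_C, Polynomial.map_C]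
    simp only [eq_intCast, Int.cast_mul, map_mul]
    ring
  | monomial n a =>
    obtain ⟨b, hb, hab⟩ := IsLocalization.integerNormalization_spec (nonZeroDivisors ℤ) a
    refine ⟨b, Polynomial.monomial n (IsLocalization.integerNormalization (nonZeroDivisors ℤ) a),
      nonZeroDivisors.ne_zero hb, ?_⟩
    rw [Polynomial.map_monomial, Polynomial.coe_mapRingHom]
    have : Polynomial.map (Int.castRingHom ℚ)
        (IsLocalization.integerNormalization (nonZeroDivisors ℤ) a) = Polynomial.C (b : ℚ) * a := by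
      rw [Polynomial.C_mul']
      rw [show ((b : ℚ) • a) = b • a from (Int.cast_smul_eq_zsmul ℚ b a)]
      exact hab
    rw [this, Polynomial.C_mul_monomial]

/-- **(A1) over `ℚ` gives an integral relation**: if the image of `y ∈ ℤ((q))` in `ℚ((q))` is
algebraic over `ℚ(x)`, then `P(x, y) = 0` for some nonzero `P ∈ ℤ[X][Y]`. -/
theorem gr_cr_algRel_int_of_isAlgebraic (x y : LaurentSeries ℤ)
    (h : IsAlgebraic ℚ⟮coeffMap (Int.castRingHom ℚ) x⟯ (coeffMap (Int.castRingHom ℚ) y)) :
    gr_cr_AlgRel x y := by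
  set xQ := coeffMap (Int.castRingHom ℚ) x with hxQ
  set yQ := coeffMap (Int.castRingHom ℚ) y with hyQ
  have h1 : IsAlgebraic (Algebra.adjoin ℚ {xQ}) yQ :=
    (IsFractionRing.isAlgebraic_iff (Algebra.adjoin ℚ {xQ}) ℚ⟮xQ⟯ (LaurentSeries ℚ)).mpr h
  obtain ⟨p, hp0, hp⟩ := h1
  let ψ : Polynomial ℚ →+* Algebra.adjoin ℚ {xQ} :=
    (Polynomial.aeval (⟨xQ, Algebra.self_mem_adjoin_singleton ℚ xQ⟩ : Algebra.adjoin ℚ {xQ})
      : Polynomial ℚ →ₐ[ℚ] Algebra.adjoin ℚ {xQ}).toRingHom
  have hψ : Function.Surjective ψ := by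
    intro a
    have ha : (a : LaurentSeries ℚ) ∈ (Polynomial.aeval (R := ℚ) xQ).range := by
      rw [← Algebra.adjoin_singleton_eq_range_aeval]
      exact a.2
    obtain ⟨r, hr⟩ := ha
    refine ⟨r, Subtype.ext ?_⟩
    rw [← hr]
    exact Polynomial.aeval_subalgebra_coe r _ _
  obtain ⟨P, hP⟩ := Polynomial.map_surjective ψ hψ p
  have hP0 : P ≠ 0 := by
    rintro rfl
    exact hp0 (by rw [← hP, Polynomial.map_zero])
  have hcomp : (algebraMap (Algebra.adjoin ℚ {xQ}) (LaurentSeries ℚ)).comp ψ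
      = Polynomial.eval₂RingHom (HahnSeries.C : ℚ →+* LaurentSeries ℚ) xQ := by
    refine Polynomial.ringHom_ext (fun r => ?_) ?_
    · simp only [ψ, RingHom.comp_apply, AlgHom.toRingHom_eq_coe, RingHom.coe_coe,
        Polynomial.aeval_C, Polynomial.coe_eval₂RingHom, Polynomial.eval₂_C]
      rw [HahnSeries.C_apply, ← algebraMap_laurentSeries_eq_single]
      rfl
    · simp only [ψ, RingHom.comp_apply, AlgHom.toRingHom_eq_coe, RingHom.coe_coe,
        Polynomial.aeval_X, Polynomial.coe_eval₂RingHom, Polynomial.eval₂_X]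
      rfl
  have hrelQ : P.eval₂ (Polynomial.eval₂RingHom (HahnSeries.C : ℚ →+* LaurentSeries ℚ) xQ) yQ
      = 0 := by
    rw [← hcomp, ← Polynomial.eval₂_map, hP]
    exact hp
  obtain ⟨D, P', hD, hP'⟩ := gr_cr_exists_int_mul P
  refine ⟨P', ?_, ?_⟩
  · rintro rfl
    rw [Polynomial.map_zero] at hP'
    rcases mul_eq_zero.mp hP'.symm with h0 | h0
    · rw [Polynomial.C_eq_zero, Polynomial.C_eq_zero] at h0
      exact hD (by exact_mod_cast h0)
    · exact hP0 h0
  · apply jcr_coeffMap_injective (Int.castRingHom ℚ) Int.cast_injective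
    rw [map_zero, jcr_coeffMap_eval₂, ← gr_cr_eval₂_map, hP', Polynomial.eval₂_mul, hrelQ,
      mul_zero]

/-- a polynomial of `ℤ[X][Y]` not divisible by the prime `ℓ` stays nonzero over a field of
characteristic `ℓ` -/
theorem gr_cr_map_ne_zero_of_not_dvd {k : Type*} [Field k] (ℓ : ℕ) [CharP k ℓ]
    (P : Polynomial (Polynomial ℤ))
    (h : ¬ Polynomial.C (Polynomial.C (ℓ : ℤ)) ∣ P) :
    P.map (Polynomial.mapRingHom (Int.castRingHom k)) ≠ 0 := by
  intro h0
  apply h
  rw [Polynomial.C_dvd_iff_dvd_coeff]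
  intro n
  rw [Polynomial.C_dvd_iff_dvd_coeff]
  intro m
  have h1 := congrArg (fun Q : Polynomial (Polynomial k) => (Q.coeff n).coeff m) h0
  simp only [Polynomial.coeff_map, Polynomial.coe_mapRingHom, Polynomial.coeff_zero,
    eq_intCast] at h1
  exact (CharP.intCast_eq_zero_iff k ℓ _).mp h1

/-- **reduction of an integral relation to characteristic `ℓ`**: divide by the highest power of
`ℓ` first. -/
theorem gr_cr_algRel_charP {k : Type*} [Field k] (ℓ : ℕ) [hℓ : Fact ℓ.Prime] [CharP k ℓ]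
    {x y : LaurentSeries ℤ} (h : gr_cr_AlgRel x y) :
    gr_cr_AlgRel (coeffMap (Int.castRingHom k) x) (coeffMap (Int.castRingHom k) y) := by
  obtain ⟨P, hP0, hP⟩ := h
  set c : Polynomial (Polynomial ℤ) := Polynomial.C (Polynomial.C (ℓ : ℤ)) with hc
  have hcu : ¬ IsUnit c := by
    rw [hc, Polynomial.isUnit_C, Polynomial.isUnit_C, Int.isUnit_iff]
    have := hℓ.out.two_le
    omega
  have hfin : FiniteMultiplicity c P := FiniteMultiplicity.of_not_isUnit hcu hP0
  obtain ⟨P2, hP2, hndvd⟩ := hfin.exists_eq_pow_mul_and_not_dvd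
  refine ⟨P2.map (Polynomial.mapRingHom (Int.castRingHom k)),
    gr_cr_map_ne_zero_of_not_dvd ℓ P2 hndvd, gr_cr_coeffMap_rel _ P2 ?_⟩
  rw [hP2, Polynomial.eval₂_mul, Polynomial.eval₂_pow, hc, Polynomial.eval₂_C,
    Polynomial.coe_eval₂RingHom, Polynomial.eval₂_C] at hP
  rcases mul_eq_zero.mp hP with h1 | h1
  · exfalso
    have h3 : (HahnSeries.C ((ℓ : ℤ)) : LaurentSeries ℤ) = 0 := eq_zero_of_pow_eq_zero h1
    have h4 := congrArg (fun z : LaurentSeries ℤ => z.coeff 0) h3
    rw [HahnSeries.C_apply] at h4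
    simp only [HahnSeries.coeff_single_same, HahnSeries.coeff_zero] at h4
    exact hℓ.out.ne_zero (by exact_mod_cast h4)
  · exact h1

/-- **base change of an integral relation to characteristic zero** -/
theorem gr_cr_algRel_charZero {k : Type*} [Field k] [CharZero k]
    {x y : LaurentSeries ℤ} (h : gr_cr_AlgRel x y) :
    gr_cr_AlgRel (coeffMap (Int.castRingHom k) x) (coeffMap (Int.castRingHom k) y) := by
  obtain ⟨P, hP0, hP⟩ := h
  refine ⟨P.map (Polynomial.mapRingHom (Int.castRingHom k)), ?_, gr_cr_coeffMap_rel _ P hP⟩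
  have hinj : Function.Injective (Polynomial.mapRingHom (Int.castRingHom k)) :=
    Polynomial.map_injective _ (RingHom.injective_int (Int.castRingHom k))
  exact (Polynomial.map_ne_zero_iff hinj).mpr hP0

end Relations

/-! ### `j̃` is a separating generator -/

section SepGen

variable {k : Type*} [Field k]

/-- `j̃` is transcendental over `k` in any subfield of `k((q))` containing it -/
theorem gr_cr_transcendental_j [IsAlgClosed k] (Ft : IntermediateField k (LaurentSeries k))
    (hj : jqModC k ∈ Ft) : Transcendental k (⟨jqModC k, hj⟩ : Ft) := by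
  rcases Fermat.Agent.S24.hw_const_or_transcendental (K := k) (⟨jqModC k, hj⟩ : Ft) with
    ⟨c, hc⟩ | h
  · exfalso
    have h1 : (jqModC k).coeff (-1) = (algebraMap k (LaurentSeries k) c).coeff (-1) :=
      congrArg (fun y : Ft => (y : LaurentSeries k).coeff (-1)) hc
    rw [coeff_jqModC_neg_one, algebraMap_laurentSeries_eq_single,
      HahnSeries.coeff_single_of_ne (by norm_num)] at h1
    exact one_ne_zero h1
  · exact h

set_option synthInstance.maxHeartbeats 400000 in
/-- a generator satisfying a relation with `j̃` is algebraic over `k(j̃)`, inside `Ft` -/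
theorem gr_cr_isAlgebraic_gen [IsAlgClosed k] (Ft : IntermediateField k (LaurentSeries k))
    (hj : jqModC k ∈ Ft) {y : LaurentSeries k} (hy : y ∈ Ft) (h : gr_cr_AlgRel (jqModC k) y) :
    IsAlgebraic k⟮(⟨jqModC k, hj⟩ : Ft)⟯ (⟨y, hy⟩ : Ft) := by
  obtain ⟨P, hP0, hP⟩ := h
  refine gr_cr_isAlgebraic_of_rel (gr_cr_transcendental_j Ft hj) P hP0 ?_
  apply (Ft.val : Ft →+* LaurentSeries k).injective
  rw [map_zero, Polynomial.hom_eval₂]
  have h2 : (Ft.val : Ft →+* LaurentSeries k).comp
      (Polynomial.eval₂RingHom (algebraMap k Ft) (⟨jqModC k, hj⟩ : Ft))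
      = Polynomial.eval₂RingHom (HahnSeries.C : k →+* LaurentSeries k) (jqModC k) := by
    refine Polynomial.ringHom_ext (fun r => ?_) ?_
    · simp only [RingHom.comp_apply, Polynomial.coe_eval₂RingHom, Polynomial.eval₂_C]
      rw [HahnSeries.C_apply, ← algebraMap_laurentSeries_eq_single]
      rfl
    · simp only [RingHom.comp_apply, Polynomial.coe_eval₂RingHom, Polynomial.eval₂_X]
      rfl
  rw [h2]
  exact hP

set_option synthInstance.maxHeartbeats 400000 in
/-- `Ft = k(S)` is algebraic over `k(j̃)` as soon as every element of `S` is algebraically dependent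
on `j̃` (any characteristic). -/
theorem gr_cr_algebraic [IsAlgClosed k] (S : Set (LaurentSeries k))
    (hj : jqModC k ∈ IntermediateField.adjoin k S)
    (hrel : ∀ y ∈ S, gr_cr_AlgRel (jqModC k) y) :
    Algebra.IsAlgebraic k⟮(⟨jqModC k, hj⟩ : IntermediateField.adjoin k S)⟯
      (IntermediateField.adjoin k S) := by
  set Ft : IntermediateField k (LaurentSeries k) := IntermediateField.adjoin k S with hFt
  refine jcr_isAlgebraic_of_gen (⟨jqModC k, hj⟩ : Ft) (Ft.val ⁻¹' S)
    (jcr_adjoin_preimage_eq_top _) ?_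
  rintro y hy
  exact gr_cr_isAlgebraic_gen Ft hj y.2 (hrel _ hy)

set_option synthInstance.maxHeartbeats 400000 in
/-- `Ft = k(S)`, `S` finite, is finite over `k(j̃)` (any characteristic). -/
theorem gr_cr_finite [IsAlgClosed k] (S : Set (LaurentSeries k)) (hS : S.Finite)
    (hj : jqModC k ∈ IntermediateField.adjoin k S)
    (hrel : ∀ y ∈ S, gr_cr_AlgRel (jqModC k) y) :
    FiniteDimensional k⟮(⟨jqModC k, hj⟩ : IntermediateField.adjoin k S)⟯
      (IntermediateField.adjoin k S) := by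
  set Ft : IntermediateField k (LaurentSeries k) := IntermediateField.adjoin k S with hFt
  set jt : Ft := ⟨jqModC k, hj⟩ with hjt
  have halg : Algebra.IsAlgebraic k⟮jt⟯ Ft := gr_cr_algebraic S hj hrel
  have : Algebra.EssFiniteType k Ft :=
    IntermediateField.essFiniteType_iff.mpr (IntermediateField.fg_adjoin_of_finite hS)
  have : Algebra.EssFiniteType k⟮jt⟯ Ft := Algebra.EssFiniteType.of_comp k _ _
  exact Algebra.finite_of_essFiniteType_of_isAlgebraic

set_option synthInstance.maxHeartbeats 400000 in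
/-- **`j̃` is a separating generator of `Ft = k(S)`**, `S` finite, `j̃ ∈ Ft`, every element of `S`
algebraically dependent on `j̃`; `k` algebraically closed of characteristic `ℓ`. -/
theorem gr_cr_isSepGen {ℓ : ℕ} [Fact ℓ.Prime] [CharP k ℓ] [IsAlgClosed k]
    (S : Set (LaurentSeries k)) (hS : S.Finite)
    (hj : jqModC k ∈ IntermediateField.adjoin k S)
    (hrel : ∀ y ∈ S, gr_cr_AlgRel (jqModC k) y) :
    rt_IsSepGen k (⟨jqModC k, hj⟩ : IntermediateField.adjoin k S) := by
  set Ft : IntermediateField k (LaurentSeries k) := IntermediateField.adjoin k S with hFt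
  set jt : Ft := ⟨jqModC k, hj⟩ with hjt
  have halg : Algebra.IsAlgebraic k⟮jt⟯ Ft := gr_cr_algebraic S hj hrel
  have hx0 : jt ≠ 0 := by
    intro h
    exact jqModC_ne_zero_of_nontrivial k (congrArg Subtype.val h)
  refine ⟨gr_cr_transcendental_j Ft hj, gr_cr_finite S hS hj hrel, ?_⟩
  constructor
  intro y
  refine lsp_isSeparable_of_algHom ℓ Ft.val hx0 ?_ (halg.isAlgebraic y)
  have : Ft.val jt = jqModC k := rfl
  rw [this, jcr_order_jq]
  intro h
  have h2 := (Fact.out : ℓ.Prime).two_le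
  have := Int.le_of_dvd (by norm_num) ((dvd_neg).mp h)
  omega

set_option synthInstance.maxHeartbeats 400000 in
/-- the same in characteristic zero (separability is automatic). -/
theorem gr_cr_isSepGen_charZero [CharZero k] [IsAlgClosed k]
    (S : Set (LaurentSeries k)) (hS : S.Finite)
    (hj : jqModC k ∈ IntermediateField.adjoin k S)
    (hrel : ∀ y ∈ S, gr_cr_AlgRel (jqModC k) y) :
    rt_IsSepGen k (⟨jqModC k, hj⟩ : IntermediateField.adjoin k S) := by
  set Ft : IntermediateField k (LaurentSeries k) := IntermediateField.adjoin k S with hFt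
  set jt : Ft := ⟨jqModC k, hj⟩ with hjt
  have halg : Algebra.IsAlgebraic k⟮jt⟯ Ft := gr_cr_algebraic S hj hrel
  have : CharZero k⟮jt⟯ := charZero_of_injective_algebraMap (algebraMap k k⟮jt⟯).injective
  refine ⟨gr_cr_transcendental_j Ft hj, gr_cr_finite S hS hj hrel, ?_⟩
  exact Algebra.IsAlgebraic.isSeparable_of_perfectField

set_option synthInstance.maxHeartbeats 400000 in
/-- **node (C), abstract generators**: a nonzero function of `Ft = k(S)` without zeros and poles
is constant. -/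
theorem gr_cr_constRed_of_gens {ℓ : ℕ} [Fact ℓ.Prime] [CharP k ℓ] [IsAlgClosed k]
    (S : Set (LaurentSeries k)) (hS : S.Finite)
    (hj : jqModC k ∈ IntermediateField.adjoin k S)
    (hrel : ∀ y ∈ S, gr_cr_AlgRel (jqModC k) y)
    (g : IntermediateField.adjoin k S) (hg : g ≠ 0)
    (hord : ∀ Q : Place k (IntermediateField.adjoin k S), Q.ord g = 0) :
    ∃ c : k, g = algebraMap k (IntermediateField.adjoin k S) c := by
  have hsep := gr_cr_isSepGen (ℓ := ℓ) S hS hj hrel
  refine rt_const_of_forall_mem hsep g (fun v => ?_)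
  rw [Fermat.Agent.S24.hw_mem_iff_ord_nonneg v hg, hord v]

end SepGen

/-! ### integral generators: (A1) over `ℚ` suffices -/

section Integral

variable {k : Type*} [Field k] (G : Set (LaurentSeries ℤ))

/-- `j ∈ G` gives `j ∈ gr_F G L` for every field `L`. -/
theorem gr_cr_hasJ (hjG : jqModC ℤ ∈ G) (L : Type*) [Field L] : gr_HasJ (gr_F G L) :=
  ⟨by
    have := gr_gen_mem G L hjG
    rwa [coeffMap_jqModC] at this⟩

theorem gr_cr_jq_mem (hjG : jqModC ℤ ∈ G) : jqModC k ∈ gr_F G k := (gr_cr_hasJ G hjG k).mem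

/-- (A1) over `ℚ` gives the relations over `k` of characteristic `ℓ`. -/
theorem gr_cr_rel_charP {ℓ : ℕ} [Fact ℓ.Prime] [CharP k ℓ]
    (hA1 : ∀ g ∈ G, IsAlgebraic ℚ⟮jqModC ℚ⟯ (coeffMap (Int.castRingHom ℚ) g)) :
    ∀ y ∈ (⇑(coeffMap (Int.castRingHom k)) '' G), gr_cr_AlgRel (jqModC k) y := by
  rintro _ ⟨g, hg, rfl⟩
  have h1 : gr_cr_AlgRel (jqModC ℤ) g := by
    apply gr_cr_algRel_int_of_isAlgebraic
    rw [coeffMap_jqModC]
    exact hA1 g hg
  have h2 := gr_cr_algRel_charP (k := k) ℓ h1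
  rwa [coeffMap_jqModC] at h2

/-- (A1) over `ℚ` gives the relations over `k` of characteristic zero. -/
theorem gr_cr_rel_charZero [CharZero k]
    (hA1 : ∀ g ∈ G, IsAlgebraic ℚ⟮jqModC ℚ⟯ (coeffMap (Int.castRingHom ℚ) g)) :
    ∀ y ∈ (⇑(coeffMap (Int.castRingHom k)) '' G), gr_cr_AlgRel (jqModC k) y := by
  rintro _ ⟨g, hg, rfl⟩
  have h1 : gr_cr_AlgRel (jqModC ℤ) g := by
    apply gr_cr_algRel_int_of_isAlgebraic
    rw [coeffMap_jqModC]
    exact hA1 g hg
  have h2 := gr_cr_algRel_charZero (k := k) h1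
  rwa [coeffMap_jqModC] at h2

/-- **`j̃` is a separating generator of `gr_F G k`**, `G ⊆ ℤ((q))` finite, `j ∈ G`, every element of
`G` algebraic over `ℚ(j)` in `ℚ((q))` (hypothesis (A1)); `k` algebraically closed of
characteristic `ℓ > 0` (no condition on `ℓ`). -/
theorem gr_cr_isSepGen_int {ℓ : ℕ} [Fact ℓ.Prime] [CharP k ℓ] [IsAlgClosed k]
    (hG : G.Finite) (hjG : jqModC ℤ ∈ G)
    (hA1 : ∀ g ∈ G, IsAlgebraic ℚ⟮jqModC ℚ⟯ (coeffMap (Int.castRingHom ℚ) g)) :
    rt_IsSepGen k (⟨jqModC k, gr_cr_jq_mem G hjG⟩ : gr_F G k) :=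
  gr_cr_isSepGen (ℓ := ℓ) _ (hG.image _) (gr_cr_jq_mem G hjG) (gr_cr_rel_charP G hA1)

/-- the same over an algebraically closed field of characteristic zero. -/
theorem gr_cr_isSepGen_int_charZero [CharZero k] [IsAlgClosed k]
    (hG : G.Finite) (hjG : jqModC ℤ ∈ G)
    (hA1 : ∀ g ∈ G, IsAlgebraic ℚ⟮jqModC ℚ⟯ (coeffMap (Int.castRingHom ℚ) g)) :
    rt_IsSepGen k (⟨jqModC k, gr_cr_jq_mem G hjG⟩ : gr_F G k) :=
  gr_cr_isSepGen_charZero _ (hG.image _) (gr_cr_jq_mem G hjG) (gr_cr_rel_charZero G hA1)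

/-- **node (C) for the family `gr_F G`, from (A1) alone**: `gr_ConstOrd k (gr_F G k)` for every
algebraically closed `k` of characteristic `ℓ > 0`. -/
theorem gr_cr_constOrd {ℓ : ℕ} [Fact ℓ.Prime] [CharP k ℓ] [IsAlgClosed k]
    (hG : G.Finite) (hjG : jqModC ℤ ∈ G)
    (hA1 : ∀ g ∈ G, IsAlgebraic ℚ⟮jqModC ℚ⟯ (coeffMap (Int.castRingHom ℚ) g)) :
    gr_ConstOrd k (gr_F G k) :=
  gr_constOrd_of_sepGen (gr_cr_isSepGen_int (ℓ := ℓ) G hG hjG hA1)

/-- the same in characteristic zero. -/
theorem gr_cr_constOrd_charZero [CharZero k] [IsAlgClosed k]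
    (hG : G.Finite) (hjG : jqModC ℤ ∈ G)
    (hA1 : ∀ g ∈ G, IsAlgebraic ℚ⟮jqModC ℚ⟯ (coeffMap (Int.castRingHom ℚ) g)) :
    gr_ConstOrd k (gr_F G k) :=
  gr_constOrd_of_sepGen (gr_cr_isSepGen_int_charZero G hG hjG hA1)

set_option synthInstance.maxHeartbeats 400000 in
/-- **the seam `gr_HasDiv` for the family, from (A1) alone** (characteristic zero). -/
theorem gr_cr_hasDiv [CharZero k] [IsAlgClosed k]
    (hG : G.Finite) (hjG : jqModC ℤ ∈ G)
    (hA1 : ∀ g ∈ G, IsAlgebraic ℚ⟮jqModC ℚ⟯ (coeffMap (Int.castRingHom ℚ) g)) :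
    gr_HasDiv k (gr_F G k) := by
  have hfin : FiniteDimensional k⟮(⟨jqModC k, gr_cr_jq_mem G hjG⟩ : gr_F G k)⟯ (gr_F G k) :=
    gr_cr_finite _ (hG.image _) (gr_cr_jq_mem G hjG) (gr_cr_rel_charZero G hA1)
  exact gr_hasDiv (⟨jqModC k, gr_cr_jq_mem G hjG⟩ : gr_F G k)

set_option synthInstance.maxHeartbeats 400000 in
/-- the residue field of a valuation ring of `Q̄` over `ℓ`: the instance of `gr_cr_constOrd`. -/
theorem gr_cr_constOrd_residue {ℓ : ℕ} [Fact ℓ.Prime]
    (A : ValuationSubring (AlgebraicClosure ℚ)) (hA : A.LiesOverPrime ℓ)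
    (hG : G.Finite) (hjG : jqModC ℤ ∈ G)
    (hA1 : ∀ g ∈ G, IsAlgebraic ℚ⟮jqModC ℚ⟯ (coeffMap (Int.castRingHom ℚ) g)) :
    gr_ConstOrd (IsLocalRing.ResidueField A) (gr_F G (IsLocalRing.ResidueField A)) := by
  have := jcr_charP A hA
  have := jcr_isAlgClosed A
  exact gr_cr_constOrd (ℓ := ℓ) G hG hjG hA1

end Integral

end Fermat.Agent.DS
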