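/-
DS-T / [GR-5] (helper7), part 1: K-DESCENT, GENERIC IN THE FUNCTION FIELD `F ⊆ L((q))`.

Generic port of `JT3/KDescent/{LegendreKey,HesseKey}.lean` in the vocabulary of `DS/GR/{Field,
HesseField,Key}.lean` (helper2): the level-`N` field `lg_F L N` is replaced by ANY intermediate
field `F` of `L((q)) / L` with `[gr_HasJ F]` (the series-level descent lemmas
`kd_leg_descent_series`, `kd_hsk_descent_series` were already generic), the residue map by ANY ring
homomorphism `π : A →+* k`.

* `gr_kd_leg_root_descent`, `gr_kd_hes_root_descent` : a `p`-th root of `φ(f)` in `gr_E F` /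
  `grs_E h3 F` descends to a `p`-th root of `f` in `F` (up to a constant);
* `gr_kd_leg_key`  : `gr_KeyE A π F p ⟹ gr_Key A π F p`            (`CharZero L`);
* `gr_kd_hes_key`  : `grs_KeyE h3 A π F p ⟹ gr_Key A π F p`        (`CharZero L`, `ζ₃ ∈ L`);
* `gr_kd_leg_key0`, `gr_kd_hes_key0` : the same from `gr_Key0 O F p` / `grs_Key0 h3 O F p`
  (`π = IsLocalRing.residue O`).
Prefix `gr_kd_`.
-/
import Mathlib
import Fermat.Agent.JT3.KDescent.LegendreKey
import Fermat.Agent.JT3.KDescent.HesseKey
import Fermat.Agent.DS.GR.Field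
import Fermat.Agent.DS.GR.HesseField
import Fermat.Agent.DS.GR.Key

set_option autoImplicit false
set_option linter.unusedSectionVars false
set_option linter.style.haveILetI false

noncomputable section

namespace Fermat.Agent.DS

open ModularCurve HahnSeries Fermat.Agent.S28 IntermediateField AlgebraicCurve Fermat.Agent.JT3

section Sanity

/-- `gr_Key0` is `gr_KeyE` at the residue map. -/
theorem gr_kd_key0_iff_keyE {L : Type*} [Field L] (O : ValuationSubring L)
    (F : IntermediateField L (LaurentSeries L)) (p : ℕ) :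
    gr_Key0 O F p ↔ gr_KeyE O (IsLocalRing.residue O) F p := Iff.rfl

theorem gr_kd_hes_key0_iff_keyE {L : Type*} [Field L] (h3 : (3 : L) ≠ 0) (O : ValuationSubring L)
    (F : IntermediateField L (LaurentSeries L)) (p : ℕ) :
    grs_Key0 h3 O F p ↔ grs_KeyE h3 O (IsLocalRing.residue O) F p := Iff.rfl

/-- `gr_Key` at `(lg_F L N, residue)` is the landed `kd_KeyF`. -/
theorem gr_kd_key_iff_kd (L : Type*) [Field L] (O : ValuationSubring L) (N : ℕ) [NeZero N]
    (p : ℕ) (F : IntermediateField L (LaurentSeries L)) :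
    gr_Key O (IsLocalRing.residue O) F p ↔ kd_KeyF L O N p F := Iff.rfl

/-- transport of `gr_Key` along an equality of fields -/
theorem gr_kd_key_congr {L : Type*} [Field L] {A : ValuationSubring L} {k : Type*} [Field k]
    {π : A →+* k} {F F' : IntermediateField L (LaurentSeries L)} (h : F = F') {p : ℕ}
    (hk : gr_Key A π F p) : gr_Key A π F' p := h ▸ hk

theorem gr_kd_key0_congr {L : Type*} [Field L] {O : ValuationSubring L}
    {F F' : IntermediateField L (LaurentSeries L)} (h : F = F') {p : ℕ}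
    (hk : gr_Key0 O F p) : gr_Key0 O F' p := h ▸ hk

theorem gr_kd_hes_key0_congr {L : Type*} [Field L] {h3 : (3 : L) ≠ 0} {O : ValuationSubring L}
    {F F' : IntermediateField L (LaurentSeries L)} (h : F = F') {p : ℕ}
    (hk : grs_Key0 h3 O F p) : grs_Key0 h3 O F' p := h ▸ hk

end Sanity

section Order

/-- a subfield `F ⊆ L((q))` containing `j` contains an element of positive `q`-order -/
theorem gr_kd_exists_pos_order {L : Type*} [Field L] (F : IntermediateField L (LaurentSeries L))
    [gr_HasJ F] : ∃ x : F, 0 < (F.val x).order := by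
  refine ⟨⟨(jqModC L)⁻¹, inv_mem (gr_j_mem F)⟩, ?_⟩
  show 0 < ((jqModC L)⁻¹).order
  have hj0 : jqModC L ≠ 0 := jqModC_ne_zero_of_nontrivial L
  have := congrArg HahnSeries.order (mul_inv_cancel₀ hj0)
  rw [HahnSeries.order_mul hj0 (inv_ne_zero hj0), kd_order_jq, HahnSeries.order_one] at this
  omega

/-- divisibility of the orders at all places of `F / L` gives divisibility of the `q`-order -/
theorem gr_kd_dvd_qorder {L : Type*} [Field L] (F : IntermediateField L (LaurentSeries L))
    [gr_HasJ F] (m : ℤ) (f : F) (hord : ∀ P : Place L F, m ∣ P.ord f) :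
    m ∣ (f : LaurentSeries L).order :=
  kd_dvd_order_of_places F.val (gr_kd_exists_pos_order F) m f hord

end Order

section Legendre

set_option synthInstance.maxHeartbeats 400000 in
/-- the Legendre descent for an arbitrary `F ∋ j` over a coefficient field of characteristic
zero: from a `p`-th root in `E = φ(F)(λ)` to a `p`-th root in `F`. -/
theorem gr_kd_leg_root_descent {L : Type*} [Field L] [CharZero L]
    (F : IntermediateField L (LaurentSeries L)) [gr_HasJ F] {p : ℕ}
    (hp : p ≠ 0) (f : F) (hord : ∀ P : Place L F, (p : ℤ) ∣ P.ord f)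
    (c : L) (g : LaurentSeries L) (hg : g ∈ gr_E F)
    (hfg : lg_phi L (f : LaurentSeries L) = algebraMap L (LaurentSeries L) c * g ^ p) :
    ∃ (c' : L) (g' : F), f = algebraMap L F c' * g' ^ p := by
  have hj : jqModC L ∈ F := gr_j_mem F
  have hinj : Function.Injective (lg_phi L) := (lg_phi L).toRingHom.injective
  by_cases hc : c = 0
  · refine ⟨0, 0, ?_⟩
    rw [hc, map_zero, zero_mul] at hfg
    have h0 : (f : LaurentSeries L) = 0 := hinj (by rw [hfg, map_zero])
    rw [map_zero, zero_mul]
    exact Subtype.ext h0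
  have hordq : (p : ℤ) ∣ (f : LaurentSeries L).order := gr_kd_dvd_qorder F (p : ℤ) f hord
  -- normalise the constant
  set f1 : LaurentSeries L := algebraMap L (LaurentSeries L) c⁻¹ * (f : LaurentSeries L)
    with hf1
  have hf1F : f1 ∈ F := mul_mem (F.algebraMap_mem _) f.2
  have hcinv : algebraMap L (LaurentSeries L) c⁻¹ * algebraMap L (LaurentSeries L) c = 1 := by
    rw [← map_mul, inv_mul_cancel₀ hc, map_one]
  have hgp : g ^ p = qExpand L 2 f1 := by
    rw [← lg_phi_apply, hf1, map_mul, hfg, AlgHom.commutes, ← mul_assoc, hcinv, one_mul]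
  have hord1 : (p : ℤ) ∣ f1.order := by
    by_cases hf0 : (f : LaurentSeries L) = 0
    · rw [hf1, hf0, mul_zero, HahnSeries.order_zero]; exact dvd_zero _
    · have hc' : algebraMap L (LaurentSeries L) c⁻¹ ≠ 0 :=
        (map_ne_zero_iff _ (algebraMap L (LaurentSeries L)).injective).2 (inv_ne_zero hc)
      rw [hf1, HahnSeries.order_mul hc' hf0, algebraMap_laurentSeries_eq_single,
        HahnSeries.order_single (inv_ne_zero hc), zero_add]
      exact hordq
  have h16 : (hm_lam L).coeff 1 ≠ 0 := by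
    rw [hm_lam_coeff_one]; norm_num
  obtain ⟨g0, hg0F, hg0⟩ := kd_leg_descent_series F hj
    (lg_legendre L) h16 (fun n hn => hm_lam_coeff_of_lt L hn) hp hg hf1F hgp hord1
  refine ⟨c, ⟨g0, hg0F⟩, ?_⟩
  apply Subtype.ext
  apply hinj
  show lg_phi L (f : LaurentSeries L) = lg_phi L (algebraMap L (LaurentSeries L) c * g0 ^ p)
  rw [hfg, map_mul, map_pow, AlgHom.commutes, lg_phi_apply L g0, ← hg0]

/-- **[KD-LEG], generic `F` and `π`**: `gr_KeyE A π F p ⟹ gr_Key A π F p`. -/
theorem gr_kd_leg_key {L : Type*} [Field L] [CharZero L] (A : ValuationSubring L)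
    {k : Type*} [Field k] (π : A →+* k)
    (F : IntermediateField L (LaurentSeries L)) [gr_HasJ F] {p : ℕ} (hp : p ≠ 0)
    (h : gr_KeyE A π F p) : gr_Key A π F p := by
  intro y1 y2 h1 h2 hred hred0 f hf hord
  obtain ⟨c, g, hg, hfg⟩ := h y1 y2 h1 h2 hred hred0 f hf hord
  exact gr_kd_leg_root_descent F hp f hord c g hg hfg

/-- the same from `gr_Key0 O F p` (`π` the residue map of `O`). -/
theorem gr_kd_leg_key0 {L : Type*} [Field L] [CharZero L] (O : ValuationSubring L)
    (F : IntermediateField L (LaurentSeries L)) [gr_HasJ F] {p : ℕ} (hp : p ≠ 0)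
    (h : gr_Key0 O F p) : gr_Key O (IsLocalRing.residue O) F p :=
  gr_kd_leg_key O (IsLocalRing.residue O) F hp h

end Legendre

section Hesse

set_option synthInstance.maxHeartbeats 400000 in
/-- the Hesse descent for an arbitrary `F ∋ j` over a coefficient field of characteristic zero
containing a primitive cube root of unity: from a `p`-th root in `E = φ(F)(μ)` to a `p`-th root
in `F`. -/
theorem gr_kd_hes_root_descent {L : Type*} [Field L] [CharZero L] (h3 : (3 : L) ≠ 0)
    (F : IntermediateField L (LaurentSeries L)) [gr_HasJ F]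
    {ζ : L} (hζ : IsPrimitiveRoot ζ 3) {p : ℕ}
    (hp : p ≠ 0) (f : F) (hord : ∀ P : Place L F, (p : ℤ) ∣ P.ord f)
    (c : L) (g : LaurentSeries L) (hg : g ∈ grs_E h3 F)
    (hfg : hs_phi L (f : LaurentSeries L) = algebraMap L (LaurentSeries L) c * g ^ p) :
    ∃ (c' : L) (g' : F), f = algebraMap L F c' * g' ^ p := by
  have hj : jqModC L ∈ F := gr_j_mem F
  have hinj : Function.Injective (hs_phi L) := (hs_phi L).toRingHom.injective
  by_cases hc : c = 0
  · refine ⟨0, 0, ?_⟩
    rw [hc, map_zero, zero_mul] at hfg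
    have h0 : (f : LaurentSeries L) = 0 := hinj (by rw [hfg, map_zero])
    rw [map_zero, zero_mul]
    exact Subtype.ext h0
  have hordq : (p : ℤ) ∣ (f : LaurentSeries L).order := gr_kd_dvd_qorder F (p : ℤ) f hord
  -- normalise the constant
  set f1 : LaurentSeries L := algebraMap L (LaurentSeries L) c⁻¹ * (f : LaurentSeries L)
    with hf1
  have hf1F : f1 ∈ F := mul_mem (F.algebraMap_mem _) f.2
  have hcinv : algebraMap L (LaurentSeries L) c⁻¹ * algebraMap L (LaurentSeries L) c = 1 := by
    rw [← map_mul, inv_mul_cancel₀ hc, map_one]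
  have hgp : g ^ p = qExpand L 3 f1 := by
    rw [← hs_phi_apply, hf1, map_mul, hfg, AlgHom.commutes, ← mul_assoc, hcinv, one_mul]
  have hord1 : (p : ℤ) ∣ f1.order := by
    by_cases hf0 : (f : LaurentSeries L) = 0
    · rw [hf1, hf0, mul_zero, HahnSeries.order_zero]; exact dvd_zero _
    · have hc' : algebraMap L (LaurentSeries L) c⁻¹ ≠ 0 :=
        (map_ne_zero_iff _ (algebraMap L (LaurentSeries L)).injective).2 (inv_ne_zero hc)
      rw [hf1, HahnSeries.order_mul hc' hf0, algebraMap_laurentSeries_eq_single,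
        HahnSeries.order_single (inv_ne_zero hc), zero_add]
      exact hordq
  -- the cube root of unity as a unit
  have hζ0 : ζ ≠ 0 := hζ.ne_zero (by norm_num)
  set e : Lˣ := Units.mk0 ζ hζ0 with he_def
  have he : IsPrimitiveRoot e 3 := by
    have : IsPrimitiveRoot ((e : Lˣ) : L) 3 := hζ
    exact IsPrimitiveRoot.coe_units_iff.mp this
  obtain ⟨g0, hg0F, hg0⟩ := kd_hsk_descent_series F hj
    (hs_hesse L h3) (hs_mu_cube_ne_one L h3) e he (hs_twist_mu L h3 e he.pow_eq_one) hp hg hf1F
    hgp hord1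
  refine ⟨c, ⟨g0, hg0F⟩, ?_⟩
  apply Subtype.ext
  apply hinj
  show hs_phi L (f : LaurentSeries L) = hs_phi L (algebraMap L (LaurentSeries L) c * g0 ^ p)
  rw [hfg, map_mul, map_pow, AlgHom.commutes, hs_phi_apply L g0, ← hg0]

/-- **[KD-HES], generic `F` and `π`**: `grs_KeyE h3 A π F p ⟹ gr_Key A π F p` (`ζ₃ ∈ L`). -/
theorem gr_kd_hes_key {L : Type*} [Field L] [CharZero L] (h3 : (3 : L) ≠ 0)
    (A : ValuationSubring L) {k : Type*} [Field k] (π : A →+* k)
    (F : IntermediateField L (LaurentSeries L)) [gr_HasJ F]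
    {ζ : L} (hζ : IsPrimitiveRoot ζ 3) {p : ℕ} (hp : p ≠ 0)
    (h : grs_KeyE h3 A π F p) : gr_Key A π F p := by
  intro y1 y2 h1 h2 hred hred0 f hf hord
  obtain ⟨c, g, hg, hfg⟩ := h y1 y2 h1 h2 hred hred0 f hf hord
  exact gr_kd_hes_root_descent h3 F hζ hp f hord c g hg hfg

/-- the same from `grs_Key0 h3 O F p` (`π` the residue map of `O`). -/
theorem gr_kd_hes_key0 {L : Type*} [Field L] [CharZero L] (h3 : (3 : L) ≠ 0)
    (O : ValuationSubring L) (F : IntermediateField L (LaurentSeries L)) [gr_HasJ F]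
    {ζ : L} (hζ : IsPrimitiveRoot ζ 3) {p : ℕ} (hp : p ≠ 0)
    (h : grs_Key0 h3 O F p) : gr_Key O (IsLocalRing.residue O) F p :=
  gr_kd_hes_key h3 O (IsLocalRing.residue O) F hζ hp h

end Hesse

end Fermat.Agent.DS
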