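/-
DS-T / [GR-5] (helper7), part 3: FINAL ASSEMBLY OF THE DESCENT, for the family `gr_F G`.

Generic port of `JT3/Inst/{Final, HesseFinal}.lean` (+ the unit/DVR bookkeeping of
`Inst/{FinalReg, HesseFinalReg}.lean`):

* `gr_fin_leg_keyAt`, `gr_fin_hes_keyAt` : `gr_Key0 (A ∩ L1) (gr_F G L1) p ⟹ gr_dsc_KeyAt A (gr_F G ℚ) p L1`
  (resp. `grs_Key0`, `ζ₃ ∈ L1`);
* **`gr_fin_key_of_key0`**     : `gr_Key A (residue A) (gr_F G Q̄) p` from `gr_Key0` over the number
  fields `L1 → Q̄` containing a primitive `M`-th root of unity (Legendre cover);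
* **`gr_fin_hes_key_of_key0`** : the same from `grs_Key0` (Hesse cover, `3 ∣ M`);
* `gr_fin_key_of_key0_dvr`, `gr_fin_hes_key_of_key0_dvr` : the same with the bookkeeping done:
  `A ∩ L1` is a discrete valuation ring, `2` (resp. `3`) and `p ≠ ℓ` are units of it;
* `gr_fin_S18_of_key0`, `gr_fin_hes_S18_of_key0` : the conclusion of S18 for `dsr_reduction`
  (`gr_S18_family`), with `gr_HasDiv`, `gr_Lifts`, `gr_ConstOrd` discharged from (A1)
  (`DS/GR/ConstRed.lean`, `DS/GR/FamilyLift.lean`).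
Prefix `gr_fin_`.
-/
import Mathlib
import Fermat.Agent.JT3.Inst.Final
import Fermat.Agent.DS.GR.KDescent
import Fermat.Agent.DS.GR.KeyBridge
import Fermat.Agent.DS.GR.ConstRed
import Fermat.Agent.DS.GR.FamilyLift

set_option autoImplicit false
set_option linter.unusedSectionVars false
set_option linter.style.haveILetI false

noncomputable section

open ModularCurve IntermediateField AlgebraicCurve

namespace Fermat.Agent.DS

open Fermat.Agent.JT3

section KeyAt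

variable (G : Set (LaurentSeries ℤ)) (A : ValuationSubring (AlgebraicClosure ℚ))

/-- **[KD-LEG], the arrow of the chain**: `gr_Key0 (A ∩ L1) (gr_F G L1) p ⟹` KEY at `L1`. -/
theorem gr_fin_leg_keyAt (hjG : jqModC ℤ ∈ G) {p : ℕ}
    (hp : p ≠ 0) (L1 : Type) [Field L1] [Algebra ℚ L1] [Algebra L1 (AlgebraicClosure ℚ)]
    (h : gr_Key0 (A.comap (algebraMap L1 (AlgebraicClosure ℚ))) (gr_F G L1) p) :
    gr_dsc_KeyAt A (gr_F G ℚ) p L1 := by
  haveI : CharZero L1 := algebraRat.charZero L1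
  haveI := gr_cr_hasJ G hjG L1
  exact gr_kd_key_congr (gr_F_eq_laurentBaseChange G L1) (gr_kd_leg_key0 _ (gr_F G L1) hp h)

/-- **[KD-HES], the arrow of the chain** (`ζ₃ ∈ L1`). -/
theorem gr_fin_hes_keyAt (hjG : jqModC ℤ ∈ G) {p : ℕ}
    (hp : p ≠ 0) (L1 : Type) [Field L1] [Algebra ℚ L1] [Algebra L1 (AlgebraicClosure ℚ)]
    (h3 : (3 : L1) ≠ 0) {ζ : L1} (hζ : IsPrimitiveRoot ζ 3)
    (h : grs_Key0 h3 (A.comap (algebraMap L1 (AlgebraicClosure ℚ))) (gr_F G L1) p) :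
    gr_dsc_KeyAt A (gr_F G ℚ) p L1 := by
  haveI : CharZero L1 := algebraRat.charZero L1
  haveI := gr_cr_hasJ G hjG L1
  exact gr_kd_key_congr (gr_F_eq_laurentBaseChange G L1)
    (gr_kd_hes_key0 h3 _ (gr_F G L1) hζ hp h)

end KeyAt

section Key

variable (G : Set (LaurentSeries ℤ)) (A : ValuationSubring (AlgebraicClosure ℚ))

/-- **`gr_Key` over `(Q̄, A)` from `gr_Key0` over number fields** (Legendre cover). It suffices to
prove `gr_Key0 (A ∩ L1) (gr_F G L1) p` for the (abstract) number fields `L1 → Q̄` which contain a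
primitive `M`-th root of unity (`M` any fixed nonzero integer). -/
theorem gr_fin_key_of_key0 (hjG : jqModC ℤ ∈ G) {p : ℕ} (hp : p ≠ 0) (M : ℕ) [NeZero M]
    (h : ∀ (L1 : Type) [Field L1] [NumberField L1] [Algebra L1 (AlgebraicClosure ℚ)] (ζ : L1),
      IsPrimitiveRoot ζ M →
      gr_Key0 (A.comap (algebraMap L1 (AlgebraicClosure ℚ))) (gr_F G L1) p) :
    gr_Key A (IsLocalRing.residue A) (gr_F G (AlgebraicClosure ℚ)) p := by
  classical
  have _ : Algebra.IsAlgebraic ℚ (AlgebraicClosure ℚ) := AlgebraicClosure.isAlgebraic ℚ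
  refine gr_kd_key_congr (gr_F_eq_laurentBaseChange G (AlgebraicClosure ℚ)).symm ?_
  apply gr_dsc_key_of_keyAt
  intro s
  obtain ⟨ζ, hζ⟩ : ∃ ζ : AlgebraicClosure ℚ, IsPrimitiveRoot ζ M :=
    HasEnoughRootsOfUnity.exists_primitiveRoot (AlgebraicClosure ℚ) M
  let L1 : IntermediateField ℚ (AlgebraicClosure ℚ) :=
    IntermediateField.adjoin ℚ ((↑s : Set (AlgebraicClosure ℚ)) ∪ {ζ})
  have hs : (↑s : Set (AlgebraicClosure ℚ)) ⊆ L1 := fun a ha =>
    IntermediateField.subset_adjoin ℚ _ (Set.mem_union_left _ ha)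
  have hζ1 : ζ ∈ L1 := IntermediateField.subset_adjoin ℚ _ (Set.mem_union_right _ rfl)
  have hfin : FiniteDimensional ℚ L1 := by
    have hfinset : ((↑s : Set (AlgebraicClosure ℚ)) ∪ {ζ}).Finite :=
      s.finite_toSet.union (Set.finite_singleton ζ)
    exact IntermediateField.finiteDimensional_adjoin
      (fun x _ => Algebra.IsIntegral.isIntegral x)
  haveI : NumberField L1 := ⟨⟩
  refine ⟨L1, hs, gr_fin_leg_keyAt G A hjG hp ↥L1 (h ↥L1 ⟨ζ, hζ1⟩ ?_)⟩
  have hζ' : IsPrimitiveRoot (L1.val (⟨ζ, hζ1⟩ : L1)) M := hζ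
  exact IsPrimitiveRoot.of_map_of_injective hζ' Subtype.val_injective

/-- **`gr_Key` over `(Q̄, A)` from `grs_Key0` over number fields** (Hesse cover) containing a
primitive `M`-th root of unity, `3 ∣ M`. -/
theorem gr_fin_hes_key_of_key0 (hjG : jqModC ℤ ∈ G) {p : ℕ} (hp : p ≠ 0) (M : ℕ) [NeZero M]
    (h3M : 3 ∣ M)
    (h : ∀ (L1 : Type) [Field L1] [NumberField L1] [Algebra L1 (AlgebraicClosure ℚ)]
      (h3 : (3 : L1) ≠ 0) (ζ : L1), IsPrimitiveRoot ζ M →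
      grs_Key0 h3 (A.comap (algebraMap L1 (AlgebraicClosure ℚ))) (gr_F G L1) p) :
    gr_Key A (IsLocalRing.residue A) (gr_F G (AlgebraicClosure ℚ)) p := by
  classical
  have _ : Algebra.IsAlgebraic ℚ (AlgebraicClosure ℚ) := AlgebraicClosure.isAlgebraic ℚ
  refine gr_kd_key_congr (gr_F_eq_laurentBaseChange G (AlgebraicClosure ℚ)).symm ?_
  apply gr_dsc_key_of_keyAt
  intro s
  obtain ⟨ζ, hζ⟩ : ∃ ζ : AlgebraicClosure ℚ, IsPrimitiveRoot ζ M :=
    HasEnoughRootsOfUnity.exists_primitiveRoot (AlgebraicClosure ℚ) M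
  let L1 : IntermediateField ℚ (AlgebraicClosure ℚ) :=
    IntermediateField.adjoin ℚ ((↑s : Set (AlgebraicClosure ℚ)) ∪ {ζ})
  have hs : (↑s : Set (AlgebraicClosure ℚ)) ⊆ L1 := fun a ha =>
    IntermediateField.subset_adjoin ℚ _ (Set.mem_union_left _ ha)
  have hζ1 : ζ ∈ L1 := IntermediateField.subset_adjoin ℚ _ (Set.mem_union_right _ rfl)
  have hfin : FiniteDimensional ℚ L1 := by
    have hfinset : ((↑s : Set (AlgebraicClosure ℚ)) ∪ {ζ}).Finite :=
      s.finite_toSet.union (Set.finite_singleton ζ)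
    exact IntermediateField.finiteDimensional_adjoin
      (fun x _ => Algebra.IsIntegral.isIntegral x)
  haveI : NumberField L1 := ⟨⟩
  have hζ' : IsPrimitiveRoot (L1.val (⟨ζ, hζ1⟩ : L1)) M := hζ
  have hζ'' : IsPrimitiveRoot (⟨ζ, hζ1⟩ : L1) M :=
    IsPrimitiveRoot.of_map_of_injective hζ' Subtype.val_injective
  obtain ⟨k, rfl⟩ := h3M
  have hk0 : k ≠ 0 := by
    rintro rfl
    exact NeZero.ne (3 * 0) rfl
  have hζ3 : IsPrimitiveRoot ((⟨ζ, hζ1⟩ : L1) ^ k) 3 :=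
    hζ''.pow (Nat.pos_of_ne_zero (NeZero.ne (3 * k))) (by ring)
  have h3 : (3 : ↥L1) ≠ 0 := by norm_num
  exact ⟨L1, hs, gr_fin_hes_keyAt G A hjG hp ↥L1 h3 hζ3 (h ↥L1 h3 ⟨ζ, hζ1⟩ hζ'')⟩

end Key

section DVR

variable (G : Set (LaurentSeries ℤ)) (A : ValuationSubring (AlgebraicClosure ℚ))

/-- **Legendre cover, bookkeeping done** (`ℓ` odd): it suffices to prove `gr_Key0` over the number
fields `L1 ∋ ζ_M` knowing that `O = A ∩ L1` is a discrete valuation ring (with a uniformiser `π`)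
in which `2` and `p` are units. -/
theorem gr_fin_key_of_key0_dvr (hjG : jqModC ℤ ∈ G) {ℓ : ℕ} [Fact ℓ.Prime] (hℓ2 : ℓ ≠ 2)
    (hA : A.LiesOverPrime ℓ) {p : ℕ} (hp : p.Prime) (hpℓ : p ≠ ℓ) (M : ℕ) [NeZero M]
    (h : ∀ (L1 : Type) [Field L1] [NumberField L1] [Algebra L1 (AlgebraicClosure ℚ)] (ζ : L1),
      IsPrimitiveRoot ζ M →
      ∀ [IsDiscreteValuationRing ↥(A.comap (algebraMap L1 (AlgebraicClosure ℚ)))]
        (π : ↥(A.comap (algebraMap L1 (AlgebraicClosure ℚ)))), Irreducible π →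
        IsUnit (2 : ↥(A.comap (algebraMap L1 (AlgebraicClosure ℚ)))) →
        IsUnit ((p : ℕ) : ↥(A.comap (algebraMap L1 (AlgebraicClosure ℚ)))) →
        gr_Key0 (A.comap (algebraMap L1 (AlgebraicClosure ℚ))) (gr_F G L1) p) :
    gr_Key A (IsLocalRing.residue A) (gr_F G (AlgebraicClosure ℚ)) p := by
  have hℓp : ℓ.Prime := Fact.out
  refine gr_fin_key_of_key0 G A hjG hp.ne_zero M (fun L1 _ _ _ ζ hζ => ?_)
  haveI hdvr : IsDiscreteValuationRing ↥(A.comap (algebraMap L1 (AlgebraicClosure ℚ))) :=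
    dsc_isDVR_comap_numberField A ℓ hA hℓp.ne_zero L1
  obtain ⟨π, hπ⟩ := IsDiscreteValuationRing.exists_irreducible
    ↥(A.comap (algebraMap L1 (AlgebraicClosure ℚ)))
  have hmem := lg_natCast_mem_maximalIdeal A hA L1
  have h2 : IsUnit (2 : ↥(A.comap (algebraMap L1 (AlgebraicClosure ℚ)))) := by
    have := lg_isUnit_natCast hmem (m := 2)
      ((Nat.coprime_primes Nat.prime_two hℓp).2 (Ne.symm hℓ2))
    simpa using this
  have hpu : IsUnit ((p : ℕ) : ↥(A.comap (algebraMap L1 (AlgebraicClosure ℚ)))) :=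
    lg_isUnit_natCast hmem ((Nat.coprime_primes hp hℓp).2 hpℓ)
  exact h L1 ζ hζ π hπ h2 hpu

/-- **Hesse cover, bookkeeping done** (`ℓ ≠ 3`, in particular `ℓ = 2`; `3 ∣ M`). -/
theorem gr_fin_hes_key_of_key0_dvr (hjG : jqModC ℤ ∈ G) {ℓ : ℕ} [Fact ℓ.Prime] (hℓ3 : ℓ ≠ 3)
    (hA : A.LiesOverPrime ℓ) {p : ℕ} (hp : p.Prime) (hpℓ : p ≠ ℓ) (M : ℕ) [NeZero M]
    (h3M : 3 ∣ M)
    (h : ∀ (L1 : Type) [Field L1] [NumberField L1] [Algebra L1 (AlgebraicClosure ℚ)]
      (h3 : (3 : L1) ≠ 0) (ζ : L1), IsPrimitiveRoot ζ M →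
      ∀ [IsDiscreteValuationRing ↥(A.comap (algebraMap L1 (AlgebraicClosure ℚ)))]
        (π : ↥(A.comap (algebraMap L1 (AlgebraicClosure ℚ)))), Irreducible π →
        IsUnit (3 : ↥(A.comap (algebraMap L1 (AlgebraicClosure ℚ)))) →
        IsUnit ((p : ℕ) : ↥(A.comap (algebraMap L1 (AlgebraicClosure ℚ)))) →
        grs_Key0 h3 (A.comap (algebraMap L1 (AlgebraicClosure ℚ))) (gr_F G L1) p) :
    gr_Key A (IsLocalRing.residue A) (gr_F G (AlgebraicClosure ℚ)) p := by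
  have hℓp : ℓ.Prime := Fact.out
  refine gr_fin_hes_key_of_key0 G A hjG hp.ne_zero M h3M (fun L1 _ _ _ h3 ζ hζ => ?_)
  haveI hdvr : IsDiscreteValuationRing ↥(A.comap (algebraMap L1 (AlgebraicClosure ℚ))) :=
    dsc_isDVR_comap_numberField A ℓ hA hℓp.ne_zero L1
  obtain ⟨π, hπ⟩ := IsDiscreteValuationRing.exists_irreducible
    ↥(A.comap (algebraMap L1 (AlgebraicClosure ℚ)))
  have hmem := lg_natCast_mem_maximalIdeal A hA L1
  have h3O : IsUnit (3 : ↥(A.comap (algebraMap L1 (AlgebraicClosure ℚ)))) := by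
    have := lg_isUnit_natCast hmem (m := 3)
      ((Nat.coprime_primes Nat.prime_three hℓp).2 (Ne.symm hℓ3))
    simpa using this
  have hpu : IsUnit ((p : ℕ) : ↥(A.comap (algebraMap L1 (AlgebraicClosure ℚ)))) :=
    lg_isUnit_natCast hmem ((Nat.coprime_primes hp hℓp).2 hpℓ)
  exact h L1 h3 ζ hζ π hπ h3O hpu

end DVR

section S18

variable (G : Set (LaurentSeries ℤ)) (A : ValuationSubring (AlgebraicClosure ℚ))

set_option synthInstance.maxHeartbeats 400000 in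
/-- **S18 for the family `gr_F G` from `gr_Key0` over number fields** (Legendre cover; any `ℓ`; the
hypothesis `hkey` is provable by the Legendre model when `ℓ` is odd).  The seams `gr_HasDiv`,
`gr_Lifts`, `gr_ConstOrd` are discharged from (A1). -/
theorem gr_fin_S18_of_key0 (hG : G.Finite) (hjG : jqModC ℤ ∈ G)
    (hA1 : ∀ g ∈ G, IsAlgebraic ℚ⟮jqModC ℚ⟯ (coeffMap (Int.castRingHom ℚ) g))
    {ℓ : ℕ} [Fact ℓ.Prime] (hA : A.LiesOverPrime ℓ)
    (h : dsr_ReductionInputs A (IsLocalRing.residue A) (gr_F G (AlgebraicClosure ℚ))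
      (gr_F G (IsLocalRing.ResidueField A)))
    (m : ℕ) (hm : ¬ ℓ ∣ m) (M : ℕ) [NeZero M]
    (hkey : ∀ p : ℕ, p.Prime → p ≠ ℓ →
      ∀ (L1 : Type) [Field L1] [NumberField L1] [Algebra L1 (AlgebraicClosure ℚ)] (ζ : L1),
        IsPrimitiveRoot ζ M →
        gr_Key0 (A.comap (algebraMap L1 (AlgebraicClosure ℚ))) (gr_F G L1) p)
    (z : Pic0 (AlgebraicClosure ℚ) (gr_F G (AlgebraicClosure ℚ))) (hmz : m • z = 0)
    (hz : dsr_reduction A (IsLocalRing.residue A) (gr_F G (AlgebraicClosure ℚ))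
      (gr_F G (IsLocalRing.ResidueField A)) z = 0) : z = 0 := by
  have hm0 : m ≠ 0 := by
    rintro rfl
    exact hm (dvd_zero ℓ)
  refine gr_S18_family G IsLocalRing.residue_surjective rfl rfl h m hm0
    (gr_cr_hasDiv G hG hjG hA1) (fun p hp hpm => ?_)
    (gr_cr_constOrd_residue G A hA hG hjG hA1) z hmz hz
  have hpℓ : p ≠ ℓ := by
    rintro rfl
    exact hm hpm
  exact gr_fin_key_of_key0 G A hjG hp.ne_zero M (hkey p hp hpℓ)

set_option synthInstance.maxHeartbeats 400000 in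
/-- **S18 for the family `gr_F G` from `grs_Key0` over number fields** (Hesse cover, `3 ∣ M`; the
hypothesis `hkey` is provable by the Hesse model when `ℓ ≠ 3`, in particular for `ℓ = 2`). -/
theorem gr_fin_hes_S18_of_key0 (hG : G.Finite) (hjG : jqModC ℤ ∈ G)
    (hA1 : ∀ g ∈ G, IsAlgebraic ℚ⟮jqModC ℚ⟯ (coeffMap (Int.castRingHom ℚ) g))
    {ℓ : ℕ} [Fact ℓ.Prime] (hA : A.LiesOverPrime ℓ)
    (h : dsr_ReductionInputs A (IsLocalRing.residue A) (gr_F G (AlgebraicClosure ℚ))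
      (gr_F G (IsLocalRing.ResidueField A)))
    (m : ℕ) (hm : ¬ ℓ ∣ m) (M : ℕ) [NeZero M] (h3M : 3 ∣ M)
    (hkey : ∀ p : ℕ, p.Prime → p ≠ ℓ →
      ∀ (L1 : Type) [Field L1] [NumberField L1] [Algebra L1 (AlgebraicClosure ℚ)]
        (h3 : (3 : L1) ≠ 0) (ζ : L1), IsPrimitiveRoot ζ M →
        grs_Key0 h3 (A.comap (algebraMap L1 (AlgebraicClosure ℚ))) (gr_F G L1) p)
    (z : Pic0 (AlgebraicClosure ℚ) (gr_F G (AlgebraicClosure ℚ))) (hmz : m • z = 0)
    (hz : dsr_reduction A (IsLocalRing.residue A) (gr_F G (AlgebraicClosure ℚ))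
      (gr_F G (IsLocalRing.ResidueField A)) z = 0) : z = 0 := by
  have hm0 : m ≠ 0 := by
    rintro rfl
    exact hm (dvd_zero ℓ)
  refine gr_S18_family G IsLocalRing.residue_surjective rfl rfl h m hm0
    (gr_cr_hasDiv G hG hjG hA1) (fun p hp hpm => ?_)
    (gr_cr_constOrd_residue G A hA hG hjG hA1) z hmz hz
  have hpℓ : p ≠ ℓ := by
    rintro rfl
    exact hm hpm
  exact gr_fin_hes_key_of_key0 G A hjG hp.ne_zero M h3M (hkey p hp hpℓ)

end S18

end Fermat.Agent.DS
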