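/-
DS-T / [GR-5] (helper7), part 4: S18 FOR THE FAMILY `gr_F G` FROM THE REGULARITY OF THE CHARTS.

Generic port of `JT3/Inst/{FinalReg, HesseFinalReg}.lean`: the conclusion of S18 for
`dsr_reduction A (residue A) (gr_F G Q̄) (gr_F G k_A)` from

* (A1) over `ℚ` (`gr_A1Q G`), `j ∈ G`,
* the reduction inputs `dsr_ReductionInputs` (node-E twin),
* the regularity (`jt_RegAt`) of the two standard charts of the Legendre model (`ℓ ≠ 2`), resp. of
  the Hesse model (`ℓ ≠ 3`, `3 ∣ M`), over the number fields `L1 → Q̄` containing a primitive `M`-th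
  root of unity, with `O = A ∩ L1`.

Everything else (`gr_HasDiv`, `gr_Lifts`, `gr_ConstOrd`, KEY over `Q̄`, the K-descent, the descent to
number fields, finiteness of `E / L(λ)`, `gr_F G L1 ≤ gq_quotField`) is discharged.
Prefix `gr_fin_`.
-/
import Mathlib
import Fermat.Agent.DS.GR.Final
import Fermat.Agent.DS.GR.Finite
import Fermat.Agent.DS.GR.Key0
import Fermat.Agent.DS.GR.HesseKey0

set_option autoImplicit false
set_option linter.unusedSectionVars false
set_option linter.style.haveILetI false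

noncomputable section

open ModularCurve IntermediateField AlgebraicCurve

namespace Fermat.Agent.DS

open Fermat.Agent.JT3

section A1

variable (G : Set (LaurentSeries ℤ))

/-- `gr_A1Q G` gives the algebraicity form of (A1) used in `DS/GR/ConstRed.lean`. -/
theorem gr_fin_isAlgebraic_of_A1Q (hG : gr_A1Q G) :
    ∀ g ∈ G, IsAlgebraic ℚ⟮jqModC ℚ⟯ (coeffMap (Int.castRingHom ℚ) g) :=
  fun g hg => (hG.2 g hg).isAlgebraic

end A1

section Key

variable (G : Set (LaurentSeries ℤ)) (A : ValuationSubring (AlgebraicClosure ℚ))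

set_option synthInstance.maxHeartbeats 400000 in
/-- **KEY over `(Q̄, A)` for the family, `ℓ` odd, from the regularity of the Legendre charts.** -/
theorem gr_fin_key_of_regAt (hG : gr_A1Q G) (hjG : jqModC ℤ ∈ G)
    {ℓ : ℕ} [Fact ℓ.Prime] (hℓ2 : ℓ ≠ 2) (hA : A.LiesOverPrime ℓ)
    {p : ℕ} (hp : p.Prime) (hpℓ : p ≠ ℓ) (M : ℕ) [NeZero M]
    (hreg : ∀ (L1 : Type) [Field L1] [NumberField L1] [Algebra L1 (AlgebraicClosure ℚ)]
      (ζ : L1), IsPrimitiveRoot ζ M →
      ∀ [IsDiscreteValuationRing ↥(A.comap (algebraMap L1 (AlgebraicClosure ℚ)))]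
        (π : ↥(A.comap (algebraMap L1 (AlgebraicClosure ℚ)))), Irreducible π →
        jt_RegAt (fc_chart ↥(A.comap (algebraMap L1 (AlgebraicClosure ℚ)))
            ({gr_lamE (gr_F G L1)} : Set (gr_E (gr_F G L1))))
          (algebraMap ↥(A.comap (algebraMap L1 (AlgebraicClosure ℚ)))
            (fc_chart ↥(A.comap (algebraMap L1 (AlgebraicClosure ℚ)))
              ({gr_lamE (gr_F G L1)} : Set (gr_E (gr_F G L1)))) π) ∧
        jt_RegAt (fc_chart ↥(A.comap (algebraMap L1 (AlgebraicClosure ℚ)))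
            ({(gr_lamE (gr_F G L1))⁻¹} : Set (gr_E (gr_F G L1))))
          (algebraMap ↥(A.comap (algebraMap L1 (AlgebraicClosure ℚ)))
            (fc_chart ↥(A.comap (algebraMap L1 (AlgebraicClosure ℚ)))
              ({(gr_lamE (gr_F G L1))⁻¹} : Set (gr_E (gr_F G L1)))) π)) :
    gr_Key A (IsLocalRing.residue A) (gr_F G (AlgebraicClosure ℚ)) p := by
  refine gr_fin_key_of_key0_dvr G A hjG hℓ2 hA hp hpℓ M
    (fun L1 _ _ _ ζ hζ _ π hπ h2 hpu => ?_)
  haveI : CharZero L1 := algebraRat.charZero L1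
  haveI : FiniteDimensional L1⟮(gr_lamE (gr_F G L1) : gr_E (gr_F G L1))⟯ (gr_E (gr_F G L1)) :=
    grf_finite (gr_A1_family G hG L1)
  obtain ⟨hr1, hr2⟩ := hreg L1 ζ hζ π hπ
  exact gr_Key0_of_regAt (gr_F_le_quotField _ G) hπ h2 hr1 hr2 p hpu

set_option synthInstance.maxHeartbeats 400000 in
/-- **KEY over `(Q̄, A)` for the family, `ℓ ≠ 3` (in particular `ℓ = 2`), from the regularity of
the Hesse charts.** -/
theorem gr_fin_hes_key_of_regAt (hG : gr_A1Q G) (hjG : jqModC ℤ ∈ G)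
    {ℓ : ℕ} [Fact ℓ.Prime] (hℓ3 : ℓ ≠ 3) (hA : A.LiesOverPrime ℓ)
    {p : ℕ} (hp : p.Prime) (hpℓ : p ≠ ℓ) (M : ℕ) [NeZero M] (h3M : 3 ∣ M)
    (hreg : ∀ (L1 : Type) [Field L1] [NumberField L1] [Algebra L1 (AlgebraicClosure ℚ)]
      (h3 : (3 : L1) ≠ 0) (ζ : L1), IsPrimitiveRoot ζ M →
      ∀ [IsDiscreteValuationRing ↥(A.comap (algebraMap L1 (AlgebraicClosure ℚ)))]
        (π : ↥(A.comap (algebraMap L1 (AlgebraicClosure ℚ)))), Irreducible π →
        jt_RegAt (fc_chart ↥(A.comap (algebraMap L1 (AlgebraicClosure ℚ)))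
            ({grs_muE h3 (gr_F G L1)} : Set (grs_E h3 (gr_F G L1))))
          (algebraMap ↥(A.comap (algebraMap L1 (AlgebraicClosure ℚ)))
            (fc_chart ↥(A.comap (algebraMap L1 (AlgebraicClosure ℚ)))
              ({grs_muE h3 (gr_F G L1)} : Set (grs_E h3 (gr_F G L1)))) π) ∧
        jt_RegAt (fc_chart ↥(A.comap (algebraMap L1 (AlgebraicClosure ℚ)))
            ({(grs_muE h3 (gr_F G L1))⁻¹} : Set (grs_E h3 (gr_F G L1))))
          (algebraMap ↥(A.comap (algebraMap L1 (AlgebraicClosure ℚ)))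
            (fc_chart ↥(A.comap (algebraMap L1 (AlgebraicClosure ℚ)))
              ({(grs_muE h3 (gr_F G L1))⁻¹} : Set (grs_E h3 (gr_F G L1)))) π)) :
    gr_Key A (IsLocalRing.residue A) (gr_F G (AlgebraicClosure ℚ)) p := by
  refine gr_fin_hes_key_of_key0_dvr G A hjG hℓ3 hA hp hpℓ M h3M
    (fun L1 _ _ _ h3 ζ hζ _ π hπ h3O hpu => ?_)
  haveI : CharZero L1 := algebraRat.charZero L1
  haveI : FiniteDimensional L1⟮(grs_muE h3 (gr_F G L1) : grs_E h3 (gr_F G L1))⟯
      (grs_E h3 (gr_F G L1)) :=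
    grsf_finite h3 (gr_A1_family G hG L1)
  obtain ⟨hr1, hr2⟩ := hreg L1 h3 ζ hζ π hπ
  exact grs_Key0_of_regAt h3 (gr_F_le_quotField _ G) hπ h3O hr1 hr2 p hpu

end Key

section S18

variable (G : Set (LaurentSeries ℤ)) (A : ValuationSubring (AlgebraicClosure ℚ))

set_option synthInstance.maxHeartbeats 400000 in
/-- **S18 for the family `gr_F G`, `ℓ` odd, from the regularity of the Legendre charts.** -/
theorem gr_fin_S18_of_regAt (hG : gr_A1Q G) (hjG : jqModC ℤ ∈ G)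
    {ℓ : ℕ} [Fact ℓ.Prime] (hℓ2 : ℓ ≠ 2) (hA : A.LiesOverPrime ℓ)
    (h : dsr_ReductionInputs A (IsLocalRing.residue A) (gr_F G (AlgebraicClosure ℚ))
      (gr_F G (IsLocalRing.ResidueField A)))
    (m : ℕ) (hm : ¬ ℓ ∣ m) (M : ℕ) [NeZero M]
    (hreg : ∀ (L1 : Type) [Field L1] [NumberField L1] [Algebra L1 (AlgebraicClosure ℚ)]
      (ζ : L1), IsPrimitiveRoot ζ M →
      ∀ [IsDiscreteValuationRing ↥(A.comap (algebraMap L1 (AlgebraicClosure ℚ)))]
        (π : ↥(A.comap (algebraMap L1 (AlgebraicClosure ℚ)))), Irreducible π →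
        jt_RegAt (fc_chart ↥(A.comap (algebraMap L1 (AlgebraicClosure ℚ)))
            ({gr_lamE (gr_F G L1)} : Set (gr_E (gr_F G L1))))
          (algebraMap ↥(A.comap (algebraMap L1 (AlgebraicClosure ℚ)))
            (fc_chart ↥(A.comap (algebraMap L1 (AlgebraicClosure ℚ)))
              ({gr_lamE (gr_F G L1)} : Set (gr_E (gr_F G L1)))) π) ∧
        jt_RegAt (fc_chart ↥(A.comap (algebraMap L1 (AlgebraicClosure ℚ)))
            ({(gr_lamE (gr_F G L1))⁻¹} : Set (gr_E (gr_F G L1))))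
          (algebraMap ↥(A.comap (algebraMap L1 (AlgebraicClosure ℚ)))
            (fc_chart ↥(A.comap (algebraMap L1 (AlgebraicClosure ℚ)))
              ({(gr_lamE (gr_F G L1))⁻¹} : Set (gr_E (gr_F G L1)))) π))
    (z : Pic0 (AlgebraicClosure ℚ) (gr_F G (AlgebraicClosure ℚ))) (hmz : m • z = 0)
    (hz : dsr_reduction A (IsLocalRing.residue A) (gr_F G (AlgebraicClosure ℚ))
      (gr_F G (IsLocalRing.ResidueField A)) z = 0) : z = 0 := by
  have hm0 : m ≠ 0 := by
    rintro rfl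
    exact hm (dvd_zero ℓ)
  have hA1 := gr_fin_isAlgebraic_of_A1Q G hG
  refine gr_S18_family G IsLocalRing.residue_surjective rfl rfl h m hm0
    (gr_cr_hasDiv G hG.1 hjG hA1) (fun p hp hpm => ?_)
    (gr_cr_constOrd_residue G A hA hG.1 hjG hA1) z hmz hz
  have hpℓ : p ≠ ℓ := by
    rintro rfl
    exact hm hpm
  exact gr_fin_key_of_regAt G A hG hjG hℓ2 hA hp hpℓ M hreg

set_option synthInstance.maxHeartbeats 400000 in
/-- **S18 for the family `gr_F G`, `ℓ ≠ 3` (in particular `ℓ = 2`), from the regularity of the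
Hesse charts.** -/
theorem gr_fin_hes_S18_of_regAt (hG : gr_A1Q G) (hjG : jqModC ℤ ∈ G)
    {ℓ : ℕ} [Fact ℓ.Prime] (hℓ3 : ℓ ≠ 3) (hA : A.LiesOverPrime ℓ)
    (h : dsr_ReductionInputs A (IsLocalRing.residue A) (gr_F G (AlgebraicClosure ℚ))
      (gr_F G (IsLocalRing.ResidueField A)))
    (m : ℕ) (hm : ¬ ℓ ∣ m) (M : ℕ) [NeZero M] (h3M : 3 ∣ M)
    (hreg : ∀ (L1 : Type) [Field L1] [NumberField L1] [Algebra L1 (AlgebraicClosure ℚ)]
      (h3 : (3 : L1) ≠ 0) (ζ : L1), IsPrimitiveRoot ζ M →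
      ∀ [IsDiscreteValuationRing ↥(A.comap (algebraMap L1 (AlgebraicClosure ℚ)))]
        (π : ↥(A.comap (algebraMap L1 (AlgebraicClosure ℚ)))), Irreducible π →
        jt_RegAt (fc_chart ↥(A.comap (algebraMap L1 (AlgebraicClosure ℚ)))
            ({grs_muE h3 (gr_F G L1)} : Set (grs_E h3 (gr_F G L1))))
          (algebraMap ↥(A.comap (algebraMap L1 (AlgebraicClosure ℚ)))
            (fc_chart ↥(A.comap (algebraMap L1 (AlgebraicClosure ℚ)))
              ({grs_muE h3 (gr_F G L1)} : Set (grs_E h3 (gr_F G L1)))) π) ∧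
        jt_RegAt (fc_chart ↥(A.comap (algebraMap L1 (AlgebraicClosure ℚ)))
            ({(grs_muE h3 (gr_F G L1))⁻¹} : Set (grs_E h3 (gr_F G L1))))
          (algebraMap ↥(A.comap (algebraMap L1 (AlgebraicClosure ℚ)))
            (fc_chart ↥(A.comap (algebraMap L1 (AlgebraicClosure ℚ)))
              ({(grs_muE h3 (gr_F G L1))⁻¹} : Set (grs_E h3 (gr_F G L1)))) π))
    (z : Pic0 (AlgebraicClosure ℚ) (gr_F G (AlgebraicClosure ℚ))) (hmz : m • z = 0)
    (hz : dsr_reduction A (IsLocalRing.residue A) (gr_F G (AlgebraicClosure ℚ))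
      (gr_F G (IsLocalRing.ResidueField A)) z = 0) : z = 0 := by
  have hm0 : m ≠ 0 := by
    rintro rfl
    exact hm (dvd_zero ℓ)
  have hA1 := gr_fin_isAlgebraic_of_A1Q G hG
  refine gr_S18_family G IsLocalRing.residue_surjective rfl rfl h m hm0
    (gr_cr_hasDiv G hG.1 hjG hA1) (fun p hp hpm => ?_)
    (gr_cr_constOrd_residue G A hA hG.1 hjG hA1) z hmz hz
  have hpℓ : p ≠ ℓ := by
    rintro rfl
    exact hm hpm
  exact gr_fin_hes_key_of_regAt G A hG hjG hℓ3 hA hp hpℓ M h3M hreg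

end S18

end Fermat.Agent.DS
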