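import Mathlib
import Fermat.Agent.DS.GR.RamReg
import Fermat.Agent.JT3.Model.PolyGlueIntr

/-!
# DS-T / [GR-6]: regularity of the standard charts of an ABSTRACT rigidified tower, with the
vertical hypothesis (V) in INTRINSIC form

Verbatim twin of `DS/GR/RamReg.lean` (helper29), with the good-generator hypothesis `S, hS, hV` of
`mdl_regAt` replaced by the intrinsic hypothesis `hV` of `el_pg_regAt_intr` (unramifiedness of
`E / K` over the Gauss type discrete valuation rings of `K = L(x)`).

* `gr_ram_leg_regAt_intr`, `gr_ram_hes_regAt3_intr`, `gr_ram_hes_regAt4_intr`.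
-/

set_option autoImplicit false
set_option linter.style.haveILetI false
set_option linter.unusedSectionVars false

open IntermediateField Polynomial

namespace Fermat.Agent.DS

open Fermat.Agent.JT3

section RegIntr

variable {O L : Type*} [CommRing O] [IsDomain O] [IsDiscreteValuationRing O]
  [Field L] [Algebra O L] [IsFractionRing O L] [CharZero L]
  {K E : Type*} [Field K] [Field E] [Algebra L K] [Algebra K E] [Algebra L E]
  [IsScalarTower L K E] [Algebra O K] [Algebra O E] [IsScalarTower O L K] [IsScalarTower O L E]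
  [IsScalarTower O K E] [FiniteDimensional K E]
  {Kj : Type*} [Field Kj] [Algebra L Kj] (F : Type*) [Field F]
  [Algebra Kj F] [Algebra Kj K] [Algebra Kj E] [Algebra F E]
  [IsScalarTower Kj F E] [IsScalarTower Kj K E] [FiniteDimensional Kj E]
  [Algebra L F] [IsScalarTower L Kj F] [IsScalarTower L Kj K]

/-- **regularity of a Legendre chart** of an abstract rigidified tower. -/
theorem gr_ram_leg_regAt_intr {ϖ : O} (hϖ : Irreducible ϖ)
    (x : K) (hx : Transcendental L x) (hgenK : IntermediateField.adjoin L {x} = ⊤)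
    (M : ℕ) (hM : IsUnit ((M : ℕ) : O)) (ζ : L) (hζ : IsPrimitiveRoot ζ M)
    (hV : ∀ (V : Subring K) [IsDiscreteValuationRing V] [IsFractionRing V K], x ∈ V →
      (∀ a : O[X], a.map (IsLocalRing.residue O) ≠ 0 → (aeval x a)⁻¹ ∈ V) →
      (algebraMap O K ϖ)⁻¹ ∉ V → jt_UnramAt V E)
    {j' : Kj} (hgenj : IntermediateField.adjoin L {j'} = ⊤)
    (D : rml_RamData L (algebraMap Kj F j') M)
    (hgen : IntermediateField.adjoin Kj
      (Set.range (algebraMap F E) ∪ Set.range (algebraMap K E)) = ⊤)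
    (hrel : cv_legN x = algebraMap Kj K j' * cv_legD x) :
    jt_RegAt (fc_chart O ({algebraMap K E x} : Set E))
      (algebraMap O (fc_chart O ({algebraMap K E x} : Set E)) ϖ) := by
  classical
  have hC : ∀ c ∈ ({0, 1} : Finset O), ∀ c' ∈ ({0, 1} : Finset O), c ≠ c' → IsUnit (c - c') := by
    intro c hc c' hc' hne
    simp only [Finset.mem_insert, Finset.mem_singleton] at hc hc'
    rcases hc with rfl | rfl <;> rcases hc' with rfl | rfl
    · exact absurd rfl hne
    · simp
    · simp
    · exact absurd rfl hne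
  refine el_pg_regAt_intr hϖ x hx hgenK M hM ζ hζ {0, 1} hC hV ?_ ?_
  · intro V2 _ _ hL hxV hc
    refine gr_ram_leg_hH F K E hgenj D hgen hrel V2 hL hxV ?_ ?_
    · have := hc 0 (by simp)
      rwa [map_zero, sub_zero] at this
    · have := hc 1 (by simp)
      rwa [map_one] at this
  · intro c hc V2 _ _ hL hxV hcV P _ hP
    simp only [Finset.mem_insert, Finset.mem_singleton] at hc
    rcases hc with rfl | rfl
    · rw [map_zero, sub_zero] at hcV
      exact gr_ram_leg_hT0 F K E D hgen hrel V2 hL hxV hcV P hP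
    · rw [map_one] at hcV
      exact gr_ram_leg_hT1 F K E D hgen hrel V2 hL hxV hcV P hP

/-! ### Hesse charts -/




/-- **regularity of the Hesse chart `x = μ`** (cusps `1, ω, ω²`) of an abstract rigidified
tower. -/
theorem gr_ram_hes_regAt3_intr {ϖ : O} (hϖ : Irreducible ϖ)
    (x : K) (hx : Transcendental L x) (hgenK : IntermediateField.adjoin L {x} = ⊤)
    (M : ℕ) (hM : IsUnit ((M : ℕ) : O)) (ζ : L) (hζ : IsPrimitiveRoot ζ M)
    (h3O : IsUnit (3 : O)) (ω : O) (hω : ω ^ 2 + ω + 1 = 0)
    (hV : ∀ (V : Subring K) [IsDiscreteValuationRing V] [IsFractionRing V K], x ∈ V →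
      (∀ a : O[X], a.map (IsLocalRing.residue O) ≠ 0 → (aeval x a)⁻¹ ∈ V) →
      (algebraMap O K ϖ)⁻¹ ∉ V → jt_UnramAt V E)
    {j' : Kj} (hgenj : IntermediateField.adjoin L {j'} = ⊤)
    (D : rml_RamData L (algebraMap Kj F j') M)
    (hgen : IntermediateField.adjoin Kj
      (Set.range (algebraMap F E) ∪ Set.range (algebraMap K E)) = ⊤)
    (hrel : cv_hesN x = algebraMap Kj K j' * cv_hesD x) :
    jt_RegAt (fc_chart O ({algebraMap K E x} : Set E))
      (algebraMap O (fc_chart O ({algebraMap K E x} : Set E)) ϖ) := by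
  classical
  obtain ⟨u1, u2, u3, -⟩ := gr_ram_cube_units h3O ω hω
  have hω3 : ω ^ 3 = 1 := by linear_combination (ω - 1) * hω
  have hC : ∀ c ∈ ({1, ω, ω ^ 2} : Finset O), ∀ c' ∈ ({1, ω, ω ^ 2} : Finset O), c ≠ c' →
      IsUnit (c - c') := by
    intro c hc c' hc' hne
    simp only [Finset.mem_insert, Finset.mem_singleton] at hc hc'
    rcases hc with rfl | rfl | rfl <;> rcases hc' with rfl | rfl | rfl
    · exact absurd rfl hne
    · exact u1
    · exact u2
    · exact hs_isUnit_sub_comm u1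
    · exact absurd rfl hne
    · exact u3
    · exact hs_isUnit_sub_comm u2
    · exact hs_isUnit_sub_comm u3
    · exact absurd rfl hne
  have hωK := gr_ram_omega_K (K := K) hω
  have hOL : ∀ c : O, algebraMap O K c = algebraMap L K (algebraMap O L c) := fun c =>
    IsScalarTower.algebraMap_apply O L K c
  refine el_pg_regAt_intr hϖ x hx hgenK M hM ζ hζ {1, ω, ω ^ 2} hC hV ?_ ?_
  · intro V2 _ _ hL hxV hc
    refine gr_ram_hes_cH F K E hgenj D hgen hrel V2 hL hxV ?_
    refine hsrw_cube_inv_mem hωK ?_ (hc ω (by simp)) ?_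
    · have := hc 1 (by simp)
      rwa [map_one] at this
    · have := hc (ω ^ 2) (by simp)
      rwa [map_pow] at this
  · intro c hc V2 _ _ hL hxV hcV P _ hP
    refine gr_ram_hes_cT F K E D hgen hrel V2 hL hxV ?_ P hP
    have hc3 : c ^ 3 = 1 := by
      simp only [Finset.mem_insert, Finset.mem_singleton] at hc
      rcases hc with rfl | rfl | rfl
      · simp
      · exact hω3
      · have : (ω ^ 2) ^ 3 = (ω ^ 3) ^ 2 := by ring
        rw [this, hω3]; ring
    refine hsrw_cube_inv_not_mem hxV (by rw [hOL]; exact hL _) ?_ (gr_ram_cube_ne_one hx) hcV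
    rw [← map_pow, hc3, map_one]

/-- **regularity of the Hesse chart at infinity `x = μ⁻¹`** (cusps `0, 1, ω, ω²`) of an abstract
rigidified tower; the Hesse relation is that of `μ = x⁻¹`. -/
theorem gr_ram_hes_regAt4_intr {ϖ : O} (hϖ : Irreducible ϖ)
    (x : K) (hx : Transcendental L x) (hgenK : IntermediateField.adjoin L {x} = ⊤)
    (M : ℕ) (hM : IsUnit ((M : ℕ) : O)) (ζ : L) (hζ : IsPrimitiveRoot ζ M)
    (h3O : IsUnit (3 : O)) (ω : O) (hω : ω ^ 2 + ω + 1 = 0)
    (hV : ∀ (V : Subring K) [IsDiscreteValuationRing V] [IsFractionRing V K], x ∈ V →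
      (∀ a : O[X], a.map (IsLocalRing.residue O) ≠ 0 → (aeval x a)⁻¹ ∈ V) →
      (algebraMap O K ϖ)⁻¹ ∉ V → jt_UnramAt V E)
    {j' : Kj} (hgenj : IntermediateField.adjoin L {j'} = ⊤)
    (D : rml_RamData L (algebraMap Kj F j') M)
    (hgen : IntermediateField.adjoin Kj
      (Set.range (algebraMap F E) ∪ Set.range (algebraMap K E)) = ⊤)
    (hrel : cv_hesN x⁻¹ = algebraMap Kj K j' * cv_hesD x⁻¹) :
    jt_RegAt (fc_chart O ({algebraMap K E x} : Set E))
      (algebraMap O (fc_chart O ({algebraMap K E x} : Set E)) ϖ) := by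
  classical
  obtain ⟨u1, u2, u3, u4⟩ := gr_ram_cube_units h3O ω hω
  have hω3 : ω ^ 3 = 1 := by linear_combination (ω - 1) * hω
  have u5 : IsUnit (ω ^ 2) := u4.pow 2
  have hC : ∀ c ∈ ({0, 1, ω, ω ^ 2} : Finset O), ∀ c' ∈ ({0, 1, ω, ω ^ 2} : Finset O), c ≠ c' →
      IsUnit (c - c') := by
    intro c hc c' hc' hne
    simp only [Finset.mem_insert, Finset.mem_singleton] at hc hc'
    rcases hc with rfl | rfl | rfl | rfl <;> rcases hc' with rfl | rfl | rfl | rfl
    · exact absurd rfl hne
    · simp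
    · rw [zero_sub]; exact u4.neg
    · rw [zero_sub]; exact u5.neg
    · simp
    · exact absurd rfl hne
    · exact u1
    · exact u2
    · rw [sub_zero]; exact u4
    · exact hs_isUnit_sub_comm u1
    · exact absurd rfl hne
    · exact u3
    · rw [sub_zero]; exact u5
    · exact hs_isUnit_sub_comm u2
    · exact hs_isUnit_sub_comm u3
    · exact absurd rfl hne
  have hωK := gr_ram_omega_K (K := K) hω
  have hOL : ∀ c : O, algebraMap O K c = algebraMap L K (algebraMap O L c) := fun c =>
    IsScalarTower.algebraMap_apply O L K c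
  -- `μ = x⁻¹`
  have hx0 : x ≠ 0 := by
    rintro rfl
    exact hx isAlgebraic_zero
  have hm0 : x⁻¹ ≠ 0 := inv_ne_zero hx0
  have hx3 : x ^ 3 ≠ 1 := gr_ram_cube_ne_one hx
  refine el_pg_regAt_intr hϖ x hx hgenK M hM ζ hζ {0, 1, ω, ω ^ 2} hC hV ?_ ?_
  · intro V2 _ _ hL hxV hc
    have hx' : x⁻¹ ∈ V2 := by
      have := hc 0 (by simp)
      rwa [map_zero, sub_zero] at this
    refine gr_ram_hes_cH F K E hgenj D hgen hrel V2 hL hx' ?_
    refine hsrw_inv_cube_inv_mem hm0 (by rwa [inv_inv]) ?_
    rw [inv_inv]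
    refine hsrw_cube_inv_mem hωK ?_ (hc ω (by simp)) ?_
    · have := hc 1 (by simp)
      rwa [map_one] at this
    · have := hc (ω ^ 2) (by simp)
      rwa [map_pow] at this
  · intro c hc V2 _ _ hL hxV hcV P _ hP
    simp only [Finset.mem_insert, Finset.mem_singleton] at hc
    rcases hc with rfl | hc
    · rw [map_zero, sub_zero] at hcV
      exact gr_ram_hes_cTinf F K E D hgen hrel V2 hL hcV P hP
    have hc3 : c ^ 3 = 1 := by
      rcases hc with rfl | rfl | rfl
      · simp
      · exact hω3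
      · have : (ω ^ 2) ^ 3 = (ω ^ 3) ^ 2 := by ring
        rw [this, hω3]; ring
    have hc3K : (algebraMap O K c) ^ 3 = 1 := by rw [← map_pow, hc3, map_one]
    have hcV2 : algebraMap O K c ∈ V2 := by rw [hOL]; exact hL _
    have hval := hsrw_hval V2
    -- `μ = x⁻¹ ∈ V2`
    have hmu : x⁻¹ ∈ V2 := by
      by_contra hmu
      have hab : x - (x - algebraMap O K c) ≠ 0 := by
        rw [sub_sub_cancel]
        intro h0
        rw [h0] at hc3K
        simp at hc3K
      have := hsrw_sub_inv_not_mem hval hmu hcV hab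
      rw [sub_sub_cancel] at this
      apply this
      have hinv : (algebraMap O K c)⁻¹ = algebraMap O K (c ^ 2) := by
        rw [map_pow]
        apply inv_eq_of_mul_eq_one_right
        rw [← pow_succ', hc3K]
      rw [hinv, hOL]
      exact hL _
    refine gr_ram_hes_cT F K E D hgen hrel V2 hL hmu ?_ P hP
    refine hsrw_inv_cube_inv_not_mem hm0 hmu ?_
    rw [inv_inv]
    exact hsrw_cube_inv_not_mem hxV hcV2 hc3K hx3 hcV

end RegIntr

end Fermat.Agent.DS
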