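/-
DS-T, cell [GR], file [GR-8c]: THE REGULARITY (`jt_RegAt`) OF THE STANDARD CHARTS of the Legendre
and Hesse models of `E = φ(F)(λ)` resp. `φ(F)(μ)`, with the vertical hypothesis (V) in INTRINSIC
form (the form consumed by `el_pg_regAt_intr`: `E / K` is unramified over every DVR `V` of
`K = L(x)` of Gauss type, i.e. `x ∈ V`, `1 / a(x) ∈ V` for every `a ∈ O[X]` with nonzero reduction
and `1 / π ∉ V`).  Twin of `DS/GR/{Reg, HesseReg}.lean` (good-generator form).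

* `gr_VertHyp O F π x`, `grs_VertHyp h3 O F π x`;
* `gr_regAt_apply`, `gr_regAt_lam`, `gr_regAt_lam_inv`;
* `grs_regAt_apply3`, `grs_regAt_apply4`, `grs_regAt_mu`, `grs_regAt_mu_inv`.
-/
import Mathlib
import Fermat.Agent.DS.GR.HesseReg
import Fermat.Agent.JT3.Model.PolyGlueIntr

set_option autoImplicit false
set_option linter.style.haveILetI false
set_option linter.unusedSectionVars false

noncomputable section

open Polynomial IntermediateField ModularCurve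

namespace Fermat.Agent.DS

open Fermat.Agent.JT3

section Legendre

variable {L : Type*} [Field L] [CharZero L] (O : ValuationSubring L) [IsDiscreteValuationRing O]
  (F : IntermediateField L (LaurentSeries L))

attribute [local instance] grh_algKE

/-- the vertical hypothesis (V) in INTRINSIC form, for the coordinate `x` of `K = L(λ)`: the
extension `E / K` is unramified over every discrete valuation ring `V` of `K` with `x ∈ V`,
`1 / a(x) ∈ V` for all `a ∈ O[X]` with nonzero reduction, and `1 / π ∉ V` (the Gauss valuation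
ring of `K = L(x)` over `O`). -/
def gr_VertHyp (π : O) (x : lg_K L) : Prop :=
  ∀ (V : Subring (lg_K L)) [IsDiscreteValuationRing V] [IsFractionRing V (lg_K L)], x ∈ V →
    (∀ a : (↥O)[X], a.map (IsLocalRing.residue ↥O) ≠ 0 → (aeval x a)⁻¹ ∈ V) →
    (algebraMap (↥O) (lg_K L) π)⁻¹ ∉ V → jt_UnramAt V (gr_E F)

variable {O}

theorem gr_regAt_apply (hA : gr_A1 F) {π : O} (hπ : Irreducible π) (ℓ : ℕ) [Fact ℓ.Prime]
    (hℓ : ((ℓ : ℕ) : O) ∈ IsLocalRing.maximalIdeal O) (M : ℕ) [NeZero M]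
    (hℓM : ¬ ℓ ∣ M) (ζ : L) (hζ : IsPrimitiveRoot ζ M)
    (x : lg_K L) (hx : Transcendental L x) (hgenK : IntermediateField.adjoin L {x} = ⊤)
    (hvert : gr_VertHyp O F π x) (hram : gr_RamHyp F M x) :
    jt_RegAt (fc_chart O ({algebraMap (lg_K L) (gr_E F) x} : Set (gr_E F)))
      (algebraMap O (fc_chart O ({algebraMap (lg_K L) (gr_E F) x} : Set (gr_E F))) π) := by
  classical
  have hℓp : ℓ.Prime := Fact.out
  have hM : IsUnit ((M : ℕ) : O) :=
    lg_isUnit_natCast hℓ ((Nat.Coprime.symm ((Nat.Prime.coprime_iff_not_dvd hℓp).2 hℓM)))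
  haveI : FiniteDimensional (lg_K L) (gr_E F) := grf_tower_finite_K_E hA
  have hC : ∀ c ∈ ({0, 1} : Finset O), ∀ c' ∈ ({0, 1} : Finset O), c ≠ c' → IsUnit (c - c') := by
    intro c hc c' hc' hne
    simp only [Finset.mem_insert, Finset.mem_singleton] at hc hc'
    rcases hc with rfl | rfl <;> rcases hc' with rfl | rfl
    · exact absurd rfl hne
    · simp
    · simp
    · exact absurd rfl hne
  refine el_pg_regAt_intr hπ x hx hgenK M hM ζ hζ {0, 1} hC hvert ?_ ?_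
  · intro V2 _ _ hL hxV hc
    refine hram.hH V2 hL hxV ?_ ?_
    · have := hc 0 (by simp)
      rwa [map_zero, sub_zero] at this
    · have := hc 1 (by simp)
      rwa [map_one] at this
  · intro c hc V2 _ _ hL hxV hcV
    simp only [Finset.mem_insert, Finset.mem_singleton] at hc
    rcases hc with rfl | rfl
    · rw [map_zero, sub_zero] at hcV
      exact hram.hT0 V2 hL hxV hcV
    · rw [map_one] at hcV
      exact hram.hT1 V2 hL hxV hcV

/-- the chart `λ ≠ ∞`. -/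
theorem gr_regAt_lam (hA : gr_A1 F) {π : O} (hπ : Irreducible π) (ℓ : ℕ) [Fact ℓ.Prime]
    (hℓ : ((ℓ : ℕ) : O) ∈ IsLocalRing.maximalIdeal O) (M : ℕ) [NeZero M]
    (hℓM : ¬ ℓ ∣ M) (ζ : L) (hζ : IsPrimitiveRoot ζ M)
    (hvert : gr_VertHyp O F π (lgh_lamK L)) (hram : gr_RamHyp F M (lgh_lamK L)) :
    jt_RegAt (fc_chart O ({gr_lamE F} : Set (gr_E F)))
      (algebraMap O (fc_chart O ({gr_lamE F} : Set (gr_E F))) π) :=
  gr_regAt_apply F hA hπ ℓ hℓ M hℓM ζ hζ (lgh_lamK L) (lg_lamK_transcendental L)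
    (lgh_adjoin_lamK L) hvert hram

/-- the chart `λ ≠ 0`. -/
theorem gr_regAt_lam_inv (hA : gr_A1 F) {π : O} (hπ : Irreducible π) (ℓ : ℕ) [Fact ℓ.Prime]
    (hℓ : ((ℓ : ℕ) : O) ∈ IsLocalRing.maximalIdeal O) (M : ℕ) [NeZero M]
    (hℓM : ¬ ℓ ∣ M) (ζ : L) (hζ : IsPrimitiveRoot ζ M)
    (hvert : gr_VertHyp O F π (lgh_lamK L)⁻¹) (hram : gr_RamHyp F M (lgh_lamK L)⁻¹) :
    jt_RegAt (fc_chart O ({(gr_lamE F)⁻¹} : Set (gr_E F)))
      (algebraMap O (fc_chart O ({(gr_lamE F)⁻¹} : Set (gr_E F))) π) := by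
  have := gr_regAt_apply F hA hπ ℓ hℓ M hℓM ζ hζ (lgh_lamK L)⁻¹
    (lg_lamK_inv_transcendental L) (lg_adjoin_lamK_inv L) hvert hram
  rwa [gr_algebraMap_lamK_inv] at this

end Legendre

section Hesse

variable {L : Type*} [Field L] [CharZero L] (h3 : (3 : L) ≠ 0) (O : ValuationSubring L)
  [IsDiscreteValuationRing O] (F : IntermediateField L (LaurentSeries L))

attribute [local instance] grsh_algKE

/-- the vertical hypothesis (V) in INTRINSIC form, Hesse model. -/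
def grs_VertHyp (π : O) (x : hs_K L h3) : Prop :=
  ∀ (V : Subring (hs_K L h3)) [IsDiscreteValuationRing V] [IsFractionRing V (hs_K L h3)], x ∈ V →
    (∀ a : (↥O)[X], a.map (IsLocalRing.residue ↥O) ≠ 0 → (aeval x a)⁻¹ ∈ V) →
    (algebraMap (↥O) (hs_K L h3) π)⁻¹ ∉ V → jt_UnramAt V (grs_E h3 F)

variable {O}

theorem grs_regAt_apply3 (hA : gr_A1 F) {π : O} (hπ : Irreducible π) (ℓ : ℕ) [Fact ℓ.Prime]
    (hℓ : ((ℓ : ℕ) : O) ∈ IsLocalRing.maximalIdeal O) (hℓ3 : ℓ ≠ 3) (M : ℕ) [NeZero M]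
    (hℓM : ¬ ℓ ∣ M) (ζ : L) (hζ : IsPrimitiveRoot ζ M) (ω : O) (hω : ω ^ 2 + ω + 1 = 0)
    (x : hs_K L h3) (hx : Transcendental L x) (hgenK : IntermediateField.adjoin L {x} = ⊤)
    (hvert : grs_VertHyp h3 O F π x) (hram : grs_RamHyp3 h3 F M x (ω : L)) :
    jt_RegAt (fc_chart O ({algebraMap (hs_K L h3) (grs_E h3 F) x} : Set (grs_E h3 F)))
      (algebraMap O (fc_chart O ({algebraMap (hs_K L h3) (grs_E h3 F) x} : Set (grs_E h3 F)))
        π) := by
  classical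
  have hℓp : ℓ.Prime := Fact.out
  have hM : IsUnit ((M : ℕ) : O) :=
    lg_isUnit_natCast hℓ ((Nat.Coprime.symm ((Nat.Prime.coprime_iff_not_dvd hℓp).2 hℓM)))
  have h3O : IsUnit (3 : O) := by
    have := lg_isUnit_natCast hℓ (m := 3)
      ((Nat.coprime_primes Nat.prime_three hℓp).2 (Ne.symm hℓ3))
    simpa using this
  haveI : FiniteDimensional (hs_K L h3) (grs_E h3 F) :=
    grsf_tower_finite_E h3 hA (hs_K L h3) (hs_j3_mem_K L h3) (grs_K_le_E h3 F)
  obtain ⟨u1, u2, u3, -⟩ := hs_cube_units h3O ω hω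
  have hω3 : ω ^ 3 = 1 := by linear_combination (ω - 1) * hω
  have hC : ∀ c ∈ ({1, ω, ω ^ 2} : Finset O), ∀ c' ∈ ({1, ω, ω ^ 2} : Finset O), c ≠ c' →
      IsUnit (c - c') := by
    intro c hc c' hc' hne
    simp only [Finset.mem_insert, Finset.mem_singleton] at hc hc'
    rcases hc with rfl | rfl | rfl <;> rcases hc' with rfl | rfl | rfl
    · exact absurd rfl hne
    · exact u1
    · exact u2
    · exact hs_isUnit_sub_comm u1
    · exact absurd rfl hne
    · exact u3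
    · exact hs_isUnit_sub_comm u2
    · exact hs_isUnit_sub_comm u3
    · exact absurd rfl hne
  refine el_pg_regAt_intr hπ x hx hgenK M hM ζ hζ {1, ω, ω ^ 2} hC hvert ?_ ?_
  · intro V2 _ _ hL hxV hc
    refine hram.hH V2 hL hxV ?_ ?_ ?_
    · have := hc 1 (by simp)
      rwa [map_one] at this
    · exact hc ω (by simp)
    · have := hc (ω ^ 2) (by simp)
      rwa [hs_algebraMap_O_K] at this
  · intro c hc V2 _ _ hL hxV hcV
    refine hram.hT (c : L) ?_ V2 hL hxV hcV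
    simp only [Finset.mem_insert, Finset.mem_singleton] at hc
    rcases hc with rfl | rfl | rfl
    · simp
    · exact_mod_cast congrArg (fun z : O => (z : L)) hω3
    · have : (ω ^ 2) ^ 3 = (ω ^ 3) ^ 2 := by ring
      have h2 : (ω ^ 2) ^ 3 = (1 : O) := by rw [this, hω3]; ring
      exact_mod_cast congrArg (fun z : O => (z : L)) h2

theorem grs_regAt_apply4 (hA : gr_A1 F) {π : O} (hπ : Irreducible π) (ℓ : ℕ) [Fact ℓ.Prime]
    (hℓ : ((ℓ : ℕ) : O) ∈ IsLocalRing.maximalIdeal O) (hℓ3 : ℓ ≠ 3) (M : ℕ) [NeZero M]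
    (hℓM : ¬ ℓ ∣ M) (ζ : L) (hζ : IsPrimitiveRoot ζ M) (ω : O) (hω : ω ^ 2 + ω + 1 = 0)
    (x : hs_K L h3) (hx : Transcendental L x) (hgenK : IntermediateField.adjoin L {x} = ⊤)
    (hvert : grs_VertHyp h3 O F π x) (hram : grs_RamHyp4 h3 F M x (ω : L)) :
    jt_RegAt (fc_chart O ({algebraMap (hs_K L h3) (grs_E h3 F) x} : Set (grs_E h3 F)))
      (algebraMap O (fc_chart O ({algebraMap (hs_K L h3) (grs_E h3 F) x} : Set (grs_E h3 F)))
        π) := by
  classical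
  have hℓp : ℓ.Prime := Fact.out
  have hM : IsUnit ((M : ℕ) : O) :=
    lg_isUnit_natCast hℓ ((Nat.Coprime.symm ((Nat.Prime.coprime_iff_not_dvd hℓp).2 hℓM)))
  have h3O : IsUnit (3 : O) := by
    have := lg_isUnit_natCast hℓ (m := 3)
      ((Nat.coprime_primes Nat.prime_three hℓp).2 (Ne.symm hℓ3))
    simpa using this
  haveI : FiniteDimensional (hs_K L h3) (grs_E h3 F) :=
    grsf_tower_finite_E h3 hA (hs_K L h3) (hs_j3_mem_K L h3) (grs_K_le_E h3 F)
  obtain ⟨u1, u2, u3, u4⟩ := hs_cube_units h3O ω hω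
  have hω3 : ω ^ 3 = 1 := by linear_combination (ω - 1) * hω
  have u5 : IsUnit (ω ^ 2) := u4.pow 2
  have hC : ∀ c ∈ ({0, 1, ω, ω ^ 2} : Finset O), ∀ c' ∈ ({0, 1, ω, ω ^ 2} : Finset O), c ≠ c' →
      IsUnit (c - c') := by
    intro c hc c' hc' hne
    simp only [Finset.mem_insert, Finset.mem_singleton] at hc hc'
    rcases hc with rfl | rfl | rfl | rfl <;> rcases hc' with rfl | rfl | rfl | rfl
    · exact absurd rfl hne
    · simp
    · rw [zero_sub]; exact u4.neg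
    · rw [zero_sub]; exact u5.neg
    · simp
    · exact absurd rfl hne
    · exact u1
    · exact u2
    · rw [sub_zero]; exact u4
    · exact hs_isUnit_sub_comm u1
    · exact absurd rfl hne
    · exact u3
    · rw [sub_zero]; exact u5
    · exact hs_isUnit_sub_comm u2
    · exact hs_isUnit_sub_comm u3
    · exact absurd rfl hne
  refine el_pg_regAt_intr hπ x hx hgenK M hM ζ hζ {0, 1, ω, ω ^ 2} hC hvert ?_ ?_
  · intro V2 _ _ hL hxV hc
    refine hram.hH V2 hL hxV ?_ ?_ ?_ ?_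
    · have := hc 0 (by simp)
      rwa [map_zero, sub_zero] at this
    · have := hc 1 (by simp)
      rwa [map_one] at this
    · exact hc ω (by simp)
    · have := hc (ω ^ 2) (by simp)
      rwa [hs_algebraMap_O_K] at this
  · intro c hc V2 _ _ hL hxV hcV
    simp only [Finset.mem_insert, Finset.mem_singleton] at hc
    rcases hc with rfl | hc
    · rw [map_zero, sub_zero] at hcV
      exact hram.hT0 V2 hL hxV hcV
    refine hram.hT (c : L) ?_ V2 hL hxV hcV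
    rcases hc with rfl | rfl | rfl
    · simp
    · exact_mod_cast congrArg (fun z : O => (z : L)) hω3
    · have : (ω ^ 2) ^ 3 = (ω ^ 3) ^ 2 := by ring
      have h2 : (ω ^ 2) ^ 3 = (1 : O) := by rw [this, hω3]; ring
      exact_mod_cast congrArg (fun z : O => (z : L)) h2

/-- the chart `μ ≠ ∞`. -/
theorem grs_regAt_mu (hA : gr_A1 F) {π : O} (hπ : Irreducible π) (ℓ : ℕ) [Fact ℓ.Prime]
    (hℓ : ((ℓ : ℕ) : O) ∈ IsLocalRing.maximalIdeal O) (hℓ3 : ℓ ≠ 3) (M : ℕ) [NeZero M]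
    (hℓM : ¬ ℓ ∣ M) (ζ : L) (hζ : IsPrimitiveRoot ζ M) (ω : O) (hω : ω ^ 2 + ω + 1 = 0)
    (hvert : grs_VertHyp h3 O F π (hsh_muK L h3))
    (hram : grs_RamHyp3 h3 F M (hsh_muK L h3) (ω : L)) :
    jt_RegAt (fc_chart O ({grs_muE h3 F} : Set (grs_E h3 F)))
      (algebraMap O (fc_chart O ({grs_muE h3 F} : Set (grs_E h3 F))) π) :=
  grs_regAt_apply3 h3 F hA hπ ℓ hℓ hℓ3 M hℓM ζ hζ ω hω (hsh_muK L h3)
    (hs_muK_transcendental L h3) (hsh_adjoin_muK L h3) hvert hram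

/-- the chart `μ ≠ 0`. -/
theorem grs_regAt_mu_inv (hA : gr_A1 F) {π : O} (hπ : Irreducible π) (ℓ : ℕ) [Fact ℓ.Prime]
    (hℓ : ((ℓ : ℕ) : O) ∈ IsLocalRing.maximalIdeal O) (hℓ3 : ℓ ≠ 3) (M : ℕ) [NeZero M]
    (hℓM : ¬ ℓ ∣ M) (ζ : L) (hζ : IsPrimitiveRoot ζ M) (ω : O) (hω : ω ^ 2 + ω + 1 = 0)
    (hvert : grs_VertHyp h3 O F π (hsh_muK L h3)⁻¹)
    (hram : grs_RamHyp4 h3 F M (hsh_muK L h3)⁻¹ (ω : L)) :
    jt_RegAt (fc_chart O ({(grs_muE h3 F)⁻¹} : Set (grs_E h3 F)))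
      (algebraMap O (fc_chart O ({(grs_muE h3 F)⁻¹} : Set (grs_E h3 F))) π) := by
  have := grs_regAt_apply4 h3 F hA hπ ℓ hℓ hℓ3 M hℓM ζ hζ ω hω (hsh_muK L h3)⁻¹
    (hs_muK_inv_transcendental L h3) (hs_adjoin_muK_inv L h3) hvert hram
  rwa [grs_algebraMap_muK_inv] at this

end Hesse

end Fermat.Agent.DS

end
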