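import Mathlib
import Fermat.Agent.DS.GR.RamInst
import Fermat.Agent.DS.GR.RamRegIntr
import Fermat.Agent.DS.GR.RegIntr
import Fermat.Agent.JT3.Model.PolyGaussInv

/-!
# DS-T / [GR-6]+[GR-8]: regularity of the four standard charts of `gr_E F` / `grs_E h3 F` from the
INTRINSIC vertical hypothesis (V) at `λ` (resp. `μ`) ALONE and the ramification data (R)

Twin of `DS/GR/RamInst.lean` (helper29) with the good-generator hypothesis replaced by
`gr_VertHyp O F ϖ (lgh_lamK L)` resp. `grs_VertHyp h3 O F ϖ (hsh_muK L h3)` (`DS/GR/RegIntr.lean`);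
the charts at `λ⁻¹`, `μ⁻¹` use the SAME hypothesis (`el_pgi_vertHyp_inv`, helper20: the Gauss type
valuation rings of `K` at `x` and at `x⁻¹` coincide).

* `gr_vertHyp_inv`, `grs_vertHyp_inv`;
* `gr_ram_regAt_lam_intr`, `gr_ram_regAt_lam_inv_intr`, `gr_ram_regAt_mu_intr`,
  `gr_ram_regAt_mu_inv_intr`.
-/

set_option autoImplicit false
set_option linter.style.haveILetI false
set_option linter.unusedSectionVars false

noncomputable section

open IntermediateField ModularCurve Polynomial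

namespace Fermat.Agent.DS

open Fermat.Agent.JT3 Fermat.Agent.S24

section Leg

variable {L : Type*} [Field L] [CharZero L] (O : ValuationSubring L) [IsDiscreteValuationRing O]
  (F : IntermediateField L (LaurentSeries L))

attribute [local instance] lgh_algKjK grh_algKjF2 grh_algKjE grh_algF2E grh_algKE

/-- (V) at `x` gives (V) at `x⁻¹`. -/
theorem gr_vertHyp_inv {π : O} {x : lg_K L} (h : gr_VertHyp O F π x) : gr_VertHyp O F π x⁻¹ :=
  el_pgi_vertHyp_inv (gr_E F) π x h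

variable [gr_HasJ F]

/-- **regularity of the Legendre chart `λ` of `gr_E F`** (`hr1` of `gr_Key0_of_regAt`) from the
intrinsic vertical hypothesis (V) and the ramification data (R) of `j` on `F`. -/
theorem gr_ram_regAt_lam_intr [FiniteDimensional (lgh_Kj L) (gr_E F)] {ϖ : O}
    (hϖ : Irreducible ϖ)
    (M : ℕ) (hM : IsUnit ((M : ℕ) : O)) (ζ : L) (hζ : IsPrimitiveRoot ζ M)
    (hV : gr_VertHyp O F ϖ (lgh_lamK L))
    (D : rml_RamData L (gr_ram_jF F) M) :
    jt_RegAt (fc_chart O ({gr_lamE F} : Set (gr_E F)))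
      (algebraMap O (fc_chart O ({gr_lamE F} : Set (gr_E F))) ϖ) := by
  haveI : FiniteDimensional (lg_K L) (gr_E F) :=
    FiniteDimensional.right (lgh_Kj L) (lg_K L) (gr_E F)
  exact gr_ram_leg_regAt_intr (gr_F2 F) hϖ (lgh_lamK L) (lg_lamK_transcendental L)
    (lgh_adjoin_lamK L) M hM ζ hζ hV (lgh_adjoin_j L) (gr_ram_ramData2 F D) (grh_hgen F)
    (lgh_legendre_K L)

/-- **regularity of the Legendre chart `λ⁻¹` of `gr_E F`** (`hr2` of `gr_Key0_of_regAt`), from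
(V) AT `λ`. -/
theorem gr_ram_regAt_lam_inv_intr [FiniteDimensional (lgh_Kj L) (gr_E F)] {ϖ : O}
    (hϖ : Irreducible ϖ)
    (M : ℕ) (hM : IsUnit ((M : ℕ) : O)) (ζ : L) (hζ : IsPrimitiveRoot ζ M)
    (hV : gr_VertHyp O F ϖ (lgh_lamK L))
    (D : rml_RamData L (gr_ram_jF F) M) :
    jt_RegAt (fc_chart O ({(gr_lamE F)⁻¹} : Set (gr_E F)))
      (algebraMap O (fc_chart O ({(gr_lamE F)⁻¹} : Set (gr_E F))) ϖ) := by
  haveI : FiniteDimensional (lg_K L) (gr_E F) :=
    FiniteDimensional.right (lgh_Kj L) (lg_K L) (gr_E F)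
  have := gr_ram_leg_regAt_intr (gr_F2 F) hϖ (lgh_lamK L)⁻¹ (lg_lamK_inv_transcendental L)
    (lg_adjoin_lamK_inv L) M hM ζ hζ (gr_vertHyp_inv O F hV)
    (lgh_adjoin_j L) (gr_ram_ramData2 F D) (grh_hgen F) (lgr_legendre_K_inv L)
  rwa [gr_ram_algebraMap_lamK_inv] at this

end Leg

section Hes

variable {L : Type*} [Field L] [CharZero L] (h3 : (3 : L) ≠ 0) (O : ValuationSubring L)
  [IsDiscreteValuationRing O] (F : IntermediateField L (LaurentSeries L))

attribute [local instance] hsh_algKjK grsh_algKjF3 grsh_algKjE grsh_algF3E grsh_algKE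

/-- (V) at `x` gives (V) at `x⁻¹`, Hesse model. -/
theorem grs_vertHyp_inv {π : O} {x : hs_K L h3} (h : grs_VertHyp h3 O F π x) :
    grs_VertHyp h3 O F π x⁻¹ :=
  el_pgi_vertHyp_inv (grs_E h3 F) π x h

variable [gr_HasJ F]

/-- **regularity of the Hesse chart `μ` of `grs_E h3 F`** (`hr1` of `grs_Key0_of_regAt`) from the
intrinsic vertical hypothesis (V) and the ramification data (R) of `j` on `F`. -/
theorem gr_ram_regAt_mu_intr [FiniteDimensional (hsh_Kj L) (grs_E h3 F)] {ϖ : O}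
    (hϖ : Irreducible ϖ)
    (M : ℕ) (hM : IsUnit ((M : ℕ) : O)) (ζ : L) (hζ : IsPrimitiveRoot ζ M)
    (h3O : IsUnit (3 : O)) (ω : O) (hω : ω ^ 2 + ω + 1 = 0)
    (hV : grs_VertHyp h3 O F ϖ (hsh_muK L h3))
    (D : rml_RamData L (gr_ram_jF F) M) :
    jt_RegAt (fc_chart O ({grs_muE h3 F} : Set (grs_E h3 F)))
      (algebraMap O (fc_chart O ({grs_muE h3 F} : Set (grs_E h3 F))) ϖ) := by
  haveI : FiniteDimensional (hs_K L h3) (grs_E h3 F) :=
    FiniteDimensional.right (hsh_Kj L) (hs_K L h3) (grs_E h3 F)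
  exact gr_ram_hes_regAt3_intr (grs_F3 F) hϖ (hsh_muK L h3) (hs_muK_transcendental L h3)
    (hsh_adjoin_muK L h3) M hM ζ hζ h3O ω hω hV (hsh_adjoin_j L) (gr_ram_ramData3 F D)
    (grsh_hgen h3 F) (hsh_hesse_K L h3)

/-- **regularity of the Hesse chart `μ⁻¹` of `grs_E h3 F`** (`hr2` of `grs_Key0_of_regAt`), from
(V) AT `μ`. -/
theorem gr_ram_regAt_mu_inv_intr [FiniteDimensional (hsh_Kj L) (grs_E h3 F)] {ϖ : O}
    (hϖ : Irreducible ϖ)
    (M : ℕ) (hM : IsUnit ((M : ℕ) : O)) (ζ : L) (hζ : IsPrimitiveRoot ζ M)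
    (h3O : IsUnit (3 : O)) (ω : O) (hω : ω ^ 2 + ω + 1 = 0)
    (hV : grs_VertHyp h3 O F ϖ (hsh_muK L h3))
    (D : rml_RamData L (gr_ram_jF F) M) :
    jt_RegAt (fc_chart O ({(grs_muE h3 F)⁻¹} : Set (grs_E h3 F)))
      (algebraMap O (fc_chart O ({(grs_muE h3 F)⁻¹} : Set (grs_E h3 F))) ϖ) := by
  haveI : FiniteDimensional (hs_K L h3) (grs_E h3 F) :=
    FiniteDimensional.right (hsh_Kj L) (hs_K L h3) (grs_E h3 F)
  have := gr_ram_hes_regAt4_intr (grs_F3 F) hϖ (hsh_muK L h3)⁻¹ (hs_muK_inv_transcendental L h3)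
    (hs_adjoin_muK_inv L h3) M hM ζ hζ h3O ω hω (grs_vertHyp_inv h3 O F hV)
    (hsh_adjoin_j L) (gr_ram_ramData3 F D) (grsh_hgen h3 F)
    (by rw [inv_inv]; exact hsh_hesse_K L h3)
  rwa [gr_ram_algebraMap_muK_inv] at this

end Hes

end Fermat.Agent.DS

end
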