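/-
DS-T, cell [GR], file [GR-8d]: S18 AND THE KEY FOR THE FAMILY `gr_F G` FROM (V) + (R).

Twin of `JT3/Inst/S18Ram.lean`.  For a finite set `G ⊆ ℤ((q))` of generators (`j ∈ G`, (A1) over
`ℚ`), a place `A` of `Q̄` over `ℓ`, and a ramification bound `M` prime to `ℓ`:

* (R)  `D : rml_RamData Q̄ (j : gr_F G Q̄) M`  — ONE statement over `Q̄` (it descends to every number
       field by `gr_ram_ramData_of_bc`, helper29);
* (V)  `gr_VertHyp (A ∩ L1) (gr_F G L1) π λ` (`ℓ` odd), resp. `grs_VertHyp h3 (A ∩ L1) (gr_F G L1) π μ`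
       (`ℓ ≠ 3`), for the number fields `L1 → Q̄` containing a primitive `M`-th (resp. `3M`-th) root
       of unity — at `λ` resp. `μ` ONLY (`el_pgi_vertHyp_inv`, helper20);

give the regularity of the four charts, hence (helper7's `gr_fin_*_of_regAt`)

* `gr_key_of_VR`, `grs_key_of_VR`   : `gr_Key A (residue A) (gr_F G Q̄) p` for every prime `p ≠ ℓ`;
* `gr_S18_of_VR`, `grs_S18_of_VR`   : the S18 statement for `dsr_reduction`.
-/
import Mathlib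
import Fermat.Agent.DS.GR.FinalReg
import Fermat.Agent.DS.GR.RamInstIntr
import Fermat.Agent.JT3.Inst.S18Ram

set_option autoImplicit false
set_option linter.unusedSectionVars false
set_option linter.style.haveILetI false

noncomputable section

open ModularCurve IntermediateField AlgebraicCurve

namespace Fermat.Agent.DS

open Fermat.Agent.JT3 Fermat.Agent.S24

section VR

variable (G : Set (LaurentSeries ℤ)) (A : ValuationSubring (AlgebraicClosure ℚ))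

attribute [local instance] lgh_algKjK grh_algKjF2 grh_algKjE grh_algF2E grh_algKE
  hsh_algKjK grsh_algKjF3 grsh_algKjE grsh_algF3E grsh_algKE

/-- `j(q)` as an element of the member `gr_F G L` of the family. -/
def gr_jG (hjG : jqModC ℤ ∈ G) (L : Type*) [Field L] : ↥(gr_F G L) :=
  ⟨jqModC L, (gr_cr_hasJ G hjG L).mem⟩

/-- (R) over `Q̄` descends to every number field `L1 → Q̄`. -/
theorem gr_ramData_descend (hG : gr_A1Q G) (hjG : jqModC ℤ ∈ G) {M : ℕ}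
    (D : rml_RamData (AlgebraicClosure ℚ) (gr_jG G hjG (AlgebraicClosure ℚ)) M)
    (L1 : Type) [Field L1] [NumberField L1] [Algebra L1 (AlgebraicClosure ℚ)] :
    rml_RamData L1 (gr_jG G hjG L1) M := by
  haveI : CharZero L1 := algebraRat.charZero L1
  haveI h1 := gr_cr_hasJ G hjG L1
  haveI h2 := gr_cr_hasJ G hjG (AlgebraicClosure ℚ)
  haveI : Algebra.IsAlgebraic ℚ (AlgebraicClosure ℚ) := AlgebraicClosure.isAlgebraic ℚ
  haveI : Algebra.IsAlgebraic L1 (AlgebraicClosure ℚ) :=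
    Algebra.IsAlgebraic.tower_top (K := ℚ) L1
  haveI hfd : FiniteDimensional
      (AlgebraicClosure ℚ)⟮(gr_jF (gr_F G (AlgebraicClosure ℚ)) : gr_F G (AlgebraicClosure ℚ))⟯
      (gr_F G (AlgebraicClosure ℚ)) :=
    grf_level_finite _ (gr_A1_family G hG (AlgebraicClosure ℚ))
  haveI : Algebra.IsAlgebraic
      (AlgebraicClosure ℚ)⟮(gr_ram_jF (gr_F G (AlgebraicClosure ℚ)) :
        gr_F G (AlgebraicClosure ℚ))⟯
      (gr_F G (AlgebraicClosure ℚ)) :=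
    @Algebra.IsAlgebraic.of_finite _ _ _ _ _ _ hfd
  exact gr_ram_ramData_of_bc (L' := AlgebraicClosure ℚ) (gr_F G L1)
    (gr_F_eq_laurentBaseChange G L1) (gr_F G (AlgebraicClosure ℚ))
    (gr_F_eq_laurentBaseChange G (AlgebraicClosure ℚ)) D

set_option synthInstance.maxHeartbeats 400000 in
/-- **the regularity hypothesis `hreg` of `gr_fin_key_of_regAt` / `gr_fin_S18_of_regAt` from
(V) + (R).** -/
theorem gr_regAt_of_VR (hG : gr_A1Q G) (hjG : jqModC ℤ ∈ G)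
    {ℓ : ℕ} [Fact ℓ.Prime] (hA : A.LiesOverPrime ℓ) (M : ℕ) [NeZero M] (hℓM : ¬ ℓ ∣ M)
    (D : rml_RamData (AlgebraicClosure ℚ) (gr_jG G hjG (AlgebraicClosure ℚ)) M)
    (hvert : ∀ (L1 : Type) [Field L1] [NumberField L1] [Algebra L1 (AlgebraicClosure ℚ)]
      (ζ : L1), IsPrimitiveRoot ζ M →
      ∀ [IsDiscreteValuationRing ↥(A.comap (algebraMap L1 (AlgebraicClosure ℚ)))]
        (π : ↥(A.comap (algebraMap L1 (AlgebraicClosure ℚ)))), Irreducible π →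
        gr_VertHyp (A.comap (algebraMap L1 (AlgebraicClosure ℚ))) (gr_F G L1) π (lgh_lamK L1))
    (L1 : Type) [Field L1] [NumberField L1] [Algebra L1 (AlgebraicClosure ℚ)]
    (ζ : L1) (hζ : IsPrimitiveRoot ζ M)
    [IsDiscreteValuationRing ↥(A.comap (algebraMap L1 (AlgebraicClosure ℚ)))]
    (π : ↥(A.comap (algebraMap L1 (AlgebraicClosure ℚ)))) (hπ : Irreducible π) :
    jt_RegAt (fc_chart ↥(A.comap (algebraMap L1 (AlgebraicClosure ℚ)))
        ({gr_lamE (gr_F G L1)} : Set (gr_E (gr_F G L1))))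
      (algebraMap ↥(A.comap (algebraMap L1 (AlgebraicClosure ℚ)))
        (fc_chart ↥(A.comap (algebraMap L1 (AlgebraicClosure ℚ)))
          ({gr_lamE (gr_F G L1)} : Set (gr_E (gr_F G L1)))) π) ∧
    jt_RegAt (fc_chart ↥(A.comap (algebraMap L1 (AlgebraicClosure ℚ)))
        ({(gr_lamE (gr_F G L1))⁻¹} : Set (gr_E (gr_F G L1))))
      (algebraMap ↥(A.comap (algebraMap L1 (AlgebraicClosure ℚ)))
        (fc_chart ↥(A.comap (algebraMap L1 (AlgebraicClosure ℚ)))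
          ({(gr_lamE (gr_F G L1))⁻¹} : Set (gr_E (gr_F G L1)))) π) := by
  haveI : CharZero L1 := algebraRat.charZero L1
  haveI h1 := gr_cr_hasJ G hjG L1
  have hℓp : ℓ.Prime := Fact.out
  have hℓmem := lg_natCast_mem_maximalIdeal A hA L1
  have hM : IsUnit ((M : ℕ) : ↥(A.comap (algebraMap L1 (AlgebraicClosure ℚ)))) :=
    lg_isUnit_natCast hℓmem ((Nat.Coprime.symm ((Nat.Prime.coprime_iff_not_dvd hℓp).2 hℓM)))
  have hA1 : gr_A1 (gr_F G L1) := gr_A1_family G hG L1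
  have D1 : rml_RamData L1 (gr_ram_jF (gr_F G L1)) M := gr_ramData_descend G hG hjG D L1
  have hV := hvert L1 ζ hζ π hπ
  haveI : FiniteDimensional (lgh_Kj L1) (gr_E (gr_F G L1)) := grf_tower_finite_Kj_E hA1
  exact ⟨gr_ram_regAt_lam_intr _ (gr_F G L1) hπ M hM ζ hζ hV D1,
    gr_ram_regAt_lam_inv_intr _ (gr_F G L1) hπ M hM ζ hζ hV D1⟩

set_option synthInstance.maxHeartbeats 400000 in
/-- **the regularity hypothesis `hreg` of `gr_fin_hes_key_of_regAt` / `gr_fin_hes_S18_of_regAt`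
(at level `3 * M`) from (V) + (R).** -/
theorem grs_regAt_of_VR (hG : gr_A1Q G) (hjG : jqModC ℤ ∈ G)
    {ℓ : ℕ} [Fact ℓ.Prime] (hℓ3 : ℓ ≠ 3) (hA : A.LiesOverPrime ℓ) (M : ℕ) [NeZero M]
    (hℓM : ¬ ℓ ∣ M)
    (D : rml_RamData (AlgebraicClosure ℚ) (gr_jG G hjG (AlgebraicClosure ℚ)) M)
    (hvert : ∀ (L1 : Type) [Field L1] [NumberField L1] [Algebra L1 (AlgebraicClosure ℚ)]
      (h3 : (3 : L1) ≠ 0) (ζ : L1), IsPrimitiveRoot ζ (3 * M) →
      ∀ [IsDiscreteValuationRing ↥(A.comap (algebraMap L1 (AlgebraicClosure ℚ)))]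
        (π : ↥(A.comap (algebraMap L1 (AlgebraicClosure ℚ)))), Irreducible π →
        grs_VertHyp h3 (A.comap (algebraMap L1 (AlgebraicClosure ℚ))) (gr_F G L1) π
          (hsh_muK L1 h3))
    (L1 : Type) [Field L1] [NumberField L1] [Algebra L1 (AlgebraicClosure ℚ)]
    (h3 : (3 : L1) ≠ 0) (ζ : L1) (hζ : IsPrimitiveRoot ζ (3 * M))
    [IsDiscreteValuationRing ↥(A.comap (algebraMap L1 (AlgebraicClosure ℚ)))]
    (π : ↥(A.comap (algebraMap L1 (AlgebraicClosure ℚ)))) (hπ : Irreducible π) :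
    jt_RegAt (fc_chart ↥(A.comap (algebraMap L1 (AlgebraicClosure ℚ)))
        ({grs_muE h3 (gr_F G L1)} : Set (grs_E h3 (gr_F G L1))))
      (algebraMap ↥(A.comap (algebraMap L1 (AlgebraicClosure ℚ)))
        (fc_chart ↥(A.comap (algebraMap L1 (AlgebraicClosure ℚ)))
          ({grs_muE h3 (gr_F G L1)} : Set (grs_E h3 (gr_F G L1)))) π) ∧
    jt_RegAt (fc_chart ↥(A.comap (algebraMap L1 (AlgebraicClosure ℚ)))
        ({(grs_muE h3 (gr_F G L1))⁻¹} : Set (grs_E h3 (gr_F G L1))))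
      (algebraMap ↥(A.comap (algebraMap L1 (AlgebraicClosure ℚ)))
        (fc_chart ↥(A.comap (algebraMap L1 (AlgebraicClosure ℚ)))
          ({(grs_muE h3 (gr_F G L1))⁻¹} : Set (grs_E h3 (gr_F G L1)))) π) := by
  haveI : CharZero L1 := algebraRat.charZero L1
  haveI h1 := gr_cr_hasJ G hjG L1
  have hℓp : ℓ.Prime := Fact.out
  have hℓmem := lg_natCast_mem_maximalIdeal A hA L1
  have hM : IsUnit ((M : ℕ) : ↥(A.comap (algebraMap L1 (AlgebraicClosure ℚ)))) :=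
    lg_isUnit_natCast hℓmem ((Nat.Coprime.symm ((Nat.Prime.coprime_iff_not_dvd hℓp).2 hℓM)))
  have h3O : IsUnit (3 : ↥(A.comap (algebraMap L1 (AlgebraicClosure ℚ)))) := by
    have := lg_isUnit_natCast hℓmem (m := 3)
      ((Nat.coprime_primes Nat.prime_three hℓp).2 (Ne.symm hℓ3))
    simpa using this
  have hA1 : gr_A1 (gr_F G L1) := gr_A1_family G hG L1
  have D1 : rml_RamData L1 (gr_ram_jF (gr_F G L1)) M := gr_ramData_descend G hG hjG D L1
  have hV := hvert L1 h3 ζ hζ π hπ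
  haveI : FiniteDimensional (hsh_Kj L1) (grs_E h3 (gr_F G L1)) :=
    grsf_tower_finite_E h3 hA1 (hsh_Kj L1)
      (IntermediateField.mem_adjoin_simple_self L1 (hs_j3 L1)) (grsh_Kj_le_E h3 (gr_F G L1))
  have hN0 : 0 < 3 * M := Nat.pos_of_ne_zero (Nat.mul_ne_zero (by norm_num) (NeZero.ne M))
  have hζM : IsPrimitiveRoot (ζ ^ 3) M := hζ.pow hN0 rfl
  have hω : IsPrimitiveRoot (ζ ^ M) 3 := hζ.pow hN0 (mul_comm 3 M)
  have hω3 : (ζ ^ M) ^ 3 = 1 := hω.pow_eq_one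
  have hωsum : (ζ ^ M) ^ 2 + ζ ^ M + 1 = 0 := by
    have := hω.geom_sum_eq_zero (by norm_num)
    simp only [Finset.sum_range_succ, Finset.sum_range_zero, pow_zero, pow_one, zero_add] at this
    linear_combination this
  let ωO : ↥(A.comap (algebraMap L1 (AlgebraicClosure ℚ))) := ⟨ζ ^ M, hs_root_mem _ _ hω3⟩
  have hωO : ωO ^ 2 + ωO + 1 = 0 := Subtype.ext hωsum
  exact ⟨gr_ram_regAt_mu_intr h3 _ (gr_F G L1) hπ M hM (ζ ^ 3) hζM h3O ωO hωO hV D1,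
    gr_ram_regAt_mu_inv_intr h3 _ (gr_F G L1) hπ M hM (ζ ^ 3) hζM h3O ωO hωO hV D1⟩

/-! ### The four consumers -/

/-- **KEY over `(Q̄, A)` for the family, `ℓ` odd, from (V) + (R).** -/
theorem gr_key_of_VR (hG : gr_A1Q G) (hjG : jqModC ℤ ∈ G)
    {ℓ : ℕ} [Fact ℓ.Prime] (hℓ2 : ℓ ≠ 2) (hA : A.LiesOverPrime ℓ)
    {p : ℕ} (hp : p.Prime) (hpℓ : p ≠ ℓ) (M : ℕ) [NeZero M] (hℓM : ¬ ℓ ∣ M)
    (D : rml_RamData (AlgebraicClosure ℚ) (gr_jG G hjG (AlgebraicClosure ℚ)) M)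
    (hvert : ∀ (L1 : Type) [Field L1] [NumberField L1] [Algebra L1 (AlgebraicClosure ℚ)]
      (ζ : L1), IsPrimitiveRoot ζ M →
      ∀ [IsDiscreteValuationRing ↥(A.comap (algebraMap L1 (AlgebraicClosure ℚ)))]
        (π : ↥(A.comap (algebraMap L1 (AlgebraicClosure ℚ)))), Irreducible π →
        gr_VertHyp (A.comap (algebraMap L1 (AlgebraicClosure ℚ))) (gr_F G L1) π (lgh_lamK L1)) :
    gr_Key A (IsLocalRing.residue A) (gr_F G (AlgebraicClosure ℚ)) p :=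
  gr_fin_key_of_regAt G A hG hjG hℓ2 hA hp hpℓ M
    (fun L1 _ _ _ ζ hζ _ π hπ => gr_regAt_of_VR G A hG hjG hA M hℓM D hvert L1 ζ hζ π hπ)

/-- **KEY over `(Q̄, A)` for the family, `ℓ ≠ 3` (in particular `ℓ = 2`), from (V) + (R).** -/
theorem grs_key_of_VR (hG : gr_A1Q G) (hjG : jqModC ℤ ∈ G)
    {ℓ : ℕ} [Fact ℓ.Prime] (hℓ3 : ℓ ≠ 3) (hA : A.LiesOverPrime ℓ)
    {p : ℕ} (hp : p.Prime) (hpℓ : p ≠ ℓ) (M : ℕ) [NeZero M] (hℓM : ¬ ℓ ∣ M)
    (D : rml_RamData (AlgebraicClosure ℚ) (gr_jG G hjG (AlgebraicClosure ℚ)) M)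
    (hvert : ∀ (L1 : Type) [Field L1] [NumberField L1] [Algebra L1 (AlgebraicClosure ℚ)]
      (h3 : (3 : L1) ≠ 0) (ζ : L1), IsPrimitiveRoot ζ (3 * M) →
      ∀ [IsDiscreteValuationRing ↥(A.comap (algebraMap L1 (AlgebraicClosure ℚ)))]
        (π : ↥(A.comap (algebraMap L1 (AlgebraicClosure ℚ)))), Irreducible π →
        grs_VertHyp h3 (A.comap (algebraMap L1 (AlgebraicClosure ℚ))) (gr_F G L1) π
          (hsh_muK L1 h3)) :
    gr_Key A (IsLocalRing.residue A) (gr_F G (AlgebraicClosure ℚ)) p := by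
  haveI : NeZero (3 * M) := ⟨Nat.mul_ne_zero (by norm_num) (NeZero.ne M)⟩
  exact gr_fin_hes_key_of_regAt G A hG hjG hℓ3 hA hp hpℓ (3 * M) (dvd_mul_right 3 M)
    (fun L1 _ _ _ h3 ζ hζ _ π hπ =>
      grs_regAt_of_VR G A hG hjG hℓ3 hA M hℓM D hvert L1 h3 ζ hζ π hπ)

/-- **S18 for the family `gr_F G`, `ℓ` odd, from (V) + (R).** -/
theorem gr_S18_of_VR (hG : gr_A1Q G) (hjG : jqModC ℤ ∈ G)
    {ℓ : ℕ} [Fact ℓ.Prime] (hℓ2 : ℓ ≠ 2) (hA : A.LiesOverPrime ℓ)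
    (h : dsr_ReductionInputs A (IsLocalRing.residue A) (gr_F G (AlgebraicClosure ℚ))
      (gr_F G (IsLocalRing.ResidueField A)))
    (m : ℕ) (hm : ¬ ℓ ∣ m) (M : ℕ) [NeZero M] (hℓM : ¬ ℓ ∣ M)
    (D : rml_RamData (AlgebraicClosure ℚ) (gr_jG G hjG (AlgebraicClosure ℚ)) M)
    (hvert : ∀ (L1 : Type) [Field L1] [NumberField L1] [Algebra L1 (AlgebraicClosure ℚ)]
      (ζ : L1), IsPrimitiveRoot ζ M →
      ∀ [IsDiscreteValuationRing ↥(A.comap (algebraMap L1 (AlgebraicClosure ℚ)))]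
        (π : ↥(A.comap (algebraMap L1 (AlgebraicClosure ℚ)))), Irreducible π →
        gr_VertHyp (A.comap (algebraMap L1 (AlgebraicClosure ℚ))) (gr_F G L1) π (lgh_lamK L1))
    (z : Pic0 (AlgebraicClosure ℚ) (gr_F G (AlgebraicClosure ℚ))) (hmz : m • z = 0)
    (hz : dsr_reduction A (IsLocalRing.residue A) (gr_F G (AlgebraicClosure ℚ))
      (gr_F G (IsLocalRing.ResidueField A)) z = 0) : z = 0 :=
  gr_fin_S18_of_regAt G A hG hjG hℓ2 hA h m hm M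
    (fun L1 _ _ _ ζ hζ _ π hπ => gr_regAt_of_VR G A hG hjG hA M hℓM D hvert L1 ζ hζ π hπ)
    z hmz hz

/-- **S18 for the family `gr_F G`, `ℓ ≠ 3` (in particular `ℓ = 2`), from (V) + (R).** -/
theorem grs_S18_of_VR (hG : gr_A1Q G) (hjG : jqModC ℤ ∈ G)
    {ℓ : ℕ} [Fact ℓ.Prime] (hℓ3 : ℓ ≠ 3) (hA : A.LiesOverPrime ℓ)
    (h : dsr_ReductionInputs A (IsLocalRing.residue A) (gr_F G (AlgebraicClosure ℚ))
      (gr_F G (IsLocalRing.ResidueField A)))
    (m : ℕ) (hm : ¬ ℓ ∣ m) (M : ℕ) [NeZero M] (hℓM : ¬ ℓ ∣ M)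
    (D : rml_RamData (AlgebraicClosure ℚ) (gr_jG G hjG (AlgebraicClosure ℚ)) M)
    (hvert : ∀ (L1 : Type) [Field L1] [NumberField L1] [Algebra L1 (AlgebraicClosure ℚ)]
      (h3 : (3 : L1) ≠ 0) (ζ : L1), IsPrimitiveRoot ζ (3 * M) →
      ∀ [IsDiscreteValuationRing ↥(A.comap (algebraMap L1 (AlgebraicClosure ℚ)))]
        (π : ↥(A.comap (algebraMap L1 (AlgebraicClosure ℚ)))), Irreducible π →
        grs_VertHyp h3 (A.comap (algebraMap L1 (AlgebraicClosure ℚ))) (gr_F G L1) π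
          (hsh_muK L1 h3))
    (z : Pic0 (AlgebraicClosure ℚ) (gr_F G (AlgebraicClosure ℚ))) (hmz : m • z = 0)
    (hz : dsr_reduction A (IsLocalRing.residue A) (gr_F G (AlgebraicClosure ℚ))
      (gr_F G (IsLocalRing.ResidueField A)) z = 0) : z = 0 := by
  haveI : NeZero (3 * M) := ⟨Nat.mul_ne_zero (by norm_num) (NeZero.ne M)⟩
  exact gr_fin_hes_S18_of_regAt G A hG hjG hℓ3 hA h m hm (3 * M) (dvd_mul_right 3 M)
    (fun L1 _ _ _ h3 ζ hζ _ π hπ =>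
      grs_regAt_of_VR G A hG hjG hℓ3 hA M hℓM D hvert L1 h3 ζ hζ π hπ)
    z hmz hz

end VR

end Fermat.Agent.DS

end
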