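import Mathlib
import Fermat.Agent.JT3.Bridge.GaussCenter

/-!
# DS-T / cell [GV]: the residue field of the `q`-Gauss ring along a tower (prefix `gvs_`)

`E₀ ⊆ E₁ = E₀(θ)` inside `K((q))`, `θ` bounded and a root of a monic polynomial `h` with bounded
coefficients in `E₀` of which the reduction `θ̃` is a SIMPLE root.  Then the residue of every
bounded element of `E₁` lies in `κ₀(θ̃)`, `κ₀` the field of residues of the bounded elements of `E₀`
(`gvs_res_mem_step`, `gvs_res_mem`).  This is the input `hred` ("the reduction of an integral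
`q`-expansion of `F̄` lies in `F̃`") of the node-E twin, along the tower `Γ₀ ⊆ Γ₁`.

* `gvs_abs_res_step` : the abstract induction on the `ϖ`-denominator.
-/

set_option autoImplicit false
set_option linter.style.haveILetI false
set_option linter.unusedSectionVars false

open IsLocalRing Polynomial

namespace Fermat.Agent.DS

open Fermat.Agent.JT3

section Abstract

variable {B Ω : Type*} [CommRing B] [IsDomain B] [Field Ω]

/-- `eval₂` of a polynomial whose coefficients and point map into a subfield stays in it. -/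
theorem gvs_eval₂_mem {R : Type*} [CommRing R] (f : R →+* Ω) (Ft : Subfield Ω) (x : Ω)
    (hx : x ∈ Ft) (p : Polynomial R) (hp : ∀ i, f (p.coeff i) ∈ Ft) : p.eval₂ f x ∈ Ft := by
  rw [Polynomial.eval₂_eq_sum_range]
  exact Ft.sum_mem fun i _ => Ft.mul_mem (hp i) (Ft.pow_mem hx i)

/-- **The abstract step.** `res : B → Ω` with kernel `(ϖ)`, `B₀ ⊆ B` a subring with
`ker (res|B₀) = ϖ B₀` whose image is the subfield `κ₀`; `θ ∈ B` a root of a monic `h ∈ B₀[T]` such
that `res θ` is a simple root of `h̄`.  If `ϖ ^ e z = P(θ)` with `P ∈ B₀[T]` then `res z` lies in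
every subfield containing `κ₀` and `res θ`. -/
theorem gvs_abs_res_step (res : B →+* Ω) (ϖ : B) (hϖ0 : ϖ ≠ 0) (hϖres : res ϖ = 0)
    (B0 : Subring B) (hϖB0 : ϖ ∈ B0)
    (hker0 : ∀ c : ↥B0, res (c : B) = 0 → (⟨ϖ, hϖB0⟩ : ↥B0) ∣ c)
    (κ0 : Subfield Ω) (hκ0 : ∀ c : ↥B0, res (c : B) ∈ κ0)
    (hsurj : ∀ x ∈ κ0, ∃ c : ↥B0, res (c : B) = x)
    (θ : B) (h : Polynomial ↥B0) (hmonic : h.Monic) (hroot : aeval θ h = 0)
    (hsimple : (derivative h).eval₂ (res.comp B0.subtype) (res θ) ≠ 0)
    (Ft : Subfield Ω) (hFt : κ0 ≤ Ft) (hθ : res θ ∈ Ft) :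
    ∀ (e : ℕ) (z : B) (P : Polynomial ↥B0), ϖ ^ e * z = aeval θ P → res z ∈ Ft := by
  classical
  -- the reduction on `B₀`
  set res0 : ↥B0 →+* ↥κ0 := (res.comp B0.subtype).codRestrict κ0 (fun c => hκ0 c) with hres0
  have hres0_coe : ∀ c : ↥B0, ((res0 c : ↥κ0) : Ω) = res (c : B) := fun c => rfl
  have hres0_surj : Function.Surjective res0 := by
    intro x
    obtain ⟨c, hc⟩ := hsurj (x : Ω) x.2
    exact ⟨c, Subtype.ext hc⟩
  have hcomp : (algebraMap ↥κ0 Ω).comp res0 = res.comp B0.subtype := by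
    ext c
    rfl
  -- residues of evaluations
  have hres_aeval : ∀ Q : Polynomial ↥B0,
      res (aeval θ Q) = aeval (res θ) (Q.map res0) := by
    intro Q
    rw [aeval_def, Polynomial.hom_eval₂, aeval_def, Polynomial.eval₂_map, hcomp]
    rfl
  have hmemFt : ∀ Q : Polynomial ↥B0, res (aeval θ Q) ∈ Ft := by
    intro Q
    rw [aeval_def, Polynomial.hom_eval₂]
    refine gvs_eval₂_mem _ Ft (res θ) hθ Q fun i => hFt ?_
    exact hκ0 (Q.coeff i)
  -- polynomials vanishing modulo `ϖ` are divisible by `ϖ`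
  have hdiv : ∀ Q : Polynomial ↥B0, Q.map res0 = 0 →
      ∃ Q1 : Polynomial ↥B0, Q = C (⟨ϖ, hϖB0⟩ : ↥B0) * Q1 := by
    intro Q hQ
    have : C (⟨ϖ, hϖB0⟩ : ↥B0) ∣ Q := by
      rw [Polynomial.C_dvd_iff_dvd_coeff]
      intro i
      apply hker0
      have h1 : res0 (Q.coeff i) = 0 := by
        rw [← Polynomial.coeff_map, hQ, Polynomial.coeff_zero]
      have h2 := congrArg (fun x : ↥κ0 => (x : Ω)) h1
      simpa [hres0_coe] using h2
    obtain ⟨Q1, hQ1⟩ := this
    exact ⟨Q1, hQ1⟩
  have haeval_C : ∀ Q1 : Polynomial ↥B0,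
      aeval θ (C (⟨ϖ, hϖB0⟩ : ↥B0) * Q1) = ϖ * aeval θ Q1 := by
    intro Q1
    rw [map_mul, aeval_C]
    rfl
  -- the reduction of `θ` is integral over `κ₀`
  set θt : Ω := res θ with hθt
  set hbar : Polynomial ↥κ0 := h.map res0 with hhbar
  have hbar_monic : hbar.Monic := hmonic.map res0
  have hbar_root : aeval θt hbar = 0 := by
    rw [hhbar, ← hres_aeval, hroot, map_zero]
  have hint : IsIntegral ↥κ0 θt := ⟨hbar, hbar_monic, hbar_root⟩
  set μb : Polynomial ↥κ0 := minpoly ↥κ0 θt with hμb
  obtain ⟨νb, hνb⟩ : μb ∣ hbar := minpoly.dvd ↥κ0 θt hbar_root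
  have hμroot : aeval θt μb = 0 := minpoly.aeval ↥κ0 θt
  have hνne : aeval θt νb ≠ 0 := by
    intro h0
    apply hsimple
    have h1 : (derivative h).eval₂ (res.comp B0.subtype) θt =
        aeval θt (derivative hbar) := by
      rw [hhbar, Polynomial.derivative_map, aeval_def, Polynomial.eval₂_map, hcomp]
    rw [h1, hνb, Polynomial.derivative_mul, map_add, map_mul, map_mul, hμroot, h0]
    ring
  obtain ⟨μ, hμ⟩ := Polynomial.map_surjective res0 hres0_surj μb
  obtain ⟨ν, hν⟩ := Polynomial.map_surjective res0 hres0_surj νb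
  -- `h = μ ν + ϖ h1`
  obtain ⟨h1, hh1⟩ := hdiv (h - μ * ν) (by
    rw [Polynomial.map_sub, Polynomial.map_mul, hμ, hν, ← hhbar, hνb, sub_self])
  have hνθ : res (aeval θ ν) = aeval θt νb := by rw [hres_aeval, hν]
  intro e
  induction e with
  | zero =>
    intro z P hz
    rw [pow_zero, one_mul] at hz
    rw [hz]
    exact hmemFt P
  | succ e ih =>
    intro z P hz
    -- `P̄(θ̃) = 0`
    have hPbar : aeval θt (P.map res0) = 0 := by
      rw [← hres_aeval, ← hz, map_mul, map_pow, hϖres, zero_pow (Nat.succ_ne_zero e), zero_mul]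
    obtain ⟨Ab, hAb⟩ : μb ∣ P.map res0 := minpoly.dvd ↥κ0 θt hPbar
    obtain ⟨A, hA⟩ := Polynomial.map_surjective res0 hres0_surj Ab
    obtain ⟨P1, hP1⟩ := hdiv (P - μ * A) (by
      rw [Polynomial.map_sub, Polynomial.map_mul, hμ, hA, hAb, sub_self])
    -- `P(θ) ν(θ) = ϖ (P1 ν - h1 A)(θ)`
    have hkey : aeval θ P * aeval θ ν = ϖ * aeval θ (P1 * ν - h1 * A) := by
      have e1 : aeval θ P = aeval θ μ * aeval θ A + ϖ * aeval θ P1 := by
        have := congrArg (aeval θ) hP1
        rw [map_sub, map_mul, haeval_C] at this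
        rw [← this]
        ring
      have e2 : aeval θ μ * aeval θ ν = -(ϖ * aeval θ h1) := by
        have := congrArg (aeval θ) hh1
        rw [map_sub, map_mul, haeval_C, hroot] at this
        rw [← this]
        ring
      rw [map_sub, map_mul, map_mul, e1]
      calc (aeval θ μ * aeval θ A + ϖ * aeval θ P1) * aeval θ ν
          = (aeval θ μ * aeval θ ν) * aeval θ A + ϖ * (aeval θ P1 * aeval θ ν) := by ring
        _ = ϖ * (aeval θ P1 * aeval θ ν - aeval θ h1 * aeval θ A) := by rw [e2]; ring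
    have hz' : ϖ ^ e * (z * aeval θ ν) = aeval θ (P1 * ν - h1 * A) := by
      apply mul_left_cancel₀ hϖ0
      rw [← hkey, ← hz, pow_succ]
      ring
    have h2 := ih (z * aeval θ ν) (P1 * ν - h1 * A) hz'
    rw [map_mul] at h2
    have h3 : res (aeval θ ν) ∈ Ft := hmemFt ν
    have h4 : res (aeval θ ν) ≠ 0 := by rw [hνθ]; exact hνne
    have h5 : res z = res z * res (aeval θ ν) * (res (aeval θ ν))⁻¹ := by
      rw [mul_assoc, mul_inv_cancel₀ h4, mul_one]
    rw [h5]
    exact Ft.mul_mem h2 (Ft.inv_mem h3)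

end Abstract

section Gauss

variable {O : Type*} [CommRing O] [IsDomain O] [IsLocalRing O] [WfDvdMonoid O]
variable {K : Type*} [Field K] [Algebra O K] [IsFractionRing O K]

/-- the bounded elements of `E`, as a subring of the ring of bounded quotients -/
noncomputable def gvs_bddOf (E : IntermediateField K (LaurentSeries K)) : Subring ↥(gq_bddSubring O K) :=
  E.toSubring.comap (gq_bddSubring O K).subtype

theorem gvs_mem_bddOf {E : IntermediateField K (LaurentSeries K)} {z : ↥(gq_bddSubring O K)} :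
    z ∈ gvs_bddOf (O := O) E ↔ (z : LaurentSeries K) ∈ E := Iff.rfl

theorem gvs_bddOf_mono {E E' : IntermediateField K (LaurentSeries K)} (h : E ≤ E') :
    gvs_bddOf (O := O) E ≤ gvs_bddOf E' := fun _ hz => h hz

/-- the field of residues of the bounded elements of `E` -/
noncomputable def gvs_resField (E : IntermediateField K (LaurentSeries K)) :
    Subfield (LaurentSeries (ResidueField O)) where
  carrier := {x | ∃ z : ↥(gq_bddSubring O K), (z : LaurentSeries K) ∈ E ∧ gq_res O K z = x}
  mul_mem' := by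
    rintro _ _ ⟨a, ha, rfl⟩ ⟨b, hb, rfl⟩
    exact ⟨a * b, E.mul_mem ha hb, map_mul _ _ _⟩
  one_mem' := ⟨1, E.one_mem, map_one _⟩
  add_mem' := by
    rintro _ _ ⟨a, ha, rfl⟩ ⟨b, hb, rfl⟩
    exact ⟨a + b, E.add_mem ha hb, map_add _ _ _⟩
  zero_mem' := ⟨0, E.zero_mem, map_zero _⟩
  neg_mem' := by
    rintro _ ⟨a, ha, rfl⟩
    exact ⟨-a, E.neg_mem ha, map_neg _ _⟩
  inv_mem' := by
    rintro _ ⟨a, ha, rfl⟩
    by_cases h0 : gq_res O K a = 0
    · rw [h0, inv_zero]
      exact ⟨0, E.zero_mem, map_zero _⟩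
    · have hinv := gq_isBdd_inv_of_res_ne_zero a h0
      have ha0 : (a : LaurentSeries K) ≠ 0 := by
        intro h
        apply h0
        have : a = 0 := Subtype.ext h
        rw [this, map_zero]
      refine ⟨⟨(a : LaurentSeries K)⁻¹, hinv⟩, E.inv_mem ha, ?_⟩
      have h1 : a * ⟨(a : LaurentSeries K)⁻¹, hinv⟩ = 1 := Subtype.ext (mul_inv_cancel₀ ha0)
      have h2 := congrArg (gq_res O K) h1
      rw [map_mul, map_one] at h2
      exact eq_inv_of_mul_eq_one_right h2

theorem gvs_mem_resField {E : IntermediateField K (LaurentSeries K)}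
    {x : LaurentSeries (ResidueField O)} :
    x ∈ gvs_resField (O := O) E ↔
      ∃ z : ↥(gq_bddSubring O K), (z : LaurentSeries K) ∈ E ∧ gq_res O K z = x := Iff.rfl

theorem gvs_resField_mono {E E' : IntermediateField K (LaurentSeries K)} (h : E ≤ E') :
    gvs_resField (O := O) E ≤ gvs_resField E' := by
  rintro _ ⟨z, hz, rfl⟩
  exact ⟨z, h hz, rfl⟩

/-- clearing the `π`-denominator of a quotient -/
theorem gvs_exists_pow_bdd (π : O) (hπ : maximalIdeal O = Ideal.span {π}) {z : LaurentSeries K}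
    (hz : z ∈ gq_quotField O K) :
    ∃ n : ℕ, gq_IsBdd O K ((algebraMap K (LaurentSeries K) (algebraMap O K π)) ^ n * z) := by
  obtain ⟨z1, z2, hz2, h⟩ := hz
  obtain ⟨e, z2', hz2', hred⟩ := gq_exists_pow_mul π hπ z2 hz2
  refine ⟨e, z1, z2', hred, ?_⟩
  rw [← h, hz2', map_mul, gq_coeffMap_algebraMap, map_pow, map_pow]
  ring

/-- the constant `π` as a bounded element of `E` -/
noncomputable def gvs_piOf (π : O) (E : IntermediateField K (LaurentSeries K)) :
    ↥(gvs_bddOf (O := O) E) :=
  ⟨gq_constHom O K π, E.algebraMap_mem _⟩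

/-- the inclusion of the bounded elements of `E` into `E` -/
noncomputable def gvs_bddToField (E : IntermediateField K (LaurentSeries K)) :
    ↥(gvs_bddOf (O := O) E) →+* ↥E where
  toFun c := ⟨((c : ↥(gq_bddSubring O K)) : LaurentSeries K), c.2⟩
  map_one' := rfl
  map_mul' _ _ := rfl
  map_zero' := rfl
  map_add' _ _ := rfl

/-- polynomial expressions in `θ` over `E` become polynomial expressions over the bounded elements
of `E` after multiplication by a power of `π`. -/
theorem gvs_exists_clear (π : O) (hπ : maximalIdeal O = Ideal.span {π})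
    (E : IntermediateField K (LaurentSeries K)) (hE : E ≤ gq_quotField O K)
    (θ : ↥(gq_bddSubring O K)) (p : Polynomial ↥E) :
    ∃ (e : ℕ) (P : Polynomial ↥(gvs_bddOf (O := O) E)),
      ((aeval θ P : ↥(gq_bddSubring O K)) : LaurentSeries K) =
        (algebraMap K (LaurentSeries K) (algebraMap O K π)) ^ e *
          aeval (θ : LaurentSeries K) p := by
  set c : LaurentSeries K := algebraMap K (LaurentSeries K) (algebraMap O K π) with hc
  induction p using Polynomial.induction_on' with
  | add p q hp hq =>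
    obtain ⟨e1, P1, h1⟩ := hp
    obtain ⟨e2, P2, h2⟩ := hq
    refine ⟨e1 + e2, C (gvs_piOf π E ^ e2) * P1 + C (gvs_piOf π E ^ e1) * P2, ?_⟩
    rw [map_add, map_mul, map_mul, aeval_C, aeval_C, map_add (aeval (θ : LaurentSeries K))]
    change ((gq_constHom O K π) ^ e2 : ↥(gq_bddSubring O K)) * (aeval θ P1 : LaurentSeries K) +
      ((gq_constHom O K π) ^ e1 : ↥(gq_bddSubring O K)) * (aeval θ P2 : LaurentSeries K) = _
    rw [h1, h2, Subring.coe_pow, Subring.coe_pow, gq_coe_constHom, ← hc, pow_add]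
    ring
  | monomial n a =>
    obtain ⟨e, he⟩ := gvs_exists_pow_bdd π hπ (hE a.2)
    refine ⟨e, monomial n ⟨⟨c ^ e * (a : LaurentSeries K), he⟩,
      E.mul_mem (E.pow_mem (E.algebraMap_mem _) e) a.2⟩, ?_⟩
    rw [aeval_monomial, aeval_monomial]
    change (c ^ e * (a : LaurentSeries K)) * ((θ ^ n : ↥(gq_bddSubring O K)) : LaurentSeries K) = _
    rw [Subring.coe_pow]
    change _ = c ^ e * ((a : LaurentSeries K) * (θ : LaurentSeries K) ^ n)
    ring

/-- **The residue step.** `E₁ = E₀(θ)`, `θ` bounded, root of a monic polynomial `h` with bounded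
coefficients in `E₀` of which `θ̃` is a simple root: the residue field of `E₁` lies in every subfield
containing the residue field of `E₀` and `θ̃`. -/
theorem gvs_res_mem_step (π : O) (hπ0 : π ≠ 0) (hπ : maximalIdeal O = Ideal.span {π})
    (E0 : IntermediateField K (LaurentSeries K)) (hE0 : E0 ≤ gq_quotField O K)
    (θ : ↥(gq_bddSubring O K)) (h : Polynomial ↥(gvs_bddOf (O := O) E0)) (hmonic : h.Monic)
    (hroot : aeval θ h = 0)
    (hsimple : (derivative h).eval₂ ((gq_res O K).comp (gvs_bddOf E0).subtype)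
      (gq_res O K θ) ≠ 0)
    (Ft : Subfield (LaurentSeries (ResidueField O))) (h0 : gvs_resField (O := O) E0 ≤ Ft)
    (hθ : gq_res O K θ ∈ Ft) :
    gvs_resField (O := O) (IntermediateField.adjoin K
      ((E0 : Set (LaurentSeries K)) ∪ {(θ : LaurentSeries K)})) ≤ Ft := by
  rintro _ ⟨z, hz, rfl⟩
  set θ' : LaurentSeries K := (θ : LaurentSeries K) with hθ'
  -- `θ'` is integral over `E₀`
  have hint : IsIntegral ↥E0 θ' := by
    refine ⟨h.map (gvs_bddToField E0), hmonic.map _, ?_⟩
    rw [Polynomial.eval₂_map]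
    have h1 := congrArg (fun t : ↥(gq_bddSubring O K) => (t : LaurentSeries K)) hroot
    simp only [ZeroMemClass.coe_zero] at h1
    rw [← h1, aeval_def]
    have h2 := Polynomial.hom_eval₂ h (algebraMap ↥(gvs_bddOf (O := O) E0) ↥(gq_bddSubring O K))
      (gq_bddSubring O K).subtype θ
    change ((Polynomial.eval₂ _ θ h : ↥(gq_bddSubring O K)) : LaurentSeries K) = _ at h2
    rw [h2]
    rfl
  -- `z` is a polynomial in `θ'` over `E₀`
  have hzmem : (z : LaurentSeries K) ∈ Algebra.adjoin ↥E0 ({θ'} : Set (LaurentSeries K)) := by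
    rw [← IntermediateField.adjoin_simple_toSubalgebra_of_isAlgebraic hint.isAlgebraic]
    have hle : IntermediateField.adjoin K ((E0 : Set (LaurentSeries K)) ∪ {θ'}) ≤
        (IntermediateField.adjoin ↥E0 ({θ'} : Set (LaurentSeries K))).restrictScalars K := by
      rw [IntermediateField.adjoin_le_iff]
      rintro x (hx | hx)
      · exact (IntermediateField.adjoin ↥E0 ({θ'} : Set (LaurentSeries K))).algebraMap_mem ⟨x, hx⟩
      · rw [Set.mem_singleton_iff] at hx
        rw [hx]
        exact IntermediateField.mem_adjoin_simple_self ↥E0 θ'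
    exact hle hz
  rw [Algebra.adjoin_singleton_eq_range_aeval] at hzmem
  obtain ⟨p, hp⟩ := hzmem
  obtain ⟨e, P, hP⟩ := gvs_exists_clear π hπ E0 hE0 θ p
  -- apply the abstract step
  have hπres : gq_res O K (gq_constHom O K π) = 0 := by
    rw [gq_res_constHom]
    have : residue O π = 0 := by
      rw [residue_eq_zero_iff, hπ]
      exact Ideal.mem_span_singleton_self π
    rw [this, map_zero]
  have hinjK : Function.Injective (algebraMap O K) := IsFractionRing.injective O K
  have hc0 := gq_const_ne_zero (K := K) π hπ0 hinjK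
  have hπb0 : (gq_constHom O K π : ↥(gq_bddSubring O K)) ≠ 0 := by
    intro h0
    apply hc0
    have := congrArg (fun t : ↥(gq_bddSubring O K) => (t : LaurentSeries K)) h0
    exact this
  refine gvs_abs_res_step (gq_res O K) (gq_constHom O K π) hπb0 hπres (gvs_bddOf E0)
    (E0.algebraMap_mem _) ?_ (gvs_resField E0) (fun c => ⟨c, c.2, rfl⟩) ?_ θ h hmonic hroot
    hsimple Ft h0 hθ e z P ?_
  · intro c hc
    obtain ⟨w, hw⟩ := (gq_res_eq_zero_iff π hπ0 hπ (c : ↥(gq_bddSubring O K))).mp hc
    have hwE : (w : LaurentSeries K) ∈ E0 := by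
      have h1 : (w : LaurentSeries K) =
          (algebraMap K (LaurentSeries K) (algebraMap O K π))⁻¹ *
            ((c : ↥(gq_bddSubring O K)) : LaurentSeries K) := by
        rw [hw, ← mul_assoc, inv_mul_cancel₀ hc0, one_mul]
      rw [h1]
      exact E0.mul_mem (E0.inv_mem (E0.algebraMap_mem _)) c.2
    refine ⟨⟨w, hwE⟩, ?_⟩
    apply Subtype.ext
    apply Subtype.ext
    exact hw
  · rintro x ⟨y, hy, rfl⟩
    exact ⟨⟨y, hy⟩, rfl⟩
  · apply Subtype.ext
    rw [hP]
    change ((gq_constHom O K π ^ e : ↥(gq_bddSubring O K)) : LaurentSeries K) *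
      (z : LaurentSeries K) = _
    rw [Subring.coe_pow, gq_coe_constHom, ← hp]
    rfl

/-- **The residue step, split form.** As `gvs_res_mem_step`, with `θ` one of the roots `r i` of a
polynomial over `E₀` which splits in `K((q))` into bounded roots with pairwise distinct residues
(the shape of `gvs_tower_step`). -/
theorem gvs_res_mem_step_split (π : O) (hπ0 : π ≠ 0) (hπ : maximalIdeal O = Ideal.span {π})
    (E0 : IntermediateField K (LaurentSeries K)) (hE0 : E0 ≤ gq_quotField O K)
    {ι : Type*} (s : Finset ι) (r : ι → ↥(gq_bddSubring O K))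
    (hdist : Set.InjOn (fun i => gq_res O K (r i)) (s : Set ι))
    (hcoef : ∀ n : ℕ, (((∏ i ∈ s, (X - C (r i))).coeff n : ↥(gq_bddSubring O K)) :
      LaurentSeries K) ∈ E0)
    (i0 : ι) (hi0 : i0 ∈ s)
    (Ft : Subfield (LaurentSeries (ResidueField O))) (h0 : gvs_resField (O := O) E0 ≤ Ft)
    (hθ : gq_res O K (r i0) ∈ Ft) :
    gvs_resField (O := O) (IntermediateField.adjoin K
      ((E0 : Set (LaurentSeries K)) ∪ {((r i0 : ↥(gq_bddSubring O K)) : LaurentSeries K)})) ≤ Ft := by
  classical
  set P : Polynomial ↥(gq_bddSubring O K) := ∏ i ∈ s, (X - C (r i)) with hP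
  have hPmonic : P.Monic := Polynomial.monic_prod_of_monic _ _ fun i _ => Polynomial.monic_X_sub_C _
  have hsub : (↑P.coeffs : Set ↥(gq_bddSubring O K)) ⊆ gvs_bddOf (O := O) E0 := by
    intro c hc
    rw [Finset.mem_coe, Polynomial.mem_coeffs_iff] at hc
    obtain ⟨n, -, rfl⟩ := hc
    exact hcoef n
  set h : Polynomial ↥(gvs_bddOf (O := O) E0) := P.toSubring (gvs_bddOf E0) hsub with hh
  have hhP : h.map (gvs_bddOf (O := O) E0).subtype = P := Polynomial.map_toSubring P _ hsub
  have hmonic : h.Monic := (Polynomial.monic_toSubring P _ hsub).mpr hPmonic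
  have hroot : aeval (r i0) h = 0 := by
    rw [aeval_def]
    have : algebraMap ↥(gvs_bddOf (O := O) E0) ↥(gq_bddSubring O K) =
        (gvs_bddOf (O := O) E0).subtype := rfl
    rw [this, ← Polynomial.eval_map, hhP, hP, Polynomial.eval_prod]
    refine Finset.prod_eq_zero hi0 ?_
    rw [Polynomial.eval_sub, Polynomial.eval_X, Polynomial.eval_C, sub_self]
  have hPres : P.map (gq_res O K) = ∏ i ∈ s, (X - C (gq_res O K (r i))) := by
    rw [hP, Polynomial.map_prod]
    refine Finset.prod_congr rfl fun i _ => ?_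
    rw [Polynomial.map_sub, Polynomial.map_X, Polynomial.map_C]
  have hsep : (P.map (gq_res O K)).Separable := by
    rw [hPres, Polynomial.separable_prod_X_sub_C_iff']
    intro i hi j hj hij
    exact hdist hi hj hij
  have hroot' : (P.map (gq_res O K)).eval (gq_res O K (r i0)) = 0 := by
    rw [hPres, Polynomial.eval_prod]
    refine Finset.prod_eq_zero hi0 ?_
    rw [Polynomial.eval_sub, Polynomial.eval_X, Polynomial.eval_C, sub_self]
  have hsimple : (derivative h).eval₂ ((gq_res O K).comp (gvs_bddOf E0).subtype)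
      (gq_res O K (r i0)) ≠ 0 := by
    rw [← Polynomial.eval_map, ← Polynomial.derivative_map, ← Polynomial.map_map, hhP]
    have := hsep.eval₂_derivative_ne_zero (RingHom.id _) (x := gq_res O K (r i0))
      (by rw [Polynomial.eval₂_id]; exact hroot')
    rwa [Polynomial.eval₂_id] at this
  exact gvs_res_mem_step π hπ0 hπ E0 hE0 (r i0) h hmonic hroot hsimple Ft h0 hθ

/-- the coefficient condition of `gvs_res_mem_step_split` / `gvs_res_mem` from the shape of
`gvs_tower_step`: `g.map = ∏ (X - C (r i))` with `g` over `E₀`. -/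
theorem gvs_coef_mem_of_map_eq (E0 : IntermediateField K (LaurentSeries K))
    {ι : Type*} (s : Finset ι) (r : ι → ↥(gq_bddSubring O K)) (g : Polynomial ↥E0)
    (hg : g.map (algebraMap ↥E0 (LaurentSeries K)) =
      ∏ i ∈ s, (X - C ((r i : ↥(gq_bddSubring O K)) : LaurentSeries K))) (n : ℕ) :
    (((∏ i ∈ s, (X - C (r i))).coeff n : ↥(gq_bddSubring O K)) : LaurentSeries K) ∈ E0 := by
  have hPmap : (∏ i ∈ s, (X - C (r i))).map (gq_bddSubring O K).subtype =
      ∏ i ∈ s, (X - C ((r i : ↥(gq_bddSubring O K)) : LaurentSeries K)) := by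
    rw [Polynomial.map_prod]
    refine Finset.prod_congr rfl fun i _ => ?_
    rw [Polynomial.map_sub, Polynomial.map_X, Polynomial.map_C]
    rfl
  have h2 := congrArg (fun p => Polynomial.coeff p n) (hg.trans hPmap.symm)
  simp only [Polynomial.coeff_map] at h2
  have h3 : (((∏ i ∈ s, (X - C (r i))).coeff n : ↥(gq_bddSubring O K)) : LaurentSeries K) =
      ((g.coeff n : ↥E0) : LaurentSeries K) := h2.symm
  rw [h3]
  exact (g.coeff n).2

/-- **The residue field along a tower.** `E₁ = E₀(S)`, every `θ ∈ S` one of the roots of a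
polynomial over `E₀` which splits in `K((q))` into bounded roots with pairwise distinct residues.
Then the residue field of (the `q`-Gauss ring of) `E₁` lies in every subfield `Ft` of `k((q))`
containing the residue field of `E₀` and the residues of the `θ ∈ S`. -/
theorem gvs_res_mem (π : O) (hπ0 : π ≠ 0) (hπ : maximalIdeal O = Ideal.span {π})
    (E0 : IntermediateField K (LaurentSeries K)) (hE0 : E0 ≤ gq_quotField O K)
    (S : Finset (LaurentSeries K))
    (hS : ∀ θ ∈ S, ∃ (ι : Type*) (s : Finset ι) (r : ι → ↥(gq_bddSubring O K)),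
      Set.InjOn (fun i => gq_res O K (r i)) (s : Set ι) ∧
      (∀ n : ℕ, (((∏ i ∈ s, (X - C (r i))).coeff n : ↥(gq_bddSubring O K)) :
        LaurentSeries K) ∈ E0) ∧
      ∃ i ∈ s, θ = ((r i : ↥(gq_bddSubring O K)) : LaurentSeries K))
    (Ft : Subfield (LaurentSeries (ResidueField O))) (h0 : gvs_resField (O := O) E0 ≤ Ft)
    (hFt : ∀ θ : ↥(gq_bddSubring O K), (θ : LaurentSeries K) ∈ S → gq_res O K θ ∈ Ft) :
    gvs_resField (O := O) (IntermediateField.adjoin K
      ((E0 : Set (LaurentSeries K)) ∪ (S : Set (LaurentSeries K)))) ≤ Ft := by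
  classical
  induction S using Finset.induction_on with
  | empty =>
    refine le_trans (gvs_resField_mono ?_) h0
    rw [IntermediateField.adjoin_le_iff]
    rintro x (hx | hx)
    · exact hx
    · simp at hx
  | insert θ S' _ ih =>
    have ih' := ih (fun θ' hθ' => hS θ' (Finset.mem_insert_of_mem hθ'))
      (fun θ' hθ' => hFt θ' (Finset.mem_insert_of_mem hθ'))
    set E' : IntermediateField K (LaurentSeries K) := IntermediateField.adjoin K
      ((E0 : Set (LaurentSeries K)) ∪ (S' : Set (LaurentSeries K))) with hE'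
    have hE0E' : E0 ≤ E' := fun x hx => IntermediateField.subset_adjoin K _ (Or.inl hx)
    have hbddS : ∀ θ' ∈ insert θ S', gq_IsBdd O K θ' := by
      intro θ' hθ'
      obtain ⟨ι, s, r, -, -, i, -, rfl⟩ := hS θ' hθ'
      exact (r i).2
    have hE'q : E' ≤ gq_quotField O K := by
      rw [hE', IntermediateField.adjoin_le_iff]
      rintro x (hx | hx)
      · exact hE0 hx
      · exact gq_isQuot_of_isBdd (hbddS x (Finset.mem_insert_of_mem hx))
    obtain ⟨ι, s, r, hdist, hcoef, i0, hi0, hθr⟩ := hS θ (Finset.mem_insert_self θ S')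
    have hstep := gvs_res_mem_step_split π hπ0 hπ E' hE'q s r hdist
      (fun n => hE0E' (hcoef n)) i0 hi0 Ft ih'
      (hFt (r i0) (by rw [← hθr]; exact Finset.mem_insert_self θ S'))
    refine le_trans (gvs_resField_mono ?_) hstep
    rw [IntermediateField.adjoin_le_iff]
    rintro x (hx | hx)
    · exact IntermediateField.subset_adjoin K _ (Or.inl (hE0E' hx))
    · rw [Finset.coe_insert] at hx
      rcases hx with hx | hx
      · rw [hx, hθr]
        exact IntermediateField.subset_adjoin K _ (Or.inr rfl)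
      · exact IntermediateField.subset_adjoin K _
          (Or.inl (IntermediateField.subset_adjoin K _ (Or.inr hx)))

end Gauss

end Fermat.Agent.DS
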