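import Mathlib
import Fermat.Agent.DS.GR.RamInst
import Fermat.Agent.DS.GR.Reg
import Fermat.Agent.DS.GR.HesseReg

/-!
# DS-T / [GR-6] (S18 twin, generic generators): the ramification hypotheses `gr_RamHyp`,
`grs_RamHyp3`, `grs_RamHyp4` of [GR-8a/b] FROM the ramification data `(R)` (prefix `gr_ram_`,
main theorems `gr_ramHyp`, `grs_ramHyp`)

Generic twin of `JT3/Inst/RamHyp.lean` (`lgr_ramHyp`, `lgr_hram`) and `JT3/Inst/HesseRamWrap.lean`
+ `HesseRamInst` (`hsrw_ramHyp3/4`) for a VARIABLE level field `F ⊆ L((q))` with `[gr_HasJ F]`: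

* `gr_ramHyp_of_rel` : `gr_RamHyp F M x` for every anharmonic coordinate `x` of `L(λ)`;
* **`gr_ramHyp`** : `gr_RamHyp F M λ ∧ gr_RamHyp F M λ⁻¹`;
* **`grs_ramHyp`** : `grs_RamHyp3 h3 F M μ ω ∧ grs_RamHyp4 h3 F M μ⁻¹ ω`.

Input: `(R) = rml_RamData L (gr_ram_jF F) M` (ramification of `j` on `F`: indices above `0`, `1728`,
`∞` divide `3`, `2`, `M`; unramified elsewhere) and the finiteness of the tower.
-/

set_option autoImplicit false
set_option linter.style.haveILetI false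
set_option linter.unusedSectionVars false

noncomputable section

open IntermediateField ModularCurve Polynomial

namespace Fermat.Agent.DS

open Fermat.Agent.JT3 Fermat.Agent.S24

/-! ### Legendre -/

section Leg

variable {L : Type*} [Field L] [CharZero L]
  (F : IntermediateField L (LaurentSeries L)) [gr_HasJ F]

attribute [local instance] lgh_algKjK grh_algKjF2 grh_algKjE grh_algF2E grh_algKE

/-- `gr_RamHyp F M x` for every anharmonic coordinate `x` of `L(λ)`. -/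
theorem gr_ramHyp_of_rel [FiniteDimensional (lgh_Kj L) (gr_E F)] {M : ℕ}
    (D : rml_RamData L (gr_ram_jF F) M) {x : lg_K L}
    (hrel : cv_legN x = algebraMap (lgh_Kj L) (lg_K L) (lgh_j L) * cv_legD x) :
    gr_RamHyp F M x :=
  ⟨fun V2 _ _ hL hx hx0 hx1 =>
      gr_ram_leg_hH (gr_F2 F) (lg_K L) (gr_E F) (lgh_adjoin_j L) (gr_ram_ramData2 F D)
        (grh_hgen F) hrel V2 hL hx hx0 hx1,
   fun V2 _ _ hL hx hx0 P _ hP =>
      gr_ram_leg_hT0 (gr_F2 F) (lg_K L) (gr_E F) (gr_ram_ramData2 F D) (grh_hgen F) hrel V2 hL hx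
        hx0 P hP,
   fun V2 _ _ hL hx hx1 P _ hP =>
      gr_ram_leg_hT1 (gr_F2 F) (lg_K L) (gr_E F) (gr_ram_ramData2 F D) (grh_hgen F) hrel V2 hL hx
        hx1 P hP⟩

/-- **the hypothesis `hram` of the Legendre cover** for a variable level field. -/
theorem gr_ramHyp [FiniteDimensional (lgh_Kj L) (gr_E F)] {M : ℕ}
    (D : rml_RamData L (gr_ram_jF F) M) :
    gr_RamHyp F M (lgh_lamK L) ∧ gr_RamHyp F M (lgh_lamK L)⁻¹ :=
  ⟨gr_ramHyp_of_rel F D (lgh_legendre_K L), gr_ramHyp_of_rel F D (lgr_legendre_K_inv L)⟩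

end Leg

/-! ### Hesse -/

section Hes

variable {L : Type*} [Field L] [CharZero L] (h3 : (3 : L) ≠ 0)
  (F : IntermediateField L (LaurentSeries L)) [gr_HasJ F]

attribute [local instance] hsh_algKjK grsh_algKjF3 grsh_algKjE grsh_algF3E grsh_algKE

/-- **chart `μ`**: `grs_RamHyp3` from the cores `(cH)`, `(cT)`. -/
theorem gr_ram_ramHyp3_of_cores {M : ℕ} (ω : L) (hω : ω ^ 2 + ω + 1 = 0)
    (cH : ∀ (V2 : Subring (hs_K L h3)) [IsDiscreteValuationRing V2]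
      [IsFractionRing V2 (hs_K L h3)], (∀ a : L, algebraMap L (hs_K L h3) a ∈ V2) →
      hsh_muK L h3 ∈ V2 → ((hsh_muK L h3) ^ 3 - 1)⁻¹ ∈ V2 → jt_UnramAt V2 (grs_E h3 F))
    (cT : ∀ (V2 : Subring (hs_K L h3)) [IsDiscreteValuationRing V2]
      [IsFractionRing V2 (hs_K L h3)], (∀ a : L, algebraMap L (hs_K L h3) a ∈ V2) →
      hsh_muK L h3 ∈ V2 → ((hsh_muK L h3) ^ 3 - 1)⁻¹ ∉ V2 →
      ∀ (P : Ideal (integralClosure V2 (grs_E h3 F))) [P.IsPrime], P ≠ ⊥ →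
        P.ramificationIdx V2 ∣ M) :
    grs_RamHyp3 h3 F M (hsh_muK L h3) ω := by
  have hω' : (algebraMap L (hs_K L h3) ω) ^ 2 + algebraMap L (hs_K L h3) ω + 1 = 0 := by
    rw [← map_pow, ← map_add, ← map_one (algebraMap L (hs_K L h3)), ← map_add, hω, map_zero]
  constructor
  · intro V2 _ _ hL hx h1 h2 h3'
    refine cH V2 hL hx ?_
    refine hsrw_cube_inv_mem hω' h1 h2 ?_
    rwa [map_pow] at h3'
  · intro c hc V2 _ _ hL hx hxc P _ hP
    refine cT V2 hL hx ?_ P hP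
    refine hsrw_cube_inv_not_mem hx (hL c) ?_ (hsrw_mu_cube_ne_one h3) hxc
    rw [← map_pow, hc, map_one]

/-- **chart `μ⁻¹`**: `grs_RamHyp4` from the cores `(cH)`, `(cT)`, `(cTinf)`. -/
theorem gr_ram_ramHyp4_of_cores {M : ℕ} (ω : L) (hω : ω ^ 2 + ω + 1 = 0)
    (cH : ∀ (V2 : Subring (hs_K L h3)) [IsDiscreteValuationRing V2]
      [IsFractionRing V2 (hs_K L h3)], (∀ a : L, algebraMap L (hs_K L h3) a ∈ V2) →
      hsh_muK L h3 ∈ V2 → ((hsh_muK L h3) ^ 3 - 1)⁻¹ ∈ V2 → jt_UnramAt V2 (grs_E h3 F))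
    (cT : ∀ (V2 : Subring (hs_K L h3)) [IsDiscreteValuationRing V2]
      [IsFractionRing V2 (hs_K L h3)], (∀ a : L, algebraMap L (hs_K L h3) a ∈ V2) →
      hsh_muK L h3 ∈ V2 → ((hsh_muK L h3) ^ 3 - 1)⁻¹ ∉ V2 →
      ∀ (P : Ideal (integralClosure V2 (grs_E h3 F))) [P.IsPrime], P ≠ ⊥ →
        P.ramificationIdx V2 ∣ M)
    (cTinf : ∀ (V2 : Subring (hs_K L h3)) [IsDiscreteValuationRing V2]
      [IsFractionRing V2 (hs_K L h3)], (∀ a : L, algebraMap L (hs_K L h3) a ∈ V2) →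
      hsh_muK L h3 ∉ V2 →
      ∀ (P : Ideal (integralClosure V2 (grs_E h3 F))) [P.IsPrime], P ≠ ⊥ →
        P.ramificationIdx V2 ∣ M) :
    grs_RamHyp4 h3 F M (hsh_muK L h3)⁻¹ ω := by
  have hω' : (algebraMap L (hs_K L h3) ω) ^ 2 + algebraMap L (hs_K L h3) ω + 1 = 0 := by
    rw [← map_pow, ← map_add, ← map_one (algebraMap L (hs_K L h3)), ← map_add, hω, map_zero]
  have hm0 := hsrw_mu_ne_zero h3
  refine ⟨?_, ?_, ?_⟩
  · intro V2 _ _ hL hx hx' h1 h2 h3'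
    rw [inv_inv] at hx'
    refine cH V2 hL hx' (hsrw_inv_cube_inv_mem hm0 hx ?_)
    refine hsrw_cube_inv_mem hω' h1 h2 ?_
    rwa [map_pow] at h3'
  · intro V2 _ _ hL _ hx' P _ hP
    rw [inv_inv] at hx'
    exact cTinf V2 hL hx' P hP
  · intro c hc V2 _ _ hL hx hxc P _ hP
    have hval := hsrw_hval V2
    have hc3 : (algebraMap L (hs_K L h3) c) ^ 3 = 1 := by rw [← map_pow, hc, map_one]
    -- `μ ∈ V2`
    have hmu : hsh_muK L h3 ∈ V2 := by
      by_contra hmu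
      have ha : ((hsh_muK L h3)⁻¹)⁻¹ ∉ V2 := by rwa [inv_inv]
      have hab : (hsh_muK L h3)⁻¹ - ((hsh_muK L h3)⁻¹ - algebraMap L (hs_K L h3) c) ≠ 0 := by
        rw [sub_sub_cancel]
        intro h0
        rw [h0] at hc3
        simp at hc3
      have := hsrw_sub_inv_not_mem hval ha hxc hab
      rw [sub_sub_cancel] at this
      apply this
      have hinv : (algebraMap L (hs_K L h3) c)⁻¹ = algebraMap L (hs_K L h3) (c ^ 2) := by
        rw [map_pow]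
        apply inv_eq_of_mul_eq_one_right
        rw [← pow_succ', hc3]
      rw [hinv]
      exact hL _
    refine cT V2 hL hmu (hsrw_inv_cube_inv_not_mem hm0 hmu ?_) P hP
    exact hsrw_cube_inv_not_mem hx (hL c) hc3 (hsrw_nu_cube_ne_one h3) hxc

/-- **the hypothesis `hram` of the Hesse cover** for a variable level field. -/
theorem grs_ramHyp [FiniteDimensional (hsh_Kj L) (grs_E h3 F)] {M : ℕ}
    (D : rml_RamData L (gr_ram_jF F) M) (ω : L) (hω : ω ^ 2 + ω + 1 = 0) :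
    grs_RamHyp3 h3 F M (hsh_muK L h3) ω ∧ grs_RamHyp4 h3 F M (hsh_muK L h3)⁻¹ ω := by
  have cH : ∀ (V2 : Subring (hs_K L h3)) [IsDiscreteValuationRing V2]
      [IsFractionRing V2 (hs_K L h3)], (∀ a : L, algebraMap L (hs_K L h3) a ∈ V2) →
      hsh_muK L h3 ∈ V2 → ((hsh_muK L h3) ^ 3 - 1)⁻¹ ∈ V2 → jt_UnramAt V2 (grs_E h3 F) :=
    fun V2 _ _ hL hx hx3 =>
      gr_ram_hes_cH (grs_F3 F) (hs_K L h3) (grs_E h3 F) (hsh_adjoin_j L) (gr_ram_ramData3 F D)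
        (grsh_hgen h3 F) (hsh_hesse_K L h3) V2 hL hx hx3
  have cT : ∀ (V2 : Subring (hs_K L h3)) [IsDiscreteValuationRing V2]
      [IsFractionRing V2 (hs_K L h3)], (∀ a : L, algebraMap L (hs_K L h3) a ∈ V2) →
      hsh_muK L h3 ∈ V2 → ((hsh_muK L h3) ^ 3 - 1)⁻¹ ∉ V2 →
      ∀ (P : Ideal (integralClosure V2 (grs_E h3 F))) [P.IsPrime], P ≠ ⊥ →
        P.ramificationIdx V2 ∣ M :=
    fun V2 _ _ hL hx hx3 P _ hP =>
      gr_ram_hes_cT (grs_F3 F) (hs_K L h3) (grs_E h3 F) (gr_ram_ramData3 F D)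
        (grsh_hgen h3 F) (hsh_hesse_K L h3) V2 hL hx hx3 P hP
  have cTinf : ∀ (V2 : Subring (hs_K L h3)) [IsDiscreteValuationRing V2]
      [IsFractionRing V2 (hs_K L h3)], (∀ a : L, algebraMap L (hs_K L h3) a ∈ V2) →
      hsh_muK L h3 ∉ V2 →
      ∀ (P : Ideal (integralClosure V2 (grs_E h3 F))) [P.IsPrime], P ≠ ⊥ →
        P.ramificationIdx V2 ∣ M :=
    fun V2 _ _ hL hx P _ hP =>
      gr_ram_hes_cTinf (grs_F3 F) (hs_K L h3) (grs_E h3 F) (gr_ram_ramData3 F D)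
        (grsh_hgen h3 F) (hsh_hesse_K L h3) V2 hL hx P hP
  exact ⟨gr_ram_ramHyp3_of_cores h3 F ω hω cH cT,
    gr_ram_ramHyp4_of_cores h3 F ω hω cH cT cTinf⟩

end Hes

end Fermat.Agent.DS
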