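/-
DS-T, cell [GR], file [GR-1b]: UNIQUENESS of the place reduction (generic twin of the prelude's
`IsPlaceReductionAlong.eq_or_const_of_agree / eq_of_agree`) for helper1's `dsr_` definitions.
Two place maps that agree on the divisors of the `q`-integral functions are equal (or constant).
Prefix `gr_`.
-/
import Mathlib
import Fermat.Agent.DS.Hecke.RedDefs

set_option autoImplicit false

noncomputable section

namespace Fermat.Agent.DS

open ModularCurve AlgebraicCurve HahnSeries

section Uniqueness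

variable {L : Type*} [Field L] {A : ValuationSubring L}
variable {k : Type*} [Field k] {π : A →+* k}
variable {Fb : IntermediateField L (LaurentSeries L)} {Ft : IntermediateField k (LaurentSeries k)}

theorem gr_int_eq_zero_of_forall_dvd {a : ℤ} (h : ∀ n : ℕ, n ≠ 0 → (n : ℤ) ∣ a) : a = 0 :=
  Int.eq_zero_of_dvd_of_natAbs_lt_natAbs (h (a.natAbs + 1) (Nat.succ_ne_zero _))
    (by rw [Int.natAbs_natCast]; exact Nat.lt_succ_self _)

theorem gr_eq_or_const_of_agree
    {r₁ r₂ : Place L (Fb) →
      Place k (Ft)}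
    (hgen : dsr_PrincipalGeneratedByIntegral A π Fb Ft)
    (hagree : ∀ D ∈ dsr_integralPrincipalDivisors A π Fb Ft, Finsupp.mapDomain r₁ D = Finsupp.mapDomain r₂ D)
    (hdeg : ∀ P : Place L (Fb), P.deg = 1)
    (hdiv : ∀ n : ℕ, n ≠ 0 → ∀ x : Pic0 L (Fb),
      ∃ y : Pic0 L (Fb), n • y = x) :
    r₁ = r₂ ∨ ∀ P Q, r₁ P = r₁ Q := by
  classical

  set δ : Divisor L (Fb) →+
      Divisor k (Ft) :=
    Finsupp.mapDomain.addMonoidHom r₁ - Finsupp.mapDomain.addMonoidHom r₂ with hδ
  have hδapp : ∀ D, δ D = Finsupp.mapDomain r₁ D - Finsupp.mapDomain r₂ D := fun D => rfl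

  have hδprin : ∀ D ∈ Divisor.principal (K := L) (F := Fb),
      δ D = 0 := by
    intro D hD
    have hD' := hgen hD
    clear hD
    induction hD' using AddSubgroup.closure_induction with
    | mem E hE => rw [hδapp, hagree E hE, sub_self]
    | zero => exact map_zero δ
    | add E E' _ _ hE hE' => rw [map_add, hE, hE', add_zero]
    | neg E _ hE => rw [map_neg, hE, neg_zero]

  have hδdeg0 : ∀ D ∈ Divisor.degZero (K := L) (F := Fb),
      δ D = 0 := by
    intro D hD
    ext Q
    rw [Finsupp.zero_apply]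
    refine gr_int_eq_zero_of_forall_dvd fun n hn => ?_
    obtain ⟨y, hy⟩ := hdiv n hn (Pic0.mk ⟨D, hD⟩)
    obtain ⟨E, rfl⟩ := Pic0.mk_surjective y

    have hmem : ((⟨D, hD⟩ : Divisor.degZero (K := L) (F := Fb))
        - n • E : Divisor.degZero (K := L) (F := Fb)) ∈
          (Divisor.principal (K := L) (F := Fb)).addSubgroupOf
            (Divisor.degZero (K := L) (F := Fb)) := by
      rw [← QuotientAddGroup.eq_iff_sub_mem, QuotientAddGroup.mk_nsmul]
      exact hy.symm
    rw [AddSubgroup.mem_addSubgroupOf, AddSubgroupClass.coe_sub, AddSubgroupClass.coe_nsmul] at hmem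
    have h0 := hδprin _ hmem
    rw [map_sub, map_nsmul, sub_eq_zero] at h0
    refine ⟨δ (E : Divisor L (Fb)) Q, ?_⟩
    rw [h0, Finsupp.smul_apply, nsmul_eq_mul]

  have hconst : ∀ P Q : Place L (Fb),
      Finsupp.single (r₁ P) (1 : ℤ) - Finsupp.single (r₂ P) 1 =
        Finsupp.single (r₁ Q) 1 - Finsupp.single (r₂ Q) 1 := by
    intro P Q
    have hPQ : Finsupp.single P (1 : ℤ) - Finsupp.single Q 1 ∈
        Divisor.degZero (K := L) (F := Fb) := by
      rw [Divisor.mem_degZero, map_sub, Divisor.degree_single, Divisor.degree_single, hdeg, hdeg, sub_self]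
    have h := hδdeg0 _ hPQ
    rw [hδapp, Finsupp.mapDomain_sub, Finsupp.mapDomain_sub, Finsupp.mapDomain_single,
      Finsupp.mapDomain_single, Finsupp.mapDomain_single, Finsupp.mapDomain_single, sub_eq_zero] at h
    exact sub_eq_sub_iff_sub_eq_sub.mpr h

  rw [or_iff_not_imp_left]
  intro hne
  obtain ⟨P₀, hP₀⟩ : ∃ P₀, r₁ P₀ ≠ r₂ P₀ := by
    by_contra hall
    push Not at hall
    exact hne (funext hall)
  have hr₁const : ∀ Q, r₁ Q = r₁ P₀ := by
    intro Q
    have h := congrArg (fun E => E (r₁ P₀)) (hconst Q P₀)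
    simp only [Finsupp.sub_apply, Finsupp.single_apply, if_neg (Ne.symm hP₀)] at h
    by_contra hQ
    rw [if_neg hQ] at h
    split_ifs at h <;> omega
  exact fun P Q => (hr₁const P).trans (hr₁const Q).symm

theorem gr_eq_of_agree
    {r₁ r₂ : Place L (Fb) →
      Place k (Ft)}
    (hgen : dsr_PrincipalGeneratedByIntegral A π Fb Ft)
    (hagree : ∀ D ∈ dsr_integralPrincipalDivisors A π Fb Ft, Finsupp.mapDomain r₁ D = Finsupp.mapDomain r₂ D)
    (hdeg : ∀ P : Place L (Fb), P.deg = 1)
    (hprin0 : ∀ D ∈ Divisor.principal (K := L) (F := Fb),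
      Divisor.degree D = 0)
    (hdiv : ∀ n : ℕ, n ≠ 0 → ∀ x : Pic0 L (Fb),
      ∃ y : Pic0 L (Fb), n • y = x)
    (hnc : ∃ D ∈ Divisor.principal (K := L) (F := Fb),
      Finsupp.mapDomain r₁ D ≠ 0) :
    r₁ = r₂ := by
  rcases gr_eq_or_const_of_agree hgen hagree hdeg hdiv with h | hconst
  · exact h
  obtain ⟨D, hDprin, hDne⟩ := hnc
  obtain ⟨P₀⟩ : Nonempty (Place L (Fb)) := by
    by_contra hempty
    rw [not_nonempty_iff] at hempty
    exact hDne (by rw [Subsingleton.elim D 0, Finsupp.mapDomain_zero])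
  exfalso
  apply hDne
  have hmapconst : ∀ D : Divisor L (Fb),
      Finsupp.mapDomain r₁ D = Finsupp.single (r₁ P₀) (Divisor.degree D) := by
    intro D
    induction D using Finsupp.induction with
    | zero => simp
    | single_add P n D _ _ ih =>
      rw [Finsupp.mapDomain_add, ih, Finsupp.mapDomain_single, hconst P P₀, map_add,
        Divisor.degree_single, hdeg, Nat.cast_one, mul_one, ← Finsupp.single_add, add_comm]
  rw [hmapconst D, hprin0 D hDprin, Finsupp.single_zero]

end Uniqueness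
end Fermat.Agent.DS

end
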