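/-
DS-T, cell [GR], TOP FILE [GR-8]: GOOD REDUCTION OF THE FAMILY `gr_F G` AT EVERY PRIME `ℓ ∤ M`.

For a set `G ⊆ ℤ((q))` of generators with `j ∈ G` and (A1) over `ℚ` (`gr_A1Q G`), a place `A` of `Q̄`
over a prime `ℓ`, and a ramification bound `M` prime to `ℓ`, the EXTERNAL inputs are

* (R)  `D : rml_RamData Q̄ (gr_jG G hjG Q̄) M` — the ramification of `j : X_G → P¹` over `Q̄`
       (`e ∣ 3` over `0`, `e ∣ 2` over `1728`, `e ∣ M` over `∞`, unramified elsewhere);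
* (V)  the intrinsic vertical hypothesis, `gr_VertHyp … λ` for the Legendre cover when `ℓ ≠ 2`,
       `grs_VertHyp … μ` for the Hesse cover when `ℓ = 2`, over the number fields `L1 → Q̄`
       containing enough roots of unity, with `O = A ∩ L1` a DVR;
* (E)  `dsr_ReductionInputs A (residue A) (gr_F G Q̄) (gr_F G k_A)` (node-E twin), for the statements
       about the reduction map.

Outputs (`by_cases ℓ = 2`):
* `gr_key_top`   : `gr_Key A (residue A) (gr_F G Q̄) p` for every prime `p ≠ ℓ`;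
* `gr_S18_top`   : prime-to-`ℓ` torsion of `Pic⁰` injects under `dsr_reduction` (S18 twin);
* `gr_unram_top` : a semilinear automorphism acting trivially on reductions fixes `Pic⁰[p]`,
                   `p ≠ ℓ` (Néron–Ogg–Shafarevich, easy direction).
-/
import Mathlib
import Fermat.Agent.DS.GR.S18Ram

set_option autoImplicit false
set_option linter.unusedSectionVars false
set_option linter.style.haveILetI false

noncomputable section

open ModularCurve IntermediateField AlgebraicCurve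

namespace Fermat.Agent.DS

open Fermat.Agent.JT3 Fermat.Agent.S24

section Top

variable (G : Set (LaurentSeries ℤ)) (A : ValuationSubring (AlgebraicClosure ℚ))

/-- the vertical hypothesis (V) for the Legendre cover of the family `gr_F G` at the place `A`,
for the number fields containing a primitive `M`-th root of unity. -/
def gr_VertLeg (M : ℕ) : Prop :=
  ∀ (L1 : Type) [Field L1] [NumberField L1] [Algebra L1 (AlgebraicClosure ℚ)]
    (ζ : L1), IsPrimitiveRoot ζ M →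
    ∀ [IsDiscreteValuationRing ↥(A.comap (algebraMap L1 (AlgebraicClosure ℚ)))]
      (π : ↥(A.comap (algebraMap L1 (AlgebraicClosure ℚ)))), Irreducible π →
      gr_VertHyp (A.comap (algebraMap L1 (AlgebraicClosure ℚ))) (gr_F G L1) π (lgh_lamK L1)

/-- the vertical hypothesis (V) for the Hesse cover of the family `gr_F G` at the place `A`,
for the number fields containing a primitive `3M`-th root of unity. -/
def gr_VertHes (M : ℕ) : Prop :=
  ∀ (L1 : Type) [Field L1] [NumberField L1] [Algebra L1 (AlgebraicClosure ℚ)]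
    (h3 : (3 : L1) ≠ 0) (ζ : L1), IsPrimitiveRoot ζ (3 * M) →
    ∀ [IsDiscreteValuationRing ↥(A.comap (algebraMap L1 (AlgebraicClosure ℚ)))]
      (π : ↥(A.comap (algebraMap L1 (AlgebraicClosure ℚ)))), Irreducible π →
      grs_VertHyp h3 (A.comap (algebraMap L1 (AlgebraicClosure ℚ))) (gr_F G L1) π
        (hsh_muK L1 h3)

/-- **KEY over `(Q̄, A)` for the family `gr_F G`, every `ℓ ∤ M`, from (V) + (R).** -/
theorem gr_key_top (hG : gr_A1Q G) (hjG : jqModC ℤ ∈ G)
    {ℓ : ℕ} [Fact ℓ.Prime] (hA : A.LiesOverPrime ℓ)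
    {p : ℕ} (hp : p.Prime) (hpℓ : p ≠ ℓ) (M : ℕ) [NeZero M] (hℓM : ¬ ℓ ∣ M)
    (D : rml_RamData (AlgebraicClosure ℚ) (gr_jG G hjG (AlgebraicClosure ℚ)) M)
    (hvL : ℓ ≠ 2 → gr_VertLeg G A M) (hvH : ℓ = 2 → gr_VertHes G A M) :
    gr_Key A (IsLocalRing.residue A) (gr_F G (AlgebraicClosure ℚ)) p := by
  by_cases hℓ2 : ℓ = 2
  · have hℓ3 : ℓ ≠ 3 := by rw [hℓ2]; norm_num
    exact grs_key_of_VR G A hG hjG hℓ3 hA hp hpℓ M hℓM D (hvH hℓ2)
  · exact gr_key_of_VR G A hG hjG hℓ2 hA hp hpℓ M hℓM D (hvL hℓ2)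

/-- **S18 for the family `gr_F G`, every `ℓ ∤ M`, from (V) + (R) + (E).** -/
theorem gr_S18_top (hG : gr_A1Q G) (hjG : jqModC ℤ ∈ G)
    {ℓ : ℕ} [Fact ℓ.Prime] (hA : A.LiesOverPrime ℓ)
    (h : dsr_ReductionInputs A (IsLocalRing.residue A) (gr_F G (AlgebraicClosure ℚ))
      (gr_F G (IsLocalRing.ResidueField A)))
    (m : ℕ) (hm : ¬ ℓ ∣ m) (M : ℕ) [NeZero M] (hℓM : ¬ ℓ ∣ M)
    (D : rml_RamData (AlgebraicClosure ℚ) (gr_jG G hjG (AlgebraicClosure ℚ)) M)
    (hvL : ℓ ≠ 2 → gr_VertLeg G A M) (hvH : ℓ = 2 → gr_VertHes G A M)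
    (z : Pic0 (AlgebraicClosure ℚ) (gr_F G (AlgebraicClosure ℚ))) (hmz : m • z = 0)
    (hz : dsr_reduction A (IsLocalRing.residue A) (gr_F G (AlgebraicClosure ℚ))
      (gr_F G (IsLocalRing.ResidueField A)) z = 0) : z = 0 := by
  by_cases hℓ2 : ℓ = 2
  · have hℓ3 : ℓ ≠ 3 := by rw [hℓ2]; norm_num
    exact grs_S18_of_VR G A hG hjG hℓ3 hA h m hm M hℓM D (hvH hℓ2) z hmz hz
  · exact gr_S18_of_VR G A hG hjG hℓ2 hA h m hm M hℓM D (hvL hℓ2) z hmz hz

/-- **Unramifiedness of `Pic⁰[p]` at `A`, `p ≠ ℓ ∤ M`**: a semilinear automorphism of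
`gr_F G Q̄` acting trivially on reductions fixes every `p`-torsion class. -/
theorem gr_unram_top (hG : gr_A1Q G) (hjG : jqModC ℤ ∈ G)
    {ℓ : ℕ} [Fact ℓ.Prime] (hA : A.LiesOverPrime ℓ)
    (h : dsr_ReductionInputs A (IsLocalRing.residue A) (gr_F G (AlgebraicClosure ℚ))
      (gr_F G (IsLocalRing.ResidueField A)))
    {p : ℕ} (hp : p.Prime) (hpℓ : p ≠ ℓ) (M : ℕ) [NeZero M] (hℓM : ¬ ℓ ∣ M)
    (D : rml_RamData (AlgebraicClosure ℚ) (gr_jG G hjG (AlgebraicClosure ℚ)) M)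
    (hvL : ℓ ≠ 2 → gr_VertLeg G A M) (hvH : ℓ = 2 → gr_VertHes G A M)
    (g : SemilinearAut (AlgebraicClosure ℚ) (gr_F G (AlgebraicClosure ℚ)))
    (hg : gr_TrivOnRed A (IsLocalRing.residue A) (gr_F G (AlgebraicClosure ℚ))
      (gr_F G (IsLocalRing.ResidueField A)) g)
    (x : Pic0 (AlgebraicClosure ℚ) (gr_F G (AlgebraicClosure ℚ))) (hx : p • x = 0) :
    g • x = x :=
  gr_unram_of_Key (dsr_principalGenerated h) hp.ne_zero
    (gr_key_top G A hG hjG hA hp hpℓ M hℓM D hvL hvH) g hg x hx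

end Top

end Fermat.Agent.DS

end
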