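import Mathlib
import Fermat.Agent.DS.Gam1.Defs

/-!
# DS-T / cell [GV], seam (D2): the leading term of the generators `w_a` (prefix `gv1_`)

`s_a = ∑_{m ≡ ±a (M)} ∑_r r³ q^{m r}` has leading exponent `m(a) = min(a, M - a)` (`a ≠ 0`) with
leading coefficient `g1w_wt M a (m a) ∈ {1, 2}`, over every coefficient ring.  Consequently, over a
field `k` in which that leading coefficient is nonzero, `w_a = w_b` forces `a = ± b`:

* `gv1_m`, `gv1_wt_of_lt`, `gv1_wt_lead`, `gv1_coeff_sZ_of_lt`, `gv1_coeff_sZ_lead`;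
* `gv1_sZ_map_eq_of_w_eq` : cancel `q⁻¹ E₄² (Δ/q)⁻¹` over any field;
* **`gv1_eq_or_neg_of_w_eq`**, `gv1_eq_or_neg_of_w_eq_unit` (units, `3 ≤ M`: no condition on `k`);
* `gv1_reps M` : the representatives `{b | IsUnit b ∧ 2 b ≤ M}` of `(ℤ/M)ˣ/±1`, and
  **`gv1_injOn_w`** : `b ↦ qExpand k e (w_b)` is injective on them.
-/

set_option autoImplicit false
set_option linter.unusedSectionVars false
set_option linter.style.haveILetI false

open ModularCurve

namespace Fermat.Agent.DS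

noncomputable section

section Lead

variable (M : ℕ) [NeZero M]

/-- the leading exponent `min(a, M - a)` of `s_a` -/
def gv1_m (a : ZMod M) : ℕ := min a.val (M - a.val)

variable {M}

theorem gv1_m_pos {a : ZMod M} (ha : a ≠ 0) : 0 < gv1_m M a := by
  have h1 : 0 < a.val := Nat.pos_of_ne_zero ((ZMod.val_ne_zero a).mpr ha)
  have h2 : a.val < M := ZMod.val_lt a
  rw [gv1_m]
  omega

theorem gv1_m_le_val (a : ZMod M) : gv1_m M a ≤ a.val := min_le_left _ _

theorem gv1_m_lt (a : ZMod M) : gv1_m M a < M :=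
  lt_of_le_of_lt (gv1_m_le_val a) (ZMod.val_lt a)

theorem gv1_cast_m (a : ZMod M) : ((gv1_m M a : ℕ) : ZMod M) = a ∨ ((gv1_m M a : ℕ) : ZMod M) = -a := by
  have h2 : a.val < M := ZMod.val_lt a
  rw [gv1_m]
  rcases le_total a.val (M - a.val) with h | h
  · left
    rw [min_eq_left h, ZMod.natCast_zmod_val]
  · right
    rw [min_eq_right h, Nat.cast_sub h2.le, ZMod.natCast_self, ZMod.natCast_zmod_val, zero_sub]

theorem gv1_cast_ne {a : ZMod M} (ha : a ≠ 0) {m : ℕ} (hm : m < gv1_m M a) :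
    ((m : ℕ) : ZMod M) ≠ a ∧ ((m : ℕ) : ZMod M) ≠ -a := by
  have h1 : 0 < a.val := Nat.pos_of_ne_zero ((ZMod.val_ne_zero a).mpr ha)
  have h2 : a.val < M := ZMod.val_lt a
  have hmM : m < M := lt_trans hm (gv1_m_lt a)
  have hval : ((m : ℕ) : ZMod M).val = m := ZMod.val_natCast_of_lt hmM
  rw [gv1_m] at hm
  constructor
  · intro h
    rw [h] at hval
    omega
  · intro h
    rw [h, ZMod.neg_val, if_neg ha] at hval
    omega

theorem gv1_wt_of_lt {a : ZMod M} (ha : a ≠ 0) {m : ℕ} (hm : m < gv1_m M a) :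
    g1w_wt M a m = 0 := by
  obtain ⟨h1, h2⟩ := gv1_cast_ne ha hm
  rw [g1w_wt, if_neg h1, if_neg h2, add_zero]

theorem gv1_wt_lead (a : ZMod M) :
    g1w_wt M a (gv1_m M a) = if a = -a then 2 else 1 := by
  rw [g1w_wt]
  by_cases hneg : a = -a
  · rw [if_pos hneg]
    rcases gv1_cast_m a with h | h
    · rw [if_pos h, if_pos (h.trans hneg)]
      rfl
    · rw [if_pos h, if_pos (h.trans hneg.symm)]
      rfl
  · rw [if_neg hneg]
    rcases gv1_cast_m a with h | h
    · rw [if_pos h, if_neg (by rw [h]; exact hneg), add_zero]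
    · rw [if_pos h, if_neg (by rw [h]; exact fun h' => hneg h'.symm), zero_add]

theorem gv1_coeff_sZ_of_lt {a : ZMod M} (ha : a ≠ 0) {n : ℕ} (hn : n < gv1_m M a) :
    PowerSeries.coeff n (g1w_sZ M a) = 0 := by
  rw [g1w_coeff_sZ]
  refine Finset.sum_eq_zero fun m hm => ?_
  have hm' := Nat.mem_divisors.mp hm
  have hm0 : 0 < m := Nat.pos_of_dvd_of_pos hm'.1 (Nat.pos_of_ne_zero hm'.2)
  have hmn : m ≤ n := Nat.le_of_dvd (Nat.pos_of_ne_zero hm'.2) hm'.1
  rw [gv1_wt_of_lt ha (lt_of_le_of_lt hmn hn), zero_mul]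

theorem gv1_coeff_sZ_lead {a : ZMod M} (ha : a ≠ 0) :
    PowerSeries.coeff (gv1_m M a) (g1w_sZ M a) = g1w_wt M a (gv1_m M a) := by
  have hpos := gv1_m_pos ha
  rw [g1w_coeff_sZ, Finset.sum_eq_single (gv1_m M a)]
  · rw [Nat.div_self hpos]
    simp
  · intro m hm hne
    have hm' := Nat.mem_divisors.mp hm
    have hm0 : 0 < m := Nat.pos_of_dvd_of_pos hm'.1 hpos
    have hmn : m ≤ gv1_m M a := Nat.le_of_dvd hpos hm'.1
    rw [gv1_wt_of_lt ha (lt_of_le_of_ne hmn hne), zero_mul]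
  · intro h
    exact absurd (Nat.mem_divisors.mpr ⟨dvd_rfl, hpos.ne'⟩) h

end Lead

section Cancel

variable {k : Type*} [Field k]

/-- over a field, `w_a = w_b` iff `s_a = s_b` (cancel the unit `q⁻¹ E₄² (Δ/q)⁻¹`) -/
theorem gv1_sZ_map_eq_of_w_eq {M : ℕ} {a b : ZMod M} (h : g1w_w k M a = g1w_w k M b) :
    (g1w_sZ M a).map (Int.castRingHom k) = (g1w_sZ M b).map (Int.castRingHom k) := by
  rw [g1w_w, g1w_w] at h
  have hs : (HahnSeries.single (-1 : ℤ) (1 : k) : LaurentSeries k) ≠ 0 :=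
    HahnSeries.single_ne_zero one_ne_zero
  have h1 := mul_left_cancel₀ hs h
  have h2 := HahnSeries.ofPowerSeries_injective h1
  rw [g1w_numZ, g1w_numZ, mul_assoc, mul_assoc,
    map_mul (PowerSeries.map (Int.castRingHom k)) (g1w_sZ M a),
    map_mul (PowerSeries.map (Int.castRingHom k)) (g1w_sZ M b)] at h2
  have hU : (eisenstein4 ^ 2 * dedekindEtaUnitInv).map (Int.castRingHom k) ≠ 0 := by
    intro h0
    have := congrArg (PowerSeries.constantCoeff (R := k)) h0
    rw [← PowerSeries.coeff_zero_eq_constantCoeff_apply, PowerSeries.coeff_map,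
      PowerSeries.coeff_zero_eq_constantCoeff_apply, map_mul, map_pow, constantCoeff_eisenstein4,
      constantCoeff_dedekindEtaUnitInv] at this
    simp at this
  exact mul_right_cancel₀ hU h2

end Cancel

section Distinct

variable {k : Type*} [Field k] {M : ℕ} [NeZero M]

/-- the leading coefficient of `s_a` over `k` -/
theorem gv1_coeff_map_lead {a : ZMod M} (ha : a ≠ 0) :
    PowerSeries.coeff (gv1_m M a) ((g1w_sZ M a).map (Int.castRingHom k)) =
      ((g1w_wt M a (gv1_m M a) : ℤ) : k) := by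
  rw [PowerSeries.coeff_map, gv1_coeff_sZ_lead ha]
  rfl

theorem gv1_coeff_map_of_lt {a : ZMod M} (ha : a ≠ 0) {n : ℕ} (hn : n < gv1_m M a) :
    PowerSeries.coeff n ((g1w_sZ M a).map (Int.castRingHom k)) = 0 := by
  rw [PowerSeries.coeff_map, gv1_coeff_sZ_of_lt ha hn, map_zero]

/-- **(D2)** over a field in which the leading coefficients do not vanish, `w_a = w_b` forces
`a = ± b`. -/
theorem gv1_eq_or_neg_of_w_eq {a b : ZMod M} (ha : a ≠ 0) (hb : b ≠ 0)
    (hla : ((g1w_wt M a (gv1_m M a) : ℤ) : k) ≠ 0)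
    (hlb : ((g1w_wt M b (gv1_m M b) : ℤ) : k) ≠ 0)
    (h : g1w_w k M a = g1w_w k M b) : a = b ∨ a = -b := by
  have hs := gv1_sZ_map_eq_of_w_eq h
  have hm : gv1_m M a = gv1_m M b := by
    rcases lt_trichotomy (gv1_m M a) (gv1_m M b) with hlt | heq | hlt
    · exfalso
      have h1 := congrArg (PowerSeries.coeff (gv1_m M a)) hs
      rw [gv1_coeff_map_lead ha, gv1_coeff_map_of_lt hb hlt] at h1
      exact hla h1
    · exact heq
    · exfalso
      have h1 := congrArg (PowerSeries.coeff (gv1_m M b)) hs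
      rw [gv1_coeff_map_lead hb, gv1_coeff_map_of_lt ha hlt] at h1
      exact hlb h1.symm
  rcases gv1_cast_m a with h1 | h1 <;> rcases gv1_cast_m b with h2 | h2
  · left
    rw [← h1, ← h2, hm]
  · right
    rw [← h1, hm, h2]
  · right
    rw [← neg_neg a, ← h1, hm, h2]
  · left
    rw [← neg_neg a, ← h1, hm, h2, neg_neg]

/-- a unit of `ZMod M`, `3 ≤ M`, is not its own negative -/
theorem gv1_unit_ne_neg (hM : 3 ≤ M) {a : ZMod M} (ha : IsUnit a) : a ≠ -a := by
  intro h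
  have h2 : (2 : ZMod M) * a = 0 := by
    rw [two_mul]
    nth_rewrite 1 [h]
    exact neg_add_cancel a
  have h3 : (2 : ZMod M) = 0 := by
    obtain ⟨u, rfl⟩ := ha
    have := congrArg (fun x => x * ((u⁻¹ : (ZMod M)ˣ) : ZMod M)) h2
    simpa [mul_assoc] using this
  have h4 : ((2 : ℕ) : ZMod M) = 0 := by exact_mod_cast h3
  rw [ZMod.natCast_eq_zero_iff] at h4
  have := Nat.le_of_dvd (by norm_num) h4
  omega

theorem gv1_unit_ne_zero (hM : 3 ≤ M) {a : ZMod M} (ha : IsUnit a) : a ≠ 0 := by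
  rintro rfl
  haveI : Fact (1 < M) := ⟨by omega⟩
  exact not_isUnit_zero ha

/-- **(D2) for units, `3 ≤ M`**: no condition on the field. -/
theorem gv1_eq_or_neg_of_w_eq_unit (hM : 3 ≤ M) {a b : ZMod M} (ha : IsUnit a) (hb : IsUnit b)
    (h : g1w_w k M a = g1w_w k M b) : a = b ∨ a = -b := by
  refine gv1_eq_or_neg_of_w_eq (gv1_unit_ne_zero hM ha) (gv1_unit_ne_zero hM hb) ?_ ?_ h
  · rw [gv1_wt_lead, if_neg (gv1_unit_ne_neg hM ha)]
    simp
  · rw [gv1_wt_lead, if_neg (gv1_unit_ne_neg hM hb)]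
    simp

variable (M)

/-- representatives of `(ℤ/M)ˣ / ±1` -/
def gv1_reps : Finset (ZMod M) :=
  (Finset.univ : Finset (ZMod M)).filter (fun b => IsUnit b ∧ 2 * b.val ≤ M)

variable {M}

theorem gv1_mem_reps {b : ZMod M} : b ∈ gv1_reps M ↔ IsUnit b ∧ 2 * b.val ≤ M := by
  rw [gv1_reps, Finset.mem_filter]
  simp

/-- every unit is `± ` a representative -/
theorem gv1_exists_rep {a : ZMod M} (ha : IsUnit a) :
    ∃ b ∈ gv1_reps M, a = b ∨ a = -b := by
  by_cases h : 2 * a.val ≤ M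
  · exact ⟨a, gv1_mem_reps.mpr ⟨ha, h⟩, Or.inl rfl⟩
  · refine ⟨-a, gv1_mem_reps.mpr ⟨ha.neg, ?_⟩, Or.inr (neg_neg a).symm⟩
    have ha0 : a ≠ 0 := by
      rintro rfl
      rw [ZMod.val_zero] at h
      omega
    rw [ZMod.neg_val, if_neg ha0]
    have := ZMod.val_lt a
    omega

theorem gv1_reps_eq_of_eq_or_neg {a b : ZMod M} (ha : a ∈ gv1_reps M) (hb : b ∈ gv1_reps M)
    (h : a = b ∨ a = -b) : a = b := by
  rcases h with h | h
  · exact h
  · by_cases hb0 : b = 0
    · rw [h, hb0, neg_zero]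
    · have h1 := (gv1_mem_reps.mp ha).2
      have h2 := (gv1_mem_reps.mp hb).2
      have h3 : a.val = M - b.val := by rw [h, ZMod.neg_val, if_neg hb0]
      have h4 := ZMod.val_lt b
      have h5 : a.val = b.val := by omega
      exact ZMod.val_injective M h5

/-- **(D2), final form**: `b ↦ w_b(q^e)` is injective on the representatives, over every field. -/
theorem gv1_injOn_w (hM : 3 ≤ M) (e : ℕ) [NeZero e] :
    Set.InjOn (fun b : ZMod M => qExpand k e (g1w_w k M b)) (gv1_reps M : Set (ZMod M)) := by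
  intro a ha b hb hab
  have h1 : g1w_w k M a = g1w_w k M b := (qExpand k e).injective hab
  exact gv1_reps_eq_of_eq_or_neg ha hb
    (gv1_eq_or_neg_of_w_eq_unit hM (gv1_mem_reps.mp ha).1 (gv1_mem_reps.mp hb).1 h1)

end Distinct

end

end Fermat.Agent.DS
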