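import Mathlib
import Fermat.Agent.JT3.Bridge.GaussCenterOne
import Fermat.Agent.JT3.Algebra.UnramGen
import Fermat.Agent.JT3.Seams

/-!
# DS-T / cell [GV] (vertical goodness for towers), generic core (prefix `gvs_`)

`O` a local domain with maximal ideal `(π)`, `K = Frac O`, everything inside `K((q))`.

* `gvs_center_adjoin`, `gvs_center_chart` : the centre of ANY valuation ring `V` of a field `F`
  containing `O[u]`, in which `π` is a non-unit and the `d(u)`, `d̄ ≠ 0`, are units, on a chart `B`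
  integral over `O[u]` with `π B` prime, is `π B`;
* `gvs_gauss_le`, `gvs_eq_gauss_of_le`, **`gvs_valSubOf_unique`** : [UNIQ] such a valuation ring of
  `E ⊆ K((q))` IS the `q`-Gauss ring `gq_valSubOf` of `E` (when `π` is prime on `fc_chart O {u}`
  and the reduction of `u` is transcendental);
* **`gvs_exists_sep_poly`** : [SYM] a monic polynomial over `E` which splits in `K((q))` into bounded
  roots with pairwise distinct reductions has coefficients in the `q`-Gauss ring `W` of `E` and
  separable reduction over the residue field of `W`;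
* **`gvs_tower_step`** : the hypothesis `h1` of the tower transitivity `gvt_unramAt_tower`:
  `E₁ = E₀(S)`, every `θ ∈ S` a root of such a polynomial ⟹ `E₁` is unramified over every
  discrete valuation ring of `E₀` of the above kind.
-/

set_option autoImplicit false
set_option linter.style.haveILetI false

open IsLocalRing Polynomial

namespace Fermat.Agent.DS

open Fermat.Agent.JT3

section Center

variable {O : Type*} [CommRing O] [IsLocalRing O]
variable {F : Type*} [Field F] [Algebra O F]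

/-- The centre on `O[u]` of a valuation ring in which the `d(u)`, `d̄ ≠ 0`, are units is
`π O[u]`. -/
theorem gvs_center_adjoin (π : O) (hπ : maximalIdeal O = Ideal.span {π})
    (V : ValuationSubring F) (u : F)
    (hVG : ∀ d : O[X], d.map (residue O) ≠ 0 → (aeval u d)⁻¹ ∈ V) :
    ∀ r ∈ Algebra.adjoin O ({u} : Set F), r ∈ V.nonunits →
      ∃ r' ∈ Algebra.adjoin O ({u} : Set F), r = algebraMap O F π * r' := by
  intro r hr hrV
  rw [Algebra.adjoin_singleton_eq_range_aeval] at hr
  obtain ⟨d, rfl⟩ := hr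
  by_cases hd : d.map (residue O) = 0
  · obtain ⟨d', rfl⟩ := gq_C_dvd_of_map_eq_zero π hπ d hd
    refine ⟨aeval u d', ?_, ?_⟩
    · rw [Algebra.adjoin_singleton_eq_range_aeval]
      exact ⟨d', rfl⟩
    · change aeval u (C π * d') = _
      rw [map_mul, aeval_C]
  · have h1 := hVG d hd
    rw [ValuationSubring.mem_nonunits_iff_or] at hrV
    rcases hrV with h0 | h0
    · exact ⟨0, Subalgebra.zero_mem _, by rw [h0, mul_zero]⟩
    · exact absurd h1 h0

/-- **Going up for the centre, arbitrary valuation ring.** `B` a chart integral over `O[u]` with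
`π B` prime; `V` a valuation ring of `F` containing `O` and `u`, in which `π` is a non-unit and the
`d(u)`, `d̄ ≠ 0`, are units. Then `B ⊆ V` and the centre of `V` on `B` is `π B`. -/
theorem gvs_center_chart (π : O) (hπ : maximalIdeal O = Ideal.span {π})
    (V : ValuationSubring F) (u : F)
    (hVO : ∀ c : O, algebraMap O F c ∈ V) (hVu : u ∈ V)
    (hVG : ∀ d : O[X], d.map (residue O) ≠ 0 → (aeval u d)⁻¹ ∈ V)
    (hVπ : algebraMap O F π ∈ V.nonunits)
    (B : Subalgebra O F) (hRB : Algebra.adjoin O ({u} : Set F) ≤ B)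
    (hint : ∀ b ∈ B, IsIntegral ↥(Algebra.adjoin O ({u} : Set F)) b)
    (hprime : Prime (algebraMap O ↥B π)) :
    (∀ b ∈ B, b ∈ V) ∧
      ∀ b ∈ B, b ∈ V.nonunits → ∃ b' ∈ B, b = algebraMap O F π * b' := by
  have hRV : ∀ r ∈ Algebra.adjoin O ({u} : Set F), r ∈ V := by
    intro r hr
    induction hr using Algebra.adjoin_induction with
    | mem x hx =>
      rw [Set.mem_singleton_iff] at hx
      rw [hx]
      exact hVu
    | algebraMap c => exact hVO c
    | add x y _ _ hx hy => exact V.add_mem _ _ hx hy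
    | mul x y _ _ hx hy => exact V.mul_mem _ _ hx hy
  have hBV : ∀ b ∈ B, b ∈ V := fun b hb =>
    gq_integral_mem_valuationSubring V _ hRV b (hint b hb)
  refine ⟨hBV, ?_⟩
  have hϖ : algebraMap ↥B F (algebraMap O ↥B π) = algebraMap O F π := rfl
  refine gq_center_of_integral V _ (Algebra.adjoin O ({u} : Set F)).toSubring B.toSubring
    (fun r hr => hRB hr) ?_ ?_ hVπ hBV (gvs_center_adjoin π hπ V u hVG)
  · intro b hb
    exact hint b hb
  · intro x hx y hy ⟨w, hw, hxy⟩
    have hdvd : algebraMap O ↥B π ∣ (⟨x, hx⟩ : ↥B) * ⟨y, hy⟩ := by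
      refine ⟨⟨w, hw⟩, ?_⟩
      apply Subtype.ext
      change x * y = algebraMap ↥B F (algebraMap O ↥B π) * w
      rw [hϖ, hxy]
    rcases hprime.dvd_or_dvd hdvd with ⟨c, hc⟩ | ⟨c, hc⟩
    · left
      refine ⟨(c : F), c.2, ?_⟩
      have := congrArg (fun t : ↥B => (t : F)) hc
      simp only at this
      rw [← hϖ]
      exact this
    · right
      refine ⟨(c : F), c.2, ?_⟩
      have := congrArg (fun t : ↥B => (t : F)) hc
      simp only at this
      rw [← hϖ]
      exact this

end Center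

section Uniq

variable {O : Type*} [CommRing O] [IsDomain O] [IsLocalRing O] [WfDvdMonoid O]
variable {K : Type*} [Field K] [Algebra O K] [IsFractionRing O K]
variable (π : O) (hπ0 : π ≠ 0) (hπ : maximalIdeal O = Ideal.span {π})
  (E : IntermediateField K (LaurentSeries K)) (hE : E ≤ gq_quotField O K)
  [Algebra O ↥E] [IsScalarTower O K ↥E]

/-- If the centres of the `q`-Gauss ring `W` and of a valuation ring `V` on a chart `B` with
`Frac B = E` are both `π B`, then `W ⊆ V`. -/
theorem gvs_gauss_le (B : Subalgebra O ↥E) [IsFractionRing ↥B ↥E]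
    (hBW : ∀ b ∈ B, b ∈ gq_valSubOf π hπ0 hπ E hE)
    (hcenW : ∀ b ∈ B, b ∈ (gq_valSubOf π hπ0 hπ E hE).nonunits →
      ∃ b' ∈ B, b = algebraMap K ↥E (algebraMap O K π) * b')
    (V : ValuationSubring ↥E) (hBV : ∀ b ∈ B, b ∈ V)
    (hcenV : ∀ b ∈ B, b ∈ V.nonunits →
      ∃ b' ∈ B, b = algebraMap K ↥E (algebraMap O K π) * b') :
    gq_valSubOf π hπ0 hπ E hE ≤ V := by
  intro z hz
  have hϖB : algebraMap K ↥E (algebraMap O K π) ∈ B.toSubring := by
    rw [← IsScalarTower.algebraMap_apply O K ↥E]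
    exact B.algebraMap_mem π
  have hfrac : ∃ a ∈ B.toSubring, ∃ b ∈ B.toSubring, b ≠ 0 ∧ z * b = a := by
    obtain ⟨a, b, hb, hab⟩ := IsFractionRing.div_surjective (A := ↥B) z
    have hb0 : algebraMap ↥B ↥E b ≠ 0 := by
      intro h0
      have : b = 0 := (IsFractionRing.injective ↥B ↥E) (by rw [h0, map_zero])
      exact nonZeroDivisors.ne_zero hb this
    refine ⟨algebraMap ↥B ↥E a, a.2, algebraMap ↥B ↥E b, b.2, hb0, ?_⟩
    rw [← hab, div_mul_cancel₀ _ hb0]
  obtain ⟨a, ha, b, hb, hnb, hab⟩ :=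
    gq_frac_of_center_gauss π hπ0 hπ E hE B.toSubring hϖB hBW hcenW z hz hfrac
  have hbV : b ∉ V.nonunits := fun h => hnb (hcenV b hb h)
  rw [ValuationSubring.mem_nonunits_iff_or, not_or, not_not] at hbV
  have hz' : z = a * b⁻¹ := by
    rw [← hab, mul_assoc, mul_inv_cancel₀ hbV.1, mul_one]
  rw [hz']
  exact V.mul_mem _ _ (hBV a ha) hbV.2

omit [Algebra O ↥E] [IsScalarTower O K ↥E] in
/-- A valuation ring containing the `q`-Gauss ring in which `π` is not invertible is the
`q`-Gauss ring. -/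
theorem gvs_eq_gauss_of_le (V : ValuationSubring ↥E)
    (hWV : gq_valSubOf π hπ0 hπ E hE ≤ V)
    (hVπ : (algebraMap K ↥E (algebraMap O K π))⁻¹ ∉ V) :
    V = gq_valSubOf π hπ0 hπ E hE := by
  have hinjK : Function.Injective (algebraMap O K) := IsFractionRing.injective O K
  have hc0 := gq_const_ne_zero (K := K) π hπ0 hinjK
  apply le_antisymm _ hWV
  intro v hv
  by_contra hvW
  have hvinv : v⁻¹ ∈ gq_valSubOf π hπ0 hπ E hE :=
    ((gq_valSubOf π hπ0 hπ E hE).mem_or_inv_mem v).resolve_left hvW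
  have hv0 : v ≠ 0 := by
    intro h0
    rw [h0] at hvW
    exact hvW (gq_valSubOf π hπ0 hπ E hE).zero_mem
  have hmax : (⟨v⁻¹, hvinv⟩ : ↥(gq_valSubOf π hπ0 hπ E hE)) ∈
      maximalIdeal ↥(gq_valSubOf π hπ0 hπ E hE) := by
    rw [← ValuationSubring.coe_mem_nonunits_iff, ValuationSubring.mem_nonunits_iff_or]
    right
    change (v⁻¹)⁻¹ ∉ _
    rwa [inv_inv]
  obtain ⟨w, hw, hvw⟩ := (gq_mem_maximalIdeal_iff π hπ0 hπ E hE _).mp hmax
  apply hVπ
  have hcE : algebraMap K ↥E (algebraMap O K π) ≠ 0 := by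
    intro h0
    apply hc0
    have := congrArg Subtype.val h0
    exact this
  have h1 : (algebraMap K ↥E (algebraMap O K π))⁻¹ = v * w := by
    have h2 : v⁻¹ = algebraMap K ↥E (algebraMap O K π) * w := hvw
    have hw0 : w ≠ 0 := by
      intro h0
      rw [h0, mul_zero] at h2
      exact (inv_ne_zero hv0) h2
    have h3 : algebraMap K ↥E (algebraMap O K π) = v⁻¹ * w⁻¹ := by
      rw [h2, mul_assoc, mul_inv_cancel₀ hw0, mul_one]
    rw [h3, mul_inv, inv_inv, inv_inv]
  rw [h1]
  exact V.mul_mem _ _ hv (hWV hw)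

/-- **[UNIQ] Uniqueness of the vertical valuation ring.** `E ⊆ K((q))` a field of bounded
quotients, algebraic over `K(u)` with `u` bounded of residually transcendental reduction, `π` prime
on the chart `fc_chart O {u}`. Then every valuation ring of `E` containing `O` and `u`, in which the
`d(u)`, `d̄ ≠ 0`, are units and `π` is not, is the `q`-Gauss ring of `E`. -/
theorem gvs_valSubOf_unique (u : ↥E) [Algebra.IsAlgebraic (Algebra.adjoin O ({u} : Set ↥E)) ↥E]
    (hu : gq_IsBdd O K (u : LaurentSeries K))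
    (htr : ∀ p : (ResidueField O)[X],
      aeval (gq_res O K ⟨(u : LaurentSeries K), hu⟩) p = 0 → p = 0)
    (hπ1 : Prime (algebraMap O (fc_chart O ({u} : Set ↥E)) π))
    (V : ValuationSubring ↥E) (hVO : ∀ c : O, algebraMap O ↥E c ∈ V) (hVu : u ∈ V)
    (hVG : ∀ d : O[X], d.map (residue O) ≠ 0 → (aeval u d)⁻¹ ∈ V)
    (hVπ : (algebraMap K ↥E (algebraMap O K π))⁻¹ ∉ V) :
    V = gq_valSubOf π hπ0 hπ E hE := by
  have hϖ : algebraMap O ↥E π = algebraMap K ↥E (algebraMap O K π) :=
    IsScalarTower.algebraMap_apply O K ↥E π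
  have hVπ' : algebraMap O ↥E π ∈ V.nonunits := by
    rw [ValuationSubring.mem_nonunits_iff_or, hϖ]
    exact Or.inr hVπ
  obtain ⟨hBV, hcenV⟩ := gvs_center_chart π hπ V u hVO hVu hVG hVπ'
    (fc_chart O ({u} : Set ↥E)) (fc_adjoin_le_chart _) (fun _ hb => hb) hπ1
  rw [hϖ] at hcenV
  exact gvs_eq_gauss_of_le π hπ0 hπ E hE V
    (gvs_gauss_le π hπ0 hπ E hE (fc_chart O ({u} : Set ↥E))
      (gq_fc_chart_singleton_le π hπ0 hπ E hE u hu)
      (gq_center_fc_chart_singleton π hπ0 hπ E hE u hu htr hπ1) V hBV hcenV) hVπ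

end Uniq

section Sym

variable {O : Type*} [CommRing O] [IsDomain O] [IsLocalRing O]
variable {K : Type*} [Field K] [Algebra O K] [IsFractionRing O K]

/-- the inclusion of a subring of bounded elements of `E` into the ring of bounded quotients -/
noncomputable def gvs_toBdd (E : IntermediateField K (LaurentSeries K)) (T : Subring ↥E)
    (hT : ∀ z : ↥E, z ∈ T → gq_IsBdd O K (z : LaurentSeries K)) :
    ↥T →+* ↥(gq_bddSubring O K) :=
  ((algebraMap ↥E (LaurentSeries K)).comp T.subtype).codRestrict (gq_bddSubring O K)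
    (fun a => hT a a.2)

omit [IsFractionRing O K] in
theorem gvs_coe_toBdd (E : IntermediateField K (LaurentSeries K)) (T : Subring ↥E)
    (hT : ∀ z : ↥E, z ∈ T → gq_IsBdd O K (z : LaurentSeries K)) (a : ↥T) :
    ((gvs_toBdd E T hT a : ↥(gq_bddSubring O K)) : LaurentSeries K) =
      ((a : ↥E) : LaurentSeries K) := rfl

/-- **[SYM]** A polynomial `g` over `E ⊆ K((q))` which splits in `K((q))` into bounded roots with
pairwise distinct reductions: `g` is monic, has its coefficients in the ring `T` of bounded elements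
of `E`, and its reduction over the residue field of `T` is separable. -/
theorem gvs_exists_sep_poly (E : IntermediateField K (LaurentSeries K))
    (T : Subring ↥E) [IsLocalRing ↥T]
    (hT : ∀ z : ↥E, z ∈ T ↔ gq_IsBdd O K (z : LaurentSeries K))
    {ι : Type*} (s : Finset ι) (r : ι → ↥(gq_bddSubring O K))
    (hdist : Set.InjOn (fun i => gq_res O K (r i)) (s : Set ι))
    (g : Polynomial ↥E)
    (hg : g.map (algebraMap ↥E (LaurentSeries K)) =
      ∏ i ∈ s, (X - C ((r i : ↥(gq_bddSubring O K)) : LaurentSeries K))) :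
    ∃ h : Polynomial ↥T, h.Monic ∧ h.map T.subtype = g ∧
      (h.map (residue ↥T)).Separable := by
  classical
  set P : Polynomial ↥(gq_bddSubring O K) := ∏ i ∈ s, (X - C (r i)) with hP
  have hPmap : P.map (gq_bddSubring O K).subtype =
      ∏ i ∈ s, (X - C ((r i : ↥(gq_bddSubring O K)) : LaurentSeries K)) := by
    rw [hP, Polynomial.map_prod]
    refine Finset.prod_congr rfl fun i _ => ?_
    rw [Polynomial.map_sub, Polynomial.map_X, Polynomial.map_C]
    rfl
  have hinjE : Function.Injective (algebraMap ↥E (LaurentSeries K)) :=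
    (algebraMap ↥E (LaurentSeries K)).injective
  have hgmonic : g.Monic := by
    apply Polynomial.monic_of_injective hinjE
    rw [hg]
    exact Polynomial.monic_prod_of_monic _ _ fun i _ => Polynomial.monic_X_sub_C _
  have hcoeff : ∀ n : ℕ, g.coeff n ∈ T := by
    intro n
    rw [hT]
    have h1 : ((g.coeff n : ↥E) : LaurentSeries K) =
        ((P.coeff n : ↥(gq_bddSubring O K)) : LaurentSeries K) := by
      have h2 := congrArg (fun p => Polynomial.coeff p n) (hg.trans hPmap.symm)
      simp only [Polynomial.coeff_map] at h2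
      exact h2
    rw [h1]
    exact (P.coeff n).2
  have hsub : (↑g.coeffs : Set ↥E) ⊆ T := by
    intro c hc
    rw [Finset.mem_coe, Polynomial.mem_coeffs_iff] at hc
    obtain ⟨n, -, rfl⟩ := hc
    exact hcoeff n
  refine ⟨g.toSubring T hsub, (Polynomial.monic_toSubring g T hsub).mpr hgmonic,
    Polynomial.map_toSubring g T hsub, ?_⟩
  set h := g.toSubring T hsub with hh
  have hhg : h.map T.subtype = g := Polynomial.map_toSubring g T hsub
  set ψ := gvs_toBdd E T (fun z hz => (hT z).mp hz) with hψ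
  set f : ↥T →+* LaurentSeries (ResidueField O) := (gq_res O K).comp ψ with hf
  have hloc : IsLocalHom f := by
    constructor
    intro a ha
    have hne : gq_res O K (ψ a) ≠ 0 := ha.ne_zero
    have hinv := gq_isBdd_inv_of_res_ne_zero (ψ a) hne
    have ha0 : (a : ↥E) ≠ 0 := by
      intro h0
      apply hne
      have : ψ a = 0 := by
        apply Subtype.ext
        rw [gvs_coe_toBdd, h0]
        rfl
      rw [this, map_zero]
    have hinvT : (a : ↥E)⁻¹ ∈ T := by
      rw [hT, IntermediateField.coe_inv]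
      exact hinv
    refine ⟨⟨a, ⟨(a : ↥E)⁻¹, hinvT⟩, ?_, ?_⟩, rfl⟩
    · apply Subtype.ext
      exact mul_inv_cancel₀ ha0
    · apply Subtype.ext
      exact inv_mul_cancel₀ ha0
  set φ : ResidueField ↥T →+* LaurentSeries (ResidueField O) :=
    IsLocalRing.ResidueField.lift f with hφ
  rw [← Polynomial.separable_map φ, Polynomial.map_map]
  have hcomp : φ.comp (residue ↥T) = f := IsLocalRing.ResidueField.lift_comp_residue f
  rw [hcomp]
  have hψP : h.map ψ = P := by
    apply Polynomial.map_injective (gq_bddSubring O K).subtype Subtype.val_injective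
    rw [Polynomial.map_map, hPmap, ← hg, ← hhg, Polynomial.map_map]
    rfl
  rw [hf, ← Polynomial.map_map, hψP, hP, Polynomial.map_prod]
  have : ∏ i ∈ s, Polynomial.map (gq_res O K) (X - C (r i)) =
      ∏ i ∈ s, (X - C (gq_res O K (r i))) := by
    refine Finset.prod_congr rfl fun i _ => ?_
    rw [Polynomial.map_sub, Polynomial.map_X, Polynomial.map_C]
  rw [this, Polynomial.separable_prod_X_sub_C_iff']
  intro i hi j hj hij
  exact hdist hi hj hij

end Sym

section Tower

variable {O : Type*} [CommRing O] [IsDomain O] [IsLocalRing O] [WfDvdMonoid O]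
variable {K : Type*} [Field K] [CharZero K] [Algebra O K] [IsFractionRing O K]
variable (π : O) (hπ0 : π ≠ 0) (hπ : maximalIdeal O = Ideal.span {π})
  (E0 E1 : IntermediateField K (LaurentSeries K)) (hE0 : E0 ≤ gq_quotField O K)
  [Algebra O ↥E0] [IsScalarTower O K ↥E0]
  [Algebra ↥E0 ↥E1] [FiniteDimensional ↥E0 ↥E1]

set_option synthInstance.maxHeartbeats 200000 in
omit [CharZero K] [Algebra ↥E0 ↥E1] [FiniteDimensional ↥E0 ↥E1] in
/-- A discrete valuation ring of `E₀` of vertical type is the `q`-Gauss ring. -/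
theorem gvs_subring_eq_gauss (u : ↥E0)
    [Algebra.IsAlgebraic (Algebra.adjoin O ({u} : Set ↥E0)) ↥E0]
    (hu : gq_IsBdd O K (u : LaurentSeries K))
    (htr : ∀ p : (ResidueField O)[X],
      aeval (gq_res O K ⟨(u : LaurentSeries K), hu⟩) p = 0 → p = 0)
    (hπ1 : Prime (algebraMap O (fc_chart O ({u} : Set ↥E0)) π))
    (V0 : Subring ↥E0) [IsDiscreteValuationRing ↥V0] [IsFractionRing ↥V0 ↥E0]
    (hVO : ∀ c : O, algebraMap O ↥E0 c ∈ V0) (hVu : u ∈ V0)
    (hVG : ∀ d : O[X], d.map (residue O) ≠ 0 → (aeval u d)⁻¹ ∈ V0)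
    (hVπ : (algebraMap K ↥E0 (algebraMap O K π))⁻¹ ∉ V0) :
    V0 = (gq_valSubOf π hπ0 hπ E0 hE0).toSubring := by
  have hmem : ∀ x : ↥E0, x ∈ V0 ∨ x⁻¹ ∈ V0 := by
    intro x
    rcases ValuationRing.isInteger_or_isInteger ↥V0 x with ⟨a, ha⟩ | ⟨a, ha⟩
    · left
      rw [← ha]
      exact a.2
    · right
      rw [← ha]
      exact a.2
  let V0' : ValuationSubring ↥E0 := { V0 with mem_or_inv_mem' := hmem }
  have h1 : V0' = gq_valSubOf π hπ0 hπ E0 hE0 :=
    gvs_valSubOf_unique π hπ0 hπ E0 hE0 u hu htr hπ1 V0' hVO hVu hVG hVπ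
  have h2 : V0'.toSubring = V0 := rfl
  rw [← h2, h1]

set_option synthInstance.maxHeartbeats 200000 in
include hπ0 hπ hE0 in
/-- **The tower step.** `E₀ ⊆ E₁ ⊆ K((q))`, `E₁ = E₀(S)` with every `θ ∈ S` a root of a polynomial
over `E₀` splitting in `K((q))` into bounded roots with pairwise distinct reductions; `π` prime on
the chart `fc_chart O {u}` of `E₀`. Then `E₁` is unramified over every discrete valuation ring of
`E₀` of vertical type (containing `O`, `u`, the inverses of the `d(u)`, `d̄ ≠ 0`, and not `π⁻¹`):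
this is the hypothesis `h1` of the transitivity `gvt_unramAt_tower`. -/
theorem gvs_tower_step
    (hcompat : ∀ z : ↥E0, ((algebraMap ↥E0 ↥E1 z : ↥E1) : LaurentSeries K) = (z : LaurentSeries K))
    (u : ↥E0) [Algebra.IsAlgebraic (Algebra.adjoin O ({u} : Set ↥E0)) ↥E0]
    (hu : gq_IsBdd O K (u : LaurentSeries K))
    (htr : ∀ p : (ResidueField O)[X],
      aeval (gq_res O K ⟨(u : LaurentSeries K), hu⟩) p = 0 → p = 0)
    (hπ1 : Prime (algebraMap O (fc_chart O ({u} : Set ↥E0)) π))
    (S : Set ↥E1) (hS : S.Finite) (hgen : IntermediateField.adjoin ↥E0 S = ⊤)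
    (hθ : ∀ θ ∈ S, ∃ (ι : Type*) (s : Finset ι) (r : ι → ↥(gq_bddSubring O K))
      (g : Polynomial ↥E0), Set.InjOn (fun i => gq_res O K (r i)) (s : Set ι) ∧
        g.map (algebraMap ↥E0 (LaurentSeries K)) =
          ∏ i ∈ s, (X - C ((r i : ↥(gq_bddSubring O K)) : LaurentSeries K)) ∧
        ∃ i ∈ s, ((θ : ↥E1) : LaurentSeries K) = ((r i : ↥(gq_bddSubring O K)) : LaurentSeries K))
    (V0 : Subring ↥E0) [IsDiscreteValuationRing ↥V0] [IsFractionRing ↥V0 ↥E0]
    (hVO : ∀ c : O, algebraMap O ↥E0 c ∈ V0) (hVu : u ∈ V0)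
    (hVG : ∀ d : O[X], d.map (residue O) ≠ 0 → (aeval u d)⁻¹ ∈ V0)
    (hVπ : (algebraMap K ↥E0 (algebraMap O K π))⁻¹ ∉ V0) :
    jt_UnramAt V0 ↥E1 := by
  have hV0 := gvs_subring_eq_gauss π hπ0 hπ E0 hE0 u hu htr hπ1 V0 hVO hVu hVG hVπ
  have hT : ∀ z : ↥E0, z ∈ V0 ↔ gq_IsBdd O K (z : LaurentSeries K) := by
    intro z
    rw [hV0]
    exact Iff.rfl
  haveI : CharZero ↥E0 := charZero_of_injective_algebraMap (algebraMap K ↥E0).injective
  intro P _ hP
  refine ug_unramAt V0 ↥E1 S hS hgen ?_ P hP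
  intro θ hθS
  obtain ⟨ι, s, r, g, hdist, hg, i0, hi0, hθr⟩ := hθ θ hθS
  obtain ⟨h, hmonic, hhg, hsep⟩ := gvs_exists_sep_poly E0 V0 hT s r hdist g hg
  refine ⟨h, hmonic, ?_, hsep⟩
  have hinj : Function.Injective (algebraMap ↥E1 (LaurentSeries K)) :=
    (algebraMap ↥E1 (LaurentSeries K)).injective
  apply hinj
  rw [map_zero, aeval_def, Polynomial.hom_eval₂]
  have hcomp : (algebraMap ↥E1 (LaurentSeries K)).comp (algebraMap ↥V0 ↥E1) =
      (algebraMap ↥E0 (LaurentSeries K)).comp V0.subtype := by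
    exact RingHom.ext fun a => hcompat (a : ↥E0)
  rw [hcomp, ← Polynomial.eval_map, ← Polynomial.map_map, hhg, hg, Polynomial.eval_prod]
  refine Finset.prod_eq_zero hi0 ?_
  rw [Polynomial.eval_sub, Polynomial.eval_X, Polynomial.eval_C]
  exact sub_eq_zero.mpr hθr

end Tower

end Fermat.Agent.DS
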