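import Mathlib
import Fermat.Agent.JT3.Seams
import Fermat.Agent.JT3.Algebra.AbhyankarSeam

/-!
# DS / cell [GV], leaf [GV-1]: transitivity of the ramification seam along a tower (prefix `gvt_`)

`V ⊆ K` a discrete valuation ring with fraction field `K` (characteristic zero), `K ⊆ E0 ⊆ E1`
finite.  If `E0` is unramified over `V` and `E1` is unramified over every discrete valuation ring
`V0` of `E0` lying over `V`, then `E1` is unramified over `V` (`gvt_unramAt_tower`).
-/

set_option autoImplicit false
set_option linter.unusedSectionVars false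
set_option linter.style.haveILetI false

namespace Fermat.Agent.DS

open Fermat.Agent.JT3

section Tower

variable {K : Type*} [Field K] [CharZero K] (V : Subring K) [IsDiscreteValuationRing V]
  [IsFractionRing V K]
variable (E0 E1 : Type*) [Field E0] [Field E1] [Algebra K E0] [Algebra E0 E1] [Algebra K E1]
  [IsScalarTower K E0 E1] [FiniteDimensional K E0] [FiniteDimensional E0 E1]

set_option maxHeartbeats 1000000 in
/-- **[GV-1] Transitivity of `jt_UnramAt` along a tower `K ⊆ E0 ⊆ E1`.** -/
theorem gvt_unramAt_tower (h0 : jt_UnramAt V E0)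
    (h1 : ∀ (V0 : Subring E0) [IsDiscreteValuationRing V0] [IsFractionRing V0 E0],
      (∀ v : V, algebraMap K E0 v ∈ V0) →
      (∀ v : V, v ∈ IsLocalRing.maximalIdeal V → v ≠ 0 → (algebraMap K E0 v)⁻¹ ∉ V0) →
      jt_UnramAt V0 E1) :
    jt_UnramAt V E1 := by
  intro P hP hP0
  haveI : FiniteDimensional K E1 := FiniteDimensional.trans K E0 E1
  let B0 := integralClosure V E0
  let B1 := integralClosure V E1
  haveI : IsDedekindDomain B0 := IsIntegralClosure.isDedekindDomain V K E0 B0
  haveI : IsFractionRing B0 E0 := IsIntegralClosure.isFractionRing_of_finite_extension V K E0 B0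
  haveI : IsScalarTower V E0 E1 := IsScalarTower.of_algebraMap_eq fun x =>
    IsScalarTower.algebraMap_apply K E0 E1 (x : K)
  letI b0b1 : Algebra B0 B1 := (ti_icMap V E0 E1).toRingHom.toAlgebra
  haveI : IsScalarTower V B0 B1 := IsScalarTower.of_algebraMap_eq fun x =>
    ((ti_icMap V E0 E1).commutes x).symm
  haveI : Algebra.IsIntegral B0 B1 := Algebra.IsIntegral.tower_top (R := V)
  set P0 : Ideal B0 := P.comap (algebraMap B0 B1) with hP0def
  haveI hP0prime : P0.IsPrime := Ideal.comap_isPrime _ _
  have hP00 : P0 ≠ ⊥ := fun h => hP0 (Ideal.eq_bot_of_comap_eq_bot (R := B0) h)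
  -- the localisation of `B0` at `P0`, as a subring of `E0`
  have hS : P0.primeCompl ≤ nonZeroDivisors B0 := P0.primeCompl_le_nonZeroDivisors
  let V0a : Subalgebra B0 E0 := Localization.subalgebra.ofField E0 P0.primeCompl hS
  let V0 : Subring E0 := V0a.toSubring
  haveI hloc0 : IsLocalization.AtPrime V0a P0 :=
    Localization.subalgebra.isLocalization_ofField E0 P0.primeCompl hS
  haveI hdvr0 : IsDiscreteValuationRing V0a :=
    IsLocalization.AtPrime.isDiscreteValuationRing_of_dedekind_domain B0 hP00 V0a
  haveI hdvr : IsDiscreteValuationRing V0 := hdvr0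
  haveI hlocal0 : IsLocalRing V0a := IsLocalization.AtPrime.isLocalRing V0a P0
  haveI hfrac : IsFractionRing V0 E0 := (inferInstance : IsFractionRing V0a E0)
  -- `V ⊆ V0`
  have hmapV : ∀ v : V, algebraMap K E0 (v : K) = algebraMap B0 E0 (algebraMap V B0 v) :=
    fun v => rfl
  have ha : ∀ v : V, algebraMap K E0 v ∈ V0 := fun v => by
    rw [hmapV]
    exact V0a.algebraMap_mem _
  -- `P0` lies over the maximal ideal of `V`
  have hover : P0.comap (algebraMap V B0) = IsLocalRing.maximalIdeal V := by
    haveI : (P0.comap (algebraMap V B0)).IsPrime := Ideal.comap_isPrime _ _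
    have hne : P0.comap (algebraMap V B0) ≠ ⊥ := fun h =>
      hP00 (Ideal.eq_bot_of_comap_eq_bot (R := V) h)
    haveI := Ring.DimensionLEOne.maximalOfPrime hne inferInstance
    exact IsLocalRing.eq_maximalIdeal inferInstance
  have hb : ∀ v : V, v ∈ IsLocalRing.maximalIdeal V → v ≠ 0 → (algebraMap K E0 v)⁻¹ ∉ V0 := by
    intro v hv hv0 hinv
    have hvP : algebraMap V B0 v ∈ P0 := by
      rw [← hover] at hv
      exact hv
    have hmax : algebraMap B0 V0a (algebraMap V B0 v) ∈ IsLocalRing.maximalIdeal V0a :=
      (IsLocalization.AtPrime.to_map_mem_maximal_iff V0a P0 _).2 hvP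
    have hne : algebraMap K E0 (v : K) ≠ 0 := by
      rw [Ne, map_eq_zero]
      exact fun h => hv0 (Subtype.ext h)
    have hunit : IsUnit (algebraMap B0 V0a (algebraMap V B0 v)) := by
      refine IsUnit.of_mul_eq_one (⟨(algebraMap K E0 v)⁻¹, hinv⟩ : V0a) ?_
      apply Subtype.ext
      show algebraMap B0 E0 (algebraMap V B0 v) * (algebraMap K E0 v)⁻¹ = 1
      rw [← hmapV, mul_inv_cancel₀ hne]
    exact (IsLocalRing.mem_maximalIdeal _).1 hmax hunit
  have hun1 : jt_UnramAt V0 E1 := h1 V0 ha hb
  -- algebra structures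
  let φ : V →+* V0 := ((algebraMap K E0).comp V.subtype).codRestrict V0 ha
  letI aVV0 : Algebra V V0 := φ.toAlgebra
  letI aB0V0 : Algebra B0 V0 := (inferInstance : Algebra B0 V0a)
  haveI : IsScalarTower V V0 E0 := IsScalarTower.of_algebraMap_eq fun x => rfl
  haveI : IsScalarTower V V0 E1 := IsScalarTower.of_algebraMap_eq fun x =>
    IsScalarTower.algebraMap_apply K E0 E1 (x : K)
  haveI : IsScalarTower V B0 V0 := IsScalarTower.of_algebraMap_eq fun x => rfl
  haveI hloc : IsLocalization.AtPrime V0 P0 := hloc0
  let B' := integralClosure V0 E1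
  let ι : B1 →+* B' :=
    { toFun := fun x => ⟨x.1, IsIntegral.tower_top (R := V) x.2⟩
      map_one' := rfl
      map_mul' := fun _ _ => rfl
      map_zero' := rfl
      map_add' := fun _ _ => rfl }
  letI b1B' : Algebra B1 B' := ι.toAlgebra
  letI b0B' : Algebra B0 B' := ((algebraMap V0 B').comp (algebraMap B0 V0)).toAlgebra
  haveI : IsScalarTower B0 V0 E1 := IsScalarTower.of_algebraMap_eq fun x => rfl
  haveI : IsScalarTower B0 B1 E1 := IsScalarTower.of_algebraMap_eq fun x => rfl
  haveI : IsScalarTower B1 B' E1 := IsScalarTower.of_algebraMap_eq fun x => rfl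
  haveI : IsScalarTower B0 V0 B' := IsScalarTower.of_algebraMap_eq fun x => rfl
  haveI : IsScalarTower B0 B1 B' := IsScalarTower.of_algebraMap_eq fun x => rfl
  haveI hlocB : IsLocalization (Algebra.algebraMapSubmonoid B1 P0.primeCompl) B' :=
    ti_ic_isLocalization V B0 V0 E1 P0.primeCompl
  -- the prime `P'` of `B'` above `P`
  have hdisj : Disjoint ((Algebra.algebraMapSubmonoid B1 P0.primeCompl : Submonoid B1) : Set B1)
      (P : Set B1) := by
    rw [Set.disjoint_left]
    rintro _ ⟨n, hn, rfl⟩ hnP
    exact hn hnP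
  set P' : Ideal B' := P.map (algebraMap B1 B') with hP'def
  haveI hP'prime : P'.IsPrime :=
    IsLocalization.isPrime_of_isPrime_disjoint (Algebra.algebraMapSubmonoid B1 P0.primeCompl) B' P
      hP hdisj
  have hcomap : P'.comap (algebraMap B1 B') = P :=
    IsLocalization.under_map_of_isPrime_disjoint (Algebra.algebraMapSubmonoid B1 P0.primeCompl) B'
      hP hdisj
  have hP'0 : P' ≠ ⊥ := by
    intro h
    apply hP0
    rw [← hcomap, h]
    refine Ideal.comap_bot_of_injective _ ?_
    intro a b hab
    apply Subtype.ext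
    exact congrArg (fun z : B' => (z : E1)) hab
  have hunr' : Algebra.IsUnramifiedAt V0 P' := hun1 P' hP'0
  -- `V → V0` is unramified
  let e0 : Localization.AtPrime P0 ≃ₐ[B0] V0 := IsLocalization.algEquiv P0.primeCompl _ _
  have hV0 : Algebra.FormallyUnramified V (Localization.AtPrime P0) := h0 P0 hP00
  haveI hVV0 : Algebra.FormallyUnramified V V0 :=
    Algebra.FormallyUnramified.of_equiv (A := Localization.AtPrime P0)
      (e0.restrictScalars V : Localization.AtPrime P0 ≃ₐ[V] V0)
  -- `V0 → T := B'_{P'}` is unramified, and `T = (B1)_P`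
  let T := Localization.AtPrime P'
  haveI hV0T : Algebra.FormallyUnramified V0 T := hunr'
  haveI hT : IsLocalization.AtPrime T (P'.comap (algebraMap B1 B')) :=
    IsLocalization.isLocalization_isLocalization_atPrime_isLocalization
      (Algebra.algebraMapSubmonoid B1 P0.primeCompl) T P'
  haveI hT' : IsLocalization.AtPrime T P := by
    have h2 : (P'.comap (algebraMap B1 B')).primeCompl = P.primeCompl := by
      ext x
      show x ∉ P'.comap (algebraMap B1 B') ↔ x ∉ P
      rw [← hcomap]
    show IsLocalization P.primeCompl T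
    rw [← h2]
    exact hT
  let e : Localization.AtPrime P ≃ₐ[B1] T := IsLocalization.algEquiv P.primeCompl _ _
  haveI : IsScalarTower V V0 T := inferInstance
  haveI : IsScalarTower V B1 B' := IsScalarTower.of_algebraMap_eq fun x => rfl
  haveI : IsScalarTower V B1 T := IsScalarTower.of_algebraMap_eq fun x => rfl
  haveI hVT : Algebra.FormallyUnramified V T := Algebra.FormallyUnramified.comp V V0 T
  exact Algebra.FormallyUnramified.of_equiv (A := T)
    (e.symm.restrictScalars V : T ≃ₐ[V] Localization.AtPrime P)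

end Tower

end Fermat.Agent.DS
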