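import Mathlib
import Fermat.Agent.DS.GR.VertSym
import Fermat.Agent.DS.GR.VertTower
import Fermat.Agent.DS.GR.RegIntr

/-!
# DS-T / cell [GV]: the vertical hypothesis (V) along a tower `F₀ ⊆ F₁` (prefix `gvi_`)

`F₀ ⊆ F₁ = F₀(W)` subfields of `L((q))`, `W` a finite set of series with coefficients in `O`, every
`w ∈ W` a member of a finite set `s` of `O`-series with pairwise distinct reductions such that
`∏_{y ∈ s} (T - y)` has its coefficients in `F₀`.  If `π` is prime on the chart `fc_chart O {λ}` of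
`E₀ = φ(F₀)(λ)` then the intrinsic vertical hypothesis `gr_VertHyp` passes from `F₀` to `F₁`
(`gvi_vertHyp_tower`): no computation in `F₁` is needed.
-/

set_option autoImplicit false
set_option linter.style.haveILetI false
set_option linter.unusedSectionVars false

noncomputable section

open IsLocalRing Polynomial ModularCurve

namespace Fermat.Agent.DS

open Fermat.Agent.JT3

section Hyp

variable {O K : Type*} [CommRing O] [IsDomain O] [IsDiscreteValuationRing O] [Field K]
  [Algebra O K]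

/-- the constants of `O` lie in a valuation ring of vertical type -/
theorem gvi_const_mem {ϖ : O} (hϖ : Irreducible ϖ) (x : K) (V : Subring K)
    [IsDiscreteValuationRing V] [IsFractionRing V K]
    (hunit : ∀ a : O[X], a.map (IsLocalRing.residue O) ≠ 0 → (aeval x a)⁻¹ ∈ V)
    (hϖV : (algebraMap O K ϖ)⁻¹ ∉ V) : ∀ o : O, algebraMap O K o ∈ V := by
  have hval : ∀ y : K, y ∈ V ∨ y⁻¹ ∈ V := by
    intro y
    rcases ValuationRing.isInteger_or_isInteger V y with ⟨b, hb⟩ | ⟨b, hb⟩
    · left; rw [← hb]; exact b.2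
    · right; rw [← hb]; exact b.2
  have hϖmem : algebraMap O K ϖ ∈ V := by
    rcases hval (algebraMap O K ϖ) with h | h
    · exact h
    · exact absurd h hϖV
  have hunitO : ∀ u : Oˣ, algebraMap O K (u : O) ∈ V := by
    intro u
    have h1 : (C ((u⁻¹ : Oˣ) : O) : O[X]).map (IsLocalRing.residue O) ≠ 0 := by
      rw [Polynomial.map_C, Ne, C_eq_zero, IsLocalRing.residue_eq_zero_iff,
        IsLocalRing.mem_maximalIdeal, mem_nonunits_iff, not_not]
      exact (u⁻¹).isUnit
    have h2 := hunit _ h1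
    rw [aeval_C] at h2
    have h3 : algebraMap O K ((u⁻¹ : Oˣ) : O) * algebraMap O K (u : O) = 1 := by
      rw [← map_mul, Units.inv_mul, map_one]
    rwa [inv_eq_of_mul_eq_one_right h3] at h2
  intro o
  by_cases ho : o = 0
  · rw [ho, map_zero]; exact V.zero_mem
  obtain ⟨k, u, hu⟩ := IsDiscreteValuationRing.eq_unit_mul_pow_irreducible ho hϖ
  rw [hu, map_mul, map_pow]
  exact V.mul_mem (hunitO u) (V.pow_mem hϖmem k)

/-- the vertical hypotheses for the coordinate `x⁻¹` imply those for `x` -/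
theorem gvi_inv_hyp (x : K) (hx0 : x ≠ 0) (V : Subring K) (hxV : x⁻¹ ∈ V)
    (hunit : ∀ a : O[X], a.map (IsLocalRing.residue O) ≠ 0 → (aeval x⁻¹ a)⁻¹ ∈ V) :
    x ∈ V ∧ ∀ d : O[X], d.map (IsLocalRing.residue O) ≠ 0 → (aeval x d)⁻¹ ∈ V := by
  constructor
  · have h1 : (X : O[X]).map (IsLocalRing.residue O) ≠ 0 := by
      rw [Polynomial.map_X]
      exact Polynomial.X_ne_zero
    have h2 := hunit X h1
    rwa [aeval_X, inv_inv] at h2
  · intro d hd
    letI : Invertible x := invertibleOfNonzero hx0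
    have hrev : d.reverse.map (IsLocalRing.residue O) ≠ 0 := by
      intro h0
      apply hd
      ext i
      rw [Polynomial.coeff_map, Polynomial.coeff_zero]
      by_cases hi : i ≤ d.natDegree
      · have h1 := congrArg (fun p => Polynomial.coeff p (d.natDegree - i)) h0
        simp only [Polynomial.coeff_map, Polynomial.coeff_zero] at h1
        rw [Polynomial.coeff_reverse, Polynomial.revAt_le (Nat.sub_le _ _),
          Nat.sub_sub_self hi] at h1
        exact h1
      · rw [Polynomial.coeff_eq_zero_of_natDegree_lt (not_le.mp hi), map_zero]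
    have h1 := Polynomial.eval₂_reverse_mul_pow (algebraMap O K) x d
    rw [invOf_eq_inv] at h1
    have h2 := hunit d.reverse hrev
    have h3 : (aeval x d)⁻¹ = (aeval x⁻¹ d.reverse)⁻¹ * (x⁻¹) ^ d.natDegree := by
      rw [aeval_def, aeval_def, ← h1, mul_inv, inv_pow]
    rw [h3]
    exact V.mul_mem h2 (V.pow_mem hxV _)

end Hyp

section Tower

variable {L : Type*} [Field L] [CharZero L] (O : ValuationSubring L) [IsDiscreteValuationRing O]
  (F0 F1 : IntermediateField L (LaurentSeries L))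

attribute [local instance] grh_algKE

/-- `E₀ → E₁` -/
@[reducible] def gvi_algE (h01 : F0 ≤ F1) : Algebra (gr_E F0) (gr_E F1) :=
  lgh_algOfLe (gr_E_mono h01)

theorem gvi_tower_K_E0_E1 (h01 : F0 ≤ F1) :
    @IsScalarTower (lg_K L) (gr_E F0) (gr_E F1) _ (gvi_algE F0 F1 h01).toSMul _ :=
  lgh_isScalarTower (gr_K_le_E F0) (gr_E_mono h01)

/-- the generators `φ(ι w)`, `w ∈ W`, as elements of `E₁` -/
def gvi_S (W : Finset (LaurentSeries O))
    (hW1 : ∀ w ∈ W, coeffMap (algebraMap O L) w ∈ F1) : Set (gr_E F1) :=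
  Set.range fun w : W => (⟨lg_phi L (coeffMap (algebraMap O L) (w : LaurentSeries O)),
    gr_phi_mem_E F1 (hW1 w w.2)⟩ : gr_E F1)

theorem gvi_S_finite (W : Finset (LaurentSeries O))
    (hW1 : ∀ w ∈ W, coeffMap (algebraMap O L) w ∈ F1) : (gvi_S O F1 W hW1).Finite :=
  Set.finite_range _

/-- `E₁ = E₀(S)` -/
theorem gvi_adjoin_S (h01 : F0 ≤ F1) (W : Finset (LaurentSeries O))
    (hW1 : ∀ w ∈ W, coeffMap (algebraMap O L) w ∈ F1)
    (hgen : F1 ≤ F0 ⊔ IntermediateField.adjoin L
      (coeffMap (algebraMap O L) '' (W : Set (LaurentSeries O)))) :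
    letI := gvi_algE F0 F1 h01
    IntermediateField.adjoin (gr_E F0) (gvi_S O F1 W hW1) = ⊤ := by
  letI := gvi_algE F0 F1 h01
  haveI : IsScalarTower L (gr_E F0) (gr_E F1) := lgh_isScalarTower_base (gr_E_mono h01)
  set Mf : IntermediateField (gr_E F0) (gr_E F1) :=
    IntermediateField.adjoin (gr_E F0) (gvi_S O F1 W hW1) with hMf
  rw [eq_top_iff]
  rintro z -
  let M' : IntermediateField L (LaurentSeries L) := (Mf.restrictScalars L).map (gr_E F1).val
  have hE0 : gr_E F0 ≤ M' := by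
    intro x hx
    refine ⟨⟨x, gr_E_mono h01 hx⟩, ?_, rfl⟩
    show (⟨x, gr_E_mono h01 hx⟩ : gr_E F1) ∈ Mf
    have h1 : (⟨x, gr_E_mono h01 hx⟩ : gr_E F1) =
        algebraMap (gr_E F0) (gr_E F1) (⟨x, hx⟩ : gr_E F0) := rfl
    rw [h1]
    exact IntermediateField.algebraMap_mem Mf _
  have hS : ∀ w ∈ W, lg_phi L (coeffMap (algebraMap O L) w) ∈ M' := by
    intro w hw
    refine ⟨⟨_, gr_phi_mem_E F1 (hW1 w hw)⟩, ?_, rfl⟩
    show (⟨_, gr_phi_mem_E F1 (hW1 w hw)⟩ : gr_E F1) ∈ Mf
    exact IntermediateField.subset_adjoin _ _ ⟨⟨w, hw⟩, rfl⟩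
  have hF2 : gr_F2 F1 ≤ M' := by
    rintro _ ⟨y, hy, rfl⟩
    have hy' := hgen hy
    have hmap : (F0 ⊔ IntermediateField.adjoin L
        (coeffMap (algebraMap O L) '' (W : Set (LaurentSeries O)))).map (lg_phi L) ≤ M' := by
      rw [IntermediateField.map_sup, sup_le_iff]
      constructor
      · exact (gr_F2_le_E F0).trans hE0
      · rw [IntermediateField.adjoin_map, IntermediateField.adjoin_le_iff]
        rintro _ ⟨_, ⟨w, hw, rfl⟩, rfl⟩
        exact hS w hw
    exact hmap ⟨y, hy', rfl⟩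
  have hE1 : gr_E F1 ≤ M' := sup_le hF2 ((gr_K_le_E F0).trans hE0)
  obtain ⟨w, hw, hwz⟩ := hE1 z.2
  have : w = z := Subtype.ext hwz
  rw [← this]
  exact hw

/-- the reduction of `λ` is transcendental over the residue field when `2` is a unit -/
theorem gvi_lam_tr (h2 : IsUnit (2 : O)) :
    ∀ q : Polynomial (IsLocalRing.ResidueField O),
      Polynomial.aeval (coeffMap (IsLocalRing.residue O) (hm_lam O)) q = 0 → q = 0 := by
  have h16 : (16 : IsLocalRing.ResidueField O) ≠ 0 := by
    have h2k : (2 : IsLocalRing.ResidueField O) ≠ 0 := by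
      have := (IsLocalRing.residue O).isUnit_map h2
      rw [map_ofNat] at this
      exact this.ne_zero
    have : (16 : IsLocalRing.ResidueField O) = 2 ^ 4 := by norm_num
    rw [this]
    exact pow_ne_zero _ h2k
  have htr : Transcendental (IsLocalRing.ResidueField O)
      (hm_lam (IsLocalRing.ResidueField O)) :=
    lgf_transcendental_of_coeff (n := 1) one_ne_zero (by rw [hm_lam_coeff_one]; exact h16)
  rw [hm_coeffMap_lam]
  exact (transcendental_iff.1 htr)

set_option maxHeartbeats 1000000 in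
set_option synthInstance.maxHeartbeats 200000 in
/-- **(V) along a tower.** -/
theorem gvi_vertHyp_tower (h01 : F0 ≤ F1) (hE0q : gr_E F0 ≤ gq_quotField O L)
    [FiniteDimensional (lg_K L) (gr_E F0)] [FiniteDimensional (lg_K L) (gr_E F1)]
    {π : O} (hπ : Irreducible π) (h2 : IsUnit (2 : O))
    [Algebra.IsAlgebraic (Algebra.adjoin O ({gr_lamE F0} : Set (gr_E F0))) (gr_E F0)]
    (hprime : Prime (algebraMap O (fc_chart O ({gr_lamE F0} : Set (gr_E F0))) π))
    (W : Finset (LaurentSeries O)) (hW1 : ∀ w ∈ W, coeffMap (algebraMap O L) w ∈ F1)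
    (hgen : F1 ≤ F0 ⊔ IntermediateField.adjoin L
      (coeffMap (algebraMap O L) '' (W : Set (LaurentSeries O))))
    (hW : ∀ w ∈ W, ∃ s : Finset (LaurentSeries O), w ∈ s ∧
      Set.InjOn (coeffMap (IsLocalRing.residue O)) (s : Set (LaurentSeries O)) ∧
      ∀ n : ℕ, (∏ y ∈ s, (X - C (coeffMap (algebraMap O L) y))).coeff n ∈ F0)
    (x : lg_K L) (hx : x = lgh_lamK L ∨ x = (lgh_lamK L)⁻¹)
    (hvert0 : gr_VertHyp O F0 π x) : gr_VertHyp O F1 π x := by
  classical
  intro V _ _ hxV hunit hπV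
  letI := gvi_algE F0 F1 h01
  haveI := gvi_tower_K_E0_E1 F0 F1 h01
  haveI : FiniteDimensional (gr_E F0) (gr_E F1) :=
    Module.Finite.right (lg_K L) (gr_E F0) (gr_E F1)
  refine gvt_unramAt_tower V (gr_E F0) (gr_E F1) (hvert0 V hxV hunit hπV) ?_
  intro V0 _ _ ha hb
  -- the hypotheses on `V` for the coordinate `λ`
  have hOV := gvi_const_mem hπ x V hunit hπV
  have hlam0 : lgh_lamK L ≠ 0 := fun h =>
    lg_lamK_transcendental L (h ▸ isAlgebraic_zero)
  have hlam : lgh_lamK L ∈ V ∧ ∀ d : (↥O)[X], d.map (IsLocalRing.residue ↥O) ≠ 0 →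
      (aeval (lgh_lamK L) d)⁻¹ ∈ V := by
    rcases hx with rfl | rfl
    · exact ⟨hxV, hunit⟩
    · exact gvi_inv_hyp (lgh_lamK L) hlam0 V hxV hunit
  have hVO : ∀ c : O, algebraMap O (gr_E F0) c ∈ V0 := by
    intro c
    rw [IsScalarTower.algebraMap_apply O (lg_K L) (gr_E F0)]
    exact ha ⟨_, hOV c⟩
  have hVu : gr_lamE F0 ∈ V0 := by
    rw [← gr_algebraMap_lamK]
    exact ha ⟨_, hlam.1⟩
  have hVG : ∀ d : (↥O)[X], d.map (IsLocalRing.residue ↥O) ≠ 0 →
      (aeval (gr_lamE F0) d)⁻¹ ∈ V0 := by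
    intro d hd
    rw [← gr_algebraMap_lamK, Polynomial.aeval_algebraMap_apply, ← map_inv₀]
    exact ha ⟨_, hlam.2 d hd⟩
  have hVπ : (algebraMap L (gr_E F0) (algebraMap O L π))⁻¹ ∉ V0 := by
    have hπK0 : algebraMap O (lg_K L) π ≠ 0 := by
      intro h0
      apply hπV
      rw [h0, inv_zero]
      exact V.zero_mem
    have hmax : (⟨algebraMap O (lg_K L) π, hOV π⟩ : V) ∈ IsLocalRing.maximalIdeal V := by
      rw [IsLocalRing.mem_maximalIdeal, mem_nonunits_iff]
      intro hu
      obtain ⟨w, hw⟩ := hu.exists_right_inv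
      apply hπV
      have h1 : algebraMap O (lg_K L) π * (w : lg_K L) = 1 := congrArg Subtype.val hw
      rw [inv_eq_of_mul_eq_one_right h1]
      exact w.2
    have hne : (⟨algebraMap O (lg_K L) π, hOV π⟩ : V) ≠ 0 := fun h0 =>
      hπK0 (congrArg Subtype.val h0)
    have := hb ⟨_, hOV π⟩ hmax hne
    exact this
  -- the coordinate `λ` of `E₀`
  have hux : ((gr_lamE F0 : gr_E F0) : LaurentSeries L)
      = coeffMap (algebraMap O L) (hm_lam O) := (hm_coeffMap_lam _).symm
  have hu : gq_IsBdd O L ((gr_lamE F0 : gr_E F0) : LaurentSeries L) := by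
    rw [hux]
    exact gq_isBdd_iota _
  have htr : ∀ p : (IsLocalRing.ResidueField O)[X],
      aeval (gq_res O L ⟨((gr_lamE F0 : gr_E F0) : LaurentSeries L), hu⟩) p = 0 → p = 0 := by
    rw [gq_res_of_eq_iota _ (hm_lam O) hux]
    exact gvi_lam_tr O h2
  -- the generators
  have hθ : ∀ θ ∈ gvi_S O F1 W hW1, ∃ (ι : Type _) (s : Finset ι)
      (r : ι → ↥(gq_bddSubring O L)) (g : Polynomial ↥(gr_E F0)),
      Set.InjOn (fun i => gq_res O L (r i)) (s : Set ι) ∧
        g.map (algebraMap ↥(gr_E F0) (LaurentSeries L)) =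
          ∏ i ∈ s, (X - C ((r i : ↥(gq_bddSubring O L)) : LaurentSeries L)) ∧
        ∃ i ∈ s, ((θ : ↥(gr_E F1)) : LaurentSeries L) =
          ((r i : ↥(gq_bddSubring O L)) : LaurentSeries L) := by
    rintro _ ⟨⟨w, hw⟩, rfl⟩
    obtain ⟨s, hws, hinj, hcoef⟩ := hW w hw
    -- the roots `φ(ι y)`, `y ∈ s`
    have hrb : ∀ y : LaurentSeries O, gq_IsBdd O L (lg_phi L (coeffMap (algebraMap O L) y)) := by
      intro y
      have : lg_phi L (coeffMap (algebraMap O L) y)
          = coeffMap (algebraMap O L) (qExpand O 2 y) := by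
        rw [coeffMap_qExpand, lg_phi_apply]
      rw [this]
      exact gq_isBdd_iota _
    set r : LaurentSeries O → ↥(gq_bddSubring O L) :=
      fun y => ⟨lg_phi L (coeffMap (algebraMap O L) y), hrb y⟩ with hr
    have hres : ∀ y : LaurentSeries O, gq_res O L (r y)
        = qExpand (IsLocalRing.ResidueField O) 2 (coeffMap (IsLocalRing.residue O) y) := by
      intro y
      rw [gq_res_of_eq_iota (r y) (qExpand O 2 y) (by
        change lg_phi L (coeffMap (algebraMap O L) y) = _
        rw [coeffMap_qExpand, lg_phi_apply]), coeffMap_qExpand]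
    -- the polynomial over `E₀`
    set P : Polynomial (LaurentSeries L) :=
      ∏ y ∈ s, (X - C (coeffMap (algebraMap O L) y)) with hP
    have hPφ : P.map (lg_phi L : LaurentSeries L →+* LaurentSeries L) =
        ∏ y ∈ s, (X - C (((r y : ↥(gq_bddSubring O L)) : LaurentSeries L))) := by
      rw [hP, Polynomial.map_prod]
      refine Finset.prod_congr rfl fun y _ => ?_
      rw [Polynomial.map_sub, Polynomial.map_X, Polynomial.map_C]
      rfl
    have hlift : P.map (lg_phi L : LaurentSeries L →+* LaurentSeries L) ∈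
        Polynomial.lifts (algebraMap ↥(gr_E F0) (LaurentSeries L)) := by
      rw [Polynomial.lifts_iff_coeff_lifts]
      intro n
      rw [Polynomial.coeff_map]
      exact ⟨⟨_, gr_phi_mem_E F0 (hcoef n)⟩, rfl⟩
    obtain ⟨g, hg⟩ := hlift
    refine ⟨LaurentSeries O, s, r, g, ?_, ?_, w, hws, rfl⟩
    · intro y hy y' hy' hyy'
      simp only [hres] at hyy'
      exact hinj hy hy' ((qExpand (IsLocalRing.ResidueField O) 2).injective hyy')
    · rw [← hPφ]
      exact hg
  exact gvs_tower_step π hπ.ne_zero hπ.maximalIdeal_eq (gr_E F0) (gr_E F1) hE0q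
    (fun _ => rfl) (gr_lamE F0) hu htr hprime (gvi_S O F1 W hW1) (gvi_S_finite O F1 W hW1)
    (gvi_adjoin_S O F0 F1 h01 W hW1 hgen) hθ V0 hVO hVu hVG hVπ

end Tower

end Fermat.Agent.DS
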