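import Mathlib
import Fermat.Agent.DS.GR.VertTowerInst
import Fermat.Agent.DS.GR.VertGam1Lead
import Fermat.Agent.DS.GR.Top
import Fermat.Agent.DS.Gam1.DiamondPoly
import Fermat.Agent.DS.Gam1.GRBridge
import Fermat.Agent.JT3.Inst.RegPair
import Fermat.Agent.JT3.Inst.Assemble

/-!
# DS-T / cell [GV]: the vertical hypothesis (V) for the `Γ₁`-fields (prefix `gv1_`)

`F₀ = L(j(q^d) : d ∣ N)` (the `X₀(N)` tower field) `⊆ F₁ = F₀(w_a(q^e))` (`g1f_FC L M N`).
The intrinsic vertical hypothesis `gr_VertHyp` holds for `F₀` (JT3, `lgv_V`), the uniformiser is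
prime on the `λ`-chart of `E₀` (`lg_regAt_pair` + `cn_prime_funField`), and the generators `w_a(q^e)`
satisfy the hypotheses of `gvi_vertHyp_tower`: leading terms (`gv1_injOn_w`) and the diamond
polynomial (`g1d_coeff_mem`).
-/

set_option autoImplicit false
set_option linter.style.haveILetI false
set_option linter.unusedSectionVars false

noncomputable section

open IsLocalRing Polynomial ModularCurve IntermediateField

namespace Fermat.Agent.DS

open Fermat.Agent.JT3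

section D1

variable (L : Type*) [Field L] [Algebra ℚ L] (M N : ℕ) [NeZero M] [NeZero N]

/-- `q ↦ q^e` maps the level-`M` field into the level-`N` field when `e M ∣ N` -/
theorem gv1_qExpand_mem_full (e : ℕ) [NeZero e] (he : e * M ∣ N) {x : LaurentSeries ℚ}
    (hx : x ∈ modularFunctionFieldFull M) : qExpand ℚ e x ∈ modularFunctionFieldFull N := by
  haveI : NeZero (M * e) := ⟨Nat.mul_ne_zero (NeZero.ne M) (NeZero.ne e)⟩
  have h1 : qExpand ℚ e x ∈ modularFunctionFieldFullC ℚ (M * e) :=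
    full_degeneracyC_map_le ℚ M e ⟨x, hx, rfl⟩
  have h2 : modularFunctionFieldFullC ℚ (M * e) ≤ modularFunctionFieldFullC ℚ N :=
    full_degeneracyC_le ℚ (by rw [mul_comm]; exact he)
  exact h2 h1

/-- **(D1), `L`-form, all `e`**: the coefficients of the diamond polynomial of `w(q^e)` lie in the
level-`N` field of `X₀(N)`. -/
theorem gv1_D1 (hM : 3 ≤ M) (e : ℕ) [NeZero e] (he : e * M ∣ N) (n : ℕ) :
    (∏ b ∈ gv1_reps M, (X - C (qExpand L e (g1w_w L M b)))).coeff n ∈ lg_F L N := by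
  set f : LaurentSeries ℚ →+* LaurentSeries L := (coeffEmb L).comp (qExpand ℚ e) with hf
  have h1 : (∏ b ∈ gv1_reps M, (X - C (qExpand L e (g1w_w L M b))))
      = (∏ b ∈ gv1_reps M, (X - C (g1w_w ℚ M b))).map f := by
    rw [Polynomial.map_prod]
    refine Finset.prod_congr rfl ?_
    intro b _
    rw [Polynomial.map_sub, Polynomial.map_X, Polynomial.map_C]
    congr 2
    rw [hf, RingHom.comp_apply, coeffEmb, coeffMap_qExpand, g1w_coeffMap_w]
  rw [h1, Polynomial.coeff_map, lg_F_eq_laurentBaseChange, hf, RingHom.comp_apply]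
  exact coeffEmb_mem_laurentBaseChange L
    (gv1_qExpand_mem_full M N e he (g1d_coeff_mem M hM n))

end D1

section Base

variable (L : Type*) [Field L] [CharZero L] (O : ValuationSubring L) [IsDiscreteValuationRing O]
  (N : ℕ) [NeZero N]

section lg

attribute [local instance] lgh_algKE

/-- (V) for the `X₀(N)`-tower field, JT3 vocabulary -/
theorem gv1_unramAt_full {π : O} (hπ : Irreducible π) (ℓ : ℕ) [Fact ℓ.Prime]
    (hℓ : ((ℓ : ℕ) : O) ∈ IsLocalRing.maximalIdeal O) (hℓ2 : ℓ ≠ 2) (hℓN : ¬ ℓ ∣ N)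
    (x : lg_K L) (hx : x = lgh_lamK L ∨ x = (lgh_lamK L)⁻¹)
    (V : Subring (lg_K L)) [IsDiscreteValuationRing V] [IsFractionRing V (lg_K L)] (hxV : x ∈ V)
    (hunit : ∀ a : (↥O)[X], a.map (IsLocalRing.residue ↥O) ≠ 0 → (aeval x a)⁻¹ ∈ V)
    (hπV : (algebraMap (↥O) (lg_K L) π)⁻¹ ∉ V) : jt_UnramAt V (lg_E L N) := by
  classical
  have hℓp : ℓ.Prime := Fact.out
  have h2 : IsUnit ((2 : ℕ) : O) :=
    lg_isUnit_natCast hℓ ((Nat.coprime_primes Nat.prime_two hℓp).2 (Ne.symm hℓ2))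
  haveI : CharP (IsLocalRing.ResidueField O) ℓ := lg_charP_residue hℓ
  have h2k : (2 : IsLocalRing.ResidueField O) ≠ 0 := by
    have := ((IsLocalRing.residue O).isUnit_map h2).ne_zero
    rwa [map_natCast, Nat.cast_ofNat] at this
  obtain ⟨ρO⟩ := lgv_exists_rhoO (L := L) (O := O) (fun a b hab => Subtype.ext hab) ℓ hℓ
  have h0 : (lg_lamE N : lg_E L N) ≠ 0 := fun h =>
    lgf_lam_transcendental L N two_ne_zero (h ▸ isAlgebraic_zero)
  have hrel : cv_legN (algebraMap (lg_K L) (lg_E L N) x)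
      = lgf_j2E L N * cv_legD (algebraMap (lg_K L) (lg_E L N) x) := by
    rcases hx with rfl | rfl
    · exact lg_rel_lamE N
    · rw [lg_algebraMap_lamK_inv]
      exact cv_leg_rel_inv h0 (lg_rel_lamE N)
  exact ug_unramAt_poly hπ x (lgv_S L N) (lgv_adjoin_eq_top L N ⟨lgh_lamK L, rfl⟩)
    (lgv_V ℓ h2k hℓN ρO _ hrel) V hxV hunit hπV

end lg

attribute [local instance] grh_algKE

/-- **(V) for the `X₀(N)`-tower field** in the intrinsic form, at `λ` and `λ⁻¹`. -/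
theorem gv1_vertHyp_full {π : O} (hπ : Irreducible π) (ℓ : ℕ) [Fact ℓ.Prime]
    (hℓ : ((ℓ : ℕ) : O) ∈ IsLocalRing.maximalIdeal O) (hℓ2 : ℓ ≠ 2) (hℓN : ¬ ℓ ∣ N)
    (x : lg_K L) (hx : x = lgh_lamK L ∨ x = (lgh_lamK L)⁻¹) :
    gr_VertHyp O (lg_F L N) π x := by
  intro V _ _ hxV hunit hπV
  exact gv1_unramAt_full L O N hπ ℓ hℓ hℓ2 hℓN x hx V hxV hunit hπV

end Base

section Gam1

variable (L : Type*) [Field L] [CharZero L] [Algebra ℚ L]
  [Algebra L (AlgebraicClosure ℚ)] [IsScalarTower ℚ L (AlgebraicClosure ℚ)]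
  (O : ValuationSubring L) [IsDiscreteValuationRing O] (M N : ℕ) [NeZero M] [NeZero N]

/-- `π` is prime on the `λ`-chart of `E₀` (the rigidified `X₀(N)`-tower field) -/
theorem gv1_prime_full {π : O} (hπ : Irreducible π) (ℓ : ℕ) [Fact ℓ.Prime]
    (hℓ : ((ℓ : ℕ) : O) ∈ IsLocalRing.maximalIdeal O) (hℓ2 : ℓ ≠ 2) (hℓN : ¬ ℓ ∣ N)
    (ζ : L) (hζ : IsPrimitiveRoot ζ N) :
    Prime (algebraMap O (fc_chart O ({lg_lamE N} : Set (lg_E L N))) π) := by
  obtain ⟨hr1, hr2⟩ := lg_regAt_pair L O N hπ ℓ hℓ hℓ2 hℓN ζ hζ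
  have hx : Transcendental L (lg_lamE (L := L) N) := lgf_lam_transcendental L N two_ne_zero
  haveI := lgf_finite L N
  have hconst : ∀ z : lg_E L N, IsAlgebraic L z → z ∈ (algebraMap L (lg_E L N)).range :=
    fun z hz => lgf_hconst (lg_E L N) z hz
  exact (cn_prime_funField (K0 := L) hπ hx hconst
    (fun n hn hπn => (hr1 n hn hπn).2) (fun n hn hπn => (hr2 n hn hπn).2)).1

/-- the `O`-integral generators `w_a(q^e)` -/
theorem gv1_W_finite : {x : LaurentSeries O | ∃ (e : ℕ) (_ : NeZero e) (a : (ZMod M)ˣ),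
    e * M ∣ N ∧ x = qExpand O e (g1w_w O M (a : ZMod M))}.Finite := by
  refine Set.Finite.subset ((g1f_GZ_finite M N).image (coeffMap (Int.castRingHom O))) ?_
  rintro x ⟨e, he, a, heN, rfl⟩
  haveI := he
  exact ⟨qExpand ℤ e (g1w_w ℤ M a), Or.inr ⟨e, he, a, heN, rfl⟩,
    by rw [coeffMap_qExpand, g1w_coeffMap_w]⟩

/-- the finite set of `O`-integral generators `w_a(q^e)` -/
def gv1_W : Finset (LaurentSeries O) := (gv1_W_finite L O M N).toFinset

variable {L O M N}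

theorem gv1_mem_W {x : LaurentSeries O} : x ∈ gv1_W L O M N ↔
    ∃ (e : ℕ) (_ : NeZero e) (a : (ZMod M)ˣ),
      e * M ∣ N ∧ x = qExpand O e (g1w_w O M (a : ZMod M)) := by
  rw [gv1_W, Set.Finite.mem_toFinset]
  rfl

variable (L O M N)

attribute [local instance] grh_algKE

set_option maxHeartbeats 1000000 in
set_option synthInstance.maxHeartbeats 200000 in
/-- **(V) for the `Γ₁`-field `g1f_FC L M N`** (Legendre cover, `ℓ` odd, `ℓ ∤ N`, `ζ_N ∈ L`). -/
theorem gv1_vertHyp_gam1 (hM : 3 ≤ M) {π : O} (hπ : Irreducible π) (ℓ : ℕ) [Fact ℓ.Prime]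
    (hℓ : ((ℓ : ℕ) : O) ∈ IsLocalRing.maximalIdeal O) (hℓ2 : ℓ ≠ 2) (hℓN : ¬ ℓ ∣ N)
    (ζ : L) (hζ : IsPrimitiveRoot ζ N) (hA : gr_A1 (g1f_FC L M N))
    (x : lg_K L) (hx : x = lgh_lamK L ∨ x = (lgh_lamK L)⁻¹) :
    gr_VertHyp O (g1f_FC L M N) π x := by
  classical
  have hℓp : ℓ.Prime := Fact.out
  have h2' : IsUnit ((2 : ℕ) : O) :=
    lg_isUnit_natCast hℓ ((Nat.coprime_primes Nat.prime_two hℓp).2 (Ne.symm hℓ2))
  have h2 : IsUnit (2 : O) := by simpa using h2'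
  haveI : FiniteDimensional (lg_K L) (gr_E (lg_F L N)) := lg_finiteDimensional_K_E L N
  haveI : FiniteDimensional (lg_K L) (gr_E (g1f_FC L M N)) := grf_tower_finite_K_E hA
  haveI : FiniteDimensional L⟮(gr_lamE (lg_F L N) : gr_E (lg_F L N))⟯ (gr_E (lg_F L N)) :=
    lgf_finite L N
  haveI : Algebra.IsAlgebraic (Algebra.adjoin O ({gr_lamE (lg_F L N)} : Set (gr_E (lg_F L N))))
      (gr_E (lg_F L N)) := fc_ff_isAlgebraic (L := L) (gr_lamE (lg_F L N))
  refine gvi_vertHyp_tower O (lg_F L N) (g1f_FC L M N) (g1f_full_le_FC L M N)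
    (lg_E_le_quotField O N) hπ h2 (gv1_prime_full L O N hπ ℓ hℓ hℓ2 hℓN ζ hζ)
    (gv1_W L O M N) ?_ ?_ ?_ x hx (gv1_vertHyp_full L O N hπ ℓ hℓ hℓ2 hℓN x hx)
  · -- the generators lie in `F₁`
    intro w hw
    obtain ⟨e, he, a, heN, rfl⟩ := gv1_mem_W.mp hw
    haveI := he
    rw [coeffMap_qExpand, g1w_coeffMap_w]
    exact g1f_wq_mem_FC heN a
  · -- `F₁ = F₀(W)`
    rw [g1f_FC, IntermediateField.adjoin_le_iff]
    rintro y (hy | ⟨e, he, a, heN, rfl⟩)
    · exact (le_sup_left : lg_F L N ≤ _) (IntermediateField.subset_adjoin L _ hy)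
    · haveI := he
      refine (le_sup_right : IntermediateField.adjoin L _ ≤ _)
        (IntermediateField.subset_adjoin L _ ?_)
      refine ⟨qExpand O e (g1w_w O M (a : ZMod M)), ?_, ?_⟩
      · exact Finset.mem_coe.mpr (gv1_mem_W.mpr ⟨e, he, a, heN, rfl⟩)
      · rw [coeffMap_qExpand, g1w_coeffMap_w]
  · -- the symmetric polynomial
    intro w hw
    obtain ⟨e, he, a, heN, rfl⟩ := gv1_mem_W.mp hw
    haveI := he
    have hinjO : Set.InjOn (fun b : ZMod M => qExpand O e (g1w_w O M b))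
        (gv1_reps M : Set (ZMod M)) := by
      intro b1 hb1 b2 hb2 h12
      have h3 := congrArg (coeffMap (IsLocalRing.residue O)) h12
      simp only [coeffMap_qExpand, g1w_coeffMap_w] at h3
      exact gv1_injOn_w (k := IsLocalRing.ResidueField O) hM e hb1 hb2 h3
    refine ⟨(gv1_reps M).image (fun b : ZMod M => qExpand O e (g1w_w O M b)), ?_, ?_, ?_⟩
    · obtain ⟨b, hb, hab⟩ := gv1_exists_rep (M := M) (a := (a : ZMod M)) a.isUnit
      refine Finset.mem_image.mpr ⟨b, hb, ?_⟩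
      rcases hab with h | h
      · rw [h]
      · rw [h, g1w_w_neg]
    · intro y1 hy1 y2 hy2 h12
      obtain ⟨b1, hb1, rfl⟩ := Finset.mem_image.mp (Finset.mem_coe.mp hy1)
      obtain ⟨b2, hb2, rfl⟩ := Finset.mem_image.mp (Finset.mem_coe.mp hy2)
      simp only [coeffMap_qExpand, g1w_coeffMap_w] at h12
      have := gv1_injOn_w (k := IsLocalRing.ResidueField O) hM e hb1 hb2 h12
      rw [this]
    · intro n
      rw [Finset.prod_image hinjO]
      have : ∀ b : ZMod M, coeffMap (algebraMap O L) (qExpand O e (g1w_w O M b))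
          = qExpand L e (g1w_w L M b) := by
        intro b
        rw [coeffMap_qExpand, g1w_coeffMap_w]
      simp only [this]
      exact gv1_D1 L M N hM e heN n

end Gam1

section Top

/-- **(V), Legendre cover, for the `Γ₁`-family `G = g1f_GZ M' N`**: `ℓ` odd, `ℓ ∤ N`, for the number
fields containing the `M`-th roots of unity, `N ∣ M`.  This is the input `hvL` of `gr_key_top`,
`gr_S18_top`, `gr_unram_top`. -/
theorem gv1_vertLeg (A : ValuationSubring (AlgebraicClosure ℚ)) (M' N : ℕ) [NeZero M'] [NeZero N]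
    (hM' : 3 ≤ M') {ℓ : ℕ} [Fact ℓ.Prime] (hA : A.LiesOverPrime ℓ) (hℓ2 : ℓ ≠ 2) (hℓN : ¬ ℓ ∣ N)
    (hG : gr_A1Q (g1f_GZ M' N)) (M : ℕ) [NeZero M] (hNM : N ∣ M) :
    gr_VertLeg (g1f_GZ M' N) A M := by
  intro L1 _ _ _ ζ hζ _ π hπ
  haveI : CharZero L1 := algebraRat.charZero L1
  have hℓmem := lg_natCast_mem_maximalIdeal A hA L1
  obtain ⟨c, hc⟩ := hNM
  have hζN : IsPrimitiveRoot (ζ ^ c) N :=
    hζ.pow (Nat.pos_of_ne_zero (NeZero.ne M)) (by rw [hc, mul_comm])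
  have hA1 : gr_A1 (g1f_FC L1 M' N) := by
    rw [g1f_FC_eq_gr_F]
    exact gr_A1_family _ hG L1
  rw [← g1f_FC_eq_gr_F]
  exact gv1_vertHyp_gam1 L1 _ M' N hM' hπ ℓ hℓmem hℓ2 hℓN (ζ ^ c) hζN hA1 _ (Or.inl rfl)

end Top

end Fermat.Agent.DS

end
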