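import Mathlib
import Fermat.Agent.DS.GR.VertRes
import Fermat.Agent.DS.GR.VertGam1
import Fermat.Agent.DS.GE.ResFull

/-!
# DS-T / cell [GV]: (RG) "reductions generate" for the `Γ₁`-fields (prefix `gv1r_`)

At every DVR level `(L, O)`: the `q`-Gauss residue of every `O`-bounded element of
`g1f_FC L M N` lies in `g1f_FC k_O M N`, given the same statement for the `X₀(N)`-field `lg_F L N`
(which is `ger_resField_full_le` for `O = A ∩ L`).  Instance of the generic `gvs_res_mem` along the
tower `lg_F L N ⊆ g1f_FC L M N` (roots `w_b(q^e)`, `b ∈ gv1_reps M`: distinct reductions by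
`gv1_injOn_w`, symmetric polynomial over the base by `gv1_D1`).
-/

set_option autoImplicit false
set_option linter.style.haveILetI false
set_option linter.unusedSectionVars false

noncomputable section

open IsLocalRing Polynomial ModularCurve IntermediateField

namespace Fermat.Agent.DS

open Fermat.Agent.JT3

section Level

variable (L : Type*) [Field L] [CharZero L] [Algebra ℚ L]
  [Algebra L (AlgebraicClosure ℚ)] [IsScalarTower ℚ L (AlgebraicClosure ℚ)]
  (O : ValuationSubring L) [IsDiscreteValuationRing O]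
  (M N : ℕ) [NeZero M] [NeZero N]

/-- the level-`N` field of `X₀(N)` consists of quotients of `O`-integral series -/
theorem gv1r_full_le_quotField : lg_F L N ≤ gq_quotField O L := by
  rw [lg_F, modularFunctionFieldFullC, IntermediateField.adjoin_le_iff]
  rintro _ ⟨d, hd, -, rfl⟩
  haveI := hd
  have : qExpand L d (jqModC L) = coeffMap (algebraMap O L) (qExpand O d (jqModC O)) := by
    rw [coeffMap_qExpand, coeffMap_jqModC]
  rw [SetLike.mem_coe, this]
  exact gq_iota_mem_quotField _

set_option maxHeartbeats 1000000 in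
/-- **(RG) along the tower `Γ₀(N) ⊆ Γ₁(M) ∩ Γ₀(N)`, any DVR level.** -/
theorem gv1r_resField_le (hM : 3 ≤ M) {π : O} (hπ : Irreducible π)
    (h0 : gvs_resField (O := O) (lg_F L N) ≤
      (modularFunctionFieldFullC (ResidueField O) N).toSubfield) :
    gvs_resField (O := O) (g1f_FC L M N) ≤ (g1f_FC (ResidueField O) M N).toSubfield := by
  classical
  set S : Finset (LaurentSeries L) := (gv1_W L O M N).image (coeffMap (algebraMap O L)) with hS
  have hmain := gvs_res_mem π hπ.ne_zero hπ.maximalIdeal_eq (lg_F L N)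
    (gv1r_full_le_quotField L O N) S ?_ (g1f_FC (ResidueField O) M N).toSubfield
    (le_trans h0 (fun x hx => g1f_full_le_FC (ResidueField O) M N hx)) ?_
  · refine le_trans (gvs_resField_mono ?_) hmain
    rw [g1f_FC, IntermediateField.adjoin_le_iff]
    rintro y (hy | ⟨e, he, a, heN, rfl⟩)
    · exact IntermediateField.subset_adjoin L _
        (Or.inl (IntermediateField.subset_adjoin L _ hy))
    · haveI := he
      refine IntermediateField.subset_adjoin L _ (Or.inr ?_)
      rw [hS, Finset.mem_coe, Finset.mem_image]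
      refine ⟨qExpand O e (g1w_w O M (a : ZMod M)), gv1_mem_W.mpr ⟨e, he, a, heN, rfl⟩, ?_⟩
      rw [coeffMap_qExpand, g1w_coeffMap_w]
  · -- the roots
    intro θ hθ
    rw [hS, Finset.mem_image] at hθ
    obtain ⟨w, hw, rfl⟩ := hθ
    obtain ⟨e, he, a, heN, rfl⟩ := gv1_mem_W.mp hw
    haveI := he
    set r : ZMod M → ↥(gq_bddSubring O L) := fun b =>
      ⟨coeffMap (algebraMap O L) (qExpand O e (g1w_w O M b)), gq_isBdd_iota _⟩ with hr
    have hres : ∀ b : ZMod M, gq_res O L (r b)
        = qExpand (ResidueField O) e (g1w_w (ResidueField O) M b) := by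
      intro b
      rw [hr]
      simp only
      rw [gq_res_iota, coeffMap_qExpand, g1w_coeffMap_w]
    refine ⟨ZMod M, gv1_reps M, r, ?_, ?_, ?_⟩
    · intro b1 hb1 b2 hb2 h12
      simp only [hres] at h12
      exact gv1_injOn_w (k := ResidueField O) hM e hb1 hb2 h12
    · intro n
      have h1 : (((∏ i ∈ gv1_reps M, (X - C (r i))).coeff n : ↥(gq_bddSubring O L)) :
          LaurentSeries L)
          = ((∏ i ∈ gv1_reps M, (X - C (r i))).map (gq_bddSubring O L).subtype).coeff n := by
        rw [Polynomial.coeff_map]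
        rfl
      rw [h1, Polynomial.map_prod]
      have h2 : ∀ b ∈ gv1_reps M, ((X - C (r b)) : Polynomial ↥(gq_bddSubring O L)).map
          (gq_bddSubring O L).subtype = X - C (qExpand L e (g1w_w L M b)) := by
        intro b _
        rw [Polynomial.map_sub, Polynomial.map_X, Polynomial.map_C]
        congr 2
        rw [hr]
        simp only [Subring.coe_subtype]
        rw [coeffMap_qExpand, g1w_coeffMap_w]
      rw [Finset.prod_congr rfl h2]
      exact gv1_D1 L M N hM e heN n
    · obtain ⟨b, hb, hab⟩ := gv1_exists_rep (M := M) (a := (a : ZMod M)) a.isUnit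
      refine ⟨b, hb, ?_⟩
      rw [hr]
      simp only
      rcases hab with h | h
      · rw [h]
      · rw [h, g1w_w_neg]
  · -- the residues of the generators
    intro θ hθ
    rw [hS, Finset.mem_image] at hθ
    obtain ⟨w, hw, hwθ⟩ := hθ
    obtain ⟨e, he, a, heN, rfl⟩ := gv1_mem_W.mp hw
    haveI := he
    rw [gq_res_of_eq_iota θ _ hwθ.symm, coeffMap_qExpand, g1w_coeffMap_w]
    exact g1f_wq_mem_FC heN a

/-- **(RG), field form** (the hypothesis `hRG` of `gei_nodeE` for `G = g1f_GZ M N`, at the level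
`(L, O)`). -/
theorem gv1r_RG (hM : 3 ≤ M) {π : O} (hπ : Irreducible π)
    (h0 : gvs_resField (O := O) (lg_F L N) ≤
      (modularFunctionFieldFullC (ResidueField O) N).toSubfield)
    (z : LaurentSeries L) (hzF : z ∈ gr_F (g1f_GZ M N) L) (hz : gq_IsBdd O L z) :
    gq_res O L ⟨z, hz⟩ ∈ gr_F (g1f_GZ M N) (ResidueField O) := by
  rw [← g1f_FC_eq_gr_F] at hzF ⊢
  exact gv1r_resField_le L O M N hM hπ h0 ⟨⟨z, hz⟩, hzF, rfl⟩

/-- (RG) for `O`-integral expansions: the coefficientwise reduction of `y ∈ O((q))` with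
`ι y ∈ g1f_FC L M N` lies in `g1f_FC k_O M N`. -/
theorem gv1r_red_mem (hM : 3 ≤ M) {π : O} (hπ : Irreducible π)
    (h0 : gvs_resField (O := O) (lg_F L N) ≤
      (modularFunctionFieldFullC (ResidueField O) N).toSubfield)
    (y : LaurentSeries O) (hy : coeffMap (algebraMap O L) y ∈ g1f_FC L M N) :
    coeffMap (residue O) y ∈ g1f_FC (ResidueField O) M N := by
  have h := gv1r_resField_le L O M N hM hπ h0
    ⟨⟨coeffMap (algebraMap O L) y, gq_isBdd_iota y⟩, hy, rfl⟩
  rwa [gq_res_iota] at h

end Level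

section Place

local notation "Qb" => AlgebraicClosure ℚ

variable (A : ValuationSubring Qb) {ℓ : ℕ} [Fact ℓ.Prime] (L : Type*) [Field L] [CharZero L]
  [Algebra ℚ L] [Algebra L Qb] [IsScalarTower ℚ L Qb]
  [IsDiscreteValuationRing ↥(A.comap (algebraMap L Qb))]
  (M N : ℕ) [NeZero M] [NeZero N]

/-- **(RG) for the `Γ₁` family at the level `(L, A ∩ L)`**, `ℓ ∤ N`: UNCONDITIONAL. -/
theorem gv1r_RG_place (hM : 3 ≤ M) (hℓN : ¬ ℓ ∣ N) (hA : A.LiesOverPrime ℓ)
    (z : LaurentSeries L) (hzF : z ∈ gr_F (g1f_GZ M N) L)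
    (hz : gq_IsBdd ↥(A.comap (algebraMap L Qb)) L z) :
    gq_res ↥(A.comap (algebraMap L Qb)) L ⟨z, hz⟩ ∈
      gr_F (g1f_GZ M N) (ResidueField ↥(A.comap (algebraMap L Qb))) := by
  obtain ⟨π, hπ⟩ := IsDiscreteValuationRing.exists_irreducible ↥(A.comap (algebraMap L Qb))
  exact gv1r_RG L _ M N hM hπ (ger_resField_full_le N A L hℓN hA) z hzF hz

end Place

end Fermat.Agent.DS

end
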