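import Mathlib
import Fermat.Agent.DS.GR.VertTowerInst
import Fermat.Agent.JT3.Inst.HesseH4a

/-!
# DS-T / cell [GV]: the vertical hypothesis (V) along a tower, Hesse cover (prefix `gvih_`)

Line-by-line twin of `VertTowerInst.lean` with `(q ↦ q², λ, gr_E)` replaced by
`(q ↦ q³, μ, grs_E)`; `3` a unit of `O` instead of `2`.
-/

set_option autoImplicit false
set_option linter.style.haveILetI false
set_option linter.unusedSectionVars false

noncomputable section

open IsLocalRing Polynomial ModularCurve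

namespace Fermat.Agent.DS

open Fermat.Agent.JT3

section Tower

variable {L : Type*} [Field L] [CharZero L] (h3 : (3 : L) ≠ 0) (O : ValuationSubring L)
  [IsDiscreteValuationRing O] (F0 F1 : IntermediateField L (LaurentSeries L))

attribute [local instance] grsh_algKE

/-- `E₀ → E₁` -/
@[reducible] def gvih_algE (h01 : F0 ≤ F1) : Algebra (grs_E h3 F0) (grs_E h3 F1) :=
  lgh_algOfLe (grs_E_mono h3 h01)

theorem gvih_tower_K_E0_E1 (h01 : F0 ≤ F1) :
    @IsScalarTower (hs_K L h3) (grs_E h3 F0) (grs_E h3 F1) _ (gvih_algE h3 F0 F1 h01).toSMul _ :=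
  lgh_isScalarTower (grs_K_le_E h3 F0) (grs_E_mono h3 h01)

/-- the generators `φ(ι w)`, `w ∈ W`, as elements of `E₁` -/
def gvih_S (W : Finset (LaurentSeries O))
    (hW1 : ∀ w ∈ W, coeffMap (algebraMap O L) w ∈ F1) : Set (grs_E h3 F1) :=
  Set.range fun w : W => (⟨hs_phi L (coeffMap (algebraMap O L) (w : LaurentSeries O)),
    grs_phi_mem_E h3 F1 (hW1 w w.2)⟩ : grs_E h3 F1)

theorem gvih_S_finite (W : Finset (LaurentSeries O))
    (hW1 : ∀ w ∈ W, coeffMap (algebraMap O L) w ∈ F1) : (gvih_S h3 O F1 W hW1).Finite :=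
  Set.finite_range _

/-- `E₁ = E₀(S)` -/
theorem gvih_adjoin_S (h01 : F0 ≤ F1) (W : Finset (LaurentSeries O))
    (hW1 : ∀ w ∈ W, coeffMap (algebraMap O L) w ∈ F1)
    (hgen : F1 ≤ F0 ⊔ IntermediateField.adjoin L
      (coeffMap (algebraMap O L) '' (W : Set (LaurentSeries O)))) :
    letI := gvih_algE h3 F0 F1 h01
    IntermediateField.adjoin (grs_E h3 F0) (gvih_S h3 O F1 W hW1) = ⊤ := by
  letI := gvih_algE h3 F0 F1 h01
  haveI : IsScalarTower L (grs_E h3 F0) (grs_E h3 F1) := lgh_isScalarTower_base (grs_E_mono h3 h01)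
  set Mf : IntermediateField (grs_E h3 F0) (grs_E h3 F1) :=
    IntermediateField.adjoin (grs_E h3 F0) (gvih_S h3 O F1 W hW1) with hMf
  rw [eq_top_iff]
  rintro z -
  let M' : IntermediateField L (LaurentSeries L) := (Mf.restrictScalars L).map (grs_E h3 F1).val
  have hE0 : grs_E h3 F0 ≤ M' := by
    intro x hx
    refine ⟨⟨x, grs_E_mono h3 h01 hx⟩, ?_, rfl⟩
    show (⟨x, grs_E_mono h3 h01 hx⟩ : grs_E h3 F1) ∈ Mf
    have h1 : (⟨x, grs_E_mono h3 h01 hx⟩ : grs_E h3 F1) =
        algebraMap (grs_E h3 F0) (grs_E h3 F1) (⟨x, hx⟩ : grs_E h3 F0) := rfl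
    rw [h1]
    exact IntermediateField.algebraMap_mem Mf _
  have hS : ∀ w ∈ W, hs_phi L (coeffMap (algebraMap O L) w) ∈ M' := by
    intro w hw
    refine ⟨⟨_, grs_phi_mem_E h3 F1 (hW1 w hw)⟩, ?_, rfl⟩
    show (⟨_, grs_phi_mem_E h3 F1 (hW1 w hw)⟩ : grs_E h3 F1) ∈ Mf
    exact IntermediateField.subset_adjoin _ _ ⟨⟨w, hw⟩, rfl⟩
  have hF2 : grs_F3 F1 ≤ M' := by
    rintro _ ⟨y, hy, rfl⟩
    have hy' := hgen hy
    have hmap : (F0 ⊔ IntermediateField.adjoin L
        (coeffMap (algebraMap O L) '' (W : Set (LaurentSeries O)))).map (hs_phi L) ≤ M' := by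
      rw [IntermediateField.map_sup, sup_le_iff]
      constructor
      · exact (grs_F3_le_E h3 F0).trans hE0
      · rw [IntermediateField.adjoin_map, IntermediateField.adjoin_le_iff]
        rintro _ ⟨_, ⟨w, hw, rfl⟩, rfl⟩
        exact hS w hw
    exact hmap ⟨y, hy', rfl⟩
  have hE1 : grs_E h3 F1 ≤ M' := sup_le hF2 ((grs_K_le_E h3 F0).trans hE0)
  obtain ⟨w, hw, hwz⟩ := hE1 z.2
  have : w = z := Subtype.ext hwz
  rw [← this]
  exact hw

/-- the reduction of `μ` is transcendental over the residue field when `3` is a unit -/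
theorem gvih_mu_tr (h3O : IsUnit (3 : O)) :
    ∀ q : Polynomial (IsLocalRing.ResidueField O),
      Polynomial.aeval (coeffMap (IsLocalRing.residue O) (hm_mu O h3O)) q = 0 → q = 0 := by
  have h3k : IsUnit (3 : IsLocalRing.ResidueField O) := by
    have := h3O.map (IsLocalRing.residue O)
    rwa [map_ofNat] at this
  intro q hq
  rw [hm_coeffMap_mu (IsLocalRing.residue O) h3O h3k] at hq
  exact hsa_mu_transc _ h3k q hq

set_option maxHeartbeats 1000000 in
set_option synthInstance.maxHeartbeats 200000 in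
/-- **(V) along a tower.** -/
theorem gvih_vertHyp_tower (h01 : F0 ≤ F1) (hE0q : grs_E h3 F0 ≤ gq_quotField O L)
    [FiniteDimensional (hs_K L h3) (grs_E h3 F0)] [FiniteDimensional (hs_K L h3) (grs_E h3 F1)]
    {π : O} (hπ : Irreducible π) (h3O : IsUnit (3 : O))
    [Algebra.IsAlgebraic (Algebra.adjoin O ({grs_muE h3 F0} : Set (grs_E h3 F0))) (grs_E h3 F0)]
    (hprime : Prime (algebraMap O (fc_chart O ({grs_muE h3 F0} : Set (grs_E h3 F0))) π))
    (W : Finset (LaurentSeries O)) (hW1 : ∀ w ∈ W, coeffMap (algebraMap O L) w ∈ F1)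
    (hgen : F1 ≤ F0 ⊔ IntermediateField.adjoin L
      (coeffMap (algebraMap O L) '' (W : Set (LaurentSeries O))))
    (hW : ∀ w ∈ W, ∃ s : Finset (LaurentSeries O), w ∈ s ∧
      Set.InjOn (coeffMap (IsLocalRing.residue O)) (s : Set (LaurentSeries O)) ∧
      ∀ n : ℕ, (∏ y ∈ s, (X - C (coeffMap (algebraMap O L) y))).coeff n ∈ F0)
    (x : hs_K L h3) (hx : x = hsh_muK L h3 ∨ x = (hsh_muK L h3)⁻¹)
    (hvert0 : grs_VertHyp h3 O F0 π x) : grs_VertHyp h3 O F1 π x := by
  classical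
  intro V _ _ hxV hunit hπV
  letI := gvih_algE h3 F0 F1 h01
  haveI := gvih_tower_K_E0_E1 h3 F0 F1 h01
  haveI : FiniteDimensional (grs_E h3 F0) (grs_E h3 F1) :=
    Module.Finite.right (hs_K L h3) (grs_E h3 F0) (grs_E h3 F1)
  refine gvt_unramAt_tower V (grs_E h3 F0) (grs_E h3 F1) (hvert0 V hxV hunit hπV) ?_
  intro V0 _ _ ha hb
  -- the hypotheses on `V` for the coordinate `λ`
  have hOV := gvi_const_mem hπ x V hunit hπV
  have hlam0 : hsh_muK L h3 ≠ 0 := fun h =>
    hs_muK_transcendental L h3 (h ▸ isAlgebraic_zero)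
  have hlam : hsh_muK L h3 ∈ V ∧ ∀ d : (↥O)[X], d.map (IsLocalRing.residue ↥O) ≠ 0 →
      (aeval (hsh_muK L h3) d)⁻¹ ∈ V := by
    rcases hx with rfl | rfl
    · exact ⟨hxV, hunit⟩
    · exact gvi_inv_hyp (hsh_muK L h3) hlam0 V hxV hunit
  have hVO : ∀ c : O, algebraMap O (grs_E h3 F0) c ∈ V0 := by
    intro c
    rw [IsScalarTower.algebraMap_apply O (hs_K L h3) (grs_E h3 F0)]
    exact ha ⟨_, hOV c⟩
  have hVu : grs_muE h3 F0 ∈ V0 := by
    rw [← grs_algebraMap_muK]
    exact ha ⟨_, hlam.1⟩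
  have hVG : ∀ d : (↥O)[X], d.map (IsLocalRing.residue ↥O) ≠ 0 →
      (aeval (grs_muE h3 F0) d)⁻¹ ∈ V0 := by
    intro d hd
    rw [← grs_algebraMap_muK, Polynomial.aeval_algebraMap_apply, ← map_inv₀]
    exact ha ⟨_, hlam.2 d hd⟩
  have hVπ : (algebraMap L (grs_E h3 F0) (algebraMap O L π))⁻¹ ∉ V0 := by
    have hπK0 : algebraMap O (hs_K L h3) π ≠ 0 := by
      intro h0
      apply hπV
      rw [h0, inv_zero]
      exact V.zero_mem
    have hmax : (⟨algebraMap O (hs_K L h3) π, hOV π⟩ : V) ∈ IsLocalRing.maximalIdeal V := by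
      rw [IsLocalRing.mem_maximalIdeal, mem_nonunits_iff]
      intro hu
      obtain ⟨w, hw⟩ := hu.exists_right_inv
      apply hπV
      have h1 : algebraMap O (hs_K L h3) π * (w : hs_K L h3) = 1 := congrArg Subtype.val hw
      rw [inv_eq_of_mul_eq_one_right h1]
      exact w.2
    have hne : (⟨algebraMap O (hs_K L h3) π, hOV π⟩ : V) ≠ 0 := fun h0 =>
      hπK0 (congrArg Subtype.val h0)
    have := hb ⟨_, hOV π⟩ hmax hne
    exact this
  -- the coordinate `λ` of `E₀`
  have hux : ((grs_muE h3 F0 : grs_E h3 F0) : LaurentSeries L)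
      = coeffMap (algebraMap O L) (hm_mu O h3O) := hsa_mu_eq_iota h3 O h3O
  have hu : gq_IsBdd O L ((grs_muE h3 F0 : grs_E h3 F0) : LaurentSeries L) := by
    rw [hux]
    exact gq_isBdd_iota _
  have htr : ∀ p : (IsLocalRing.ResidueField O)[X],
      aeval (gq_res O L ⟨((grs_muE h3 F0 : grs_E h3 F0) : LaurentSeries L), hu⟩) p = 0 → p = 0 := by
    rw [gq_res_of_eq_iota _ (hm_mu O h3O) hux]
    exact gvih_mu_tr O h3O
  -- the generators
  have hθ : ∀ θ ∈ gvih_S h3 O F1 W hW1, ∃ (ι : Type _) (s : Finset ι)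
      (r : ι → ↥(gq_bddSubring O L)) (g : Polynomial ↥(grs_E h3 F0)),
      Set.InjOn (fun i => gq_res O L (r i)) (s : Set ι) ∧
        g.map (algebraMap ↥(grs_E h3 F0) (LaurentSeries L)) =
          ∏ i ∈ s, (X - C ((r i : ↥(gq_bddSubring O L)) : LaurentSeries L)) ∧
        ∃ i ∈ s, ((θ : ↥(grs_E h3 F1)) : LaurentSeries L) =
          ((r i : ↥(gq_bddSubring O L)) : LaurentSeries L) := by
    rintro _ ⟨⟨w, hw⟩, rfl⟩
    obtain ⟨s, hws, hinj, hcoef⟩ := hW w hw
    -- the roots `φ(ι y)`, `y ∈ s`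
    have hrb : ∀ y : LaurentSeries O, gq_IsBdd O L (hs_phi L (coeffMap (algebraMap O L) y)) := by
      intro y
      have : hs_phi L (coeffMap (algebraMap O L) y)
          = coeffMap (algebraMap O L) (qExpand O 3 y) := by
        rw [coeffMap_qExpand, hs_phi_apply]
      rw [this]
      exact gq_isBdd_iota _
    set r : LaurentSeries O → ↥(gq_bddSubring O L) :=
      fun y => ⟨hs_phi L (coeffMap (algebraMap O L) y), hrb y⟩ with hr
    have hres : ∀ y : LaurentSeries O, gq_res O L (r y)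
        = qExpand (IsLocalRing.ResidueField O) 3 (coeffMap (IsLocalRing.residue O) y) := by
      intro y
      rw [gq_res_of_eq_iota (r y) (qExpand O 3 y) (by
        change hs_phi L (coeffMap (algebraMap O L) y) = _
        rw [coeffMap_qExpand, hs_phi_apply]), coeffMap_qExpand]
    -- the polynomial over `E₀`
    set P : Polynomial (LaurentSeries L) :=
      ∏ y ∈ s, (X - C (coeffMap (algebraMap O L) y)) with hP
    have hPφ : P.map (hs_phi L : LaurentSeries L →+* LaurentSeries L) =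
        ∏ y ∈ s, (X - C (((r y : ↥(gq_bddSubring O L)) : LaurentSeries L))) := by
      rw [hP, Polynomial.map_prod]
      refine Finset.prod_congr rfl fun y _ => ?_
      rw [Polynomial.map_sub, Polynomial.map_X, Polynomial.map_C]
      rfl
    have hlift : P.map (hs_phi L : LaurentSeries L →+* LaurentSeries L) ∈
        Polynomial.lifts (algebraMap ↥(grs_E h3 F0) (LaurentSeries L)) := by
      rw [Polynomial.lifts_iff_coeff_lifts]
      intro n
      rw [Polynomial.coeff_map]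
      exact ⟨⟨_, grs_phi_mem_E h3 F0 (hcoef n)⟩, rfl⟩
    obtain ⟨g, hg⟩ := hlift
    refine ⟨LaurentSeries O, s, r, g, ?_, ?_, w, hws, rfl⟩
    · intro y hy y' hy' hyy'
      simp only [hres] at hyy'
      exact hinj hy hy' ((qExpand (IsLocalRing.ResidueField O) 3).injective hyy')
    · rw [← hPφ]
      exact hg
  exact gvs_tower_step π hπ.ne_zero hπ.maximalIdeal_eq (grs_E h3 F0) (grs_E h3 F1) hE0q
    (fun _ => rfl) (grs_muE h3 F0) hu htr hprime (gvih_S h3 O F1 W hW1) (gvih_S_finite h3 O F1 W hW1)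
    (gvih_adjoin_S h3 O F0 F1 h01 W hW1 hgen) hθ V0 hVO hVu hVG hVπ

end Tower

end Fermat.Agent.DS

end
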