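import Mathlib
import Fermat.Agent.DS.GR.VertTowerInstHes
import Fermat.Agent.DS.GR.VertGam1
import Fermat.Agent.JT3.Inst.HesseRegApply
import Fermat.Agent.JT3.Inst.HesseRamCore
import Fermat.Agent.JT3.Inst.HesseRamWrap
import Fermat.Agent.JT3.Inst.HesseAssemble
import Fermat.Agent.JT3.Inst.S18Ram

/-!
# DS-T / cell [GV]: the vertical hypothesis (V) for the `Γ₁`-fields, Hesse cover (prefix `gv1h_`)

Twin of `VertGam1.lean` for the Hesse cover `E = φ₃(F)(μ)` (`ℓ ≠ 3`, in particular `ℓ = 2`).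
-/

set_option autoImplicit false
set_option linter.style.haveILetI false
set_option linter.unusedSectionVars false

noncomputable section

open IsLocalRing Polynomial ModularCurve IntermediateField

namespace Fermat.Agent.DS

open Fermat.Agent.JT3

section Base

variable (L : Type*) [Field L] [CharZero L] (h3 : (3 : L) ≠ 0) (O : ValuationSubring L)
  [IsDiscreteValuationRing O] (N : ℕ) [NeZero N]

section hs

attribute [local instance] hsh_algKE

/-- (V) for the `X₀(N)`-tower field, Hesse cover, JT3 vocabulary -/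
theorem gv1h_unramAt_full {π : O} (hπ : Irreducible π) (ℓ : ℕ) [Fact ℓ.Prime]
    (hℓ : ((ℓ : ℕ) : O) ∈ IsLocalRing.maximalIdeal O) (hℓ3 : ℓ ≠ 3) (hℓN : ¬ ℓ ∣ N)
    (x : hs_K L h3) (hx : x = hsh_muK L h3 ∨ x = (hsh_muK L h3)⁻¹)
    (V : Subring (hs_K L h3)) [IsDiscreteValuationRing V] [IsFractionRing V (hs_K L h3)]
    (hxV : x ∈ V)
    (hunit : ∀ a : (↥O)[X], a.map (IsLocalRing.residue ↥O) ≠ 0 → (aeval x a)⁻¹ ∈ V)
    (hπV : (algebraMap (↥O) (hs_K L h3) π)⁻¹ ∉ V) : jt_UnramAt V (hs_E L h3 N) := by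
  classical
  rcases hx with rfl | rfl
  · exact ug_unramAt_poly hπ (hsh_muK L h3) (hsv_S L h3 N) (hsv_adjoin_eq_top L h3 N)
      (fun θ hθ => hsv_goodGen_mu h3 _ hℓ hℓ3 hℓN hθ) V hxV hunit hπV
  · exact ug_unramAt_poly hπ (hsh_muK L h3)⁻¹ (hsv_S L h3 N) (hsv_adjoin_eq_top L h3 N)
      (fun θ hθ => by
        rw [hs_algebraMap_muK_inv]
        exact hsv_goodGen_mu_inv h3 _ hℓ hℓ3 hℓN hθ) V hxV hunit hπV

end hs

attribute [local instance] grsh_algKE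

/-- **(V) for the `X₀(N)`-tower field**, Hesse cover, intrinsic form, at `μ` and `μ⁻¹`. -/
theorem gv1h_vertHyp_full {π : O} (hπ : Irreducible π) (ℓ : ℕ) [Fact ℓ.Prime]
    (hℓ : ((ℓ : ℕ) : O) ∈ IsLocalRing.maximalIdeal O) (hℓ3 : ℓ ≠ 3) (hℓN : ¬ ℓ ∣ N)
    (x : hs_K L h3) (hx : x = hsh_muK L h3 ∨ x = (hsh_muK L h3)⁻¹) :
    grs_VertHyp h3 O (lg_F L N) π x := by
  intro V _ _ hxV hunit hπV
  exact gv1h_unramAt_full L h3 O N hπ ℓ hℓ hℓ3 hℓN x hx V hxV hunit hπV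

end Base

section Gam1

variable (L : Type*) [Field L] [CharZero L] [Algebra ℚ L]
  [Algebra L (AlgebraicClosure ℚ)] [IsScalarTower ℚ L (AlgebraicClosure ℚ)] (h3 : (3 : L) ≠ 0)
  (O : ValuationSubring L) [IsDiscreteValuationRing O] (M N : ℕ) [NeZero M] [NeZero N]

section hs

attribute [local instance] hsh_algKjK hsh_algKjF3 hsh_algKjE hsh_algF3E hsh_algKE

/-- `π` is prime on the `μ`-chart of `E₀` (the rigidified `X₀(N)`-tower field, Hesse cover) -/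
theorem gv1h_prime_full {π : O} (hπ : Irreducible π) (ℓ : ℕ) [Fact ℓ.Prime]
    (hℓ : ((ℓ : ℕ) : O) ∈ IsLocalRing.maximalIdeal O) (hℓ3 : ℓ ≠ 3) (hℓN : ¬ ℓ ∣ N)
    (ζ : L) (hζ : IsPrimitiveRoot ζ (3 * N)) :
    Prime (algebraMap O (fc_chart O ({hs_muE h3 N} : Set (hs_E L h3 N))) π) := by
  have hN0 : 0 < 3 * N := Nat.pos_of_ne_zero (Nat.mul_ne_zero (by norm_num) (NeZero.ne N))
  have hζN : IsPrimitiveRoot (ζ ^ 3) N := hζ.pow hN0 rfl
  have hω : IsPrimitiveRoot (ζ ^ N) 3 := hζ.pow hN0 (mul_comm 3 N)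
  have hω3 : (ζ ^ N) ^ 3 = 1 := hω.pow_eq_one
  have hωsum : (ζ ^ N) ^ 2 + ζ ^ N + 1 = 0 := by
    have := hω.geom_sum_eq_zero (by norm_num)
    simp only [Finset.sum_range_succ, Finset.sum_range_zero, pow_zero, pow_one, zero_add] at this
    linear_combination this
  let ωO : ↥O := ⟨ζ ^ N, hs_root_mem _ _ hω3⟩
  have hωO : ωO ^ 2 + ωO + 1 = 0 := Subtype.ext hωsum
  obtain ⟨cH, cT, cTinf⟩ := hsrc_cores (L := L) h3 N
  have hr3' := hsrw_ramHyp3 h3 N (ζ ^ N) hωsum cH cT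
  have hr4' := hsrw_ramHyp4 h3 N (ζ ^ N) hωsum cH cT cTinf
  have hr3 : jt_RegAt (fc_chart O ({hs_muE h3 N} : Set (hs_E L h3 N)))
      (algebraMap O (fc_chart O ({hs_muE h3 N} : Set (hs_E L h3 N))) π) :=
    hs_regAt_apply3 h3 N hπ ℓ hℓ hℓ3 hℓN (ζ ^ 3) hζN ωO hωO (hsh_muK L h3)
      (hs_muK_transcendental L h3) (hsh_adjoin_muK L h3) (hsv_S L h3 N)
      (hsv_adjoin_eq_top L h3 N) (fun θ hθ => hsv_goodGen_mu h3 _ hℓ hℓ3 hℓN hθ) hr3'
  have hr4 : jt_RegAt (fc_chart O ({(hs_muE h3 N)⁻¹} : Set (hs_E L h3 N)))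
      (algebraMap O (fc_chart O ({(hs_muE h3 N)⁻¹} : Set (hs_E L h3 N))) π) := by
    have := hs_regAt_apply4 h3 N hπ ℓ hℓ hℓ3 hℓN (ζ ^ 3) hζN ωO hωO (hsh_muK L h3)⁻¹
      (hs_muK_inv_transcendental L h3) (hs_adjoin_muK_inv L h3) (hsv_S L h3 N)
      (hsv_adjoin_eq_top L h3 N)
      (fun θ hθ => by
        rw [hs_algebraMap_muK_inv]
        exact hsv_goodGen_mu_inv h3 _ hℓ hℓ3 hℓN hθ) hr4'
    rwa [hs_algebraMap_muK_inv] at this
  have hx : Transcendental L (hs_muE (L := L) h3 N) := hsf_mu_transcendental L h3 N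
  haveI := hsf_finite L h3 N
  have hconst : ∀ z : hs_E L h3 N, IsAlgebraic L z → z ∈ (algebraMap L (hs_E L h3 N)).range :=
    fun z hz => lgf_hconst (hs_E L h3 N) z hz
  exact (cn_prime_funField (K0 := L) hπ hx hconst
    (fun n hn hπn => (hr3 n hn hπn).2) (fun n hn hπn => (hr4 n hn hπn).2)).1

end hs

attribute [local instance] grsh_algKE

set_option maxHeartbeats 1000000 in
set_option synthInstance.maxHeartbeats 200000 in
/-- **(V) for the `Γ₁`-field `g1f_FC L M N`**, Hesse cover (`ℓ ≠ 3`, `ℓ ∤ N`, `ζ_{3N} ∈ L`). -/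
theorem gv1h_vertHyp_gam1 (hM : 3 ≤ M) {π : O} (hπ : Irreducible π) (ℓ : ℕ) [Fact ℓ.Prime]
    (hℓ : ((ℓ : ℕ) : O) ∈ IsLocalRing.maximalIdeal O) (hℓ3 : ℓ ≠ 3) (hℓN : ¬ ℓ ∣ N)
    (ζ : L) (hζ : IsPrimitiveRoot ζ (3 * N)) (hA : gr_A1 (g1f_FC L M N))
    (x : hs_K L h3) (hx : x = hsh_muK L h3 ∨ x = (hsh_muK L h3)⁻¹) :
    grs_VertHyp h3 O (g1f_FC L M N) π x := by
  classical
  have hℓp : ℓ.Prime := Fact.out
  have h3O : IsUnit (3 : O) := by
    have := lg_isUnit_natCast hℓ (m := 3)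
      ((Nat.coprime_primes Nat.prime_three hℓp).2 (Ne.symm hℓ3))
    simpa using this
  haveI : FiniteDimensional (hs_K L h3) (grs_E h3 (lg_F L N)) := hs_finiteDimensional_K_E L h3 N
  haveI : FiniteDimensional (hs_K L h3) (grs_E h3 (g1f_FC L M N)) :=
    grsf_tower_finite_E h3 hA (hs_K L h3) (hs_j3_mem_K L h3) (grs_K_le_E h3 (g1f_FC L M N))
  haveI : FiniteDimensional L⟮(grs_muE h3 (lg_F L N) : grs_E h3 (lg_F L N))⟯
      (grs_E h3 (lg_F L N)) := hsf_finite L h3 N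
  haveI : Algebra.IsAlgebraic
      (Algebra.adjoin O ({grs_muE h3 (lg_F L N)} : Set (grs_E h3 (lg_F L N))))
      (grs_E h3 (lg_F L N)) := fc_ff_isAlgebraic (L := L) (grs_muE h3 (lg_F L N))
  refine gvih_vertHyp_tower h3 O (lg_F L N) (g1f_FC L M N) (g1f_full_le_FC L M N)
    (hsa_E_le_quotField h3 O N h3O) hπ h3O (gv1h_prime_full L h3 O N hπ ℓ hℓ hℓ3 hℓN ζ hζ)
    (gv1_W L O M N) ?_ ?_ ?_ x hx (gv1h_vertHyp_full L h3 O N hπ ℓ hℓ hℓ3 hℓN x hx)
  · -- the generators lie in `F₁`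
    intro w hw
    obtain ⟨e, he, a, heN, rfl⟩ := gv1_mem_W.mp hw
    haveI := he
    rw [coeffMap_qExpand, g1w_coeffMap_w]
    exact g1f_wq_mem_FC heN a
  · -- `F₁ = F₀(W)`
    rw [g1f_FC, IntermediateField.adjoin_le_iff]
    rintro y (hy | ⟨e, he, a, heN, rfl⟩)
    · exact (le_sup_left : lg_F L N ≤ _) (IntermediateField.subset_adjoin L _ hy)
    · haveI := he
      refine (le_sup_right : IntermediateField.adjoin L _ ≤ _)
        (IntermediateField.subset_adjoin L _ ?_)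
      refine ⟨qExpand O e (g1w_w O M (a : ZMod M)), ?_, ?_⟩
      · exact Finset.mem_coe.mpr (gv1_mem_W.mpr ⟨e, he, a, heN, rfl⟩)
      · rw [coeffMap_qExpand, g1w_coeffMap_w]
  · -- the symmetric polynomial
    intro w hw
    obtain ⟨e, he, a, heN, rfl⟩ := gv1_mem_W.mp hw
    haveI := he
    have hinjO : Set.InjOn (fun b : ZMod M => qExpand O e (g1w_w O M b))
        (gv1_reps M : Set (ZMod M)) := by
      intro b1 hb1 b2 hb2 h12
      have h3' := congrArg (coeffMap (IsLocalRing.residue O)) h12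
      simp only [coeffMap_qExpand, g1w_coeffMap_w] at h3'
      exact gv1_injOn_w (k := IsLocalRing.ResidueField O) hM e hb1 hb2 h3'
    refine ⟨(gv1_reps M).image (fun b : ZMod M => qExpand O e (g1w_w O M b)), ?_, ?_, ?_⟩
    · obtain ⟨b, hb, hab⟩ := gv1_exists_rep (M := M) (a := (a : ZMod M)) a.isUnit
      refine Finset.mem_image.mpr ⟨b, hb, ?_⟩
      rcases hab with h | h
      · rw [h]
      · rw [h, g1w_w_neg]
    · intro y1 hy1 y2 hy2 h12
      obtain ⟨b1, hb1, rfl⟩ := Finset.mem_image.mp (Finset.mem_coe.mp hy1)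
      obtain ⟨b2, hb2, rfl⟩ := Finset.mem_image.mp (Finset.mem_coe.mp hy2)
      simp only [coeffMap_qExpand, g1w_coeffMap_w] at h12
      have := gv1_injOn_w (k := IsLocalRing.ResidueField O) hM e hb1 hb2 h12
      rw [this]
    · intro n
      rw [Finset.prod_image hinjO]
      have : ∀ b : ZMod M, coeffMap (algebraMap O L) (qExpand O e (g1w_w O M b))
          = qExpand L e (g1w_w L M b) := by
        intro b
        rw [coeffMap_qExpand, g1w_coeffMap_w]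
      simp only [this]
      exact gv1_D1 L M N hM e heN n

end Gam1

section Top

/-- **(V), Hesse cover, for the `Γ₁`-family `G = g1f_GZ M' N`**: `ℓ ≠ 3`, `ℓ ∤ N`, for the number
fields containing the `3 M`-th roots of unity, `N ∣ M`.  This is the input `hvH` of `gr_key_top`,
`gr_S18_top`, `gr_unram_top`. -/
theorem gv1_vertHes (A : ValuationSubring (AlgebraicClosure ℚ)) (M' N : ℕ) [NeZero M'] [NeZero N]
    (hM' : 3 ≤ M') {ℓ : ℕ} [Fact ℓ.Prime] (hA : A.LiesOverPrime ℓ) (hℓ3 : ℓ ≠ 3) (hℓN : ¬ ℓ ∣ N)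
    (hG : gr_A1Q (g1f_GZ M' N)) (M : ℕ) [NeZero M] (hNM : N ∣ M) :
    gr_VertHes (g1f_GZ M' N) A M := by
  intro L1 _ _ _ h3 ζ hζ _ π hπ
  haveI : CharZero L1 := algebraRat.charZero L1
  have hℓmem := lg_natCast_mem_maximalIdeal A hA L1
  obtain ⟨c, hc⟩ := hNM
  have hζN : IsPrimitiveRoot (ζ ^ c) (3 * N) :=
    hζ.pow (Nat.pos_of_ne_zero (Nat.mul_ne_zero (by norm_num) (NeZero.ne M)))
      (by rw [hc]; ring)
  have hA1 : gr_A1 (g1f_FC L1 M' N) := by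
    rw [g1f_FC_eq_gr_F]
    exact gr_A1_family _ hG L1
  rw [← g1f_FC_eq_gr_F]
  exact gv1h_vertHyp_gam1 L1 h3 _ M' N hM' hπ ℓ hℓmem hℓ3 hℓN (ζ ^ c) hζN hA1 _ (Or.inl rfl)

end Top

end Fermat.Agent.DS

end
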