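import Mathlib
import Fermat.Agent.DS.GR.VertGam1
import Fermat.Agent.DS.GR.VertGam1Hes
import Fermat.Agent.DS.GR.ResGam1
import Fermat.Agent.DS.GR.Top
import Fermat.Agent.DS.GE.Inst
import Fermat.Agent.DS.GE.WireInst
import Fermat.Agent.DS.Gam1.InstRam
import Fermat.Agent.DS.Gam1.InstA1

/-!
# DS-T: GOOD REDUCTION OF `X(±Γ₁(M) ∩ Γ₀(N))` AT EVERY `ℓ ∤ N` — top assembly (prefix `gv1t_`)

For `G = g1f_GZ M N` (`3 ≤ M`, `M ∣ N`), a place `A` of `Q̄` over `ℓ ∤ N`, ALL inputs of helper2's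
`gr_key_top` / `gr_S18_top` / `gr_unram_top` are theorems:

* (A1) `g1dg_A1Q` (helper15/helper17);
* (R)  `g1i_ram_ramData_gr` (helper29);
* (V)  `gv1_vertLeg`, `gv1_vertHes` ([GV]);
* (E)  `gv1t_reductionInputs` = `gei_nodeE` (helper10) ∘ `gew_base_level0` (helper23) ∘
       (V) at the base level `ebf_K0 ℓ` ∘ (RG) `gv1r_RG_place`.
-/

set_option autoImplicit false
set_option linter.style.haveILetI false
set_option linter.unusedSectionVars false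

noncomputable section

open IsLocalRing Polynomial ModularCurve IntermediateField AlgebraicCurve

namespace Fermat.Agent.DS

open Fermat.Agent.JT3 Fermat.Agent.S24

local notation "Qb" => AlgebraicClosure ℚ

section Base

variable (A : ValuationSubring Qb) {ℓ : ℕ} [Fact ℓ.Prime] (hA : A.LiesOverPrime ℓ)
  (M N : ℕ) [NeZero M] [NeZero N]

include hA in
/-- (V), Legendre cover, at the base level `(ebf_K0 ℓ, A ∩ K₀)`, uniformiser `ℓ`. -/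
theorem gv1t_vertLeg_base (hM : 3 ≤ M) (hMN : M ∣ N) (hℓ2 : ℓ ≠ 2) (hℓN : ¬ ℓ ∣ N)
    [IsDiscreteValuationRing ↥(A.comap (algebraMap ↥(ebf_K0 ℓ) Qb))] :
    gr_VertHyp (A.comap (algebraMap ↥(ebf_K0 ℓ) Qb)) (gr_F (g1f_GZ M N) ↥(ebf_K0 ℓ))
      ((ℓ : ℕ) : ↥(A.comap (algebraMap ↥(ebf_K0 ℓ) Qb))) (lgh_lamK ↥(ebf_K0 ℓ)) := by
  have hM1 : M ≠ 1 := by omega
  obtain ⟨ζ, hζ⟩ := ebr_exists_primitiveRoot (ℓ := ℓ) N hℓN
  have hA1 : gr_A1 (g1f_FC ↥(ebf_K0 ℓ) M N) := by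
    rw [g1f_FC_eq_gr_F]
    exact gr_A1_family _ (g1dg_A1Q hM1 hMN) ↥(ebf_K0 ℓ)
  rw [← g1f_FC_eq_gr_F]
  exact gv1_vertHyp_gam1 ↥(ebf_K0 ℓ) _ M N hM (ebf_irreducible A ℓ hA) ℓ
    (ebr_natCast_mem_maximalIdeal A ℓ hA) hℓ2 hℓN ζ hζ hA1 _ (Or.inl rfl)

include hA in
/-- (V), Hesse cover, at the base level `(ebf_K0 ℓ, A ∩ K₀)`, uniformiser `ℓ`. -/
theorem gv1t_vertHes_base (hM : 3 ≤ M) (hMN : M ∣ N) (hℓ3 : ℓ ≠ 3) (hℓN : ¬ ℓ ∣ N)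
    [IsDiscreteValuationRing ↥(A.comap (algebraMap ↥(ebf_K0 ℓ) Qb))]
    (h3 : (3 : ↥(ebf_K0 ℓ)) ≠ 0) :
    grs_VertHyp h3 (A.comap (algebraMap ↥(ebf_K0 ℓ) Qb)) (gr_F (g1f_GZ M N) ↥(ebf_K0 ℓ))
      ((ℓ : ℕ) : ↥(A.comap (algebraMap ↥(ebf_K0 ℓ) Qb))) (hsh_muK ↥(ebf_K0 ℓ) h3) := by
  have hM1 : M ≠ 1 := by omega
  have hℓp : ℓ.Prime := Fact.out
  haveI : NeZero (3 * N) := ⟨Nat.mul_ne_zero (by norm_num) (NeZero.ne N)⟩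
  have hℓ3N : ¬ ℓ ∣ 3 * N := by
    intro h
    rcases (Nat.Prime.dvd_mul hℓp).1 h with h | h
    · exact hℓ3 ((Nat.prime_dvd_prime_iff_eq hℓp Nat.prime_three).1 h)
    · exact hℓN h
  obtain ⟨ζ, hζ⟩ := ebr_exists_primitiveRoot (ℓ := ℓ) (3 * N) hℓ3N
  have hA1 : gr_A1 (g1f_FC ↥(ebf_K0 ℓ) M N) := by
    rw [g1f_FC_eq_gr_F]
    exact gr_A1_family _ (g1dg_A1Q hM1 hMN) ↥(ebf_K0 ℓ)
  rw [← g1f_FC_eq_gr_F]
  exact gv1h_vertHyp_gam1 ↥(ebf_K0 ℓ) h3 _ M N hM (ebf_irreducible A ℓ hA) ℓ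
    (ebr_natCast_mem_maximalIdeal A ℓ hA) hℓ3 hℓN ζ hζ hA1 _ (Or.inl rfl)

end Base

section Top

variable (A : ValuationSubring Qb) {ℓ : ℕ} [Fact ℓ.Prime] (hA : A.LiesOverPrime ℓ)
  (M N : ℕ) [NeZero M] [NeZero N]

/-- (R) over `Q̄` in the shape of `gr_key_top`. -/
theorem gv1t_ramData (hM : 3 ≤ M) (hMN : M ∣ N) :
    rml_RamData Qb (gr_jG (g1f_GZ M N) (g1f_jZ_mem_GZ M N) Qb) N :=
  g1i_ram_ramData_gr (by omega) hMN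

include hA in
/-- **(E) for the `Γ₁` family: `dsr_ReductionInputs`**, every `ℓ ∤ N`, UNCONDITIONAL. -/
theorem gv1t_reductionInputs (hM : 3 ≤ M) (hMN : M ∣ N) (hℓN : ¬ ℓ ∣ N) :
    dsr_ReductionInputs A (IsLocalRing.residue A) (gr_F (g1f_GZ M N) Qb)
      (gr_F (g1f_GZ M N) (IsLocalRing.ResidueField A)) := by
  have hM1 : M ≠ 1 := by omega
  haveI := ebf_isDVR A ℓ hA
  have hG := g1dg_A1Q (N := N) hM1 hMN
  have hjG := g1f_jZ_mem_GZ M N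
  obtain ⟨H1, H2⟩ := gew_base_level0 (g1f_GZ M N) A hA hG hjG N hℓN
    (gv1t_ramData M N hM hMN)
    (fun hℓ2 => gv1t_vertLeg_base A hA M N hM hMN hℓ2 hℓN)
    (fun hℓ2 h3 => gv1t_vertHes_base A hA M N hM hMN (by omega) hℓN h3)
  refine gei_nodeE A hG hjG hA H1 H2 ?_
  intro z hzF hz
  haveI : CharZero ↥(ebf_K0 ℓ) := algebraRat.charZero _
  exact gv1r_RG_place A ↥(ebf_K0 ℓ) M N hM hℓN hA z hzF hz

include hA in
/-- **KEY for the `Γ₁` family**, every `ℓ ∤ N`, every prime `p ≠ ℓ`. -/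
theorem gv1t_key (hM : 3 ≤ M) (hMN : M ∣ N) (hℓN : ¬ ℓ ∣ N) {p : ℕ} (hp : p.Prime)
    (hpℓ : p ≠ ℓ) :
    gr_Key A (IsLocalRing.residue A) (gr_F (g1f_GZ M N) Qb) p := by
  have hM1 : M ≠ 1 := by omega
  have hG := g1dg_A1Q (N := N) hM1 hMN
  exact gr_key_top (g1f_GZ M N) A hG (g1f_jZ_mem_GZ M N) hA hp hpℓ N hℓN
    (gv1t_ramData M N hM hMN)
    (fun hℓ2 => gv1_vertLeg A M N hM hA hℓ2 hℓN hG N dvd_rfl)
    (fun hℓ2 => gv1_vertHes A M N hM hA (by omega) hℓN hG N dvd_rfl)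

include hA in
/-- **S18 for the `Γ₁` family**: prime-to-`ℓ` torsion of `Pic⁰(X(±Γ₁(M) ∩ Γ₀(N)))` injects under
reduction at every place over `ℓ ∤ N`. -/
theorem gv1t_S18 (hM : 3 ≤ M) (hMN : M ∣ N) (hℓN : ¬ ℓ ∣ N) (m : ℕ) (hm : ¬ ℓ ∣ m)
    (z : Pic0 Qb (gr_F (g1f_GZ M N) Qb)) (hmz : m • z = 0)
    (hz : dsr_reduction A (IsLocalRing.residue A) (gr_F (g1f_GZ M N) Qb)
      (gr_F (g1f_GZ M N) (IsLocalRing.ResidueField A)) z = 0) : z = 0 := by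
  have hM1 : M ≠ 1 := by omega
  have hG := g1dg_A1Q (N := N) hM1 hMN
  exact gr_S18_top (g1f_GZ M N) A hG (g1f_jZ_mem_GZ M N) hA
    (gv1t_reductionInputs A hA M N hM hMN hℓN) m hm N hℓN (gv1t_ramData M N hM hMN)
    (fun hℓ2 => gv1_vertLeg A M N hM hA hℓ2 hℓN hG N dvd_rfl)
    (fun hℓ2 => gv1_vertHes A M N hM hA (by omega) hℓN hG N dvd_rfl) z hmz hz

include hA in
/-- **Unramifiedness of `Pic⁰[p]` at `A`** for the `Γ₁` family, `p ≠ ℓ ∤ N`. -/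
theorem gv1t_unram (hM : 3 ≤ M) (hMN : M ∣ N) (hℓN : ¬ ℓ ∣ N) {p : ℕ} (hp : p.Prime)
    (hpℓ : p ≠ ℓ)
    (g : SemilinearAut Qb (gr_F (g1f_GZ M N) Qb))
    (hg : gr_TrivOnRed A (IsLocalRing.residue A) (gr_F (g1f_GZ M N) Qb)
      (gr_F (g1f_GZ M N) (IsLocalRing.ResidueField A)) g)
    (x : Pic0 Qb (gr_F (g1f_GZ M N) Qb)) (hx : p • x = 0) : g • x = x := by
  have hM1 : M ≠ 1 := by omega
  have hG := g1dg_A1Q (N := N) hM1 hMN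
  exact gr_unram_top (g1f_GZ M N) A hG (g1f_jZ_mem_GZ M N) hA
    (gv1t_reductionInputs A hA M N hM hMN hℓN) hp hpℓ N hℓN (gv1t_ramData M N hM hMN)
    (fun hℓ2 => gv1_vertLeg A M N hM hA hℓ2 hℓN hG N dvd_rfl)
    (fun hℓ2 => gv1_vertHes A M N hM hA (by omega) hℓN hG N dvd_rfl) g hg x hx

end Top

end Fermat.Agent.DS

end
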